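import Mathlib
import Fermat.Prelude.Def_ModularCurve_ArithmeticGalois
import Fermat.Prelude.Def_ModularCurve_GenusNumerics
import Fermat.Prelude.Def_AlgebraicCurve_CanonicalDivisor

/-!
# S24 — shared definitions (sorry-free)

* `CountingData` : the interface between the analytic side (conjugate embeddings + an order
  valuation at a point of `ℍ` or at a cusp) and the generic algebra (`alg_counting`).
* `s24K`, `s24F`, `s24j`, `s24Q` : the concrete objects of S24.
-/

set_option autoImplicit false

namespace Fermat.Agent.S24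

open AlgebraicCurve IntermediateField
open scoped MatrixGroups

/-- Data for the counting theorem at one point of the `x`-line.
`y` is the local parameter (`x - a` or `x⁻¹`); `ρ q` are the conjugate embeddings of `F`
(pairwise distinct, agreeing on `K(x)`); the product of all conjugates of any `f` lies in `K(x)`;
`w` is a `ℤ`-valued valuation on the target field, trivial on `K`, with `w (y) = exp (-o)`;
`w ∘ ρ q` only depends on the `r`-class of `q`; every class has size dividing `o`, and the values
of `w ∘ ρ q` are powers of `exp (o / size of the class of q)`. -/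
structure CountingData (K F : Type*) [Field K] [Field F] [Algebra K F] (x y : F)
    (Q : Type) [Fintype Q] (r : Setoid Q) (o : ℕ) where
  M : Type
  [fieldM : Field M]
  ρ : Q → (F →+* M)
  ρ_injective : Function.Injective ρ
  ρ_x : ∀ q q', ρ q x = ρ q' x
  ρ_K : ∀ q q' (a : K), ρ q (algebraMap K F a) = ρ q' (algebraMap K F a)
  norm_mem : ∀ f : F, ∃ g ∈ K⟮x⟯, ∀ q, ρ q g = ∏ q', ρ q' f
  w : Valuation M (WithZero (Multiplicative ℤ))
  w_K : ∀ q (a : K), a ≠ 0 → w (ρ q (algebraMap K F a)) = 1
  o_pos : 0 < o
  w_y : ∀ q, w (ρ q y) = WithZero.exp (-(o : ℤ))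
  w_inv : ∀ q q', r.r q q' → ∀ f, w (ρ q f) = w (ρ q' f)
  card_dvd : ∀ q, Nat.card {q' // r.r q q'} ∣ o
  w_div : ∀ q (f : F), f ≠ 0 →
    ∃ k : ℤ, w (ρ q f) = WithZero.exp (k * ((o / Nat.card {q' // r.r q q'} : ℕ) : ℤ))

/-- The field of constants of S24. -/
abbrev s24K : Type := AlgebraicClosure ℚ

/-- The function field of S24. -/
abbrev s24F (N : ℕ) : Type := ↥(ModularCurve.modularFunctionFieldBar N)

theorem s24_jq_mem (N : ℕ) [NeZero N] :
    ModularCurve.coeffEmb s24K ModularCurve.jq ∈ ModularCurve.modularFunctionFieldBar N := by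
  apply ModularCurve.coeffEmb_mem_laurentBaseChange
  have h := ModularCurve.jqd_mem_full N (one_dvd N)
  rwa [ModularCurve.qExpand_one_apply] at h

/-- `j`, as an element of the function field. -/
noncomputable def s24j (N : ℕ) [NeZero N] : s24F N :=
  ⟨ModularCurve.coeffEmb s24K ModularCurve.jq, s24_jq_mem N⟩

/-- The coset space `SL(2,ℤ) ⧸ Γ₀(N)` (left cosets `g Γ₀(N)`; the conjugate attached to
`g Γ₀(N)` is `f ∘ g⁻¹`, as in Mathlib's `SlashInvariantForm.quotientFunc`). -/
abbrev s24Q (N : ℕ) : Type := SL(2, ℤ) ⧸ CongruenceSubgroup.Gamma0 N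

noncomputable instance s24Q_fintype (N : ℕ) [NeZero N] : Fintype (s24Q N) :=
  Subgroup.fintypeQuotientOfFiniteIndex

/-- The orbit relation of the cyclic group generated by `c` on the coset space. -/
abbrev s24Orb (N : ℕ) (c : SL(2, ℤ)) : Setoid (s24Q N) :=
  MulAction.orbitRel (Subgroup.zpowers c) (s24Q N)

end Fermat.Agent.S24
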