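import Mathlib
import Fermat.Agent.S23.QRing
import Fermat.Agent.S23.Conj

/-!
# S24, package ANA-ORD: the analytic `j`-function, its values and its orders of vanishing

* `ord_J τ = E₄ τ ^ 3 / Δ τ`, invariant under `SL(2,ℤ)`, holomorphic, surjective onto `ℂ`.
* Rankin–Cohen bracket `4 E₄ D E₆ - 6 D E₄ E₆ = -3456 Δ`, hence `D J = - E₄² E₆ / Δ`.
* orders of vanishing of `J - J τ₀` at `τ₀`: `3` if `J τ₀ = 0`, `2` if `J τ₀ = 1728`, `1` otherwise.
-/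

set_option autoImplicit false

noncomputable section

namespace Fermat.Agent.S24

open UpperHalfPlane hiding I
open Filter Function Topology ModularForm Complex
open scoped Manifold MatrixGroups ModularForm Real CongruenceSubgroup

local notation "Δ" => ModularForm.discriminant

/-- The analytic `j`-function. -/
def ord_J (τ : ℍ) : ℂ := E₄ τ ^ 3 / Δ τ

theorem ord_J_def (τ : ℍ) : ord_J τ = E₄ τ ^ 3 / Δ τ := rfl

theorem ord_disc_ne_zero (τ : ℍ) : Δ τ ≠ 0 := discriminant_ne_zero τ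

theorem ord_J_mul_disc (τ : ℍ) : ord_J τ * Δ τ = E₄ τ ^ 3 := by
  rw [ord_J, div_mul_cancel₀ _ (ord_disc_ne_zero τ)]

theorem ord_E4_cube_sub (τ : ℍ) : E₄ τ ^ 3 - E₆ τ ^ 2 = 1728 * Δ τ := by
  have h := discriminant_eq_E₄_cube_sub_E₆_sq τ
  rw [h]; ring

theorem ord_J_sub_1728 (τ : ℍ) : ord_J τ - 1728 = E₆ τ ^ 2 / Δ τ := by
  have h := ord_E4_cube_sub τ
  have hΔ := ord_disc_ne_zero τ
  rw [ord_J]
  field_simp
  linear_combination h

theorem ord_J_eq_zero_iff (τ : ℍ) : ord_J τ = 0 ↔ E₄ τ = 0 := by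
  rw [ord_J, div_eq_zero_iff]
  constructor
  · rintro (h | h)
    · exact pow_eq_zero_iff (by norm_num) |>.mp h
    · exact absurd h (ord_disc_ne_zero τ)
  · intro h; left; rw [h]; ring

theorem ord_J_eq_1728_iff (τ : ℍ) : ord_J τ = 1728 ↔ E₆ τ = 0 := by
  rw [← sub_eq_zero, ord_J_sub_1728, div_eq_zero_iff]
  constructor
  · rintro (h | h)
    · exact pow_eq_zero_iff (by norm_num) |>.mp h
    · exact absurd h (ord_disc_ne_zero τ)
  · intro h; left; rw [h]; ring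

theorem ord_E4_smul (γ : SL(2, ℤ)) (τ : ℍ) : E₄ (γ • τ) = denom γ τ ^ (4 : ℤ) * E₄ τ := by
  have : SlashInvariantFormClass (ModularForm 𝒮ℒ 4) Γ(1) 4 :=
    CongruenceSubgroup.Gamma_one_coe_eq_SL ▸ inferInstance
  exact SlashInvariantForm.slash_action_eqn_SL'' E₄ (CongruenceSubgroup.mem_Gamma_one γ) τ

theorem ord_E6_smul (γ : SL(2, ℤ)) (τ : ℍ) : E₆ (γ • τ) = denom γ τ ^ (6 : ℤ) * E₆ τ := by
  have : SlashInvariantFormClass (ModularForm 𝒮ℒ 6) Γ(1) 6 :=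
    CongruenceSubgroup.Gamma_one_coe_eq_SL ▸ inferInstance
  exact SlashInvariantForm.slash_action_eqn_SL'' E₆ (CongruenceSubgroup.mem_Gamma_one γ) τ

theorem ord_disc_smul (γ : SL(2, ℤ)) (τ : ℍ) : Δ (γ • τ) = denom γ τ ^ (12 : ℤ) * Δ τ := by
  have : SlashInvariantFormClass (CuspForm 𝒮ℒ 12) Γ(1) 12 :=
    CongruenceSubgroup.Gamma_one_coe_eq_SL ▸ inferInstance
  exact SlashInvariantForm.slash_action_eqn_SL'' CuspForm.discriminant
    (CongruenceSubgroup.mem_Gamma_one γ) τ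

theorem ord_J_smul (γ : SL(2, ℤ)) (τ : ℍ) : ord_J (γ • τ) = ord_J τ := by
  have hd : (denom γ τ) ≠ 0 := denom_ne_zero _ _
  rw [ord_J, ord_J, ord_E4_smul, ord_disc_smul]
  have hΔ := ord_disc_ne_zero τ
  have h12 : denom γ τ ^ (12 : ℤ) ≠ 0 := zpow_ne_zero _ hd
  rw [mul_pow, ← zpow_natCast (denom γ τ ^ (4:ℤ)) 3, ← zpow_mul]
  norm_num
  field_simp


/-! ### Surjectivity of `J` -/

theorem ord_E4_tendsto : Tendsto (fun τ : ℍ => E₄ τ) atImInfty (𝓝 1) := by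
  have hmem : (⇑E₄ : ℍ → ℂ) ∈ Fermat.Agent.S23.qr_ring :=
    Fermat.Agent.S23.qr_mem_of_modularForm one_mem_strictPeriods_SL E₄
  have h := Fermat.Agent.S23.qr_tendsto_coeff_zero hmem
  have h0 : (UpperHalfPlane.qExpansion 1 (⇑E₄ : ℍ → ℂ)).coeff 0 = 1 :=
    EisensteinSeries.E_qExpansion_coeff_zero _ ⟨2, rfl⟩
  rw [h0] at h
  exact h

theorem ord_E6_tendsto : Tendsto (fun τ : ℍ => E₆ τ) atImInfty (𝓝 1) := by
  have hmem : (⇑E₆ : ℍ → ℂ) ∈ Fermat.Agent.S23.qr_ring :=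
    Fermat.Agent.S23.qr_mem_of_modularForm one_mem_strictPeriods_SL E₆
  have h := Fermat.Agent.S23.qr_tendsto_coeff_zero hmem
  have h0 : (UpperHalfPlane.qExpansion 1 (⇑E₆ : ℍ → ℂ)).coeff 0 = 1 :=
    EisensteinSeries.E_qExpansion_coeff_zero _ ⟨3, rfl⟩
  rw [h0] at h
  exact h

theorem ord_disc_tendsto : Tendsto (fun τ : ℍ => Δ τ) atImInfty (𝓝 0) :=
  discriminant_isZeroAtImInfty

theorem ord_mdiff_E4 : MDiff (fun τ : ℍ => E₄ τ) := ModularFormClass.holo E₄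

theorem ord_mdiff_E6 : MDiff (fun τ : ℍ => E₆ τ) := ModularFormClass.holo E₆

theorem ord_mdiff_disc : MDiff (fun τ : ℍ => Δ τ) := CuspFormClass.holo CuspForm.discriminant

theorem ord_J_surjective : Function.Surjective ord_J := by
  intro c
  by_contra hne
  push Not at hne
  have hG : ∀ τ : ℍ, E₄ τ ^ 3 - c * Δ τ ≠ 0 := by
    intro τ h
    apply hne τ
    rw [ord_J, div_eq_iff (ord_disc_ne_zero τ)]
    linear_combination h
  set F : ℍ → ℂ := fun τ => Δ τ / (E₄ τ ^ 3 - c * Δ τ) with hF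
  have hFdiff : MDiff F := by
    have h1 : MDiff (fun τ : ℍ => E₄ τ ^ 3 - c * Δ τ) :=
      (ord_mdiff_E4.pow 3).sub (mdifferentiable_const.mul ord_mdiff_disc)
    exact ord_mdiff_disc.div h1 hG
  have hFinv : ∀ γ : SL(2, ℤ), F ∣[(0 : ℤ)] γ = F := by
    intro γ
    funext τ
    rw [ModularForm.SL_slash_apply]
    simp only [hF, neg_zero, zpow_zero, mul_one]
    have hd : (denom γ τ) ≠ 0 := denom_ne_zero _ _
    have h12 : denom (γ : GL (Fin 2) ℝ) τ ^ (12 : ℤ) ≠ 0 := zpow_ne_zero _ hd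
    have e1 := ord_E4_smul γ τ
    have e2 := ord_disc_smul γ τ
    rw [e1, e2]
    have hΔ := ord_disc_ne_zero τ
    have hG' := hG τ
    rw [mul_pow, ← zpow_natCast (denom (γ : GL (Fin 2) ℝ) τ ^ (4:ℤ)) 3, ← zpow_mul]
    norm_num
    rw [← mul_assoc c, mul_comm c, mul_assoc _ c, ← mul_sub]
    exact mul_div_mul_left _ _ h12
  have hFzero : IsZeroAtImInfty F := by
    have h1 : Tendsto (fun τ : ℍ => E₄ τ ^ 3 - c * Δ τ) atImInfty (𝓝 (1 ^ 3 - c * 0)) :=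
      (ord_E4_tendsto.pow 3).sub (ord_disc_tendsto.const_mul c)
    have h2 : Tendsto F atImInfty (𝓝 (0 / (1 ^ 3 - c * 0))) :=
      ord_disc_tendsto.div h1 (by norm_num)
    have h3 : Tendsto F atImInfty (𝓝 0) := by simpa using h2
    exact h3
  obtain ⟨G, hGF⟩ := Fermat.Agent.S23.cj_mkModularForm hFdiff hFinv hFzero.isBoundedAtImInfty
  obtain ⟨c', hc'⟩ := ModularFormClass.levelOne_weight_zero_const G
  rw [hGF] at hc'
  have hc0 : c' = 0 := by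
    have h1 : Tendsto F atImInfty (𝓝 c') := by rw [hc']; exact tendsto_const_nhds
    exact tendsto_nhds_unique h1 hFzero
  have h := congrFun hc' UpperHalfPlane.I
  simp only [hF, hc0, Function.const_apply, div_eq_zero_iff] at h
  rcases h with h | h
  · exact ord_disc_ne_zero _ h
  · exact hG _ h


/-! ### The normalized derivative in terms of the cusp function -/

open Derivative

local notation "𝕢" => Function.Periodic.qParam

theorem ord_hasDerivAt_qParam (z : ℂ) :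
    HasDerivAt (𝕢 1) (2 * π * I * 𝕢 1 z) z := by
  have h1 : HasDerivAt (fun w : ℂ => 2 * π * I * w / (1 : ℝ)) (2 * π * I) z := by
    have := (hasDerivAt_id z).const_mul (2 * π * I)
    simpa using this
  have h2 := (Complex.hasDerivAt_exp (2 * π * I * z / (1 : ℝ))).comp z h1
  have h3 : (𝕢 1) = (fun w : ℂ => Complex.exp (2 * π * I * w / (1 : ℝ))) := by
    funext w; simp [Function.Periodic.qParam]
  rw [h3]
  have h4 : Complex.exp (2 * π * I * z / (1 : ℝ)) * (2 * π * I)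
      = 2 * π * I * Complex.exp (2 * π * I * z / (1 : ℝ)) := mul_comm _ _
  rw [← h4]
  exact h2

/-- For a holomorphic `1`-periodic function bounded at `i∞`, `D F = q · (d/dq) (cusp function)`. -/
theorem ord_D_eq {F : ℍ → ℂ} (hF : F ∈ Fermat.Agent.S23.qr_ring) (τ : ℍ) :
    D F τ = 𝕢 1 τ * deriv (cuspFunction 1 F) (𝕢 1 τ) := by
  have hper := Fermat.Agent.S23.qr_periodic_of_vadd hF.2.1
  have hq : ‖𝕢 1 (τ : ℂ)‖ < 1 := Function.Periodic.norm_qParam_lt_one one_pos τ.im_pos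
  have hdiff : DifferentiableAt ℂ (cuspFunction 1 F) (𝕢 1 τ) :=
    differentiableAt_cuspFunction one_pos hper hF.1 hF.2.2 hq
  have hcomp : (F ∘ ofComplex) =ᶠ[𝓝 (τ : ℂ)] fun z => cuspFunction 1 F (𝕢 1 z) := by
    filter_upwards [isOpen_upperHalfPlaneSet.mem_nhds τ.im_pos] with z hz
    have := eq_cuspFunction (f := F) ⟨z, hz⟩ one_ne_zero hper
    simp only [Function.comp_apply, ofComplex_apply_of_im_pos hz]
    exact this.symm
  have hd : HasDerivAt (fun z => cuspFunction 1 F (𝕢 1 z))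
      (deriv (cuspFunction 1 F) (𝕢 1 τ) * (2 * π * I * 𝕢 1 τ)) (τ : ℂ) :=
    hdiff.hasDerivAt.comp (τ : ℂ) (ord_hasDerivAt_qParam τ)
  have hderiv : deriv (F ∘ ofComplex) τ
      = deriv (cuspFunction 1 F) (𝕢 1 τ) * (2 * π * I * 𝕢 1 τ) :=
    (hd.congr_of_eventuallyEq hcomp).deriv
  rw [normalizedDerivOfComplex, hderiv]
  have h2pi : (2 * π * I : ℂ) ≠ 0 := by
    simp [Real.pi_ne_zero]
  field_simp

theorem ord_deriv_cuspFunction_zero (F : ℍ → ℂ) :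
    deriv (cuspFunction 1 F) 0 = (qExpansion 1 F).coeff 1 := by
  rw [qExpansion_coeff]
  simp

/-- `D F / q → a₁(F)` at `i∞`. -/
theorem ord_D_div_q_tendsto {F : ℍ → ℂ} (hF : F ∈ Fermat.Agent.S23.qr_ring) :
    Tendsto (fun τ : ℍ => D F τ / 𝕢 1 τ) atImInfty (𝓝 ((qExpansion 1 F).coeff 1)) := by
  have hper := Fermat.Agent.S23.qr_periodic_of_vadd hF.2.1
  have han : AnalyticAt ℂ (cuspFunction 1 F) 0 :=
    analyticAt_cuspFunction_zero one_pos hper hF.1 hF.2.2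
  have hcont : ContinuousAt (deriv (cuspFunction 1 F)) 0 := han.deriv.continuousAt
  have h1 : Tendsto (fun τ : ℍ => deriv (cuspFunction 1 F) (𝕢 1 τ)) atImInfty
      (𝓝 (deriv (cuspFunction 1 F) 0)) :=
    hcont.tendsto.comp (qParam_tendsto_atImInfty one_pos)
  rw [ord_deriv_cuspFunction_zero F] at h1
  refine h1.congr (fun τ => ?_)
  rw [ord_D_eq hF τ, mul_div_cancel_left₀ _ (Function.Periodic.qParam_ne_zero _)]

theorem ord_D_tendsto_zero {F : ℍ → ℂ} (hF : F ∈ Fermat.Agent.S23.qr_ring) :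
    Tendsto (fun τ : ℍ => D F τ) atImInfty (𝓝 0) := by
  have h1 := ord_D_div_q_tendsto hF
  have h2 := h1.mul (qParam_tendsto_atImInfty (h := 1) one_pos)
  simp only [mul_zero] at h2
  refine h2.congr (fun τ => ?_)
  rw [div_mul_cancel₀ _ (Function.Periodic.qParam_ne_zero _)]


/-! ### The Rankin–Cohen bracket `[E₄, E₆]` -/

theorem ord_E4_mem : (⇑E₄ : ℍ → ℂ) ∈ Fermat.Agent.S23.qr_ring :=
  Fermat.Agent.S23.qr_mem_of_modularForm one_mem_strictPeriods_SL E₄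

theorem ord_E6_mem : (⇑E₆ : ℍ → ℂ) ∈ Fermat.Agent.S23.qr_ring :=
  Fermat.Agent.S23.qr_mem_of_modularForm one_mem_strictPeriods_SL E₆

/-- The transformation law of `D F` for `F` of weight `k`. -/
theorem ord_D_smul {k : ℤ} {F : ℍ → ℂ} (hF : MDiff F) (γ : SL(2, ℤ)) (hinv : F ∣[k] γ = F)
    (z : ℍ) :
    D F (γ • z) = denom γ z ^ (k + 2) *
      (D F z + (k : ℂ) * (2 * π * I)⁻¹ * ((γ 1 0 : ℂ) / denom γ z) * F z) := by
  have h := congrFun (normalizedDerivOfComplex_SL_slash (k := k) hF (γ := γ)) z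
  rw [hinv] at h
  simp only [Pi.sub_apply] at h
  rw [ModularForm.SL_slash_apply] at h
  have hd : denom γ z ≠ 0 := denom_ne_zero _ _
  have hd' : denom γ z ^ (k + 2) ≠ 0 := zpow_ne_zero _ hd
  have h2 : D F (γ • z) * denom γ z ^ (-(k + 2))
      = D F z + (k : ℂ) * (2 * π * I)⁻¹ * ((γ 1 0 : ℂ) / denom γ z) * F z := by
    linear_combination -h
  rw [← h2, mul_comm (denom γ z ^ (k + 2)), mul_assoc, ← zpow_add₀ hd]
  simp

theorem ord_slash_E4 (γ : SL(2, ℤ)) : (⇑E₄ : ℍ → ℂ) ∣[(4 : ℤ)] γ = ⇑E₄ :=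
  Fermat.Agent.S23.cj_slash_eq_of_modularForm E₄ γ

theorem ord_slash_E6 (γ : SL(2, ℤ)) : (⇑E₆ : ℍ → ℂ) ∣[(6 : ℤ)] γ = ⇑E₆ :=
  Fermat.Agent.S23.cj_slash_eq_of_modularForm E₆ γ

/-- The Rankin–Cohen bracket of `E₄` and `E₆`. -/
def ord_RC (τ : ℍ) : ℂ := 4 * E₄ τ * D (⇑E₆) τ - 6 * D (⇑E₄) τ * E₆ τ

theorem ord_RC_smul (γ : SL(2, ℤ)) (z : ℍ) :
    ord_RC (γ • z) = denom γ z ^ (12 : ℤ) * ord_RC z := by
  have hd : denom γ z ≠ 0 := denom_ne_zero _ _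
  have h4 := ord_D_smul (k := 4) ord_mdiff_E4 γ (ord_slash_E4 γ) z
  have h6 := ord_D_smul (k := 6) ord_mdiff_E6 γ (ord_slash_E6 γ) z
  rw [ord_RC, ord_RC, h4, h6, ord_E4_smul, ord_E6_smul]
  have e1 : denom γ z ^ (12 : ℤ) = denom γ z ^ (4 : ℤ) * denom γ z ^ ((6 : ℤ) + 2) := by
    rw [← zpow_add₀ hd]; norm_num
  have e2 : denom γ z ^ (12 : ℤ) = denom γ z ^ ((4 : ℤ) + 2) * denom γ z ^ (6 : ℤ) := by
    rw [← zpow_add₀ hd]; norm_num
  have e3 : 4 * (denom γ z ^ (4 : ℤ) * E₄ z) * (denom γ z ^ ((6 : ℤ) + 2) *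
      (D (⇑E₆) z + ((6 : ℤ) : ℂ) * (2 * π * I)⁻¹ * ((γ 1 0 : ℂ) / denom γ z) * E₆ z))
      = denom γ z ^ (12 : ℤ) * (4 * E₄ z *
        (D (⇑E₆) z + ((6 : ℤ) : ℂ) * (2 * π * I)⁻¹ * ((γ 1 0 : ℂ) / denom γ z) * E₆ z)) := by
    rw [e1]; ring
  have e4 : 6 * (denom γ z ^ ((4 : ℤ) + 2) *
      (D (⇑E₄) z + ((4 : ℤ) : ℂ) * (2 * π * I)⁻¹ * ((γ 1 0 : ℂ) / denom γ z) * E₄ z))
        * (denom γ z ^ (6 : ℤ) * E₆ z)
      = denom γ z ^ (12 : ℤ) * (6 *
        (D (⇑E₄) z + ((4 : ℤ) : ℂ) * (2 * π * I)⁻¹ * ((γ 1 0 : ℂ) / denom γ z) * E₄ z)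
          * E₆ z) := by
    rw [e2]; ring
  rw [e3, e4]
  push_cast
  ring

theorem ord_mdiff_RC : MDiff ord_RC := by
  have h4 : MDiff (D (⇑E₄ : ℍ → ℂ)) := normalizedDerivOfComplex_mdifferentiable ord_mdiff_E4
  have h6 : MDiff (D (⇑E₆ : ℍ → ℂ)) := normalizedDerivOfComplex_mdifferentiable ord_mdiff_E6
  exact ((mdifferentiable_const.mul ord_mdiff_E4).mul h6).sub
    ((mdifferentiable_const.mul h4).mul ord_mdiff_E6)

theorem ord_disc_div_q_tendsto :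
    Tendsto (fun τ : ℍ => Δ τ / 𝕢 1 τ) atImInfty (𝓝 1) := by
  refine tendsto_atImInfty_tprod_one_sub_eta_q_pow.congr (fun τ => ?_)
  rw [discriminant_eq_q_prod, mul_div_cancel_left₀ _ (Function.Periodic.qParam_ne_zero _)]

theorem ord_RC_div_q_tendsto :
    Tendsto (fun τ : ℍ => ord_RC τ / 𝕢 1 τ) atImInfty (𝓝 (-3456)) := by
  have h4 := ord_D_div_q_tendsto ord_E4_mem
  have h6 := ord_D_div_q_tendsto ord_E6_mem
  rw [E₄_qExpansion_coeff_one] at h4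
  rw [E₆_qExpansion_coeff_one] at h6
  have h := ((ord_E4_tendsto.const_mul 4).mul h6).sub ((h4.const_mul 6).mul ord_E6_tendsto)
  have e : (4 * 1 * (-504) - 6 * 240 * 1 : ℂ) = -3456 := by norm_num
  rw [e] at h
  refine h.congr (fun τ => ?_)
  rw [ord_RC]
  have hq : 𝕢 1 (τ : ℂ) ≠ 0 := Function.Periodic.qParam_ne_zero _
  field_simp

/-- The Rankin–Cohen bracket is `-3456 Δ`. -/
theorem ord_rankinCohen (τ : ℍ) :
    4 * E₄ τ * D (⇑E₆) τ - 6 * D (⇑E₄) τ * E₆ τ = -3456 * Δ τ := by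
  set F : ℍ → ℂ := fun τ => ord_RC τ / Δ τ with hF
  have hFdiff : MDiff F := ord_mdiff_RC.div ord_mdiff_disc ord_disc_ne_zero
  have hFinv : ∀ γ : SL(2, ℤ), F ∣[(0 : ℤ)] γ = F := by
    intro γ
    funext z
    rw [ModularForm.SL_slash_apply]
    simp only [hF, neg_zero, zpow_zero, mul_one]
    have hd : (denom γ z) ≠ 0 := denom_ne_zero _ _
    have h12 : denom (γ : GL (Fin 2) ℝ) z ^ (12 : ℤ) ≠ 0 := zpow_ne_zero _ hd
    rw [ord_RC_smul, ord_disc_smul]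
    exact mul_div_mul_left _ _ h12
  have hFlim : Tendsto F atImInfty (𝓝 (-3456)) := by
    have h := ord_RC_div_q_tendsto.div ord_disc_div_q_tendsto one_ne_zero
    rw [div_one] at h
    refine h.congr (fun τ => ?_)
    have hq : 𝕢 1 (τ : ℂ) ≠ 0 := Function.Periodic.qParam_ne_zero _
    have hΔ := ord_disc_ne_zero τ
    simp only [hF, Pi.div_apply]
    field_simp
  have hFbdd : IsBoundedAtImInfty F := by
    have h0 : IsZeroAtImInfty (fun τ => F τ - (-3456)) := by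
      have := hFlim.sub_const (-3456)
      simpa [IsZeroAtImInfty, ZeroAtFilter] using this
    have h1 := h0.isBoundedAtImInfty
    have h2 : IsBoundedAtImInfty (fun _ : ℍ => (-3456 : ℂ)) :=
      Filter.const_boundedAtFilter _ _
    have h3 := h1.add h2
    have e : ((fun τ => F τ - (-3456)) + fun _ : ℍ => (-3456 : ℂ)) = F := by
      funext τ; simp
    rw [e] at h3
    exact h3
  obtain ⟨G, hGF⟩ := Fermat.Agent.S23.cj_mkModularForm hFdiff hFinv hFbdd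
  obtain ⟨c', hc'⟩ := ModularFormClass.levelOne_weight_zero_const G
  rw [hGF] at hc'
  have hc0 : c' = -3456 := by
    have h1 : Tendsto F atImInfty (𝓝 c') := by rw [hc']; exact tendsto_const_nhds
    exact tendsto_nhds_unique h1 hFlim
  have h := congrFun hc' τ
  simp only [hF, hc0, Function.const_apply] at h
  rw [div_eq_iff (ord_disc_ne_zero τ)] at h
  exact h


/-! ### Orders of vanishing -/

theorem ord_analyticAt {F : ℍ → ℂ} (hF : MDiff F) (τ : ℍ) :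
    AnalyticAt ℂ (F ∘ ofComplex) (τ : ℂ) := by
  have h := UpperHalfPlane.mdifferentiable_iff.mp hF
  exact h.analyticAt (isOpen_upperHalfPlaneSet.mem_nhds τ.im_pos)

theorem ord_deriv_eq {F : ℍ → ℂ} (τ : ℍ) :
    deriv (F ∘ ofComplex) (τ : ℂ) = 2 * π * I * D F τ := by
  rw [normalizedDerivOfComplex]
  have h2pi : (2 * π * I : ℂ) ≠ 0 := by simp [Real.pi_ne_zero]
  field_simp

theorem ord_comp_ofComplex_coe (F : ℍ → ℂ) (τ : ℍ) : (F ∘ ofComplex) (τ : ℂ) = F τ := by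
  simp

/-- `E₄` has only simple zeros. -/
theorem ord_D_E4_ne_zero (τ : ℍ) (h : E₄ τ = 0) : D (⇑E₄) τ ≠ 0 := by
  intro h0
  have hRC := ord_rankinCohen τ
  rw [h, h0] at hRC
  have hΔ := ord_disc_ne_zero τ
  apply hΔ
  have : (-3456 : ℂ) * Δ τ = 0 := by rw [← hRC]; ring
  simpa using this

/-- `E₆` has only simple zeros. -/
theorem ord_D_E6_ne_zero (τ : ℍ) (h : E₆ τ = 0) : D (⇑E₆) τ ≠ 0 := by
  intro h0
  have hRC := ord_rankinCohen τ
  rw [h, h0] at hRC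
  have hΔ := ord_disc_ne_zero τ
  apply hΔ
  have : (-3456 : ℂ) * Δ τ = 0 := by rw [← hRC]; ring
  simpa using this

theorem ord_analyticOrderAt_E4 (τ : ℍ) (h : E₄ τ = 0) :
    analyticOrderAt ((⇑E₄ : ℍ → ℂ) ∘ ofComplex) (τ : ℂ) = 1 := by
  apply (ord_analyticAt ord_mdiff_E4 τ).analyticOrderAt_eq_one_of_zero_deriv_ne_zero
  · rw [ord_comp_ofComplex_coe]; exact h
  · rw [ord_deriv_eq]
    have h2pi : (2 * π * I : ℂ) ≠ 0 := by simp [Real.pi_ne_zero]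
    exact mul_ne_zero h2pi (ord_D_E4_ne_zero τ h)

theorem ord_analyticOrderAt_E6 (τ : ℍ) (h : E₆ τ = 0) :
    analyticOrderAt ((⇑E₆ : ℍ → ℂ) ∘ ofComplex) (τ : ℂ) = 1 := by
  apply (ord_analyticAt ord_mdiff_E6 τ).analyticOrderAt_eq_one_of_zero_deriv_ne_zero
  · rw [ord_comp_ofComplex_coe]; exact h
  · rw [ord_deriv_eq]
    have h2pi : (2 * π * I : ℂ) ≠ 0 := by simp [Real.pi_ne_zero]
    exact mul_ne_zero h2pi (ord_D_E6_ne_zero τ h)

theorem ord_analyticAt_disc_inv (τ : ℍ) :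
    AnalyticAt ℂ (fun z : ℂ => (Δ (ofComplex z))⁻¹) (τ : ℂ) := by
  have h := ord_analyticAt ord_mdiff_disc τ
  have h0 : ((fun τ : ℍ => Δ τ) ∘ ofComplex) (τ : ℂ) ≠ 0 := by
    rw [ord_comp_ofComplex_coe]; exact ord_disc_ne_zero τ
  exact h.inv h0

theorem ord_analyticOrderAt_disc_inv (τ : ℍ) :
    analyticOrderAt (fun z : ℂ => (Δ (ofComplex z))⁻¹) (τ : ℂ) = 0 := by
  rw [(ord_analyticAt_disc_inv τ).analyticOrderAt_eq_zero]
  simp only [ofComplex_apply]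
  exact inv_ne_zero (ord_disc_ne_zero τ)

/-- The order of `J` at a zero is `3`. -/
theorem ord_analyticOrderAt_zero (τ : ℍ) (h : ord_J τ = 0) :
    analyticOrderAt (fun z : ℂ => ord_J (ofComplex z)) (τ : ℂ) = 3 := by
  have hE4 := (ord_J_eq_zero_iff τ).mp h
  have e : (fun z : ℂ => ord_J (ofComplex z))
      = (((⇑E₄ : ℍ → ℂ) ∘ ofComplex) ^ 3) * (fun z : ℂ => (Δ (ofComplex z))⁻¹) := by
    funext z
    simp [ord_J, div_eq_mul_inv]
  rw [e, analyticOrderAt_mul ((ord_analyticAt ord_mdiff_E4 τ).pow 3) (ord_analyticAt_disc_inv τ),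
    analyticOrderAt_pow (ord_analyticAt ord_mdiff_E4 τ), ord_analyticOrderAt_E4 τ hE4,
    ord_analyticOrderAt_disc_inv]
  norm_num

/-- The order of `J - 1728` at a zero is `2`. -/
theorem ord_analyticOrderAt_1728 (τ : ℍ) (h : ord_J τ = 1728) :
    analyticOrderAt (fun z : ℂ => ord_J (ofComplex z) - 1728) (τ : ℂ) = 2 := by
  have hE6 := (ord_J_eq_1728_iff τ).mp h
  have e : (fun z : ℂ => ord_J (ofComplex z) - 1728)
      = (((⇑E₆ : ℍ → ℂ) ∘ ofComplex) ^ 2) * (fun z : ℂ => (Δ (ofComplex z))⁻¹) := by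
    funext z
    simp [ord_J_sub_1728, div_eq_mul_inv]
  rw [e, analyticOrderAt_mul ((ord_analyticAt ord_mdiff_E6 τ).pow 2) (ord_analyticAt_disc_inv τ),
    analyticOrderAt_pow (ord_analyticAt ord_mdiff_E6 τ), ord_analyticOrderAt_E6 τ hE6,
    ord_analyticOrderAt_disc_inv]
  norm_num

theorem ord_mdiff_J : MDiff ord_J := by
  have : ord_J = (fun τ : ℍ => E₄ τ ^ 3) / (fun τ : ℍ => Δ τ) := by
    funext τ; rfl
  rw [this]
  exact (ord_mdiff_E4.pow 3).div ord_mdiff_disc ord_disc_ne_zero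

theorem ord_D_pow {F : ℍ → ℂ} (hF : MDiff F) (n : ℕ) (τ : ℍ) :
    D (F ^ n) τ = n * F τ ^ (n - 1) * D F τ := by
  have := congrFun (normalizedDerivOfComplex_pow F n hF) τ
  simpa using this

/-- `D Δ` in terms of `E₄`, `E₆`. -/
theorem ord_D_disc (τ : ℍ) :
    1728 * D (fun τ : ℍ => Δ τ) τ = 3 * E₄ τ ^ 2 * D (⇑E₄) τ - 2 * E₆ τ * D (⇑E₆) τ := by
  have e : (fun τ : ℍ => Δ τ)
      = ((1 / 1728 : ℂ)) • ((⇑E₄ : ℍ → ℂ) ^ 3 - (⇑E₆ : ℍ → ℂ) ^ 2) := by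
    funext z
    simp only [Pi.smul_apply, Pi.sub_apply, Pi.pow_apply, smul_eq_mul]
    rw [discriminant_eq_E₄_cube_sub_E₆_sq z]; ring
  rw [e, normalizedDerivOfComplex_smul _ _ ((ord_mdiff_E4.pow 3).sub (ord_mdiff_E6.pow 2)),
    normalizedDerivOfComplex_sub _ _ (ord_mdiff_E4.pow 3) (ord_mdiff_E6.pow 2)]
  simp only [Pi.smul_apply, Pi.sub_apply, smul_eq_mul]
  rw [ord_D_pow ord_mdiff_E4 3 τ, ord_D_pow ord_mdiff_E6 2 τ]
  push_cast
  ring

/-- `D J = - E₄² E₆ / Δ`. -/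
theorem ord_D_J (τ : ℍ) : D ord_J τ = - (E₄ τ ^ 2 * E₆ τ) / Δ τ := by
  have hΔ := ord_disc_ne_zero τ
  have e : ord_J * (fun τ : ℍ => Δ τ) = (⇑E₄ : ℍ → ℂ) ^ 3 := by
    funext z
    simp only [Pi.mul_apply, Pi.pow_apply]
    exact ord_J_mul_disc z
  have h1 := congrFun (normalizedDerivOfComplex_mul ord_J (fun τ : ℍ => Δ τ) ord_mdiff_J
    ord_mdiff_disc) τ
  rw [e, ord_D_pow ord_mdiff_E4 3 τ] at h1
  simp only [Pi.add_apply, Pi.mul_apply] at h1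
  have e1 : (3 - 1 : ℕ) = 2 := rfl
  rw [e1] at h1
  push_cast at h1
  have h2 := ord_D_disc τ
  have h3 := ord_rankinCohen τ
  have h4 := ord_E4_cube_sub τ
  have h5 := ord_J_mul_disc τ
  rw [eq_div_iff hΔ]
  -- h1 : 3 E₄² DE₄ = DJ Δ + J DΔ
  have key : 1728 * (D ord_J τ * Δ τ) * Δ τ = 1728 * (-(E₄ τ ^ 2 * E₆ τ)) * Δ τ := by
    have : 1728 * (D ord_J τ * Δ τ) * Δ τ
        = 1728 * Δ τ * (3 * E₄ τ ^ 2 * D (⇑E₄) τ) - (ord_J τ * Δ τ) * (1728 *
          D (fun τ : ℍ => Δ τ) τ) := by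
      rw [h1]; ring
    rw [this, h2, h5]
    linear_combination (E₄ τ ^ 2 * E₆ τ / 2) * h3 + (-3 * E₄ τ ^ 2 * D (⇑E₄) τ) * h4
  have h1728 : (1728 : ℂ) ≠ 0 := by norm_num
  have := mul_right_cancel₀ hΔ key
  exact mul_left_cancel₀ h1728 this

/-- The order of `J - J τ₀` at `τ₀` is `1` if `J τ₀ ≠ 0, 1728`. -/
theorem ord_analyticOrderAt_generic (τ : ℍ) (h0 : ord_J τ ≠ 0) (h1 : ord_J τ ≠ 1728) :
    analyticOrderAt (fun z : ℂ => ord_J (ofComplex z) - ord_J τ) (τ : ℂ) = 1 := by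
  have hE4 : E₄ τ ≠ 0 := fun h => h0 ((ord_J_eq_zero_iff τ).mpr h)
  have hE6 : E₆ τ ≠ 0 := fun h => h1 ((ord_J_eq_1728_iff τ).mpr h)
  have han := ord_analyticAt ord_mdiff_J τ
  have hd : deriv (ord_J ∘ ofComplex) (τ : ℂ) ≠ 0 := by
    rw [ord_deriv_eq, ord_D_J]
    have h2pi : (2 * π * I : ℂ) ≠ 0 := by simp [Real.pi_ne_zero]
    refine mul_ne_zero h2pi (div_ne_zero ?_ (ord_disc_ne_zero τ))
    exact neg_ne_zero.mpr (mul_ne_zero (pow_ne_zero 2 hE4) hE6)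
  have := han.analyticOrderAt_sub_eq_one_of_deriv_ne_zero hd
  simpa using this


/-! ### The elliptic points `i` and `ρ` -/

/-- `ρ = e^{2πi/3} = -1/2 + (√3/2) i`. -/
def ord_rho : ℍ := ⟨⟨-1 / 2, Real.sqrt 3 / 2⟩, by
  show (0 : ℝ) < Real.sqrt 3 / 2
  have : (0 : ℝ) < Real.sqrt 3 := Real.sqrt_pos.mpr (by norm_num)
  linarith⟩

theorem ord_rho_coe : ((ord_rho : ℍ) : ℂ) = ⟨-1 / 2, Real.sqrt 3 / 2⟩ := rfl

theorem ord_rho_sq : ((ord_rho : ℍ) : ℂ) ^ 2 + (ord_rho : ℂ) + 1 = 0 := by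
  rw [ord_rho_coe]
  have h3 : Real.sqrt 3 * Real.sqrt 3 = 3 := Real.mul_self_sqrt (by norm_num)
  apply Complex.ext
  · simp [pow_two]
    nlinarith [h3]
  · simp [pow_two]
    ring

theorem ord_ST_entries :
    (ModularGroup.S * ModularGroup.T : SL(2, ℤ)) 0 0 = 0 ∧
    (ModularGroup.S * ModularGroup.T : SL(2, ℤ)) 0 1 = -1 ∧
    (ModularGroup.S * ModularGroup.T : SL(2, ℤ)) 1 0 = 1 ∧
    (ModularGroup.S * ModularGroup.T : SL(2, ℤ)) 1 1 = 1 := by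
  refine ⟨?_, ?_, ?_, ?_⟩ <;>
  · rw [Matrix.SpecialLinearGroup.coe_mul]
    simp [ModularGroup.S, ModularGroup.T, Matrix.mul_apply, Fin.sum_univ_two]

theorem ord_denom_ST_rho :
    denom (ModularGroup.S * ModularGroup.T : SL(2, ℤ)) (ord_rho : ℂ) = (ord_rho : ℂ) + 1 := by
  obtain ⟨-, -, h10, h11⟩ := ord_ST_entries
  rw [ModularGroup.denom_apply, h10, h11]
  simp

theorem ord_ST_smul_rho : (ModularGroup.S * ModularGroup.T : SL(2, ℤ)) • ord_rho = ord_rho := by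
  apply UpperHalfPlane.ext
  rw [coe_specialLinearGroup_apply]
  obtain ⟨h00, h01, h10, h11⟩ := ord_ST_entries
  rw [h00, h01, h10, h11]
  have h := ord_rho_sq
  have hne : ((ord_rho : ℍ) : ℂ) + 1 ≠ 0 := by
    intro h0
    have : ((ord_rho : ℍ) : ℂ) = -1 := by linear_combination h0
    rw [this] at h
    norm_num at h
  simp only [algebraMap_int_eq, eq_intCast, Int.cast_zero, Int.cast_neg, Int.cast_one,
    Complex.ofReal_zero, Complex.ofReal_neg, Complex.ofReal_one, zero_mul, zero_add, one_mul]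
  rw [div_eq_iff hne]
  linear_combination -h

theorem ord_E4_rho : E₄ ord_rho = 0 := by
  have h := ord_E4_smul (ModularGroup.S * ModularGroup.T) ord_rho
  rw [ord_ST_smul_rho, ord_denom_ST_rho] at h
  have hr := ord_rho_sq
  -- (ρ + 1)^4 = ρ ≠ 1 ... (ρ+1)^2 = ρ^2 + 2ρ + 1 = ρ, (ρ+1)^4 = ρ^2 = -ρ - 1
  have h4 : (((ord_rho : ℍ) : ℂ) + 1) ^ (4 : ℤ) = -(ord_rho : ℂ) - 1 := by
    have : (((ord_rho : ℍ) : ℂ) + 1) ^ (4 : ℤ) = (((ord_rho : ℍ) : ℂ) + 1) ^ (4 : ℕ) := by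
      norm_cast
    rw [this]
    linear_combination ((ord_rho : ℂ) ^ 2 + 3 * (ord_rho : ℂ) + 2) * hr
  rw [h4] at h
  have hne : (-(ord_rho : ℂ) - 1 - 1) ≠ 0 := by
    intro h0
    have : ((ord_rho : ℍ) : ℂ) = -2 := by linear_combination -h0
    rw [this] at hr
    norm_num at hr
  have : (-(ord_rho : ℂ) - 1 - 1) * E₄ ord_rho = 0 := by linear_combination -h
  rcases mul_eq_zero.mp this with h' | h'
  · exact absurd h' hne
  · exact h'

theorem ord_J_rho : ord_J ord_rho = 0 := (ord_J_eq_zero_iff _).mpr ord_E4_rho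

theorem ord_S_smul_I : (ModularGroup.S : SL(2, ℤ)) • UpperHalfPlane.I = UpperHalfPlane.I := by
  apply UpperHalfPlane.ext
  rw [modular_S_smul]
  simp

theorem ord_E6_I : E₆ UpperHalfPlane.I = 0 := by
  have h := ord_E6_smul ModularGroup.S UpperHalfPlane.I
  rw [ord_S_smul_I] at h
  have hd : denom (ModularGroup.S : SL(2, ℤ)) (UpperHalfPlane.I : ℂ) = Complex.I := by
    rw [ModularGroup.denom_S]; rfl
  rw [hd] at h
  have h6 : (Complex.I) ^ (6 : ℤ) = -1 := by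
    have : (Complex.I) ^ (6 : ℤ) = (Complex.I) ^ (6 : ℕ) := by norm_cast
    rw [this]
    have h2 : Complex.I ^ 2 = -1 := Complex.I_sq
    calc Complex.I ^ 6 = (Complex.I ^ 2) ^ 3 := by ring
      _ = -1 := by rw [h2]; norm_num
  rw [h6] at h
  have : (2 : ℂ) * E₆ UpperHalfPlane.I = 0 := by linear_combination h
  simpa using this

theorem ord_J_I : ord_J UpperHalfPlane.I = 1728 := (ord_J_eq_1728_iff _).mpr ord_E6_I

end Fermat.Agent.S24
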