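import Mathlib
import Fermat.Agent.S24.Defs
import Fermat.Agent.S24.Ord

/-!
# S24, package ANA-EV (part 1): the ring of modular functions of level `N`

* `ana_iota : s24K →+* ℂ` : the fixed embedding of `ℚ̄` into `ℂ`.
* `ana_ring N` : the subring of `ℍ → ℂ` of holomorphic functions all of whose
  `SL(2,ℤ)`-translates are `N`-periodic and meromorphic at `i∞`; it is a domain.
* `ana_M N := FractionRing (ana_ring N)`.
* `ana_comp N g` : the ring endomorphism `f ↦ f ∘ (g • ·)` of `ana_ring N`;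
  `ana_act N g` : the ring endomorphism of `ana_M N` extending `ana_comp N g⁻¹`.
-/

set_option autoImplicit false

noncomputable section

namespace Fermat.Agent.S24

open UpperHalfPlane hiding I
open Filter Function Topology ModularForm Complex
open scoped Manifold MatrixGroups ModularForm Real

/-- The fixed embedding of `ℚ̄` into `ℂ`. -/
def ana_iota : s24K →+* ℂ :=
  haveI : Algebra.IsAlgebraic ℚ (AlgebraicClosure ℚ) := AlgebraicClosure.isAlgebraic ℚ
  ((IsAlgClosed.lift : AlgebraicClosure ℚ →ₐ[ℚ] ℂ) : AlgebraicClosure ℚ →+* ℂ)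

theorem ana_iota_injective : Function.Injective ana_iota := ana_iota.injective

theorem ana_iota_ratCast (r : ℚ) : ana_iota (algebraMap ℚ s24K r) = (r : ℂ) := by
  haveI : Algebra.IsAlgebraic ℚ (AlgebraicClosure ℚ) := AlgebraicClosure.isAlgebraic ℚ
  have h := (IsAlgClosed.lift : AlgebraicClosure ℚ →ₐ[ℚ] ℂ).commutes r
  simpa [ana_iota] using h

/-- `q_N = exp (2 π i τ / N)` as a function on `ℍ`. -/
def ana_q (N : ℕ) (τ : ℍ) : ℂ := Function.Periodic.qParam (N : ℝ) (τ : ℂ)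

theorem ana_q_ne_zero (N : ℕ) (τ : ℍ) : ana_q N τ ≠ 0 := by
  unfold ana_q Function.Periodic.qParam
  exact Complex.exp_ne_zero _

theorem ana_norm_q_le_one (N : ℕ) (τ : ℍ) : ‖ana_q N τ‖ ≤ 1 := by
  unfold ana_q
  rw [Function.Periodic.norm_qParam]
  rw [Real.exp_le_one_iff]
  have h1 : 0 ≤ 2 * π * (τ : ℂ).im := by
    have := τ.im_pos
    have hπ := Real.pi_pos
    positivity
  have h2 : (0 : ℝ) ≤ N := Nat.cast_nonneg N
  have : -2 * π * (τ : ℂ).im / N = -(2 * π * (τ : ℂ).im / N) := by ring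
  rw [this]
  have := div_nonneg h1 h2
  linarith

theorem ana_mdiff_smul (g : SL(2, ℤ)) : MDiff (fun τ : ℍ => g • τ) := by
  have h : (0 : ℝ) <
      (Matrix.GeneralLinearGroup.det (Matrix.SpecialLinearGroup.mapGL ℝ g) : ℝˣ) := by
    simp
  exact UpperHalfPlane.mdifferentiable_smul h

theorem ana_mdiff_comp {f : ℍ → ℂ} (hf : MDiff f) (g : SL(2, ℤ)) :
    MDiff (fun τ : ℍ => f (g • τ)) :=
  hf.comp (ana_mdiff_smul g)

/-- `F` has at most a pole of order `m` (in `q_N`) at `i∞`. -/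
def ana_PoleLE (N : ℕ) (m : ℕ) (F : ℍ → ℂ) : Prop :=
  IsBoundedAtImInfty (fun τ : ℍ => ana_q N τ ^ m * F τ)

theorem ana_q_pow_bounded (N : ℕ) (k : ℕ) : IsBoundedAtImInfty (fun τ : ℍ => ana_q N τ ^ k) := by
  rw [isBoundedAtImInfty_iff]
  refine ⟨1, 0, fun z _ => ?_⟩
  rw [norm_pow]
  exact pow_le_one₀ (norm_nonneg _) (ana_norm_q_le_one N z)

theorem ana_PoleLE.mono {N m m' : ℕ} {F : ℍ → ℂ} (h : ana_PoleLE N m F) (hm : m ≤ m') :
    ana_PoleLE N m' F := by
  obtain ⟨k, rfl⟩ := Nat.exists_eq_add_of_le hm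
  have h2 := (ana_q_pow_bounded N k).mul h
  have h3 : ((fun τ : ℍ => ana_q N τ ^ k) * fun τ : ℍ => ana_q N τ ^ m * F τ) =
      fun τ : ℍ => ana_q N τ ^ (m + k) * F τ := by
    funext τ
    simp only [Pi.mul_apply]
    ring
  rw [h3] at h2
  exact h2

theorem ana_PoleLE.add {N m₁ m₂ : ℕ} {F G : ℍ → ℂ} (hF : ana_PoleLE N m₁ F)
    (hG : ana_PoleLE N m₂ G) : ana_PoleLE N (max m₁ m₂) (F + G) := by
  have h1 := hF.mono (le_max_left m₁ m₂)
  have h2 := hG.mono (le_max_right m₁ m₂)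
  have h3 := BoundedAtFilter.add h1 h2
  have h4 : ((fun τ : ℍ => ana_q N τ ^ (max m₁ m₂) * F τ) +
      fun τ : ℍ => ana_q N τ ^ (max m₁ m₂) * G τ) =
      fun τ : ℍ => ana_q N τ ^ (max m₁ m₂) * (F + G) τ := by
    funext τ
    simp only [Pi.add_apply]
    ring
  unfold ana_PoleLE
  rw [← h4]
  exact h3

theorem ana_PoleLE.mul {N m₁ m₂ : ℕ} {F G : ℍ → ℂ} (hF : ana_PoleLE N m₁ F)
    (hG : ana_PoleLE N m₂ G) : ana_PoleLE N (m₁ + m₂) (F * G) := by
  have h3 := BoundedAtFilter.mul hF hG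
  have h4 : ((fun τ : ℍ => ana_q N τ ^ m₁ * F τ) * fun τ : ℍ => ana_q N τ ^ m₂ * G τ) =
      fun τ : ℍ => ana_q N τ ^ (m₁ + m₂) * (F * G) τ := by
    funext τ
    simp only [Pi.mul_apply]
    ring
  unfold ana_PoleLE
  rw [← h4]
  exact h3

theorem ana_PoleLE.neg {N m : ℕ} {F : ℍ → ℂ} (hF : ana_PoleLE N m F) :
    ana_PoleLE N m (-F) := by
  have h3 := BoundedAtFilter.neg hF
  have h4 : (-fun τ : ℍ => ana_q N τ ^ m * F τ) = fun τ : ℍ => ana_q N τ ^ m * (-F) τ := by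
    funext τ
    simp only [Pi.neg_apply]
    ring
  unfold ana_PoleLE
  rw [← h4]
  exact h3

theorem ana_PoleLE_const (N : ℕ) (c : ℂ) : ana_PoleLE N 0 (fun _ : ℍ => c) := by
  unfold ana_PoleLE
  simp only [pow_zero, one_mul]
  exact Filter.const_boundedAtFilter _ c

/-- The predicate defining `ana_ring N`: holomorphic, and every `SL(2,ℤ)`-translate is
`N`-periodic and meromorphic at `i∞`. -/
def ana_IsMod (N : ℕ) (f : ℍ → ℂ) : Prop :=
  MDiff f ∧ ∀ g : SL(2, ℤ),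
    (∀ τ : ℍ, f (g • ((N : ℝ) +ᵥ τ)) = f (g • τ)) ∧
    ∃ m : ℕ, ana_PoleLE N m (fun τ : ℍ => f (g • τ))

theorem ana_IsMod_const (N : ℕ) (c : ℂ) : ana_IsMod N (fun _ : ℍ => c) :=
  ⟨mdifferentiable_const, fun _ => ⟨fun _ => rfl, 0, ana_PoleLE_const N c⟩⟩

/-- The ring of modular functions of level `N` (holomorphic on `ℍ`, all translates `N`-periodic
and meromorphic at `i∞`). -/
def ana_ring (N : ℕ) : Subring (ℍ → ℂ) where
  carrier := {f | ana_IsMod N f}
  mul_mem' {F G} hF hG := ⟨hF.1.mul hG.1, fun g => ⟨fun τ => by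
      simp only [Pi.mul_apply, (hF.2 g).1 τ, (hG.2 g).1 τ], by
      obtain ⟨m₁, h₁⟩ := (hF.2 g).2
      obtain ⟨m₂, h₂⟩ := (hG.2 g).2
      exact ⟨m₁ + m₂, h₁.mul h₂⟩⟩⟩
  one_mem' := ana_IsMod_const N 1
  add_mem' {F G} hF hG := ⟨hF.1.add hG.1, fun g => ⟨fun τ => by
      simp only [Pi.add_apply, (hF.2 g).1 τ, (hG.2 g).1 τ], by
      obtain ⟨m₁, h₁⟩ := (hF.2 g).2
      obtain ⟨m₂, h₂⟩ := (hG.2 g).2
      exact ⟨max m₁ m₂, h₁.add h₂⟩⟩⟩
  zero_mem' := ana_IsMod_const N 0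
  neg_mem' {F} hF := ⟨hF.1.neg, fun g => ⟨fun τ => by
      simp only [Pi.neg_apply, (hF.2 g).1 τ], by
      obtain ⟨m₁, h₁⟩ := (hF.2 g).2
      exact ⟨m₁, h₁.neg⟩⟩⟩

theorem ana_mem_iff {N : ℕ} {f : ℍ → ℂ} : f ∈ ana_ring N ↔ ana_IsMod N f := Iff.rfl

theorem ana_const_mem (N : ℕ) (c : ℂ) : (fun _ : ℍ => c) ∈ ana_ring N := ana_IsMod_const N c

theorem ana_mdiff {N : ℕ} (f : ana_ring N) : MDiff (f : ℍ → ℂ) := f.2.1

/-- holomorphic functions on `ℍ` are analytic on the open upper half plane -/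
theorem ana_analyticOnNhd {f : ℍ → ℂ} (hf : MDiff f) :
    AnalyticOnNhd ℂ (f ∘ ofComplex) {z : ℂ | 0 < z.im} := by
  have h := (UpperHalfPlane.mdifferentiable_iff).mp hf
  exact h.analyticOnNhd (isOpen_lt continuous_const Complex.continuous_im)

theorem ana_eq_zero_or_eq_zero {f g : ℍ → ℂ} (hf : MDiff f) (hg : MDiff g)
    (h : ∀ τ, f τ * g τ = 0) : f = 0 ∨ g = 0 := by
  have hU : IsPreconnected {z : ℂ | 0 < z.im} :=
    (convex_halfSpace_im_gt 0).isPreconnected
  have := AnalyticOnNhd.eq_zero_or_eq_zero_of_mul_eq_zero (ana_analyticOnNhd hf)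
    (ana_analyticOnNhd hg) (fun z hz => by
      have := h ⟨z, hz⟩
      simpa [Function.comp, ofComplex_apply_of_im_pos hz] using this) hU
  rcases this with h1 | h1
  · left
    funext τ
    have := h1 (τ : ℂ) τ.im_pos
    simpa using this
  · right
    funext τ
    have := h1 (τ : ℂ) τ.im_pos
    simpa using this

instance ana_ring_noZeroDivisors (N : ℕ) : NoZeroDivisors (ana_ring N) where
  eq_zero_or_eq_zero_of_mul_eq_zero {a b} hab := by
    have h : ∀ τ, (a : ℍ → ℂ) τ * (b : ℍ → ℂ) τ = 0 := fun τ => by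
      have := congrArg (fun x : ana_ring N => (x : ℍ → ℂ) τ) hab
      simpa using this
    rcases ana_eq_zero_or_eq_zero a.2.1 b.2.1 h with h1 | h1
    · left; exact Subtype.ext h1
    · right; exact Subtype.ext h1

instance ana_ring_nontrivial (N : ℕ) : Nontrivial (ana_ring N) :=
  ⟨⟨0, 1, fun h => by
    have := congrArg (fun x : ana_ring N => (x : ℍ → ℂ) UpperHalfPlane.I) h
    simp at this⟩⟩

instance ana_ring_isDomain (N : ℕ) : IsDomain (ana_ring N) := NoZeroDivisors.to_isDomain _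

/-- The field of modular functions of level `N` (as an abstract fraction field). -/
abbrev ana_M (N : ℕ) : Type := FractionRing (ana_ring N)

/-- Constants. -/
def ana_const (N : ℕ) : ℂ →+* ana_ring N where
  toFun c := ⟨fun _ => c, ana_const_mem N c⟩
  map_one' := rfl
  map_mul' _ _ := rfl
  map_zero' := rfl
  map_add' _ _ := rfl

@[simp] theorem ana_const_apply (N : ℕ) (c : ℂ) (τ : ℍ) : (ana_const N c : ℍ → ℂ) τ = c := rfl

theorem ana_const_injective (N : ℕ) : Function.Injective (ana_const N) :=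
  (ana_const N).injective

/-- Composition with the action of `g : SL(2,ℤ)` on `ℍ`. -/
def ana_comp (N : ℕ) (g : SL(2, ℤ)) : ana_ring N →+* ana_ring N where
  toFun f := ⟨fun τ => (f : ℍ → ℂ) (g • τ), ana_mdiff_comp f.2.1 g, fun g' => by
    have h := f.2.2 (g * g')
    simpa only [mul_smul] using h⟩
  map_one' := rfl
  map_mul' _ _ := rfl
  map_zero' := rfl
  map_add' _ _ := rfl

@[simp] theorem ana_comp_apply (N : ℕ) (g : SL(2, ℤ)) (f : ana_ring N) (τ : ℍ) :
    (ana_comp N g f : ℍ → ℂ) τ = (f : ℍ → ℂ) (g • τ) := rfl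

theorem ana_comp_one (N : ℕ) (f : ana_ring N) : ana_comp N 1 f = f := by
  apply Subtype.ext
  funext τ
  simp

theorem ana_comp_mul (N : ℕ) (g h : SL(2, ℤ)) (f : ana_ring N) :
    ana_comp N (g * h) f = ana_comp N h (ana_comp N g f) := by
  apply Subtype.ext
  funext τ
  simp [mul_smul]

theorem ana_comp_const (N : ℕ) (g : SL(2, ℤ)) (c : ℂ) :
    ana_comp N g (ana_const N c) = ana_const N c := rfl

theorem ana_comp_injective (N : ℕ) (g : SL(2, ℤ)) : Function.Injective (ana_comp N g) := by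
  intro a b hab
  have := congrArg (ana_comp N g⁻¹) hab
  rwa [← ana_comp_mul, ← ana_comp_mul, mul_inv_cancel, ana_comp_one, ana_comp_one] at this

theorem ana_algebraMap_comp_injective (N : ℕ) (g : SL(2, ℤ)) :
    Function.Injective ((algebraMap (ana_ring N) (ana_M N)).comp (ana_comp N g)) :=
  (IsFractionRing.injective (ana_ring N) (ana_M N)).comp (ana_comp_injective N g)

/-- The left action of `SL(2,ℤ)` on the field `ana_M N`: `ana_act N g` extends
`f ↦ f ∘ (g⁻¹ • ·)`. -/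
def ana_act (N : ℕ) (g : SL(2, ℤ)) : ana_M N →+* ana_M N :=
  IsFractionRing.lift (ana_algebraMap_comp_injective N g⁻¹)

@[simp] theorem ana_act_algebraMap (N : ℕ) (g : SL(2, ℤ)) (f : ana_ring N) :
    ana_act N g (algebraMap (ana_ring N) (ana_M N) f)
      = algebraMap (ana_ring N) (ana_M N) (ana_comp N g⁻¹ f) := by
  unfold ana_act
  rw [IsFractionRing.lift_algebraMap]
  rfl

theorem ana_ringHom_ext_M {N : ℕ} {L : Type*} [Field L] {φ ψ : ana_M N →+* L}
    (h : ∀ f : ana_ring N, φ (algebraMap _ _ f) = ψ (algebraMap _ _ f)) : φ = ψ :=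
  IsLocalization.ringHom_ext (nonZeroDivisors (ana_ring N)) (RingHom.ext h)

theorem ana_act_one (N : ℕ) : ana_act N 1 = RingHom.id _ := by
  apply ana_ringHom_ext_M
  intro f
  simp [ana_comp_one]

theorem ana_act_mul (N : ℕ) (g h : SL(2, ℤ)) :
    ana_act N (g * h) = (ana_act N g).comp (ana_act N h) := by
  apply ana_ringHom_ext_M
  intro f
  simp [ana_comp_mul]

theorem ana_act_mul_apply (N : ℕ) (g h : SL(2, ℤ)) (x : ana_M N) :
    ana_act N (g * h) x = ana_act N g (ana_act N h x) := by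
  rw [ana_act_mul]; rfl

theorem ana_act_inv_act (N : ℕ) (g : SL(2, ℤ)) (x : ana_M N) :
    ana_act N g⁻¹ (ana_act N g x) = x := by
  rw [← ana_act_mul_apply, inv_mul_cancel, ana_act_one]; rfl

theorem ana_act_act_inv (N : ℕ) (g : SL(2, ℤ)) (x : ana_M N) :
    ana_act N g (ana_act N g⁻¹ x) = x := by
  rw [← ana_act_mul_apply, mul_inv_cancel, ana_act_one]; rfl

end Fermat.Agent.S24
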