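import Mathlib
import Fermat.Agent.S24.AnaRing

/-!
# S24, package ANA-EV (part 2): Laurent expansions in `q_N` at `i∞`

For a holomorphic `N`-periodic function `F` on `ℍ` with `q_N ^ m * F` bounded at `i∞`, the
Laurent expansion `ana_laurent N F : LaurentSeries ℂ` is `X ^ (-m)` times the `q`-expansion
(period `N`) of `q_N ^ m * F`.  It is additive, multiplicative and injective; on `ana_ring N` it
gives the injective ring homomorphism `ana_qexp N`.
-/

set_option autoImplicit false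

noncomputable section

namespace Fermat.Agent.S24

open UpperHalfPlane hiding I
open Filter Function Topology ModularForm Complex
open scoped Manifold MatrixGroups ModularForm Real

/-- periodicity of `F ∘ ofComplex` from invariance under `τ ↦ N + τ` -/
theorem ana_periodic_of_vadd {N : ℕ} {F : ℍ → ℂ} (hF : ∀ τ : ℍ, F ((N : ℝ) +ᵥ τ) = F τ) :
    Periodic (F ∘ ofComplex) ((N : ℝ) : ℂ) := by
  intro w
  by_cases hw : 0 < w.im
  · have hw' : 0 < (w + ((N : ℝ) : ℂ)).im := by simpa using hw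
    simp only [comp_apply, ofComplex_apply_of_im_pos hw', ofComplex_apply_of_im_pos hw]
    rw [← hF ⟨w, hw⟩]
    congr 1
    ext
    simp [add_comm]
  · have hw0 : w.im ≤ 0 := not_lt.mp hw
    have hw' : (w + ((N : ℝ) : ℂ)).im ≤ 0 := by simpa using hw0
    simp only [comp_apply]
    rw [ofComplex_apply_of_im_nonpos hw', ofComplex_apply_of_im_nonpos hw0]

theorem ana_q_vadd (N : ℕ) [NeZero N] (τ : ℍ) : ana_q N ((N : ℝ) +ᵥ τ) = ana_q N τ := by
  unfold ana_q Function.Periodic.qParam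
  have hN : ((N : ℝ) : ℂ) ≠ 0 := by
    exact_mod_cast (NeZero.ne N)
  have h1 : 2 * (π : ℂ) * Complex.I * (((N : ℝ) +ᵥ τ : ℍ) : ℂ) / ((N : ℝ) : ℂ)
      = 2 * (π : ℂ) * Complex.I * (τ : ℂ) / ((N : ℝ) : ℂ) + 2 * π * Complex.I := by
    rw [UpperHalfPlane.coe_vadd]
    field_simp
    ring
  rw [h1, Complex.exp_add, Complex.exp_two_pi_mul_I, mul_one]

theorem ana_mdiff_q (N : ℕ) : MDiff (fun τ : ℍ => ana_q N τ) := by
  rw [UpperHalfPlane.mdifferentiable_iff]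
  have h : Differentiable ℂ (Function.Periodic.qParam (N : ℝ)) := by
    unfold Function.Periodic.qParam
    fun_prop
  refine h.differentiableOn.congr ?_
  intro z hz
  simp only [comp_apply, ana_q]
  rw [ofComplex_apply_of_im_pos hz]

/-- holomorphic, `N`-periodic and bounded at `i∞` -/
def ana_IsNice (N : ℕ) (F : ℍ → ℂ) : Prop :=
  MDiff F ∧ (∀ τ : ℍ, F ((N : ℝ) +ᵥ τ) = F τ) ∧ IsBoundedAtImInfty F

theorem ana_IsNice.analyticAt {N : ℕ} [NeZero N] {F : ℍ → ℂ} (hF : ana_IsNice N F) :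
    AnalyticAt ℂ (cuspFunction (N : ℝ) F) 0 :=
  analyticAt_cuspFunction_zero (Nat.cast_pos.mpr (NeZero.pos N))
    (ana_periodic_of_vadd hF.2.1) hF.1 hF.2.2

theorem ana_IsNice.mul {N : ℕ} {F G : ℍ → ℂ} (hF : ana_IsNice N F) (hG : ana_IsNice N G) :
    ana_IsNice N (F * G) :=
  ⟨hF.1.mul hG.1, fun τ => by simp only [Pi.mul_apply, hF.2.1 τ, hG.2.1 τ], hF.2.2.mul hG.2.2⟩

theorem ana_IsNice.add {N : ℕ} {F G : ℍ → ℂ} (hF : ana_IsNice N F) (hG : ana_IsNice N G) :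
    ana_IsNice N (F + G) :=
  ⟨hF.1.add hG.1, fun τ => by simp only [Pi.add_apply, hF.2.1 τ, hG.2.1 τ], hF.2.2.add hG.2.2⟩

theorem ana_isNice_q_pow (N : ℕ) [NeZero N] (k : ℕ) :
    ana_IsNice N (fun τ : ℍ => ana_q N τ ^ k) :=
  ⟨(ana_mdiff_q N).pow k, fun τ => by simp only [ana_q_vadd], ana_q_pow_bounded N k⟩

theorem ana_isNice_const (N : ℕ) (c : ℂ) : ana_IsNice N (fun _ : ℍ => c) :=
  ⟨mdifferentiable_const, fun _ => rfl, Filter.const_boundedAtFilter _ c⟩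

/-- uniqueness of `q`-expansion coefficients for bare functions -/
theorem ana_qExpansion_coeff_unique {h : ℝ} (G : ℍ → ℂ) {c : ℕ → ℂ} (hh : 0 < h)
    (hA : AnalyticAt ℂ (cuspFunction h G) 0)
    (hS : ∀ τ : ℍ, HasSum (fun m : ℕ => c m • Periodic.qParam h ↑τ ^ m) (G τ)) (m : ℕ) :
    c m = (PowerSeries.coeff m) (qExpansion h G) :=
  @qExpansion_coeff_unique (ℍ → ℂ) ⟨id, fun _ _ h => h⟩ h G c hh hA hS m

theorem ana_hasSum_q_pow (N : ℕ) (k : ℕ) (τ : ℍ) :
    HasSum (fun m : ℕ => (if m = k then (1 : ℂ) else 0) • Periodic.qParam (N : ℝ) ↑τ ^ m)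
      (ana_q N τ ^ k) := by
  have h1 := hasSum_ite_eq (α := ℂ) k (ana_q N τ ^ k)
  have h2 : (fun m : ℕ => (if m = k then (1 : ℂ) else 0) • Periodic.qParam (N : ℝ) ↑τ ^ m)
      = fun m : ℕ => if m = k then ana_q N τ ^ k else 0 := by
    funext m
    by_cases hm : m = k
    · subst hm; simp [ana_q]
    · simp [hm]
  rw [h2]
  exact h1

theorem ana_qExpansion_q_pow (N : ℕ) [NeZero N] (k : ℕ) :
    qExpansion (N : ℝ) (fun τ : ℍ => ana_q N τ ^ k) = PowerSeries.X ^ k := by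
  have hN : (0 : ℝ) < N := Nat.cast_pos.mpr (NeZero.pos N)
  ext m
  have h := ana_qExpansion_coeff_unique (h := (N : ℝ)) (fun τ : ℍ => ana_q N τ ^ k)
    (c := fun m => if m = k then 1 else 0) hN (ana_isNice_q_pow N k).analyticAt
    (ana_hasSum_q_pow N k) m
  rw [← h, PowerSeries.coeff_X_pow]

theorem ana_qExpansion_mul {N : ℕ} [NeZero N] {F G : ℍ → ℂ} (hF : ana_IsNice N F)
    (hG : ana_IsNice N G) :
    qExpansion (N : ℝ) (F * G) = qExpansion (N : ℝ) F * qExpansion (N : ℝ) G :=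
  qExpansion_mul hF.analyticAt hG.analyticAt

theorem ana_qExpansion_add {N : ℕ} [NeZero N] {F G : ℍ → ℂ} (hF : ana_IsNice N F)
    (hG : ana_IsNice N G) :
    qExpansion (N : ℝ) (F + G) = qExpansion (N : ℝ) F + qExpansion (N : ℝ) G :=
  qExpansion_add hF.analyticAt hG.analyticAt

theorem ana_qExpansion_eq_zero_iff {N : ℕ} [NeZero N] {F : ℍ → ℂ} (hF : ana_IsNice N F) :
    qExpansion (N : ℝ) F = 0 ↔ F = 0 :=
  qExpansion_eq_zero_iff (Nat.cast_pos.mpr (NeZero.pos N)) (ana_periodic_of_vadd hF.2.1)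
    hF.1 hF.2.2

theorem ana_qExpansion_const (N : ℕ) [NeZero N] (c : ℂ) :
    qExpansion (N : ℝ) (fun _ : ℍ => c) = PowerSeries.C c := by
  have hN : (0 : ℝ) < N := Nat.cast_pos.mpr (NeZero.pos N)
  ext m
  have h := ana_qExpansion_coeff_unique (h := (N : ℝ)) (fun _ : ℍ => c)
    (c := fun m => if m = 0 then c else 0) hN (ana_isNice_const N c).analyticAt
    (fun τ => by
      have h1 := hasSum_ite_eq (α := ℂ) 0 c
      have h2 : (fun m : ℕ => (if m = 0 then c else 0) • Periodic.qParam (N : ℝ) ↑τ ^ m)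
          = fun m : ℕ => if m = 0 then c else 0 := by
        funext m
        by_cases hm : m = 0
        · subst hm; simp
        · simp [hm]
      rw [h2]
      exact h1) m
  rw [← h, PowerSeries.coeff_C]

theorem ana_qExpansion_q_pow_mul {N : ℕ} [NeZero N] {G : ℍ → ℂ} (hG : ana_IsNice N G) (k : ℕ) :
    qExpansion (N : ℝ) (fun τ : ℍ => ana_q N τ ^ k * G τ)
      = PowerSeries.X ^ k * qExpansion (N : ℝ) G := by
  have h := ana_qExpansion_mul (ana_isNice_q_pow N k) hG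
  rw [ana_qExpansion_q_pow] at h
  exact h

/-- holomorphic, `N`-periodic, meromorphic at `i∞` -/
def ana_IsMer (N : ℕ) (F : ℍ → ℂ) : Prop :=
  MDiff F ∧ (∀ τ : ℍ, F ((N : ℝ) +ᵥ τ) = F τ) ∧ ∃ m : ℕ, ana_PoleLE N m F

theorem ana_IsMer.nice {N : ℕ} [NeZero N] {F : ℍ → ℂ} (hF : ana_IsMer N F) {m : ℕ}
    (hm : ana_PoleLE N m F) : ana_IsNice N (fun τ : ℍ => ana_q N τ ^ m * F τ) :=
  ⟨((ana_mdiff_q N).pow m).mul hF.1, fun τ => by simp only [ana_q_vadd, hF.2.1 τ], hm⟩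

theorem ana_IsNice.isMer {N : ℕ} {F : ℍ → ℂ} (hF : ana_IsNice N F) : ana_IsMer N F :=
  ⟨hF.1, hF.2.1, 0, by
    unfold ana_PoleLE
    simpa using hF.2.2⟩

theorem ana_IsNice.poleLE {N : ℕ} {F : ℍ → ℂ} (hF : ana_IsNice N F) : ana_PoleLE N 0 F := by
  unfold ana_PoleLE
  simpa using hF.2.2

theorem ana_IsMer.mul {N : ℕ} {F G : ℍ → ℂ} (hF : ana_IsMer N F) (hG : ana_IsMer N G) :
    ana_IsMer N (F * G) := by
  obtain ⟨m₁, h₁⟩ := hF.2.2
  obtain ⟨m₂, h₂⟩ := hG.2.2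
  exact ⟨hF.1.mul hG.1, fun τ => by simp only [Pi.mul_apply, hF.2.1 τ, hG.2.1 τ],
    m₁ + m₂, h₁.mul h₂⟩

theorem ana_IsMer.add {N : ℕ} {F G : ℍ → ℂ} (hF : ana_IsMer N F) (hG : ana_IsMer N G) :
    ana_IsMer N (F + G) := by
  obtain ⟨m₁, h₁⟩ := hF.2.2
  obtain ⟨m₂, h₂⟩ := hG.2.2
  exact ⟨hF.1.add hG.1, fun τ => by simp only [Pi.add_apply, hF.2.1 τ, hG.2.1 τ],
    max m₁ m₂, h₁.add h₂⟩

/-- The candidate Laurent expansion computed with pole order bound `m`. -/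
def ana_laurentAux (N : ℕ) (m : ℕ) (F : ℍ → ℂ) : LaurentSeries ℂ :=
  HahnSeries.single (-(m : ℤ)) (1 : ℂ) *
    HahnSeries.ofPowerSeries ℤ ℂ (qExpansion (N : ℝ) (fun τ : ℍ => ana_q N τ ^ m * F τ))

theorem ana_laurentAux_add_right {N : ℕ} [NeZero N] {F : ℍ → ℂ} (hF : ana_IsMer N F) {m : ℕ}
    (hm : ana_PoleLE N m F) (k : ℕ) : ana_laurentAux N (m + k) F = ana_laurentAux N m F := by
  unfold ana_laurentAux
  have h1 : (fun τ : ℍ => ana_q N τ ^ (m + k) * F τ)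
      = fun τ : ℍ => ana_q N τ ^ k * (ana_q N τ ^ m * F τ) := by
    funext τ; ring
  rw [h1, ana_qExpansion_q_pow_mul (hF.nice hm) k, map_mul, HahnSeries.ofPowerSeries_X_pow,
    ← mul_assoc, HahnSeries.single_mul_single]
  have e1 : (-((m + k : ℕ) : ℤ) + (k : ℤ)) = -(m : ℤ) := by push_cast; omega
  rw [e1, mul_one]

theorem ana_laurentAux_eq_of_le {N : ℕ} [NeZero N] {F : ℍ → ℂ} (hF : ana_IsMer N F) {m m' : ℕ}
    (hm : ana_PoleLE N m F) (hmm : m ≤ m') : ana_laurentAux N m' F = ana_laurentAux N m F := by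
  obtain ⟨k, rfl⟩ := Nat.exists_eq_add_of_le hmm
  exact ana_laurentAux_add_right hF hm k

theorem ana_laurentAux_eq {N : ℕ} [NeZero N] {F : ℍ → ℂ} (hF : ana_IsMer N F) {m m' : ℕ}
    (hm : ana_PoleLE N m F) (hm' : ana_PoleLE N m' F) :
    ana_laurentAux N m' F = ana_laurentAux N m F := by
  rw [← ana_laurentAux_eq_of_le hF hm (le_max_left m m'),
    ← ana_laurentAux_eq_of_le hF hm' (le_max_right m m')]

open Classical in
/-- The Laurent expansion in `q_N` at `i∞`. -/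
def ana_laurent (N : ℕ) (F : ℍ → ℂ) : LaurentSeries ℂ :=
  if h : ∃ m : ℕ, ana_PoleLE N m F then ana_laurentAux N h.choose F else 0

theorem ana_laurent_eq {N : ℕ} [NeZero N] {F : ℍ → ℂ} (hF : ana_IsMer N F) {m : ℕ}
    (hm : ana_PoleLE N m F) : ana_laurent N F = ana_laurentAux N m F := by
  unfold ana_laurent
  have h : ∃ m : ℕ, ana_PoleLE N m F := ⟨m, hm⟩
  rw [dif_pos h]
  exact ana_laurentAux_eq hF hm h.choose_spec

theorem ana_laurent_of_nice {N : ℕ} [NeZero N] {F : ℍ → ℂ} (hF : ana_IsNice N F) :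
    ana_laurent N F = HahnSeries.ofPowerSeries ℤ ℂ (qExpansion (N : ℝ) F) := by
  rw [ana_laurent_eq hF.isMer hF.poleLE]
  unfold ana_laurentAux
  have h0 : HahnSeries.single (-((0 : ℕ) : ℤ)) (1 : ℂ) = (1 : LaurentSeries ℂ) := by
    simp
  rw [h0, one_mul]
  congr 2
  funext τ
  simp

theorem ana_laurent_const (N : ℕ) [NeZero N] (c : ℂ) :
    ana_laurent N (fun _ : ℍ => c) = HahnSeries.C c := by
  rw [ana_laurent_of_nice (ana_isNice_const N c), ana_qExpansion_const,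
    HahnSeries.ofPowerSeries_C]

theorem ana_laurent_mul {N : ℕ} [NeZero N] {F G : ℍ → ℂ} (hF : ana_IsMer N F)
    (hG : ana_IsMer N G) : ana_laurent N (F * G) = ana_laurent N F * ana_laurent N G := by
  obtain ⟨m₁, h₁⟩ := hF.2.2
  obtain ⟨m₂, h₂⟩ := hG.2.2
  rw [ana_laurent_eq hF h₁, ana_laurent_eq hG h₂, ana_laurent_eq (hF.mul hG) (h₁.mul h₂)]
  unfold ana_laurentAux
  have h1 : (fun τ : ℍ => ana_q N τ ^ (m₁ + m₂) * (F * G) τ)
      = (fun τ : ℍ => ana_q N τ ^ m₁ * F τ) * (fun τ : ℍ => ana_q N τ ^ m₂ * G τ) := by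
    funext τ
    simp only [Pi.mul_apply]
    ring
  rw [h1, ana_qExpansion_mul (hF.nice h₁) (hG.nice h₂), map_mul]
  have h2 : HahnSeries.single (-((m₁ + m₂ : ℕ) : ℤ)) (1 : ℂ)
      = HahnSeries.single (-(m₁ : ℤ)) (1 : ℂ) * HahnSeries.single (-(m₂ : ℤ)) (1 : ℂ) := by
    rw [HahnSeries.single_mul_single]
    have e1 : (-(m₁ : ℤ) + -(m₂ : ℤ)) = -((m₁ + m₂ : ℕ) : ℤ) := by push_cast; omega
    rw [e1, mul_one]
  rw [h2]
  ring

theorem ana_laurent_add {N : ℕ} [NeZero N] {F G : ℍ → ℂ} (hF : ana_IsMer N F)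
    (hG : ana_IsMer N G) : ana_laurent N (F + G) = ana_laurent N F + ana_laurent N G := by
  obtain ⟨m₁, h₁⟩ := hF.2.2
  obtain ⟨m₂, h₂⟩ := hG.2.2
  have h₁' := h₁.mono (le_max_left m₁ m₂)
  have h₂' := h₂.mono (le_max_right m₁ m₂)
  rw [ana_laurent_eq hF h₁', ana_laurent_eq hG h₂', ana_laurent_eq (hF.add hG) (h₁.add h₂)]
  unfold ana_laurentAux
  have h1 : (fun τ : ℍ => ana_q N τ ^ (max m₁ m₂) * (F + G) τ)
      = (fun τ : ℍ => ana_q N τ ^ (max m₁ m₂) * F τ)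
        + (fun τ : ℍ => ana_q N τ ^ (max m₁ m₂) * G τ) := by
    funext τ
    simp only [Pi.add_apply]
    ring
  rw [h1, ana_qExpansion_add (hF.nice h₁') (hG.nice h₂'), map_add]
  ring

theorem ana_laurent_eq_zero_iff {N : ℕ} [NeZero N] {F : ℍ → ℂ} (hF : ana_IsMer N F) :
    ana_laurent N F = 0 ↔ F = 0 := by
  obtain ⟨m, hm⟩ := hF.2.2
  rw [ana_laurent_eq hF hm]
  unfold ana_laurentAux
  constructor
  · intro h
    have h1 : HahnSeries.single (-(m : ℤ)) (1 : ℂ) ≠ 0 := by simp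
    rcases mul_eq_zero.mp h with h2 | h2
    · exact absurd h2 h1
    · have h3 : qExpansion (N : ℝ) (fun τ : ℍ => ana_q N τ ^ m * F τ) = 0 := by
        apply HahnSeries.ofPowerSeries_injective (Γ := ℤ)
        rw [h2, map_zero]
      have h4 := (ana_qExpansion_eq_zero_iff (hF.nice hm)).mp h3
      funext τ
      have h5 := congrFun h4 τ
      simp only [Pi.zero_apply, mul_eq_zero] at h5
      rcases h5 with h5 | h5
      · exact absurd h5 (pow_ne_zero m (ana_q_ne_zero N τ))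
      · exact h5
  · intro h
    subst h
    have : (fun τ : ℍ => ana_q N τ ^ m * (0 : ℍ → ℂ) τ) = 0 := by
      funext τ; simp
    rw [this, qExpansion_zero, map_zero, mul_zero]

theorem ana_laurent_eq_of_hasSum {N : ℕ} [NeZero N] {F : ℍ → ℂ} (hF : ana_IsMer N F) {m : ℕ}
    (hm : ana_PoleLE N m F) (c : ℕ → ℂ)
    (hS : ∀ τ : ℍ, HasSum (fun n : ℕ => c n • Periodic.qParam (N : ℝ) ↑τ ^ n)
      (ana_q N τ ^ m * F τ)) :
    ana_laurent N F = HahnSeries.single (-(m : ℤ)) (1 : ℂ) *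
      HahnSeries.ofPowerSeries ℤ ℂ (PowerSeries.mk c) := by
  rw [ana_laurent_eq hF hm]
  unfold ana_laurentAux
  congr 2
  ext n
  rw [PowerSeries.coeff_mk]
  exact (ana_qExpansion_coeff_unique (h := (N : ℝ)) (fun τ : ℍ => ana_q N τ ^ m * F τ)
    (Nat.cast_pos.mpr (NeZero.pos N)) (hF.nice hm).analyticAt hS n).symm

theorem ana_isMer_of_mem {N : ℕ} {f : ℍ → ℂ} (hf : f ∈ ana_ring N) : ana_IsMer N f := by
  obtain ⟨h1, h2⟩ := hf
  have h3 := h2 1
  simp only [one_smul] at h3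
  exact ⟨h1, h3.1, h3.2⟩

/-- The Laurent expansion in `q_N` at `i∞`, as a ring homomorphism on `ana_ring N`. -/
def ana_qexp (N : ℕ) [NeZero N] : ana_ring N →+* LaurentSeries ℂ where
  toFun f := ana_laurent N (f : ℍ → ℂ)
  map_one' := by
    show ana_laurent N (fun _ : ℍ => (1 : ℂ)) = 1
    rw [ana_laurent_const, map_one]
  map_mul' f g := ana_laurent_mul (ana_isMer_of_mem f.2) (ana_isMer_of_mem g.2)
  map_zero' := by
    show ana_laurent N (fun _ : ℍ => (0 : ℂ)) = 0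
    rw [ana_laurent_const, map_zero]
  map_add' f g := ana_laurent_add (ana_isMer_of_mem f.2) (ana_isMer_of_mem g.2)

theorem ana_qexp_apply (N : ℕ) [NeZero N] (f : ana_ring N) :
    ana_qexp N f = ana_laurent N (f : ℍ → ℂ) := rfl

theorem ana_qexp_injective (N : ℕ) [NeZero N] : Function.Injective (ana_qexp N) := by
  rw [injective_iff_map_eq_zero]
  intro f hf
  have := (ana_laurent_eq_zero_iff (ana_isMer_of_mem f.2)).mp hf
  exact Subtype.ext this

theorem ana_qexp_const (N : ℕ) [NeZero N] (c : ℂ) :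
    ana_qexp N (ana_const N c) = HahnSeries.C c :=
  ana_laurent_const N c

/-- The Laurent expansion at `i∞` on the field `ana_M N`. -/
def ana_qexpM (N : ℕ) [NeZero N] : ana_M N →+* LaurentSeries ℂ :=
  IsFractionRing.lift (ana_qexp_injective N)

@[simp] theorem ana_qexpM_algebraMap (N : ℕ) [NeZero N] (f : ana_ring N) :
    ana_qexpM N (algebraMap (ana_ring N) (ana_M N) f) = ana_qexp N f := by
  unfold ana_qexpM
  rw [IsFractionRing.lift_algebraMap]

theorem ana_qexpM_injective (N : ℕ) [NeZero N] : Function.Injective (ana_qexpM N) :=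
  (ana_qexpM N).injective

end Fermat.Agent.S24
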