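import Mathlib
import Fermat.Prelude.Def_ModularCurve_X0

/-!
# S24, package ANA-BRIDGE: the prelude's formal `q`-series are the `q`-expansions of Mathlib's
analytic modular forms

* `br_qExpansion_E4` : `qExpansion 1 E₄ = eisenstein4` (coefficients cast to `ℂ`);
* `br_qExpansion_discriminant` : `qExpansion 1 Δ = X * dedekindEtaUnit` (formal Jacobi product);
* `br_taylor_tprod` : the Taylor series at `0` of `q ↦ ∏' (1 - q^(n+1))` is the formal product
  `etaProd` (formal vs analytic Euler product).
-/

set_option autoImplicit false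

noncomputable section

open Filter Topology UpperHalfPlane ModularForm
open scoped PowerSeries.WithPiTopology Nat

namespace Fermat.Agent.S24

/-! ## Taylor coefficients of locally uniform limits -/

/-- iterated derivatives of a locally uniform limit of holomorphic functions -/
theorem br_tendsto_iteratedDeriv {ι : Type*} {l : Filter ι} {F : ι → ℂ → ℂ} {f : ℂ → ℂ}
    {U : Set ℂ} (hU : IsOpen U) (hF : ∀ᶠ n in l, DifferentiableOn ℂ (F n) U)
    (h : TendstoLocallyUniformlyOn F f l U) (k : ℕ) :
    TendstoLocallyUniformlyOn (fun n => iteratedDeriv k (F n)) (iteratedDeriv k f) l U ∧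
      (∀ᶠ n in l, DifferentiableOn ℂ (iteratedDeriv k (F n)) U) := by
  induction k with
  | zero =>
    simp only [iteratedDeriv_zero]
    exact ⟨h, hF⟩
  | succ k ih =>
    obtain ⟨h1, h2⟩ := ih
    refine ⟨?_, ?_⟩
    · have := h1.deriv h2 hU
      simpa only [iteratedDeriv_succ, Function.comp_def] using this
    · filter_upwards [h2] with n hn
      rw [iteratedDeriv_succ]
      exact hn.deriv hU

/-- iterated derivative of a polynomial function at `0` -/
theorem br_iteratedDeriv_polynomial (p : Polynomial ℂ) (k : ℕ) :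
    iteratedDeriv k (fun x => p.eval x) 0 = (k.factorial : ℂ) * p.coeff k := by
  have h : ∀ (k : ℕ) (p : Polynomial ℂ), iteratedDeriv k (fun x => p.eval x) =
      fun x => ((⇑Polynomial.derivative)^[k] p).eval x := by
    intro k
    induction k with
    | zero => intro p; simp
    | succ k ih =>
      intro p
      rw [iteratedDeriv_succ, ih]
      ext x
      rw [Polynomial.deriv, Function.iterate_succ_apply']
  rw [h k p]
  simp only
  rw [← Polynomial.coeff_zero_eq_eval_zero, Polynomial.coeff_iterate_derivative, zero_add,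
    Nat.descFactorial_self, nsmul_eq_mul]

/-! ## The formal and the analytic Euler product -/

/-- the partial products as integer polynomials -/
def brPoly (s : Finset ℕ) : Polynomial ℤ :=
  ∏ i ∈ s, (1 - Polynomial.X ^ (i + 1))

theorem brPoly_eval (s : Finset ℕ) (q : ℂ) :
    ((brPoly s).map (Int.castRingHom ℂ)).eval q = ∏ i ∈ s, (1 - q ^ (i + 1)) := by
  simp [brPoly, Polynomial.map_prod, Polynomial.eval_prod]

theorem brPoly_coe (s : Finset ℕ) :
    ((brPoly s : Polynomial ℤ) : PowerSeries ℤ) = ∏ i ∈ s, (1 - PowerSeries.X ^ (i + 1)) := by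
  have := map_prod (Polynomial.coeToPowerSeries.ringHom (R := ℤ))
    (fun i : ℕ => (1 - Polynomial.X ^ (i + 1) : Polynomial ℤ)) s
  simp only [Polynomial.coeToPowerSeries.ringHom_apply] at this
  rw [brPoly, this]
  refine Finset.prod_congr rfl fun i _ => ?_
  simp

/-- coefficientwise convergence of the formal partial products -/
theorem br_tendsto_coeff (k : ℕ) :
    Tendsto (fun s : Finset ℕ => (((brPoly s).coeff k : ℤ) : ℂ)) atTop
      (𝓝 ((ModularCurve.etaProd.coeff k : ℤ) : ℂ)) := by
  have h1 : HasProd (fun n : ℕ => (1 : PowerSeries ℤ) - PowerSeries.X ^ (n + 1))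
      ModularCurve.etaProd :=
    (PowerSeries.WithPiTopology.multipliable_one_sub_X_pow ℤ).hasProd
  have h2 : Tendsto (fun s : Finset ℕ => ∏ i ∈ s, ((1 : PowerSeries ℤ) - PowerSeries.X ^ (i + 1)))
      atTop (𝓝 ModularCurve.etaProd) := by
    simpa [HasProd] using h1
  have h3 := ((PowerSeries.WithPiTopology.continuous_coeff ℤ k).tendsto _).comp h2
  have h4 : Continuous (fun n : ℤ => (n : ℂ)) := continuous_of_discreteTopology
  have h5 := (h4.tendsto _).comp h3
  refine h5.congr fun s => ?_
  simp only [Function.comp_apply]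
  rw [← brPoly_coe, Polynomial.coeff_coe]

/-- **Formal vs analytic Euler product**: the Taylor coefficients at `0` of `∏' (1 - q^(n+1))`
are the coefficients of the formal product `etaProd`. -/
theorem br_iteratedDeriv_tprod (k : ℕ) :
    iteratedDeriv k (fun q : ℂ => ∏' n : ℕ, (1 - q ^ (n + 1))) 0 =
      (k.factorial : ℂ) * ((ModularCurve.etaProd.coeff k : ℤ) : ℂ) := by
  have h1 : TendstoLocallyUniformlyOn (fun (s : Finset ℕ) (q : ℂ) => ∏ i ∈ s, (1 - q ^ (i + 1)))
      (fun q : ℂ => ∏' n : ℕ, (1 - q ^ (n + 1))) atTop (Metric.ball (0 : ℂ) 1) :=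
    hasProdLocallyUniformlyOn_iff_tendstoLocallyUniformlyOn.mp
      ModularForm.multipliableLocallyUniformlyOn_one_sub_pow.hasProdLocallyUniformlyOn
  have h2 : ∀ᶠ s : Finset ℕ in atTop,
      DifferentiableOn ℂ (fun q : ℂ => ∏ i ∈ s, (1 - q ^ (i + 1))) (Metric.ball (0 : ℂ) 1) := by
    refine Eventually.of_forall fun s => ?_
    exact DifferentiableOn.fun_finsetProd fun i _ => by fun_prop
  have h3 := ((br_tendsto_iteratedDeriv Metric.isOpen_ball h2 h1 k).1).tendsto_at
    (Metric.mem_ball_self one_pos)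
  have h4 : ∀ s : Finset ℕ, iteratedDeriv k (fun q : ℂ => ∏ i ∈ s, (1 - q ^ (i + 1))) 0 =
      (k.factorial : ℂ) * (((brPoly s).coeff k : ℤ) : ℂ) := by
    intro s
    have := br_iteratedDeriv_polynomial ((brPoly s).map (Int.castRingHom ℂ)) k
    rw [Polynomial.coeff_map, eq_intCast] at this
    rw [← this]
    congr 1
    ext q
    rw [brPoly_eval]
  simp only [h4] at h3
  exact tendsto_nhds_unique h3 ((br_tendsto_coeff k).const_mul _)

/-! ## The Taylor series operator -/

/-- the Taylor series at `0` of a function `ℂ → ℂ` -/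
def brTaylor (f : ℂ → ℂ) : PowerSeries ℂ :=
  .mk fun m => ((m.factorial : ℂ))⁻¹ * iteratedDeriv m f 0

theorem brTaylor_coeff (f : ℂ → ℂ) (m : ℕ) :
    (brTaylor f).coeff m = ((m.factorial : ℂ))⁻¹ * iteratedDeriv m f 0 := by
  simp [brTaylor]

theorem brTaylor_congr {f g : ℂ → ℂ} (h : f =ᶠ[𝓝 0] g) : brTaylor f = brTaylor g := by
  ext m
  rw [brTaylor_coeff, brTaylor_coeff, h.iteratedDeriv_eq]

theorem brTaylor_mul {f g : ℂ → ℂ} (hf : AnalyticAt ℂ f 0) (hg : AnalyticAt ℂ g 0) :
    brTaylor (f * g) = brTaylor f * brTaylor g := by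
  ext
  simp only [brTaylor_coeff,
    iteratedDeriv_mul hf.contDiffAt hg.contDiffAt, Finset.mul_sum, PowerSeries.coeff_mul,
    Finset.Nat.sum_antidiagonal_eq_sum_range_succ_mk, Nat.succ_eq_add_one]
  refine Finset.sum_congr rfl fun i hi ↦ ?_
  rw [Nat.cast_choose _ (by grind)]
  field_simp [Nat.factorial_ne_zero]

theorem brTaylor_polynomial (p : Polynomial ℂ) :
    brTaylor (fun x => p.eval x) = (p : PowerSeries ℂ) := by
  ext m
  rw [brTaylor_coeff, br_iteratedDeriv_polynomial, Polynomial.coeff_coe, ← mul_assoc,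
    inv_mul_cancel₀ (by exact_mod_cast Nat.factorial_ne_zero m), one_mul]

theorem brTaylor_one : brTaylor (1 : ℂ → ℂ) = 1 := by
  have := brTaylor_polynomial 1
  simpa [Pi.one_def] using this

theorem brTaylor_id : brTaylor (fun q : ℂ => q) = PowerSeries.X := by
  have := brTaylor_polynomial Polynomial.X
  simpa using this

theorem brTaylor_pow {f : ℂ → ℂ} (hf : AnalyticAt ℂ f 0) (n : ℕ) :
    brTaylor (f ^ n) = brTaylor f ^ n := by
  induction n with
  | zero => simp [brTaylor_one]
  | succ n ih =>
    rw [pow_succ, pow_succ, brTaylor_mul (hf.pow n) hf, ih]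

theorem brTaylor_cuspFunction (f : ℍ → ℂ) : brTaylor (cuspFunction 1 f) = qExpansion 1 f := by
  ext m
  rw [brTaylor_coeff, qExpansion_coeff]

/-- the Taylor series of the analytic Euler product is the formal Euler product -/
theorem br_taylor_tprod :
    brTaylor (fun q : ℂ => ∏' n : ℕ, (1 - q ^ (n + 1))) =
      ModularCurve.etaProd.map (Int.castRingHom ℂ) := by
  ext m
  rw [brTaylor_coeff, br_iteratedDeriv_tprod, PowerSeries.coeff_map, eq_intCast, ← mul_assoc,
    inv_mul_cancel₀ (by exact_mod_cast Nat.factorial_ne_zero m), one_mul]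

theorem br_analyticAt_tprod :
    AnalyticAt ℂ (fun q : ℂ => ∏' n : ℕ, (1 - q ^ (n + 1))) 0 :=
  ModularForm.differentiableOn_tprod_one_sub_pow.analyticAt
    (Metric.ball_mem_nhds 0 one_pos)

/-! ## B2: the `q`-expansion of `Δ` -/

/-- **Formal Jacobi product**: `qexp Δ = X * ∏ (1 - X^n)^24`. -/
theorem br_qExpansion_discriminant :
    qExpansion 1 ModularForm.discriminant =
      PowerSeries.X * ModularCurve.dedekindEtaUnit.map (Int.castRingHom ℂ) := by
  rw [← brTaylor_cuspFunction]
  have h1 : cuspFunction 1 ModularForm.discriminant =ᶠ[𝓝 0]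
      ((fun q : ℂ => q) * (fun q : ℂ => ∏' n : ℕ, (1 - q ^ (n + 1))) ^ 24) := by
    filter_upwards [Metric.ball_mem_nhds (0 : ℂ) one_pos] with q hq
    rw [ModularForm.discriminant_cuspFunction_eqOn hq]
    simp only [Pi.mul_apply, Pi.pow_apply]
    rw [(ModularForm.multipliable_one_sub_pow (by simpa using hq)).tprod_pow 24]
  rw [brTaylor_congr h1, brTaylor_mul (by fun_prop) (br_analyticAt_tprod.pow 24), brTaylor_id,
    brTaylor_pow br_analyticAt_tprod, br_taylor_tprod, ModularCurve.dedekindEtaUnit, map_pow]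

/-! ## B1: the `q`-expansion of `E₄` -/

theorem br_qExpansion_E4 :
    qExpansion 1 E₄ = ModularCurve.eisenstein4.map (Int.castRingHom ℂ) := by
  ext n
  rw [EisensteinSeries.E_qExpansion_coeff _ ⟨2, rfl⟩, PowerSeries.coeff_map,
    ModularCurve.eisenstein4, PowerSeries.coeff_mk]
  have hb : bernoulli 4 = -1 / 30 := by decide +kernel
  split_ifs with h
  · simp
  · rw [hb, ArithmeticFunction.sigma_apply]
    push_cast
    norm_num

end Fermat.Agent.S24
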