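import Mathlib
import Fermat.Prelude.Def_ModularCurve_X0
import Fermat.Prelude.Def_ModularCurve_LaurentCoeff
import Fermat.Agent.S23.QRing
import Fermat.Agent.S23.PrimElt
import Fermat.Agent.S24.Ord
import Fermat.Agent.S24.Bridge

/-!
# S24, package ANA-BRIDGE (part 2): the prelude's formal `jq`, `qExpand d jq` are the Laurent
`q`-expansions of the analytic `J = E₄³/Δ` and of `J(d τ)`

* formal side: `coeffMap`, `qExpand` and `ofPowerSeries` commute (`br_coeffMap_ofPowerSeries`,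
  `br_qExpand_ofPowerSeries`, `br_coeffMap_qExpand`);
* `br_jq_spec` : `qexp(Δ) * jq = qexp(E₄)^3` in `ℂ((q))`;
* `br_comp_mulN_mem`, `br_qExpansion_comp_mulN` : for `F` in `qr_ring`, `τ ↦ F (d τ)` is in
  `qr_ring` and its `q`-expansion is `PowerSeries.expand d` of that of `F`;
* `br_jqd_spec` : `qexp(Δ(d ·)) * qExpand d jq = qexp(E₄(d ·)^3)` in `ℂ((q))`;
* `br_Jd`, `br_Jd_mul_disc` : the function `J(d τ)` and `J(d τ) * Δ(d τ) = E₄(d τ)^3`.
-/

set_option autoImplicit false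

noncomputable section

open UpperHalfPlane hiding I
open Filter Topology ModularForm
open scoped Manifold MatrixGroups ModularForm CongruenceSubgroup
open Fermat.Agent.S23

namespace Fermat.Agent.S24

local notation "Δ" => ModularForm.discriminant

/-! ## Formal side -/

section formal

variable {R S : Type*} [CommRing R] [CommRing S]

theorem br_coeffMap_ofPowerSeries (f : R →+* S) (p : PowerSeries R) :
    ModularCurve.coeffMap f (HahnSeries.ofPowerSeries ℤ R p) =
      HahnSeries.ofPowerSeries ℤ S (p.map f) := by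
  ext k
  rw [ModularCurve.coeffMap_coeff]
  rcases lt_or_ge k 0 with hk | hk
  · rw [ModularCurve.ofPowerSeries_coeff_of_neg _ hk, ModularCurve.ofPowerSeries_coeff_of_neg _ hk,
      map_zero]
  · lift k to ℕ using hk
    rw [HahnSeries.ofPowerSeries_apply_coeff, HahnSeries.ofPowerSeries_apply_coeff,
      PowerSeries.coeff_map]

theorem br_qExpand_ofPowerSeries (d : ℕ) [NeZero d] (p : PowerSeries R) :
    ModularCurve.qExpand R d (HahnSeries.ofPowerSeries ℤ R p) =
      HahnSeries.ofPowerSeries ℤ R (PowerSeries.expand d (NeZero.ne d) p) := by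
  ext k
  by_cases hk : (d : ℤ) ∣ k
  · obtain ⟨m, rfl⟩ := hk
    rw [ModularCurve.qExpand_coeff_mul]
    rcases lt_or_ge m 0 with hm | hm
    · rw [ModularCurve.ofPowerSeries_coeff_of_neg _ hm, ModularCurve.ofPowerSeries_coeff_of_neg]
      have hd : (0 : ℤ) < d := by exact_mod_cast NeZero.pos d
      exact mul_neg_of_pos_of_neg hd hm
    · lift m to ℕ using hm
      rw [HahnSeries.ofPowerSeries_apply_coeff, show ((d : ℤ) * (m : ℤ)) = ((d * m : ℕ) : ℤ) by
        push_cast; ring, HahnSeries.ofPowerSeries_apply_coeff, PowerSeries.coeff_expand_mul]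
  · rw [ModularCurve.qExpand_coeff_of_not_dvd _ _ hk]
    rcases lt_or_ge k 0 with hk0 | hk0
    · rw [ModularCurve.ofPowerSeries_coeff_of_neg _ hk0]
    · lift k to ℕ using hk0
      rw [HahnSeries.ofPowerSeries_apply_coeff, PowerSeries.coeff_expand_of_not_dvd]
      intro h
      exact hk (by exact_mod_cast h)

theorem br_coeffMap_qExpand (f : R →+* S) (d : ℕ) [NeZero d] (x : LaurentSeries R) :
    ModularCurve.coeffMap f (ModularCurve.qExpand R d x) =
      ModularCurve.qExpand S d (ModularCurve.coeffMap f x) := by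
  ext k
  rw [ModularCurve.coeffMap_coeff]
  by_cases hk : (d : ℤ) ∣ k
  · obtain ⟨m, rfl⟩ := hk
    rw [ModularCurve.qExpand_coeff_mul, ModularCurve.qExpand_coeff_mul,
      ModularCurve.coeffMap_coeff]
  · rw [ModularCurve.qExpand_coeff_of_not_dvd _ _ hk, ModularCurve.qExpand_coeff_of_not_dvd _ _ hk,
      map_zero]

end formal

/-- `jq` with complex coefficients is `q⁻¹ * jNum`. -/
theorem br_coeffEmb_jq :
    ModularCurve.coeffEmb ℂ ModularCurve.jq =
      HahnSeries.single (-1 : ℤ) (1 : ℂ) *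
        HahnSeries.ofPowerSeries ℤ ℂ (ModularCurve.jNum.map (Int.castRingHom ℂ)) := by
  have h : (ModularCurve.jNum.map (Int.castRingHom ℚ)).map (algebraMap ℚ ℂ) =
      ModularCurve.jNum.map (Int.castRingHom ℂ) := by
    ext n
    simp
  rw [ModularCurve.jq, ModularCurve.coeffEmb, map_mul, ModularCurve.coeffMap_single, map_one,
    br_coeffMap_ofPowerSeries, ModularCurve.jNumQ, h]

/-- **B3 (formal part)**: `(X * dedekindEtaUnit) * jq = eisenstein4 ^ 3` in `ℂ((q))`. -/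
theorem br_formal_jq :
    HahnSeries.ofPowerSeries ℤ ℂ
        (PowerSeries.X * ModularCurve.dedekindEtaUnit.map (Int.castRingHom ℂ)) *
      ModularCurve.coeffEmb ℂ ModularCurve.jq =
    HahnSeries.ofPowerSeries ℤ ℂ ((ModularCurve.eisenstein4.map (Int.castRingHom ℂ)) ^ 3) := by
  rw [br_coeffEmb_jq, map_mul, HahnSeries.ofPowerSeries_X]
  have h1 : (HahnSeries.single (1 : ℤ) (1 : ℂ)) * HahnSeries.single (-1 : ℤ) (1 : ℂ) = 1 := by
    rw [HahnSeries.single_mul_single]
    simp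
  have h2 : ModularCurve.dedekindEtaUnit.map (Int.castRingHom ℂ) *
      ModularCurve.jNum.map (Int.castRingHom ℂ) =
      (ModularCurve.eisenstein4.map (Int.castRingHom ℂ)) ^ 3 := by
    rw [← map_mul, ← map_pow]
    congr 1
    rw [ModularCurve.jNum, mul_comm (ModularCurve.eisenstein4 ^ 3), ← mul_assoc,
      ModularCurve.dedekindEtaUnit_mul_inv, one_mul]
  rw [← h2, map_mul]
  calc HahnSeries.single (1 : ℤ) (1 : ℂ) * (HahnSeries.ofPowerSeries ℤ ℂ)
          ((PowerSeries.map (Int.castRingHom ℂ)) ModularCurve.dedekindEtaUnit) *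
        (HahnSeries.single (-1 : ℤ) (1 : ℂ) * (HahnSeries.ofPowerSeries ℤ ℂ)
          ((PowerSeries.map (Int.castRingHom ℂ)) ModularCurve.jNum))
      = (HahnSeries.single (1 : ℤ) (1 : ℂ) * HahnSeries.single (-1 : ℤ) (1 : ℂ)) *
        ((HahnSeries.ofPowerSeries ℤ ℂ)
          ((PowerSeries.map (Int.castRingHom ℂ)) ModularCurve.dedekindEtaUnit) *
          (HahnSeries.ofPowerSeries ℤ ℂ)
          ((PowerSeries.map (Int.castRingHom ℂ)) ModularCurve.jNum)) := by ring
    _ = _ := by rw [h1, one_mul]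

/-- **B3**: the Laurent series `jq` (with complex coefficients) is the quotient of the
`q`-expansions of `E₄ ^ 3` and `Δ`. -/
theorem br_jq_spec :
    HahnSeries.ofPowerSeries ℤ ℂ (qExpansion 1 ModularForm.discriminant) *
      ModularCurve.coeffEmb ℂ ModularCurve.jq =
    HahnSeries.ofPowerSeries ℤ ℂ (qExpansion 1 E₄ ^ 3) := by
  rw [br_qExpansion_discriminant, br_qExpansion_E4]
  exact br_formal_jq

/-! ## Analytic side: `τ ↦ F (d τ)` -/

theorem br_mulN_vadd (d : ℕ) (hd : 0 < d) (τ : ℍ) :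
    pe_mulN d hd ((1 : ℝ) +ᵥ τ) = ((d : ℕ) : ℝ) +ᵥ pe_mulN d hd τ := by
  apply UpperHalfPlane.ext
  simp [pe_mulN_coe, UpperHalfPlane.coe_vadd]
  ring

theorem br_vadd_nat {F : ℍ → ℂ} (hF : ∀ τ : ℍ, F ((1 : ℝ) +ᵥ τ) = F τ) (n : ℕ) (τ : ℍ) :
    F (((n : ℕ) : ℝ) +ᵥ τ) = F τ := by
  induction n with
  | zero => simp
  | succ n ih =>
    have : (((n + 1 : ℕ) : ℝ)) +ᵥ τ = (1 : ℝ) +ᵥ (((n : ℕ) : ℝ) +ᵥ τ) := by
      apply UpperHalfPlane.ext
      simp [UpperHalfPlane.coe_vadd]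
      ring
    rw [this, hF, ih]

theorem br_mdiff_comp_mulN {F : ℍ → ℂ} (hF : MDiff F) (d : ℕ) (hd : 0 < d) :
    MDiff (fun τ => F (pe_mulN d hd τ)) := by
  rw [UpperHalfPlane.mdifferentiable_iff]
  have h1 : DifferentiableOn ℂ (F ∘ ofComplex) {z | 0 < z.im} :=
    UpperHalfPlane.mdifferentiable_iff.mp hF
  have h2 : DifferentiableOn ℂ (fun z : ℂ => (d : ℂ) * z) {z | 0 < z.im} := by
    fun_prop
  have hN' : (0 : ℝ) < d := by exact_mod_cast hd
  have hmaps : Set.MapsTo (fun z : ℂ => (d : ℂ) * z) {z | 0 < z.im} {z | 0 < z.im} := by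
    intro z hz
    simp only [Set.mem_ofPred_eq] at hz ⊢
    simp only [Complex.mul_im, Complex.natCast_re, Complex.natCast_im, zero_mul, add_zero]
    positivity
  have h3 := h1.comp h2 hmaps
  refine h3.congr ?_
  intro z hz
  simp only [Set.mem_ofPred_eq] at hz
  have hz' : 0 < ((d : ℂ) * z).im := hmaps hz
  simp only [Function.comp_apply]
  congr 1
  apply UpperHalfPlane.ext
  rw [pe_mulN_coe, ofComplex_apply_of_im_pos hz, ofComplex_apply_of_im_pos hz']

/-- `τ ↦ F (d τ)` is `q`-expandable if `F` is. -/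
theorem br_comp_mulN_mem {F : ℍ → ℂ} (hF : F ∈ qr_ring) (d : ℕ) (hd : 0 < d) :
    (fun τ => F (pe_mulN d hd τ)) ∈ qr_ring := by
  refine ⟨br_mdiff_comp_mulN hF.1 d hd, fun τ => ?_, ?_⟩
  · simp only
    rw [br_mulN_vadd, br_vadd_nat hF.2.1]
  · exact hF.2.2.comp_tendsto (pe_tendsto_mulN d hd)

/-- uniqueness of `q`-expansion coefficients, for plain functions -/
theorem br_qExpansion_coeff_unique {f : ℍ → ℂ} {c : ℕ → ℂ}
    (hfanalytic : AnalyticAt ℂ (cuspFunction 1 f) 0)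
    (hf : ∀ τ : ℍ, HasSum (fun m ↦ c m • Function.Periodic.qParam 1 τ ^ m) (f τ)) (m : ℕ) :
    c m = (qExpansion 1 f).coeff m := by
  let _i : FunLike (ℍ → ℂ) ℍ ℂ := { coe := fun g => g, coe_injective := fun _ _ h => h }
  exact UpperHalfPlane.qExpansion_coeff_unique (F := ℍ → ℂ) f one_pos hfanalytic hf m

/-- the `q`-expansion of `τ ↦ F (d τ)` is obtained by `q ↦ q ^ d`. -/
theorem br_qExpansion_comp_mulN {F : ℍ → ℂ} (hF : F ∈ qr_ring) (d : ℕ) (hd : 0 < d) :
    qExpansion 1 (fun τ => F (pe_mulN d hd τ)) =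
      PowerSeries.expand d hd.ne' (qExpansion 1 F) := by
  have ha : AnalyticAt ℂ (cuspFunction 1 (fun τ => F (pe_mulN d hd τ))) 0 :=
    qr_IsNice.analyticAt (br_comp_mulN_mem hF d hd)
  have key : ∀ z : ℍ, HasSum (fun m : ℕ =>
      PowerSeries.coeff m (PowerSeries.expand d hd.ne' (qExpansion 1 F)) •
      Function.Periodic.qParam 1 z ^ m) (F (pe_mulN d hd z)) := by
    intro z
    have h1 := qr_hasSum hF (pe_mulN d hd z)
    rw [pe_qParam_mulN] at h1
    have hinj : Function.Injective (fun m : ℕ => d * m) := by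
      intro m m' hmm
      exact Nat.eq_of_mul_eq_mul_left hd hmm
    refine (hinj.hasSum_iff ?_).mp ?_
    · intro x hx
      have hx' : ¬ d ∣ x := by
        rintro ⟨m, rfl⟩
        exact hx ⟨m, rfl⟩
      rw [PowerSeries.coeff_expand_of_not_dvd d hd.ne' _ hx', zero_smul]
    · have h2 : ((fun m : ℕ =>
          PowerSeries.coeff m (PowerSeries.expand d hd.ne' (qExpansion 1 F)) •
          Function.Periodic.qParam 1 (z : ℂ) ^ m) ∘ fun m : ℕ => d * m) =
          fun m : ℕ => (qExpansion 1 F).coeff m •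
            (Function.Periodic.qParam 1 (z : ℂ) ^ d) ^ m := by
        funext m
        simp only [Function.comp_apply]
        rw [PowerSeries.coeff_expand_mul, pow_mul]
      rw [h2]
      exact h1
  ext n
  exact (br_qExpansion_coeff_unique ha key n).symm

/-! ## `J (d τ)` -/

/-- the function `τ ↦ J (d τ)` -/
def br_Jd (d : ℕ) (hd : 0 < d) (τ : ℍ) : ℂ := ord_J (pe_mulN d hd τ)

theorem br_Jd_def (d : ℕ) (hd : 0 < d) (τ : ℍ) : br_Jd d hd τ = ord_J (pe_mulN d hd τ) := rfl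

theorem br_Jd_mul_disc (d : ℕ) (hd : 0 < d) (τ : ℍ) :
    br_Jd d hd τ * Δ (pe_mulN d hd τ) = E₄ (pe_mulN d hd τ) ^ 3 :=
  ord_J_mul_disc _

theorem br_mdiff_Jd (d : ℕ) (hd : 0 < d) : MDiff (br_Jd d hd) :=
  br_mdiff_comp_mulN ord_mdiff_J d hd

theorem br_Jd_one (τ : ℍ) : br_Jd 1 one_pos τ = ord_J τ := by
  rw [br_Jd]
  congr 1
  apply UpperHalfPlane.ext
  simp [pe_mulN_coe]

theorem br_disc_mem : (Δ : ℍ → ℂ) ∈ qr_ring := by
  have h := qr_mem_of_cuspForm one_mem_strictPeriods_SL CuspForm.discriminant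
  rwa [CuspForm.coe_discriminant] at h

/-- `Δ (d τ)` is in `qr_ring` -/
theorem br_disc_d_mem (d : ℕ) (hd : 0 < d) :
    (fun τ => Δ (pe_mulN d hd τ)) ∈ qr_ring :=
  br_comp_mulN_mem br_disc_mem d hd

/-- `E₄ (d τ)` is in `qr_ring` -/
theorem br_E4_d_mem (d : ℕ) (hd : 0 < d) :
    (fun τ => E₄ (pe_mulN d hd τ)) ∈ qr_ring :=
  br_comp_mulN_mem ord_E4_mem d hd

theorem br_qExpansion_disc_d_ne_zero (d : ℕ) (hd : 0 < d) :
    qExpansion 1 (fun τ => Δ (pe_mulN d hd τ)) ≠ 0 := by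
  intro h
  have h2 := (qr_qExpansion_eq_zero_iff (br_disc_d_mem d hd)).mp h
  have h3 := congrFun h2 UpperHalfPlane.I
  exact ord_disc_ne_zero _ h3

/-- **B3, level `d`**: `qExpand d jq` (with complex coefficients) is the quotient of the
`q`-expansions of `E₄(d τ) ^ 3` and `Δ(d τ)`. -/
theorem br_jqd_spec (d : ℕ) [NeZero d] :
    HahnSeries.ofPowerSeries ℤ ℂ (qExpansion 1 (fun τ => Δ (pe_mulN d (NeZero.pos d) τ))) *
      ModularCurve.coeffEmb ℂ (ModularCurve.qExpand ℚ d ModularCurve.jq) =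
    HahnSeries.ofPowerSeries ℤ ℂ (qExpansion 1 (fun τ => E₄ (pe_mulN d (NeZero.pos d) τ)) ^ 3) := by
  rw [br_qExpansion_comp_mulN br_disc_mem, br_qExpansion_comp_mulN ord_E4_mem,
    ModularCurve.coeffEmb, br_coeffMap_qExpand, ← map_pow, ← br_qExpand_ofPowerSeries,
    ← br_qExpand_ofPowerSeries, ← map_mul]
  congr 1
  exact br_jq_spec

end Fermat.Agent.S24
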