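import Mathlib
import Fermat.Prelude.Def_ModularCurve_X0
import Fermat.Prelude.Def_ModularCurve_LaurentCoeff
import Fermat.Agent.S23.QRing
import Fermat.Agent.S23.PrimElt
import Fermat.Agent.S24.Ord
import Fermat.Agent.S24.Bridge
import Fermat.Agent.S24.BridgeJ

/-!
# S24, package ANA-BRIDGE (part 3): `q * J` is `q`-expandable with `q`-expansion `jNum`

* `br_qJ_mem`, `br_qExpansion_qJ` : `τ ↦ q(τ) J(τ)` lies in `qr_ring` and its `q`-expansion is
  the prelude's `jNum` (so `J = q⁻¹ * jNum(q)`);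
* `br_qJd_mem`, `br_qExpansion_qJd` : the same for `τ ↦ q(τ)^d J(d τ)`, with `expand d jNum`;
* `br_hasSum_qJd` : the corresponding convergent expansion.
-/

set_option autoImplicit false

noncomputable section

open UpperHalfPlane hiding I
open Filter Topology ModularForm Complex
open scoped Manifold MatrixGroups ModularForm CongruenceSubgroup Real
open Fermat.Agent.S23

namespace Fermat.Agent.S24

local notation "Δ" => ModularForm.discriminant
local notation "𝕢" => Function.Periodic.qParam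

/-! ## the function `q` -/

theorem br_mdiff_q : MDiff (fun τ : ℍ => 𝕢 1 (τ : ℂ)) := by
  rw [UpperHalfPlane.mdifferentiable_iff]
  have h : DifferentiableOn ℂ (fun z : ℂ => 𝕢 1 z) {z | 0 < z.im} := by
    intro z _
    exact (ord_hasDerivAt_qParam z).differentiableAt.differentiableWithinAt
  refine h.congr ?_
  intro z hz
  simp only [Set.mem_ofPred_eq] at hz
  simp only [Function.comp_apply, ofComplex_apply_of_im_pos hz]

theorem br_q_add_one (z : ℂ) : 𝕢 1 (z + 1) = 𝕢 1 z := by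
  simp only [Function.Periodic.qParam, ofReal_one, div_one]
  rw [mul_add, Complex.exp_add, mul_one, Complex.exp_two_pi_mul_I, mul_one]

theorem br_q_vadd (τ : ℍ) : 𝕢 1 (((1 : ℝ) +ᵥ τ : ℍ) : ℂ) = 𝕢 1 (τ : ℂ) := by
  rw [UpperHalfPlane.coe_vadd, add_comm]
  simpa using br_q_add_one (τ : ℂ)

theorem br_q_mem : (fun τ : ℍ => 𝕢 1 (τ : ℂ)) ∈ qr_ring := by
  refine ⟨br_mdiff_q, br_q_vadd, ?_⟩
  exact (qParam_tendsto_atImInfty (h := 1) one_pos).isBigO_one ℝ

theorem br_qExpansion_q : qExpansion 1 (fun τ : ℍ => 𝕢 1 (τ : ℂ)) = PowerSeries.X := by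
  ext n
  symm
  rw [PowerSeries.coeff_X]
  refine br_qExpansion_coeff_unique (c := fun n => if n = 1 then (1 : ℂ) else 0)
    (qr_IsNice.analyticAt br_q_mem) ?_ n
  intro τ
  have h := hasSum_ite_eq (1 : ℕ) (𝕢 1 (τ : ℂ))
  refine h.congr_fun ?_
  intro m
  by_cases hm : m = 1
  · subst hm
    simp
  · simp [hm]

/-! ## the unit `V = q / Δ` -/

/-- `V = q / Δ` -/
def br_V (τ : ℍ) : ℂ := 𝕢 1 (τ : ℂ) / Δ τ

theorem br_V_mul_disc (τ : ℍ) : br_V τ * Δ τ = 𝕢 1 (τ : ℂ) := by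
  rw [br_V, div_mul_cancel₀ _ (ord_disc_ne_zero τ)]

theorem br_V_tendsto : Tendsto br_V atImInfty (𝓝 1) := by
  have h := ord_disc_div_q_tendsto.inv₀ one_ne_zero
  rw [inv_one] at h
  refine h.congr fun τ => ?_
  rw [br_V, inv_div]

theorem br_V_mem : br_V ∈ qr_ring := by
  refine ⟨?_, fun τ => ?_, br_V_tendsto.isBigO_one ℝ⟩
  · have h : br_V = (fun τ : ℍ => 𝕢 1 (τ : ℂ)) / (fun τ : ℍ => Δ τ) := by
      funext τ; rfl
    rw [h]
    exact br_mdiff_q.div ord_mdiff_disc ord_disc_ne_zero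
  · rw [br_V, br_V, br_q_vadd, br_disc_mem.2.1]

theorem br_qExpansion_V :
    qExpansion 1 br_V = ModularCurve.dedekindEtaUnitInv.map (Int.castRingHom ℂ) := by
  have h1 : qExpansion 1 (br_V * Δ) = qExpansion 1 br_V * qExpansion 1 Δ :=
    qr_qExpansion_mul br_V_mem br_disc_mem
  have h2 : (br_V * Δ) = fun τ : ℍ => 𝕢 1 (τ : ℂ) := by
    funext τ
    exact br_V_mul_disc τ
  rw [h2, br_qExpansion_q, br_qExpansion_discriminant] at h1
  have h3 : qExpansion 1 br_V * ModularCurve.dedekindEtaUnit.map (Int.castRingHom ℂ) = 1 := by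
    have h4 : PowerSeries.X * (qExpansion 1 br_V *
        ModularCurve.dedekindEtaUnit.map (Int.castRingHom ℂ)) = PowerSeries.X * 1 := by
      rw [mul_one]
      calc PowerSeries.X * (qExpansion 1 br_V *
            ModularCurve.dedekindEtaUnit.map (Int.castRingHom ℂ))
          = qExpansion 1 br_V * (PowerSeries.X *
            ModularCurve.dedekindEtaUnit.map (Int.castRingHom ℂ)) := by ring
        _ = PowerSeries.X := h1.symm
    exact mul_left_cancel₀ PowerSeries.X_ne_zero h4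
  have h5 : ModularCurve.dedekindEtaUnit.map (Int.castRingHom ℂ) *
      ModularCurve.dedekindEtaUnitInv.map (Int.castRingHom ℂ) = 1 := by
    rw [← map_mul, ModularCurve.dedekindEtaUnit_mul_inv, map_one]
  calc qExpansion 1 br_V
      = qExpansion 1 br_V * (ModularCurve.dedekindEtaUnit.map (Int.castRingHom ℂ) *
          ModularCurve.dedekindEtaUnitInv.map (Int.castRingHom ℂ)) := by rw [h5, mul_one]
    _ = (qExpansion 1 br_V * ModularCurve.dedekindEtaUnit.map (Int.castRingHom ℂ)) *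
          ModularCurve.dedekindEtaUnitInv.map (Int.castRingHom ℂ) := by ring
    _ = _ := by rw [h3, one_mul]

/-! ## `q * J` -/

/-- `q * J` -/
def br_qJ (τ : ℍ) : ℂ := 𝕢 1 (τ : ℂ) * ord_J τ

theorem br_qJ_eq (τ : ℍ) : br_qJ τ = E₄ τ ^ 3 * br_V τ := by
  rw [br_qJ, br_V, ord_J_def]
  ring

theorem br_qJ_mem : br_qJ ∈ qr_ring := by
  have h : br_qJ = (⇑E₄ : ℍ → ℂ) ^ 3 * br_V := by
    funext τ
    exact br_qJ_eq τ
  rw [h]
  exact qr_ring.mul_mem (qr_ring.pow_mem ord_E4_mem 3) br_V_mem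

/-- **B4a**: the `q`-expansion of `q * J` is the prelude's `jNum`. -/
theorem br_qExpansion_qJ :
    qExpansion 1 br_qJ = ModularCurve.jNum.map (Int.castRingHom ℂ) := by
  have h : br_qJ = (⇑E₄ : ℍ → ℂ) ^ 3 * br_V := by
    funext τ
    exact br_qJ_eq τ
  rw [h, qr_qExpansion_mul (qr_ring.pow_mem ord_E4_mem 3) br_V_mem,
    qr_qExpansion_pow ord_E4_mem, br_qExpansion_E4, br_qExpansion_V, ModularCurve.jNum,
    map_mul, map_pow]

/-! ## `q ^ d * J (d τ)` -/

/-- `q ^ d * J (d τ)` -/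
def br_qJd (d : ℕ) (hd : 0 < d) (τ : ℍ) : ℂ := 𝕢 1 (τ : ℂ) ^ d * ord_J (pe_mulN d hd τ)

theorem br_qJd_eq (d : ℕ) (hd : 0 < d) (τ : ℍ) : br_qJd d hd τ = br_qJ (pe_mulN d hd τ) := by
  rw [br_qJd, br_qJ, pe_qParam_mulN]

theorem br_qJd_mem (d : ℕ) (hd : 0 < d) : br_qJd d hd ∈ qr_ring := by
  have h : br_qJd d hd = fun τ => br_qJ (pe_mulN d hd τ) := by
    funext τ
    exact br_qJd_eq d hd τ
  rw [h]
  exact br_comp_mulN_mem br_qJ_mem d hd

/-- **B4b**: the `q`-expansion of `q ^ d * J (d τ)` is `jNum (q ^ d)`. -/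
theorem br_qExpansion_qJd (d : ℕ) (hd : 0 < d) :
    qExpansion 1 (br_qJd d hd) =
      PowerSeries.expand d hd.ne' (ModularCurve.jNum.map (Int.castRingHom ℂ)) := by
  have h : br_qJd d hd = fun τ => br_qJ (pe_mulN d hd τ) := by
    funext τ
    exact br_qJd_eq d hd τ
  rw [h, br_qExpansion_comp_mulN br_qJ_mem, br_qExpansion_qJ]

/-- coefficients of `jq` in terms of `jNum` -/
theorem br_jq_coeff (n : ℕ) :
    ModularCurve.jq.coeff ((n : ℤ) - 1) = ((ModularCurve.jNum.coeff n : ℤ) : ℚ) := by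
  rw [ModularCurve.jq, HahnSeries.coeff_single_mul, one_mul,
    show ((n : ℤ) - 1 - (-1)) = (n : ℤ) by ring, HahnSeries.ofPowerSeries_apply_coeff,
    ModularCurve.jNumQ, PowerSeries.coeff_map]
  rfl

theorem br_qExpansion_qJd_coeff (d : ℕ) (hd : 0 < d) (n : ℕ) :
    (qExpansion 1 (br_qJd d hd)).coeff n =
      if d ∣ n then ((ModularCurve.jq.coeff (((n / d : ℕ) : ℤ) - 1) : ℚ) : ℂ) else 0 := by
  rw [br_qExpansion_qJd, PowerSeries.coeff_expand]
  split_ifs with h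
  · rw [PowerSeries.coeff_map, br_jq_coeff]
    simp
  · rfl

/-- **B4d**: the convergent expansion of `q ^ d * J (d τ)`. -/
theorem br_hasSum_qJd (d : ℕ) (hd : 0 < d) (τ : ℍ) :
    HasSum (fun n : ℕ => ((ModularCurve.jNum.coeff n : ℤ) : ℂ) * 𝕢 1 (τ : ℂ) ^ (d * n))
      (𝕢 1 (τ : ℂ) ^ d * ord_J (pe_mulN d hd τ)) := by
  have h1 := qr_hasSum br_qJ_mem (pe_mulN d hd τ)
  rw [pe_qParam_mulN, br_qExpansion_qJ] at h1
  have h2 : br_qJ (pe_mulN d hd τ) = 𝕢 1 (τ : ℂ) ^ d * ord_J (pe_mulN d hd τ) := by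
    rw [← br_qJd_eq, br_qJd]
  rw [h2] at h1
  refine h1.congr_fun ?_
  intro n
  rw [PowerSeries.coeff_map, pow_mul, smul_eq_mul]
  rfl

/-- the convergent Laurent expansion of `J (d τ)`. -/
theorem br_hasSum_Jd (d : ℕ) (hd : 0 < d) (τ : ℍ) :
    HasSum (fun n : ℕ => ((ModularCurve.jNum.coeff n : ℤ) : ℂ) * 𝕢 1 (τ : ℂ) ^ (d * n) /
      𝕢 1 (τ : ℂ) ^ d) (ord_J (pe_mulN d hd τ)) := by
  have h := (br_hasSum_qJd d hd τ).div_const (𝕢 1 (τ : ℂ) ^ d)
  rwa [mul_div_cancel_left₀ _ (pow_ne_zero _ (Function.Periodic.qParam_ne_zero _))] at h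

/-! ## change of the parameter: `q_N = exp (2 π i τ / N)` -/

theorem br_qParam_level (N : ℕ) (hN : 0 < N) (z : ℂ) : 𝕢 (N : ℝ) z ^ N = 𝕢 1 z := by
  rw [Function.Periodic.qParam, Function.Periodic.qParam, ← Complex.exp_nat_mul]
  congr 1
  have hN0 : (N : ℂ) ≠ 0 := by
    exact_mod_cast hN.ne'
  push_cast
  field_simp

/-- uniqueness of `q`-expansion coefficients, for plain functions, any period -/
theorem br_qExpansion_coeff_unique' {h : ℝ} (hh : 0 < h) {f : ℍ → ℂ} {c : ℕ → ℂ}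
    (hfanalytic : AnalyticAt ℂ (cuspFunction h f) 0)
    (hf : ∀ τ : ℍ, HasSum (fun m ↦ c m • 𝕢 h τ ^ m) (f τ)) (m : ℕ) :
    c m = (qExpansion h f).coeff m := by
  let _i : FunLike (ℍ → ℂ) ℍ ℂ := { coe := fun g => g, coe_injective := fun _ _ h => h }
  exact UpperHalfPlane.qExpansion_coeff_unique (F := ℍ → ℂ) f hh hfanalytic hf m

theorem br_periodic_level (N : ℕ) {F : ℍ → ℂ} (hF : F ∈ qr_ring) :
    Function.Periodic (F ∘ ofComplex) ((N : ℝ) : ℂ) := by
  have h := (qr_periodic_of_vadd hF.2.1).nat_mul N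
  simpa using h

theorem br_analyticAt_level (N : ℕ) (hN : 0 < N) {F : ℍ → ℂ} (hF : F ∈ qr_ring) :
    AnalyticAt ℂ (cuspFunction (N : ℝ) F) 0 :=
  analyticAt_cuspFunction_zero (by exact_mod_cast hN) (br_periodic_level N hF) hF.1 hF.2.2

/-- **B4c**: the expansion in `q_N` of a `1`-periodic function is obtained from its
`q`-expansion by `q ↦ q_N ^ N`. -/
theorem br_qExpansion_level (N : ℕ) (hN : 0 < N) {F : ℍ → ℂ} (hF : F ∈ qr_ring) :
    qExpansion (N : ℝ) F = PowerSeries.expand N hN.ne' (qExpansion 1 F) := by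
  have key : ∀ z : ℍ, HasSum (fun m : ℕ =>
      PowerSeries.coeff m (PowerSeries.expand N hN.ne' (qExpansion 1 F)) •
      𝕢 (N : ℝ) z ^ m) (F z) := by
    intro z
    have h1 := qr_hasSum hF z
    rw [← br_qParam_level N hN] at h1
    have hinj : Function.Injective (fun m : ℕ => N * m) := by
      intro m m' hmm
      exact Nat.eq_of_mul_eq_mul_left hN hmm
    refine (hinj.hasSum_iff ?_).mp ?_
    · intro x hx
      have hx' : ¬ N ∣ x := by
        rintro ⟨m, rfl⟩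
        exact hx ⟨m, rfl⟩
      rw [PowerSeries.coeff_expand_of_not_dvd N hN.ne' _ hx', zero_smul]
    · have h2 : ((fun m : ℕ =>
          PowerSeries.coeff m (PowerSeries.expand N hN.ne' (qExpansion 1 F)) •
          𝕢 (N : ℝ) (z : ℂ) ^ m) ∘ fun m : ℕ => N * m) =
          fun m : ℕ => (qExpansion 1 F).coeff m • (𝕢 (N : ℝ) (z : ℂ) ^ N) ^ m := by
        funext m
        simp only [Function.comp_apply]
        rw [PowerSeries.coeff_expand_mul, pow_mul]
      rw [h2]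
      exact h1
  ext n
  exact (br_qExpansion_coeff_unique' (by exact_mod_cast hN) (br_analyticAt_level N hN hF)
    key n).symm

/-- the expansion in `q_N` of `q ^ d * J (d τ) = q_N ^ (N d) * J (d τ)` -/
theorem br_qExpansion_level_qJd (N : ℕ) (hN : 0 < N) (d : ℕ) (hd : 0 < d) :
    qExpansion (N : ℝ) (br_qJd d hd) =
      PowerSeries.expand (N * d) (Nat.mul_ne_zero hN.ne' hd.ne')
        (ModularCurve.jNum.map (Int.castRingHom ℂ)) := by
  rw [br_qExpansion_level N hN (br_qJd_mem d hd), br_qExpansion_qJd,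
    PowerSeries.expand_mul]

theorem br_qJd_eq_level (N : ℕ) (hN : 0 < N) (d : ℕ) (hd : 0 < d) (τ : ℍ) :
    br_qJd d hd τ = 𝕢 (N : ℝ) (τ : ℂ) ^ (N * d) * ord_J (pe_mulN d hd τ) := by
  rw [br_qJd, pow_mul, br_qParam_level N hN]

/-- the formal side of `ana_ev_spec` on the generator `j_d`:
`qExpand N (j_d) = q_N ^ (-(N d)) * jNum (q_N ^ (N d))`. -/
theorem br_formal_jqd (N : ℕ) [NeZero N] (d : ℕ) [NeZero d] :
    ModularCurve.qExpand ℂ N
        (ModularCurve.coeffEmb ℂ (ModularCurve.qExpand ℚ d ModularCurve.jq)) =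
      HahnSeries.single (-((N * d : ℕ) : ℤ)) (1 : ℂ) *
        HahnSeries.ofPowerSeries ℤ ℂ
          (PowerSeries.expand (N * d) (Nat.mul_ne_zero (NeZero.ne N) (NeZero.ne d))
            (ModularCurve.jNum.map (Int.castRingHom ℂ))) := by
  have _i : NeZero (N * d) := ⟨Nat.mul_ne_zero (NeZero.ne N) (NeZero.ne d)⟩
  rw [ModularCurve.coeffEmb, br_coeffMap_qExpand, ModularCurve.qExpand_qExpand,
    ← ModularCurve.coeffEmb, br_coeffEmb_jq, map_mul, ModularCurve.qExpand_single,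
    br_qExpand_ofPowerSeries, mul_neg_one]

end Fermat.Agent.S24
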