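import Mathlib
import Fermat.Agent.S23.PrimElt
import Fermat.Agent.S24.Defs
import Fermat.Agent.S24.Ord

/-!
# S24, package ANA-DIST: the conjugates of `J(N τ)` are pairwise distinct

For `g ∈ SL(2,ℤ)`: `J(N (g τ)) = J(N τ)` for all `τ` iff `g ∈ Γ₀(N)` (growth at `i∞` via the
Hermite normal form of `diag(N,1) g`).  Hence the functions `τ ↦ J(N (g⁻¹ τ))`, indexed by the
cosets `g Γ₀(N)`, are pairwise distinct.
-/

set_option autoImplicit false

noncomputable section

namespace Fermat.Agent.S24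

open UpperHalfPlane hiding I
open Filter Function Topology ModularForm Complex CongruenceSubgroup
open Fermat.Agent.S23
open scoped Manifold MatrixGroups ModularForm Real

local notation "Δ" => ModularForm.discriminant

/-- The function `τ ↦ J(N τ)`. -/
def distJN (N : ℕ) (hN : 0 < N) (τ : ℍ) : ℂ := ord_J (pe_mulN N hN τ)

theorem distJN_apply (N : ℕ) (hN : 0 < N) (τ : ℍ) : distJN N hN τ = ord_J (pe_mulN N hN τ) := rfl

/-- `J(N (g z)) = J((a z + b) / d)` for the Hermite data of `g`. -/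
theorem dist_JN_smul_eq (N : ℕ) (hN : 0 < N) (g γ : SL(2, ℤ)) (a b d : ℤ) (ha : 0 < a)
    (hd : 0 < d)
    (h00 : (N : ℤ) * g 0 0 = γ 0 0 * a) (h01 : (N : ℤ) * g 0 1 = γ 0 0 * b + γ 0 1 * d)
    (h10 : g 1 0 = γ 1 0 * a) (h11 : g 1 1 = γ 1 0 * b + γ 1 1 * d) (z : ℍ) :
    distJN N hN (g • z) = ord_J (pe_aff a b d ha hd z) := by
  rw [distJN_apply, pe_smul_eq N hN g γ a b d ha hd h00 h01 h10 h11 z, ord_J_smul]

/-- cross-multiplied form of `J w = J w'`. -/
theorem dist_cross {w w' : ℍ} (h : ord_J w = ord_J w') :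
    Δ w * E₄ w' ^ 3 = Δ w' * E₄ w ^ 3 := by
  have h1 := ord_J_mul_disc w
  have h2 := ord_J_mul_disc w'
  rw [← h1, ← h2, h]
  ring

/-- If `J(N (g z)) = J(N z)` for all `z`, then `N ∣ g 1 0`. -/
theorem dist_dvd_of_eq (N : ℕ) (hN : 0 < N) (g : SL(2, ℤ))
    (h : ∀ z : ℍ, distJN N hN (g • z) = distJN N hN z) : (N : ℤ) ∣ g 1 0 := by
  obtain ⟨γ, a, b, d, ha, hd, had, -, h00, h01, h10, h11⟩ := pe_hermite N hN g
  have hfun : ∀ z : ℍ, Δ (pe_aff a b d ha hd z) * E₄ (pe_mulN N hN z) ^ 3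
      = Δ (pe_mulN N hN z) * E₄ (pe_aff a b d ha hd z) ^ 3 := by
    intro z
    apply dist_cross
    rw [← dist_JN_smul_eq N hN g γ a b d ha hd h00 h01 h10 h11 z, h z, distJN_apply]
  have ha' : (0 : ℝ) < a := by exact_mod_cast ha
  have hd' : (0 : ℝ) < d := by exact_mod_cast hd
  have hN' : (0 : ℝ) < N := by exact_mod_cast hN
  -- `E₄ ^ 3 → 1` along both maps
  have hE1 : Tendsto (fun z : ℍ => E₄ (pe_mulN N hN z) ^ 3) atImInfty (𝓝 1) := by
    have := (ord_E4_tendsto.comp (pe_tendsto_mulN N hN)).pow 3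
    simpa using this
  have hE2 : Tendsto (fun z : ℍ => E₄ (pe_aff a b d ha hd z) ^ 3) atImInfty (𝓝 1) := by
    have := (ord_E4_tendsto.comp (pe_tendsto_aff a b d ha hd)).pow 3
    simpa using this
  have hE1' : ∀ᶠ z in atImInfty, (1 / 2 : ℝ) ≤ ‖E₄ (pe_mulN N hN z) ^ 3‖ := by
    have := hE1.norm
    rw [norm_one] at this
    exact this.eventually (eventually_ge_nhds (by norm_num))
  have hE2' : ∀ᶠ z in atImInfty, ‖E₄ (pe_aff a b d ha hd z) ^ 3‖ ≤ 2 := by
    have := hE2.norm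
    rw [norm_one] at this
    exact this.eventually (eventually_le_nhds (by norm_num))
  -- the chain of `O`-estimates
  have hO1 : (fun z : ℍ => Real.exp (-2 * π * ((a : ℝ) * z.im / d)))
      =O[atImInfty] fun z : ℍ => Δ (pe_aff a b d ha hd z) := by
    have := ModularForm.exp_isBigO_discriminant.comp_tendsto (pe_tendsto_aff a b d ha hd)
    refine this.congr_left ?_
    intro z
    simp only [Function.comp_apply, pe_aff_im]
  have hO2 : (fun z : ℍ => Δ (pe_aff a b d ha hd z))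
      =O[atImInfty] fun z : ℍ => Δ (pe_mulN N hN z) := by
    refine Asymptotics.IsBigO.of_bound 4 ?_
    filter_upwards [hE1', hE2'] with z h1 h2
    have h3 := congrArg norm (hfun z)
    rw [norm_mul, norm_mul] at h3
    have h4 : ‖Δ (pe_aff a b d ha hd z)‖ * (1 / 2) ≤ ‖Δ (pe_mulN N hN z)‖ * 2 := by
      calc ‖Δ (pe_aff a b d ha hd z)‖ * (1 / 2)
          ≤ ‖Δ (pe_aff a b d ha hd z)‖ * ‖E₄ (pe_mulN N hN z) ^ 3‖ :=
            mul_le_mul_of_nonneg_left h1 (norm_nonneg _)
        _ = ‖Δ (pe_mulN N hN z)‖ * ‖E₄ (pe_aff a b d ha hd z) ^ 3‖ := h3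
        _ ≤ ‖Δ (pe_mulN N hN z)‖ * 2 := mul_le_mul_of_nonneg_left h2 (norm_nonneg _)
    linarith
  have hO3 : (fun z : ℍ => Δ (pe_mulN N hN z))
      =O[atImInfty] fun z : ℍ => Real.exp (-2 * π * ((N : ℝ) * z.im)) := by
    have := pe_discriminant_isBigO_exp.comp_tendsto (pe_tendsto_mulN N hN)
    refine this.congr_right ?_
    intro z
    simp only [Function.comp_apply, pe_mulN, pe_aff_im]
    simp
  have hO := (hO1.trans hO2).trans hO3
  obtain ⟨C, hC⟩ := hO.bound
  rw [Filter.Eventually, UpperHalfPlane.atImInfty_mem] at hC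
  obtain ⟨A, hA⟩ := hC
  -- `N ≤ a / d`
  have hkey : (N : ℝ) ≤ a / d := by
    by_contra hcon
    rw [not_le] at hcon
    set c : ℝ := 2 * π * ((N : ℝ) - a / d) with hc
    have hcpos : 0 < c := by
      have : 0 < (N : ℝ) - a / d := sub_pos.mpr hcon
      positivity
    -- choose `y` large
    set y : ℝ := max (max A 1) ((|C| + 1) / c) with hy
    have hy1 : A ≤ y := le_trans (le_max_left _ _) (le_max_left _ _)
    have hy2 : 1 ≤ y := le_trans (le_max_right _ _) (le_max_left _ _)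
    have hy3 : (|C| + 1) / c ≤ y := le_max_right _ _
    have hypos : 0 < y := lt_of_lt_of_le one_pos hy2
    have hz := hA ⟨Complex.I * y, by simpa using hypos⟩ (by simpa using hy1)
    simp only [Set.mem_ofPred_eq, Real.norm_eq_abs, abs_of_pos (Real.exp_pos _)] at hz
    have him : (⟨Complex.I * y, by simpa using hypos⟩ : ℍ).im = y := by
      show (Complex.I * y).im = y
      simp
    rw [him] at hz
    -- `exp (c y) ≤ C`
    have h3 : Real.exp (c * y) ≤ C := by
      have h4 : Real.exp (c * y)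
          = Real.exp (-2 * π * ((a : ℝ) * y / d)) / Real.exp (-2 * π * ((N : ℝ) * y)) := by
        rw [← Real.exp_sub]
        congr 1
        rw [hc]
        field_simp
        ring
      rw [h4, div_le_iff₀ (Real.exp_pos _)]
      exact hz
    have h5 : c * y + 1 ≤ Real.exp (c * y) := Real.add_one_le_exp _
    have h6 : |C| + 1 ≤ c * y := by
      rw [div_le_iff₀ hcpos] at hy3
      linarith
    have h7 : C ≤ |C| := le_abs_self C
    linarith
  -- conclude `d = 1`, `a = N`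
  have h1 : (N : ℝ) * d ≤ a := by
    rw [le_div_iff₀ hd'] at hkey
    exact hkey
  have h1' : (N : ℤ) * d ≤ a := by exact_mod_cast h1
  have hNpos : (0 : ℤ) < N := by exact_mod_cast hN
  have hd1 : d = 1 := by
    by_contra hne
    have hd2 : 2 ≤ d := by omega
    have : a ≤ N := by
      have : a * 1 ≤ a * d := mul_le_mul_of_nonneg_left (by omega) ha.le
      rw [had] at this
      simpa using this
    nlinarith
  rw [hd1, mul_one] at had
  rw [h10, had]
  exact Dvd.intro_left _ rfl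

/-- `J(N τ)` is invariant under `Γ₀(N)`. -/
theorem dist_eq_of_mem_Gamma0 (N : ℕ) (hN : 0 < N) (g : SL(2, ℤ)) (hg : g ∈ Gamma0 N)
    (z : ℍ) : distJN N hN (g • z) = distJN N hN z := by
  rw [Gamma0_mem, ZMod.intCast_zmod_eq_zero_iff_dvd] at hg
  obtain ⟨c', hc'⟩ := hg
  have hdet : g 0 0 * g 1 1 - g 0 1 * g 1 0 = 1 := by
    have := g.det_coe
    rw [Matrix.det_fin_two] at this
    exact this
  have hdet' : Matrix.det !![g 0 0, (N : ℤ) * g 0 1; c', g 1 1] = 1 := by
    rw [Matrix.det_fin_two_of]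
    rw [hc'] at hdet
    linear_combination hdet
  have hNpos : (0 : ℤ) < N := by exact_mod_cast hN
  have := dist_JN_smul_eq N hN g ⟨!![g 0 0, (N : ℤ) * g 0 1; c', g 1 1], hdet'⟩ N 0 1 hNpos
    one_pos (by simp [mul_comm]) (by simp) (by simp [hc', mul_comm]) (by simp) z
  rw [this]
  rfl

/-- **DIST**: `J(N (g τ)) = J(N τ)` for all `τ` iff `g ∈ Γ₀(N)`. -/
theorem dist_forall_eq_iff (N : ℕ) (hN : 0 < N) (g : SL(2, ℤ)) :
    (∀ z : ℍ, distJN N hN (g • z) = distJN N hN z) ↔ g ∈ Gamma0 N := by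
  constructor
  · intro h
    rw [Gamma0_mem]
    exact (ZMod.intCast_zmod_eq_zero_iff_dvd _ _).mpr (dist_dvd_of_eq N hN g h)
  · intro hg z
    exact dist_eq_of_mem_Gamma0 N hN g hg z

/-- **DIST**, coset form: the conjugates `τ ↦ J(N (g⁻¹ τ))` attached to the cosets `g Γ₀(N)`
are pairwise distinct. -/
theorem dist_conj_eq_iff (N : ℕ) (hN : 0 < N) (g g' : SL(2, ℤ)) :
    (∀ z : ℍ, distJN N hN (g⁻¹ • z) = distJN N hN (g'⁻¹ • z)) ↔
      ((g : SL(2, ℤ)) : s24Q N) = ((g' : SL(2, ℤ)) : s24Q N) := by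
  rw [QuotientGroup.eq, ← dist_forall_eq_iff N hN]
  constructor
  · intro h z
    have := h (g' • z)
    rw [inv_smul_smul] at this
    rw [mul_smul]
    exact this
  · intro h z
    have := h (g'⁻¹ • z)
    rw [mul_smul, smul_inv_smul] at this
    exact this

/-- The conjugate of `J(N τ)` attached to a coset. -/
def distConj (N : ℕ) (hN : 0 < N) (q : s24Q N) : ℍ → ℂ :=
  fun z => distJN N hN ((Quotient.out q : SL(2, ℤ))⁻¹ • z)

theorem distConj_mk (N : ℕ) (hN : 0 < N) (g : SL(2, ℤ)) (z : ℍ) :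
    distConj N hN ((g : SL(2, ℤ)) : s24Q N) z = distJN N hN (g⁻¹ • z) := by
  have h := (dist_conj_eq_iff N hN (Quotient.out ((g : SL(2, ℤ)) : s24Q N)) g).mpr
    (QuotientGroup.out_eq' _)
  exact h z

theorem distConj_injective (N : ℕ) (hN : 0 < N) : Function.Injective (distConj N hN) := by
  intro q q' h
  rw [← QuotientGroup.out_eq' q, ← QuotientGroup.out_eq' q', ← dist_conj_eq_iff N hN]
  intro z
  exact congrFun h z

end Fermat.Agent.S24
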