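import Mathlib
import Fermat.Agent.S24.AnaQexp
import Fermat.Agent.S24.BridgeQ
import Fermat.Agent.S24.Dist

/-!
# S24, package ANA-JD: the functions `J_d = J(d τ)`, `d ∣ N`, are modular functions of level `N`

* `ana_Jd_mem` (JD1) : `τ ↦ J (d τ)` lies in `ana_ring N`;
* `ana_qexp_Jd` (JD2) : its `q_N`-expansion is `qExpand ℂ N (coeffEmb ℂ (qExpand ℚ d jq))`;
* `ana_Jd_comp_Gamma0` (JD3) : it is invariant under `Γ₀(N)`.
-/

set_option autoImplicit false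

noncomputable section

namespace Fermat.Agent.S24

open UpperHalfPlane hiding I
open Filter Function Topology ModularForm Complex CongruenceSubgroup
open Fermat.Agent.S23
open scoped Manifold MatrixGroups ModularForm Real

local notation "𝕢" => Function.Periodic.qParam

/-- `J` is invariant under integer translations. -/
theorem ajd_J_vadd_int (k : ℤ) (τ : ℍ) : ord_J ((k : ℝ) +ᵥ τ) = ord_J τ := by
  rw [← UpperHalfPlane.modular_T_zpow_smul τ k, ord_J_smul]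

/-- translation of `(a τ + b) / D` by `N`, when `D ∣ N` -/
theorem ajd_aff_vadd (a b D : ℤ) (ha : 0 < a) (hD : 0 < D) (N : ℕ) (c : ℤ) (hc : (N : ℤ) = D * c)
    (τ : ℍ) :
    pe_aff a b D ha hD ((N : ℝ) +ᵥ τ) = ((a * c : ℤ) : ℝ) +ᵥ pe_aff a b D ha hD τ := by
  apply UpperHalfPlane.ext
  rw [UpperHalfPlane.coe_vadd, pe_aff_coe, pe_aff_coe, UpperHalfPlane.coe_vadd]
  have hD' : (D : ℂ) ≠ 0 := by exact_mod_cast hD.ne'
  have hN : (N : ℂ) = (D : ℂ) * c := by exact_mod_cast hc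
  push_cast
  rw [hN]
  field_simp
  ring

/-- the key bound: `q_N ^ (N d) / q ((a τ + b) / D)` is bounded when `a D = d` -/
theorem ajd_bound (N : ℕ) (hN : 0 < N) (d : ℕ) (a b D : ℤ) (ha : 0 < a) (hD : 0 < D)
    (had : a * D = d) (τ : ℍ) :
    ‖ana_q N τ ^ (N * d) * (𝕢 1 (pe_aff a b D ha hD τ : ℂ))⁻¹‖ ≤ 1 := by
  rw [norm_mul, norm_pow, norm_inv, ana_q, Function.Periodic.norm_qParam,
    Function.Periodic.norm_qParam, ← Real.exp_nat_mul, ← Real.exp_neg, ← Real.exp_add,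
    Real.exp_le_one_iff]
  have him : ((pe_aff a b D ha hD τ : ℍ) : ℂ).im = a * τ.im / D := pe_aff_im a b D ha hD τ
  rw [him]
  have hN' : (0 : ℝ) < N := by exact_mod_cast hN
  have ha' : (0 : ℝ) < a := by exact_mod_cast ha
  have hD' : (1 : ℝ) ≤ D := by exact_mod_cast hD
  have hD0 : (0 : ℝ) < D := by exact_mod_cast hD
  have hd : (d : ℝ) = a * D := by exact_mod_cast had.symm
  have hτ := τ.im_pos
  have h1 : (a : ℝ) / D ≤ d := by
    rw [hd]
    calc (a : ℝ) / D ≤ a := div_le_self ha'.le hD'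
      _ ≤ a * D := le_mul_of_one_le_right ha'.le hD'
  have h2 : ((N * d : ℕ) : ℝ) * (-2 * π * (τ : ℂ).im / N) + -(-2 * π * (a * τ.im / D) / (1 : ℝ))
      = -(2 * π * τ.im * (d - a / D)) := by
    have : ((τ : ℂ).im) = τ.im := rfl
    rw [this]
    push_cast
    field_simp
    ring
  rw [h2]
  have h3 : 0 ≤ 2 * π * τ.im * (d - a / D) := by
    have hπ := Real.pi_pos
    have : 0 ≤ (d : ℝ) - a / D := by linarith
    positivity
  linarith

/-- **JD1**: `τ ↦ J (d τ)` is a modular function of level `N` for `d ∣ N`. -/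
theorem ana_Jd_mem (N : ℕ) [NeZero N] (d : ℕ) (hd : d ∣ N) (hd0 : 0 < d) :
    (fun τ : ℍ => ord_J (pe_mulN d hd0 τ)) ∈ ana_ring N := by
  refine ⟨br_mdiff_Jd d hd0, fun g => ?_⟩
  obtain ⟨γ, a, b, D, ha, hD, had, -, h00, h01, h10, h11⟩ := pe_hermite d hd0 g
  have hfun : ∀ z : ℍ, ord_J (pe_mulN d hd0 (g • z)) = ord_J (pe_aff a b D ha hD z) := by
    intro z
    rw [pe_smul_eq d hd0 g γ a b D ha hD h00 h01 h10 h11 z, ord_J_smul]
  have hDN : (D : ℤ) ∣ (N : ℤ) := by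
    have h1 : (D : ℤ) ∣ (d : ℤ) := ⟨a, by rw [← had]; ring⟩
    exact h1.trans (by exact_mod_cast hd)
  obtain ⟨c, hc⟩ := hDN
  refine ⟨fun τ => ?_, N * d, ?_⟩
  · simp only
    rw [hfun, hfun, ajd_aff_vadd a b D ha hD N c hc, ajd_J_vadd_int]
  · unfold ana_PoleLE
    have h1 : (fun τ : ℍ => ana_q N τ ^ (N * d) * ord_J (pe_mulN d hd0 (g • τ))) =
        (fun τ : ℍ => ana_q N τ ^ (N * d) * (𝕢 1 (pe_aff a b D ha hD τ : ℂ))⁻¹) *
          (br_qJ ∘ pe_aff a b D ha hD) := by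
      funext τ
      simp only [Pi.mul_apply, Function.comp_apply, br_qJ, hfun]
      have hq : 𝕢 1 (pe_aff a b D ha hD τ : ℂ) ≠ 0 := Function.Periodic.qParam_ne_zero _
      field_simp
    rw [h1]
    have h2 : IsBoundedAtImInfty
        (fun τ : ℍ => ana_q N τ ^ (N * d) * (𝕢 1 (pe_aff a b D ha hD τ : ℂ))⁻¹) := by
      rw [isBoundedAtImInfty_iff]
      exact ⟨1, 0, fun z _ => ajd_bound N (NeZero.pos N) d a b D ha hD had z⟩
    exact BoundedAtFilter.mul h2 (br_qJ_mem.2.2.comp_tendsto (pe_tendsto_aff a b D ha hD))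

/-- the pole order bound `N d` for `J_d` -/
theorem ana_Jd_poleLE (N : ℕ) [NeZero N] (d : ℕ) (hd0 : 0 < d) :
    ana_PoleLE N (N * d) (fun τ : ℍ => ord_J (pe_mulN d hd0 τ)) := by
  unfold ana_PoleLE
  have h1 : (fun τ : ℍ => ana_q N τ ^ (N * d) * ord_J (pe_mulN d hd0 τ)) = br_qJd d hd0 := by
    funext τ
    rw [br_qJd_eq_level N (NeZero.pos N) d hd0 τ]
    rfl
  rw [h1]
  exact (br_qJd_mem d hd0).2.2

/-- **JD2**: the `q_N`-expansion of `J_d` is the formal series `j_d`. -/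
theorem ana_qexp_Jd (N : ℕ) [NeZero N] (d : ℕ) [NeZero d] (hd : d ∣ N) :
    ana_qexp N ⟨_, ana_Jd_mem N d hd (NeZero.pos d)⟩ =
      ModularCurve.qExpand ℂ N
        (ModularCurve.coeffEmb ℂ (ModularCurve.qExpand ℚ d ModularCurve.jq)) := by
  rw [ana_qexp_apply, ana_laurent_eq (ana_isMer_of_mem (ana_Jd_mem N d hd (NeZero.pos d)))
    (ana_Jd_poleLE N d (NeZero.pos d)), br_formal_jqd]
  unfold ana_laurentAux
  have h1 : (fun τ : ℍ => ana_q N τ ^ (N * d) * ord_J (pe_mulN d (NeZero.pos d) τ)) =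
      br_qJd d (NeZero.pos d) := by
    funext τ
    rw [br_qJd_eq_level N (NeZero.pos N) d (NeZero.pos d) τ]
    rfl
  rw [h1, br_qExpansion_level_qJd N (NeZero.pos N) d (NeZero.pos d)]

/-- `Γ₀(N) ≤ Γ₀(d)` for `d ∣ N` -/
theorem ajd_Gamma0_le {N d : ℕ} (hd : d ∣ N) {γ : SL(2, ℤ)} (hγ : γ ∈ Gamma0 N) :
    γ ∈ Gamma0 d := by
  rw [Gamma0_mem, ZMod.intCast_zmod_eq_zero_iff_dvd] at hγ ⊢
  exact (Int.natCast_dvd_natCast.mpr hd).trans hγ

/-- **JD3**: `J_d` is invariant under `Γ₀(N)` for `d ∣ N`. -/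
theorem ana_Jd_comp_Gamma0 (N : ℕ) (d : ℕ) (hd : d ∣ N) (hd0 : 0 < d) {γ : SL(2, ℤ)}
    (hγ : γ ∈ Gamma0 N) (τ : ℍ) :
    ord_J (pe_mulN d hd0 (γ • τ)) = ord_J (pe_mulN d hd0 τ) :=
  dist_eq_of_mem_Gamma0 d hd0 γ (ajd_Gamma0_le hd hγ) τ

end Fermat.Agent.S24
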