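import Mathlib
import Fermat.Prelude.Def_ModularCurve_X0
import Fermat.Prelude.Def_ModularCurve_LaurentCoeff

/-!
# S24 — the formal side of the cusp

Everything here is about `LaurentSeries k` for a field `k`:

* `cf_twist ζ` : the substitution `t ↦ ζ t` (`ζ : kˣ`), a ring automorphism;
* `cf_val` : the `t`-adic valuation, `cf_val f = exp (-order f)`;
* `cf_val_twist` : the twist preserves the valuation;
* `cf_val_of_twist_eq` : a series fixed by the twist by `ζ ^ s`, `ζ` a primitive `N`-th root of
  unity and `s ∣ N`, has order divisible by `N / s`;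
* `cf_val_qExpand`, `cf_val_coeffMap`, `cf_val_j` : orders of the prelude's formal series.
-/

set_option autoImplicit false

namespace Fermat.Agent.S24

open HahnSeries ModularCurve

section twist

variable {k : Type*} [Field k]

/-- The substitution `t ↦ ζ t` on Laurent series, as a function. -/
noncomputable def cf_twistFun (ζ : kˣ) (f : LaurentSeries k) : LaurentSeries k where
  coeff n := ((ζ ^ n : kˣ) : k) * f.coeff n
  isPWO_support' := f.isPWO_support.mono (fun n hn => by
    simp only [Function.mem_support, ne_eq, mul_eq_zero, Units.ne_zero, false_or] at hn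
    exact hn)

@[simp] theorem cf_twistFun_coeff (ζ : kˣ) (f : LaurentSeries k) (n : ℤ) :
    (cf_twistFun ζ f).coeff n = ((ζ ^ n : kˣ) : k) * f.coeff n := rfl

theorem cf_twistFun_support (ζ : kˣ) (f : LaurentSeries k) :
    (cf_twistFun ζ f).support = f.support := by
  ext n
  simp only [HahnSeries.mem_support, cf_twistFun_coeff, ne_eq, mul_eq_zero, Units.ne_zero,
    false_or]

theorem cf_twistFun_mul (ζ : kˣ) (f g : LaurentSeries k) :
    cf_twistFun ζ (f * g) = cf_twistFun ζ f * cf_twistFun ζ g := by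
  ext n
  rw [cf_twistFun_coeff, HahnSeries.coeff_mul,
    HahnSeries.coeff_mul_left' f.isPWO_support (cf_twistFun_support ζ f).le, Finset.mul_sum]
  have hfin : Finset.antidiagonal f.isPWO_support (cf_twistFun ζ g).isPWO_support n =
      Finset.antidiagonal f.isPWO_support g.isPWO_support n := by
    ext ij
    simp only [Finset.mem_antidiagonal, cf_twistFun_support]
  rw [hfin]
  refine Finset.sum_congr rfl fun ij hij => ?_
  have hsum : ij.1 + ij.2 = n := (Finset.mem_antidiagonal.mp hij).2.2
  rw [cf_twistFun_coeff, cf_twistFun_coeff, ← hsum, zpow_add, Units.val_mul]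
  ring

/-- The substitution `t ↦ ζ t` on Laurent series, as a ring homomorphism. -/
noncomputable def cf_twistHom (ζ : kˣ) : LaurentSeries k →+* LaurentSeries k where
  toFun := cf_twistFun ζ
  map_zero' := by ext n; simp
  map_one' := by
    ext n
    rw [cf_twistFun_coeff, HahnSeries.coeff_one]
    split_ifs with h
    · subst h; simp
    · simp
  map_add' f g := by ext n; simp [mul_add]
  map_mul' f g := cf_twistFun_mul ζ f g

@[simp] theorem cf_twistHom_coeff (ζ : kˣ) (f : LaurentSeries k) (n : ℤ) :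
    (cf_twistHom ζ f).coeff n = ((ζ ^ n : kˣ) : k) * f.coeff n := rfl

/-- The substitution `t ↦ ζ t` on Laurent series, as a ring automorphism. -/
noncomputable def cf_twist (ζ : kˣ) : LaurentSeries k ≃+* LaurentSeries k :=
  RingEquiv.ofRingHom (cf_twistHom ζ) (cf_twistHom ζ⁻¹)
    (by
      refine RingHom.ext fun f => HahnSeries.ext (funext fun n => ?_)
      simp only [RingHom.comp_apply, cf_twistHom_coeff, RingHom.id_apply, ← mul_assoc,
        ← Units.val_mul, inv_zpow, mul_inv_cancel, Units.val_one, one_mul])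
    (by
      refine RingHom.ext fun f => HahnSeries.ext (funext fun n => ?_)
      simp only [RingHom.comp_apply, cf_twistHom_coeff, RingHom.id_apply, ← mul_assoc,
        ← Units.val_mul, inv_zpow, inv_mul_cancel, Units.val_one, one_mul])

@[simp] theorem cf_twist_coeff (ζ : kˣ) (f : LaurentSeries k) (n : ℤ) :
    (cf_twist ζ f).coeff n = ((ζ ^ n : kˣ) : k) * f.coeff n := rfl

theorem cf_twist_one (f : LaurentSeries k) : cf_twist (1 : kˣ) f = f := by
  ext n; simp

theorem cf_twist_mul (ζ ξ : kˣ) (f : LaurentSeries k) :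
    cf_twist (ζ * ξ) f = cf_twist ζ (cf_twist ξ f) := by
  ext n
  simp [mul_zpow, mul_assoc]

theorem cf_twist_inv (ζ : kˣ) (f : LaurentSeries k) : cf_twist ζ⁻¹ (cf_twist ζ f) = f := by
  rw [← cf_twist_mul, inv_mul_cancel, cf_twist_one]

theorem cf_twist_pow (ζ : kˣ) (m : ℕ) (f : LaurentSeries k) :
    cf_twist (ζ ^ m) f = (cf_twist ζ)^[m] f := by
  induction m with
  | zero => simp [cf_twist_one]
  | succ m ih => rw [pow_succ', cf_twist_mul, ih, Function.iterate_succ_apply']

theorem cf_twist_single (ζ : kˣ) (n : ℤ) (c : k) :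
    cf_twist ζ (HahnSeries.single n c) = HahnSeries.single n (((ζ ^ n : kˣ) : k) * c) := by
  ext m
  rw [cf_twist_coeff]
  rcases eq_or_ne m n with rfl | h
  · simp
  · simp [HahnSeries.coeff_single_of_ne h]

theorem cf_twist_C (ζ : kˣ) (c : k) : cf_twist ζ (HahnSeries.C c) = HahnSeries.C c := by
  rw [HahnSeries.C_apply, cf_twist_single]
  simp

theorem cf_twist_algebraMap (ζ : kˣ) (c : k) :
    cf_twist ζ (algebraMap k (LaurentSeries k) c) = algebraMap k (LaurentSeries k) c := by
  rw [ModularCurve.algebraMap_laurentSeries_eq_single, cf_twist_single]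
  simp

theorem cf_twist_support (ζ : kˣ) (f : LaurentSeries k) :
    (cf_twist ζ f).support = f.support := by
  ext n
  simp only [HahnSeries.mem_support, cf_twist_coeff, ne_eq, mul_eq_zero, Units.ne_zero,
    false_or]

theorem cf_twist_eq_zero_iff (ζ : kˣ) (f : LaurentSeries k) : cf_twist ζ f = 0 ↔ f = 0 :=
  (cf_twist ζ).map_eq_zero_iff

theorem cf_order_twist (ζ : kˣ) (f : LaurentSeries k) : (cf_twist ζ f).order = f.order := by
  by_cases hf : f = 0
  · subst hf; simp
  · have hf' : cf_twist ζ f ≠ 0 := fun h => hf ((cf_twist_eq_zero_iff ζ f).mp h)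
    apply le_antisymm
    · refine HahnSeries.order_le_of_coeff_ne_zero ?_
      rw [cf_twist_coeff]
      exact mul_ne_zero (Units.ne_zero _) (fun h => hf (HahnSeries.coeff_order_eq_zero.mp h))
    · refine HahnSeries.order_le_of_coeff_ne_zero ?_
      have h := fun h => hf' (HahnSeries.coeff_order_eq_zero.mp h)
      rw [cf_twist_coeff] at h
      exact right_ne_zero_of_mul h

end twist

section val

open WithZero

variable {k : Type*} [Field k]

/-- The `t`-adic valuation on Laurent series (Mathlib's `Valued.v`). -/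
noncomputable def cf_val : Valuation (LaurentSeries k) (WithZero (Multiplicative ℤ)) :=
  Valued.v

theorem cf_val_def : (cf_val : Valuation (LaurentSeries k) (WithZero (Multiplicative ℤ))) =
    Valued.v := rfl

theorem cf_val_le_iff {D : ℤ} {f : LaurentSeries k} :
    cf_val f ≤ exp (-D) ↔ ∀ n < D, f.coeff n = 0 :=
  LaurentSeries.valuation_le_iff_coeff_lt_eq_zero k

/-- `cf_val f = exp (- order f)` for `f ≠ 0`. -/
theorem cf_val_eq {f : LaurentSeries k} (hf : f ≠ 0) : cf_val f = exp (-f.order) := by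
  have h0 : cf_val f ≠ 0 := (Valuation.ne_zero_iff _).mpr hf
  have h1 : cf_val f ≤ exp (-f.order) :=
    cf_val_le_iff.mpr fun n hn => HahnSeries.coeff_eq_zero_of_lt_order hn
  have h2 : ¬ cf_val f ≤ exp (-(f.order + 1)) := fun h =>
    hf (HahnSeries.coeff_order_eq_zero.mp (cf_val_le_iff.mp h _ (lt_add_one _)))
  rw [← exp_log h0] at h1 h2 ⊢
  rw [exp_le_exp] at h1 h2
  rw [exp_inj]
  omega

theorem cf_val_single (n : ℤ) {c : k} (hc : c ≠ 0) :
    cf_val (HahnSeries.single n c) = exp (-n) := by
  rw [cf_val_eq (by simpa using hc), HahnSeries.order_single hc]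

theorem cf_val_C {c : k} (hc : c ≠ 0) : cf_val (HahnSeries.C c) = 1 := by
  rw [HahnSeries.C_apply, cf_val_single 0 hc, neg_zero, exp_zero]

theorem cf_val_algebraMap {c : k} (hc : c ≠ 0) :
    cf_val (algebraMap k (LaurentSeries k) c) = 1 := by
  rw [ModularCurve.algebraMap_laurentSeries_eq_single, cf_val_single 0 hc, neg_zero, exp_zero]

/-- The twist `t ↦ ζ t` preserves the valuation. -/
theorem cf_val_twist (ζ : kˣ) (f : LaurentSeries k) : cf_val (cf_twist ζ f) = cf_val f := by
  by_cases hf : f = 0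
  · subst hf; simp
  · rw [cf_val_eq hf, cf_val_eq (fun h => hf ((cf_twist_eq_zero_iff ζ f).mp h)), cf_order_twist]

/-- A series fixed by `t ↦ ξ t` only involves exponents `n` with `ξ ^ n = 1`. -/
theorem cf_zpow_eq_one_of_twist_eq {ξ : kˣ} {f : LaurentSeries k} (h : cf_twist ξ f = f)
    {n : ℤ} (hn : f.coeff n ≠ 0) : ξ ^ n = 1 := by
  have h1 := congrArg (fun g : LaurentSeries k => g.coeff n) h
  simp only [cf_twist_coeff] at h1
  have h2 : ((ξ ^ n : kˣ) : k) = 1 := by
    have := mul_right_cancel₀ hn (h1.trans (one_mul _).symm)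
    exact this
  exact Units.ext h2

/-- **`w_div` at the cusp.** If `ζ` is a primitive `N`-th root of unity, `s ∣ N`, and `f ≠ 0` is
fixed by the twist by `ζ ^ s`, then the order of `f` is divisible by `N / s`. -/
theorem cf_dvd_order_of_twist_eq {N s : ℕ} (hN : N ≠ 0) (hs : s ∣ N) {ζ : kˣ}
    (hζ : IsPrimitiveRoot ζ N) {f : LaurentSeries k} (hf : f ≠ 0)
    (h : cf_twist (ζ ^ s) f = f) : ((N / s : ℕ) : ℤ) ∣ f.order := by
  have h1 : (ζ ^ s) ^ f.order = 1 :=
    cf_zpow_eq_one_of_twist_eq h (fun h0 => hf (HahnSeries.coeff_order_eq_zero.mp h0))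
  rw [← zpow_natCast, ← zpow_mul, hζ.zpow_eq_one_iff_dvd] at h1
  obtain ⟨t, rfl⟩ := hs
  have hs0 : s ≠ 0 := fun h0 => hN (by rw [h0, zero_mul])
  rw [Nat.mul_div_cancel_left _ (Nat.pos_of_ne_zero hs0)]
  push_cast at h1
  exact (mul_dvd_mul_iff_left (by exact_mod_cast hs0)).mp h1

theorem cf_val_of_twist_eq {N s : ℕ} (hN : N ≠ 0) (hs : s ∣ N) {ζ : kˣ}
    (hζ : IsPrimitiveRoot ζ N) {f : LaurentSeries k} (hf : f ≠ 0)
    (h : cf_twist (ζ ^ s) f = f) :
    ∃ m : ℤ, cf_val f = exp (m * ((N / s : ℕ) : ℤ)) := by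
  obtain ⟨m, hm⟩ := cf_dvd_order_of_twist_eq hN hs hζ hf h
  refine ⟨-m, ?_⟩
  rw [cf_val_eq hf, hm]
  congr 1
  ring

end val

section prelude

open WithZero

variable {k : Type*} [Field k]

theorem cf_qExpand_eq_zero_iff (N : ℕ) [NeZero N] (g : LaurentSeries k) :
    qExpand k N g = 0 ↔ g = 0 :=
  (map_eq_zero_iff _ (qExpand_injective N))

theorem cf_order_qExpand (N : ℕ) [NeZero N] (g : LaurentSeries k) :
    (qExpand k N g).order = (N : ℤ) * g.order := by
  by_cases hg : g = 0
  · subst hg; simp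
  · have hg' : qExpand k N g ≠ 0 := fun h => hg ((cf_qExpand_eq_zero_iff N g).mp h)
    have hN : (0 : ℤ) < N := by exact_mod_cast Nat.pos_of_ne_zero (NeZero.ne N)
    apply le_antisymm
    · refine HahnSeries.order_le_of_coeff_ne_zero ?_
      rw [qExpand_coeff_mul]
      exact fun h => hg (HahnSeries.coeff_order_eq_zero.mp h)
    · have h := fun h => hg' (HahnSeries.coeff_order_eq_zero.mp h)
      by_cases hd : (N : ℤ) ∣ (qExpand k N g).order
      · obtain ⟨m, hm⟩ := hd
        rw [hm] at h ⊢
        rw [qExpand_coeff_mul] at h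
        exact mul_le_mul_of_nonneg_left (HahnSeries.order_le_of_coeff_ne_zero h) hN.le
      · exact absurd (qExpand_coeff_of_not_dvd N g hd) h

/-- A series in `q = t ^ N` is fixed by the twist by any `N`-th root of unity. -/
theorem cf_twist_qExpand (N : ℕ) [NeZero N] {ζ : kˣ} (hζ : ζ ^ N = 1) (g : LaurentSeries k) :
    cf_twist ζ (qExpand k N g) = qExpand k N g := by
  ext n
  rw [cf_twist_coeff]
  by_cases hd : (N : ℤ) ∣ n
  · obtain ⟨m, rfl⟩ := hd
    rw [zpow_mul, zpow_natCast, hζ, one_zpow, Units.val_one, one_mul]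
  · rw [qExpand_coeff_of_not_dvd N g hd, mul_zero]

theorem cf_val_qExpand (N : ℕ) [NeZero N] (g : LaurentSeries k) :
    cf_val (qExpand k N g) = cf_val g ^ N := by
  by_cases hg : g = 0
  · subst hg; simp [NeZero.ne N]
  · rw [cf_val_eq hg, cf_val_eq (fun h => hg ((cf_qExpand_eq_zero_iff N g).mp h)),
      cf_order_qExpand, ← exp_nsmul]
    congr 1
    simp [mul_comm]

variable {K : Type*} [Field K]

theorem cf_coeffMap_eq_zero_iff (ι : K →+* k) (g : LaurentSeries K) :
    coeffMap ι g = 0 ↔ g = 0 := by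
  constructor
  · intro h
    ext n
    have := congrArg (fun x : LaurentSeries k => x.coeff n) h
    simpa using this
  · rintro rfl; simp

theorem cf_order_coeffMap (ι : K →+* k) (g : LaurentSeries K) :
    (coeffMap ι g).order = g.order := by
  by_cases hg : g = 0
  · subst hg; simp
  · have hg' : coeffMap ι g ≠ 0 := fun h => hg ((cf_coeffMap_eq_zero_iff ι g).mp h)
    apply le_antisymm
    · refine HahnSeries.order_le_of_coeff_ne_zero ?_
      rw [coeffMap_coeff]
      exact fun h => hg (HahnSeries.coeff_order_eq_zero.mp ((map_eq_zero ι).mp h))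
    · refine HahnSeries.order_le_of_coeff_ne_zero ?_
      have h := fun h => hg' (HahnSeries.coeff_order_eq_zero.mp h)
      rw [coeffMap_coeff] at h
      exact fun h0 => h (by rw [h0, map_zero])

theorem cf_val_coeffMap (ι : K →+* k) (g : LaurentSeries K) :
    cf_val (coeffMap ι g) = cf_val g := by
  by_cases hg : g = 0
  · subst hg; simp
  · rw [cf_val_eq hg, cf_val_eq (fun h => hg ((cf_coeffMap_eq_zero_iff ι g).mp h)),
      cf_order_coeffMap]

theorem cf_order_jq : ModularCurve.jq.order = -1 := by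
  apply le_antisymm
  · refine HahnSeries.order_le_of_coeff_ne_zero ?_
    rw [coeff_jq_neg_one]
    exact one_ne_zero
  · by_contra h
    have h1 : ModularCurve.jq.order < -1 := lt_of_not_ge h
    exact jq_ne_zero (HahnSeries.coeff_order_eq_zero.mp (coeff_jq_of_lt h1))

theorem cf_val_jq : cf_val ModularCurve.jq = exp 1 := by
  rw [cf_val_eq jq_ne_zero, cf_order_jq, neg_neg]

/-- The valuation of `j_d(q_N)`: the series `j(q^d)` written in `q_N = q^{1/N}` has a pole of
order `N * d`. -/
theorem cf_val_jd [Algebra ℚ K] (ι : K →+* k) (N d : ℕ) [NeZero N] [NeZero d] :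
    cf_val (qExpand k N (coeffMap ι (coeffEmb K (qExpand ℚ d jq)))) =
      exp ((N : ℤ) * d) := by
  rw [cf_val_qExpand, cf_val_coeffMap, coeffEmb, cf_val_coeffMap, cf_val_qExpand, cf_val_jq,
    ← exp_nsmul, ← exp_nsmul]
  congr 1
  simp

/-- **`w_y` at the cusp.** -/
theorem cf_val_j [Algebra ℚ K] (ι : K →+* k) (N : ℕ) [NeZero N] :
    cf_val (qExpand k N (coeffMap ι (coeffEmb K jq))) = exp (N : ℤ) := by
  have h := cf_val_jd (k := k) ι N 1
  rwa [qExpand_one_apply, Nat.cast_one, mul_one] at h

end prelude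

end Fermat.Agent.S24
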