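import Mathlib
import Fermat.Agent.S24.Defs

/-!
# S24 — the algebraic half of the evaluation map

`eva_exists`: if `E : M →+* LaurentSeries ℂ` is a ring homomorphism from a field `M` (think of the
`q_N`-expansion of meromorphic functions) whose range contains the constants `ι c`, `c ∈ K`, and
the formal series `j_d(q_N)`, `d ∣ N`, then there is a ring homomorphism
`ev : s24F N →+* M` with `E (ev x) = qExpand ℂ N (coeffMap ι x)` for all `x`.
-/

set_option autoImplicit false

namespace Fermat.Agent.S24

open ModularCurve IntermediateField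

/-- Generic form: a ring homomorphism `Φ` on an intermediate field generated by a set `S` factors
through an injective `E` as soon as `Φ` maps the constants and `S` into the range of `E`. -/
theorem eva_exists_of_subfield {A M L : Type*} [Field A] [Field M] [Field L]
    (E : M →+* L) (Φ : A →+* L) (F : Subfield A)
    (h : ∀ x ∈ F, Φ x ∈ E.fieldRange) :
    ∃ ev : F →+* M, ∀ x : F, E (ev x) = Φ x := by
  let E' : M ≃+* E.fieldRange :=
    RingEquiv.ofBijective E.rangeRestrictField
      ⟨fun a b hab => E.injective (congrArg Subtype.val hab), fun ⟨y, hy⟩ => by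
        obtain ⟨m, rfl⟩ := hy
        exact ⟨m, rfl⟩⟩
  let Φ' : F →+* E.fieldRange := (Φ.comp F.subtype).codRestrict E.fieldRange (fun x => h x x.2)
  refine ⟨E'.symm.toRingHom.comp Φ', fun x => ?_⟩
  have h1 : E' (E'.symm (Φ' x)) = Φ' x := E'.apply_symm_apply _
  have h2 : ((E' (E'.symm (Φ' x)) : E.fieldRange) : L) = E (E'.symm (Φ' x)) := rfl
  have h3 : ((Φ' x : E.fieldRange) : L) = Φ x := rfl
  show E (E'.symm (Φ' x)) = Φ x
  rw [← h2, h1, h3]

/-- All elements of the prelude's base-changed function field are mapped into a subfield `T`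
as soon as the constants and the generators `j_d` are. -/
theorem eva_mem_of_generators {K : Type*} [Field K] [Algebra ℚ K] (N : ℕ)
    (T : Subfield (LaurentSeries K))
    (hC : ∀ c : K, algebraMap K (LaurentSeries K) c ∈ T)
    (hJ : ∀ d : ℕ, d ∣ N → ∀ _ : NeZero d, coeffEmb K (qExpand ℚ d jq) ∈ T)
    {x : LaurentSeries K} (hx : x ∈ laurentBaseChange K (modularFunctionFieldFull N)) :
    x ∈ T := by
  rw [mem_laurentBaseChange_iff] at hx
  refine (Subfield.closure_le (t := T)).mpr ?_ hx
  rintro y (⟨c, rfl⟩ | ⟨z, hz, rfl⟩)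
  · exact hC c
  · -- `z ∈ modularFunctionFieldFull N`
    have hz' : z ∈ Subfield.closure
        (Set.range (algebraMap ℚ (LaurentSeries ℚ)) ∪ divisorExpansions N) := hz
    have : z ∈ T.comap (coeffEmb K) := by
      refine (Subfield.closure_le (t := T.comap (coeffEmb K))).mpr ?_ hz'
      rintro w (⟨c, rfl⟩ | ⟨d, hd, hdvd, rfl⟩)
      · show coeffEmb K (algebraMap ℚ (LaurentSeries ℚ) c) ∈ T
        rw [eq_ratCast, map_ratCast]
        exact SubfieldClass.ratCast_mem T c
      · exact hJ d hdvd hd
    exact this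

/-- **The algebraic half of `ev`.** -/
theorem eva_exists {M : Type*} [Field M] (E : M →+* LaurentSeries ℂ) (ι : s24K →+* ℂ)
    (N : ℕ) [NeZero N]
    (hC : ∀ c : s24K, HahnSeries.C (ι c) ∈ E.range)
    (hJ : ∀ d : ℕ, d ∣ N → ∀ _ : NeZero d,
      qExpand ℂ N (coeffMap ι (coeffEmb s24K (qExpand ℚ d jq))) ∈ E.range) :
    ∃ ev : s24F N →+* M,
      ∀ x : s24F N, E (ev x) = qExpand ℂ N (coeffMap ι (x : LaurentSeries s24K)) := by
  have key : ∀ x ∈ (modularFunctionFieldBar N).toSubfield,
      ((qExpand ℂ N).comp (coeffMap ι)) x ∈ E.fieldRange := by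
    intro x hx
    have hx' : x ∈ laurentBaseChange s24K (modularFunctionFieldFull N) := hx
    have := eva_mem_of_generators (K := s24K) N
      (E.fieldRange.comap ((qExpand ℂ N).comp (coeffMap ι))) ?_ ?_ hx'
    · exact this
    · intro c
      show qExpand ℂ N (coeffMap ι (algebraMap s24K (LaurentSeries s24K) c)) ∈ E.fieldRange
      rw [algebraMap_laurentSeries_eq_single, coeffMap_single, qExpand_single, mul_zero]
      exact hC c
    · intro d hd hne
      exact hJ d hd hne
  obtain ⟨ev, hev⟩ := eva_exists_of_subfield E ((qExpand ℂ N).comp (coeffMap ι))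
    (modularFunctionFieldBar N).toSubfield key
  exact ⟨ev, fun x => hev x⟩

/-- Uniqueness / computation rule for any `ev` satisfying the specification: to know `ev x` it
suffices to know an `E`-preimage of the formal series of `x`. -/
theorem eva_eq_of_spec {M : Type*} [Field M] (E : M →+* LaurentSeries ℂ) (ι : s24K →+* ℂ)
    (N : ℕ) [NeZero N] (ev : s24F N →+* M)
    (hev : ∀ x : s24F N, E (ev x) = qExpand ℂ N (coeffMap ι (x : LaurentSeries s24K)))
    {x : s24F N} {m : M} (h : E m = qExpand ℂ N (coeffMap ι (x : LaurentSeries s24K))) :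
    ev x = m :=
  E.injective (by rw [hev, h])

/-- The formal series of a constant. -/
theorem eva_formal_algebraMap (ι : s24K →+* ℂ) (N : ℕ) [NeZero N] (c : s24K) :
    qExpand ℂ N (coeffMap ι ((algebraMap s24K (s24F N) c : s24F N) : LaurentSeries s24K)) =
      HahnSeries.C (ι c) := by
  show qExpand ℂ N (coeffMap ι (algebraMap s24K (LaurentSeries s24K) c)) = _
  rw [algebraMap_laurentSeries_eq_single, coeffMap_single, qExpand_single, mul_zero]
  rfl

/-- The generator `j_d = j(q^d)`, `d ∣ N`, as an element of the function field. -/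
noncomputable def eva_jd (N : ℕ) [NeZero N] (d : ℕ) [NeZero d] (hd : d ∣ N) : s24F N :=
  ⟨coeffEmb s24K (qExpand ℚ d jq),
    coeffEmb_mem_laurentBaseChange s24K (jqd_mem_full N hd)⟩

@[simp] theorem eva_jd_coe (N : ℕ) [NeZero N] (d : ℕ) [NeZero d] (hd : d ∣ N) :
    ((eva_jd N d hd : s24F N) : LaurentSeries s24K) = coeffEmb s24K (qExpand ℚ d jq) := rfl

theorem eva_jd_one (N : ℕ) [NeZero N] : eva_jd N 1 (one_dvd N) = s24j N := by
  apply Subtype.ext
  show coeffEmb s24K (qExpand ℚ 1 jq) = coeffEmb s24K jq
  rw [qExpand_one_apply]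

section generation

variable (K : Type*) [Field K] [Algebra ℚ K] (N : ℕ)

/-- The base-changed function field is generated over `K` by the `j_d`, `d ∣ N`. -/
theorem eva_bar_eq_adjoin :
    laurentBaseChange K (modularFunctionFieldFull N) =
      IntermediateField.adjoin K (⇑(coeffEmb K) '' divisorExpansions N) := by
  apply le_antisymm
  · intro x hx
    refine eva_mem_of_generators (K := K) N
      (IntermediateField.adjoin K (⇑(coeffEmb K) '' divisorExpansions N)).toSubfield
      (fun c => IntermediateField.algebraMap_mem _ c) ?_ hx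
    intro d hd hne
    exact IntermediateField.subset_adjoin K _ ⟨_, ⟨d, hne, hd, rfl⟩, rfl⟩
  · refine IntermediateField.adjoin.mono K _ _ (Set.image_mono ?_)
    exact fun x hx => IntermediateField.subset_adjoin ℚ _ hx

/-- Every element of the function field is a quotient of two elements of the `K`-algebra
generated by the `j_d`, `d ∣ N`. -/
theorem eva_exists_div {x : LaurentSeries K}
    (hx : x ∈ laurentBaseChange K (modularFunctionFieldFull N)) :
    ∃ a ∈ Algebra.adjoin K (⇑(coeffEmb K) '' divisorExpansions N),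
      ∃ b ∈ Algebra.adjoin K (⇑(coeffEmb K) '' divisorExpansions N), b ≠ 0 ∧ x = a / b := by
  rw [eva_bar_eq_adjoin, IntermediateField.mem_adjoin_iff_div] at hx
  obtain ⟨a, ha, b, hb, rfl⟩ := hx
  by_cases hb0 : b = 0
  · exact ⟨0, zero_mem _, 1, one_mem _, one_ne_zero, by rw [hb0, div_zero, zero_div]⟩
  · exact ⟨a, ha, b, hb, hb0, rfl⟩

end generation

end Fermat.Agent.S24
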