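import Mathlib
import Fermat.Agent.S23.Recon

/-!
# S24, package ANA-HOL: the field of meromorphic functions on `ℍ`

* `hol_ring` : the ring of holomorphic functions on `ℍ` (a domain, by the identity theorem);
* `hol_Mer` : its fraction field;
* `hol_act γ` : the automorphism `h ↦ h ∘ (γ • ·)` for `γ : SL(2, ℤ)`;
* `hol_val τ` : the `ℤ`-valued valuation "order at `τ`".
-/

set_option autoImplicit false

open UpperHalfPlane Complex Filter Topology
open scoped MatrixGroups Manifold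

namespace Fermat.Agent.S24

/-! ### The ring of holomorphic functions -/

/-- The ring of holomorphic functions on the upper half plane. -/
def hol_ring : Subring (ℍ → ℂ) where
  carrier := {f | MDiff f}
  mul_mem' := fun hf hg => hf.mul hg
  one_mem' := mdifferentiable_const
  add_mem' := fun hf hg => hf.add hg
  zero_mem' := mdifferentiable_const
  neg_mem' := fun hf => hf.neg

theorem hol_mem_iff (f : ℍ → ℂ) : f ∈ hol_ring ↔ MDiff f := Iff.rfl

theorem hol_mdiff (h : hol_ring) : MDiff (h : ℍ → ℂ) := h.2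

theorem hol_continuous (h : hol_ring) : Continuous (h : ℍ → ℂ) := h.2.continuous

theorem hol_ext {h₁ h₂ : hol_ring} (h : ∀ τ, (h₁ : ℍ → ℂ) τ = (h₂ : ℍ → ℂ) τ) : h₁ = h₂ :=
  Subtype.ext (funext h)

theorem hol_ne_zero_iff (h : hol_ring) : h ≠ 0 ↔ ∃ τ, (h : ℍ → ℂ) τ ≠ 0 := by
  constructor
  · intro hne
    by_contra hcon
    push Not at hcon
    exact hne (hol_ext hcon)
  · rintro ⟨τ, hτ⟩ rfl
    exact hτ rfl

instance hol_isDomain : IsDomain hol_ring := by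
  have : Nontrivial hol_ring := ⟨⟨0, 1, fun h => by
    have := congrFun (congrArg Subtype.val h) UpperHalfPlane.I
    simp at this⟩⟩
  have : NoZeroDivisors hol_ring := ⟨fun {a b} hab => by
    by_cases hb : b = 0
    · exact Or.inr hb
    · left
      have hb0 := (hol_ne_zero_iff b).mp hb
      apply hol_ext
      intro τ
      refine Fermat.Agent.S23.rc_eq_zero_of_forall_ne a b (hol_continuous a) (hol_mdiff b) hb0
        (fun τ hτ => ?_) τ
      have := congrFun (congrArg Subtype.val hab) τ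
      simp only [Subring.coe_mul, Pi.mul_apply, ZeroMemClass.coe_zero, Pi.zero_apply] at this
      exact (mul_eq_zero.mp this).resolve_right hτ⟩
  exact NoZeroDivisors.to_isDomain _

/-- The field of meromorphic functions on `ℍ` (quotients of holomorphic functions). -/
abbrev hol_Mer : Type := FractionRing hol_ring

/-- Constants. -/
def hol_const : ℂ →+* hol_ring where
  toFun c := ⟨fun _ => c, mdifferentiable_const⟩
  map_one' := rfl
  map_mul' _ _ := rfl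
  map_zero' := rfl
  map_add' _ _ := rfl

@[simp] theorem hol_const_apply (c : ℂ) (τ : ℍ) : (hol_const c : ℍ → ℂ) τ = c := rfl

/-- Constants, in the field of meromorphic functions. -/
noncomputable def hol_constMer : ℂ →+* hol_Mer :=
  (algebraMap hol_ring hol_Mer).comp hol_const

/-! ### The action of `SL(2, ℤ)` -/

theorem hol_mdiff_smul (γ : SL(2, ℤ)) : MDiff (fun τ : ℍ => γ • τ) := by
  have h : (0 : ℝ) < ((γ : GL (Fin 2) ℝ)).det.val := by
    simp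
  exact mdifferentiable_smul h

/-- Composition with the Möbius transformation `γ`, on holomorphic functions. -/
noncomputable def hol_compHom (γ : SL(2, ℤ)) : hol_ring →+* hol_ring where
  toFun h := ⟨fun τ => (h : ℍ → ℂ) (γ • τ), (hol_mdiff h).comp (hol_mdiff_smul γ)⟩
  map_one' := rfl
  map_mul' _ _ := rfl
  map_zero' := rfl
  map_add' _ _ := rfl

@[simp] theorem hol_compHom_apply (γ : SL(2, ℤ)) (h : hol_ring) (τ : ℍ) :
    (hol_compHom γ h : ℍ → ℂ) τ = (h : ℍ → ℂ) (γ • τ) := rfl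

/-- Composition with `γ` as a ring automorphism of the ring of holomorphic functions. -/
noncomputable def hol_comp (γ : SL(2, ℤ)) : hol_ring ≃+* hol_ring :=
  { hol_compHom γ with
    invFun := hol_compHom γ⁻¹
    left_inv := fun h => hol_ext fun τ => by
      simp only [RingHom.toFun_eq_coe, hol_compHom_apply]
      rw [← mul_smul, mul_inv_cancel, one_smul]
    right_inv := fun h => hol_ext fun τ => by
      simp only [RingHom.toFun_eq_coe, hol_compHom_apply]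
      rw [← mul_smul, inv_mul_cancel, one_smul] }

@[simp] theorem hol_comp_apply (γ : SL(2, ℤ)) (h : hol_ring) (τ : ℍ) :
    (hol_comp γ h : ℍ → ℂ) τ = (h : ℍ → ℂ) (γ • τ) := rfl

theorem hol_comp_mul (γ₁ γ₂ : SL(2, ℤ)) (h : hol_ring) :
    hol_comp (γ₁ * γ₂) h = hol_comp γ₂ (hol_comp γ₁ h) :=
  hol_ext fun τ => by simp [mul_smul]

theorem hol_comp_one (h : hol_ring) : hol_comp 1 h = h :=
  hol_ext fun τ => by simp

theorem hol_comp_const (γ : SL(2, ℤ)) (c : ℂ) : hol_comp γ (hol_const c) = hol_const c :=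
  hol_ext fun _ => rfl

/-- The automorphism `h ↦ h ∘ (γ • ·)` of the field of meromorphic functions. -/
noncomputable def hol_act (γ : SL(2, ℤ)) : hol_Mer ≃+* hol_Mer :=
  IsFractionRing.ringEquivOfRingEquiv (hol_comp γ)

theorem hol_act_algebraMap (γ : SL(2, ℤ)) (h : hol_ring) :
    hol_act γ (algebraMap hol_ring hol_Mer h) = algebraMap hol_ring hol_Mer (hol_comp γ h) :=
  IsFractionRing.ringEquivOfRingEquiv_algebraMap _ _

theorem hol_act_mul (γ₁ γ₂ : SL(2, ℤ)) (x : hol_Mer) :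
    hol_act (γ₁ * γ₂) x = hol_act γ₂ (hol_act γ₁ x) := by
  obtain ⟨a, s, -, rfl⟩ := IsFractionRing.div_surjective (A := hol_ring) x
  simp only [map_div₀, hol_act_algebraMap, hol_comp_mul]

theorem hol_act_one (x : hol_Mer) : hol_act 1 x = x := by
  obtain ⟨a, s, -, rfl⟩ := IsFractionRing.div_surjective (A := hol_ring) x
  simp only [map_div₀, hol_act_algebraMap, hol_comp_one]

theorem hol_act_inv_act (γ : SL(2, ℤ)) (x : hol_Mer) : hol_act γ⁻¹ (hol_act γ x) = x := by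
  rw [← hol_act_mul, mul_inv_cancel, hol_act_one]

theorem hol_act_act_inv (γ : SL(2, ℤ)) (x : hol_Mer) : hol_act γ (hol_act γ⁻¹ x) = x := by
  rw [← hol_act_mul, inv_mul_cancel, hol_act_one]

theorem hol_act_constMer (γ : SL(2, ℤ)) (c : ℂ) : hol_act γ (hol_constMer c) = hol_constMer c := by
  simp only [hol_constMer, RingHom.comp_apply, hol_act_algebraMap, hol_comp_const]

/-! ### Orders of holomorphic functions -/

theorem hol_analyticAt (h : hol_ring) (τ : ℍ) :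
    AnalyticAt ℂ ((h : ℍ → ℂ) ∘ ofComplex) (τ : ℂ) :=
  (UpperHalfPlane.mdifferentiable_iff.mp (hol_mdiff h)).analyticAt
    (isOpen_upperHalfPlaneSet.mem_nhds τ.im_pos)

theorem hol_analyticOnNhd (h : hol_ring) :
    AnalyticOnNhd ℂ ((h : ℍ → ℂ) ∘ ofComplex) upperHalfPlaneSet :=
  (UpperHalfPlane.mdifferentiable_iff.mp (hol_mdiff h)).analyticOnNhd isOpen_upperHalfPlaneSet

theorem hol_comp_ofComplex_coe (h : hol_ring) (τ : ℍ) :
    ((h : ℍ → ℂ) ∘ ofComplex) (τ : ℂ) = (h : ℍ → ℂ) τ := by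
  simp [Function.comp_apply, ofComplex_apply]

/-- A nonzero holomorphic function has finite order everywhere. -/
theorem hol_order_ne_top (h : hol_ring) (hh : h ≠ 0) (τ : ℍ) :
    analyticOrderAt ((h : ℍ → ℂ) ∘ ofComplex) (τ : ℂ) ≠ ⊤ := by
  intro htop
  rw [analyticOrderAt_eq_top] at htop
  obtain ⟨τ₁, hτ₁⟩ := (hol_ne_zero_iff h).mp hh
  have := (hol_analyticOnNhd h).eqOn_zero_of_preconnected_of_eventuallyEq_zero
    (convex_halfSpace_im_gt 0).isPreconnected τ.im_pos htop τ₁.im_pos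
  rw [hol_comp_ofComplex_coe] at this
  exact hτ₁ this

/-- The order of vanishing of a holomorphic function at `τ`. -/
noncomputable def hol_ord (τ : ℍ) (h : hol_ring) : ℕ :=
  analyticOrderNatAt ((h : ℍ → ℂ) ∘ ofComplex) (τ : ℂ)

theorem hol_ord_cast (τ : ℍ) (h : hol_ring) (hh : h ≠ 0) :
    ((hol_ord τ h : ℕ) : ℕ∞) = analyticOrderAt ((h : ℍ → ℂ) ∘ ofComplex) (τ : ℂ) :=
  Nat.cast_analyticOrderNatAt (hol_order_ne_top h hh τ)

theorem hol_ord_mul (τ : ℍ) (h₁ h₂ : hol_ring) (hh₁ : h₁ ≠ 0) (hh₂ : h₂ ≠ 0) :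
    hol_ord τ (h₁ * h₂) = hol_ord τ h₁ + hol_ord τ h₂ :=
  analyticOrderNatAt_mul (hol_analyticAt h₁ τ) (hol_analyticAt h₂ τ)
    (hol_order_ne_top h₁ hh₁ τ) (hol_order_ne_top h₂ hh₂ τ)

theorem hol_ord_add (τ : ℍ) (h₁ h₂ : hol_ring) (hh₁ : h₁ ≠ 0) (hh₂ : h₂ ≠ 0)
    (hh : h₁ + h₂ ≠ 0) : min (hol_ord τ h₁) (hol_ord τ h₂) ≤ hol_ord τ (h₁ + h₂) := by
  have := le_analyticOrderAt_add (f := (h₁ : ℍ → ℂ) ∘ ofComplex)
    (g := (h₂ : ℍ → ℂ) ∘ ofComplex) (z₀ := (τ : ℂ))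
  have e : ((h₁ : ℍ → ℂ) ∘ ofComplex) + ((h₂ : ℍ → ℂ) ∘ ofComplex)
      = ((h₁ + h₂ : hol_ring) : ℍ → ℂ) ∘ ofComplex := rfl
  rw [e, ← hol_ord_cast τ h₁ hh₁, ← hol_ord_cast τ h₂ hh₂, ← hol_ord_cast τ _ hh] at this
  rcases le_total (hol_ord τ h₁) (hol_ord τ h₂) with h | h
  · rw [min_eq_left h]
    rw [min_eq_left (by exact_mod_cast h)] at this
    exact_mod_cast this
  · rw [min_eq_right h]
    rw [min_eq_right (by exact_mod_cast h)] at this
    exact_mod_cast this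

theorem hol_ord_eq_zero_of_ne (τ : ℍ) (h : hol_ring) (hτ : (h : ℍ → ℂ) τ ≠ 0) :
    hol_ord τ h = 0 := by
  unfold hol_ord
  have h1 : analyticOrderAt ((h : ℍ → ℂ) ∘ ofComplex) (τ : ℂ) = 0 := by
    rw [analyticOrderAt_eq_zero]
    right
    rwa [hol_comp_ofComplex_coe]
  simp [analyticOrderNatAt, h1]

theorem hol_ord_one (τ : ℍ) : hol_ord τ 1 = 0 :=
  hol_ord_eq_zero_of_ne τ 1 (by simp)

open scoped Classical in
/-- The order valuation at `τ` on the ring of holomorphic functions. -/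
noncomputable def hol_val₀ (τ : ℍ) : Valuation hol_ring (WithZero (Multiplicative ℤ)) where
  toFun h := if h = 0 then 0 else WithZero.exp (-(hol_ord τ h : ℤ))
  map_zero' := if_pos rfl
  map_one' := by
    rw [if_neg one_ne_zero, hol_ord_one]
    simp
  map_mul' h₁ h₂ := by
    by_cases hh₁ : h₁ = 0
    · simp [hh₁]
    by_cases hh₂ : h₂ = 0
    · simp [hh₂]
    rw [if_neg hh₁, if_neg hh₂, if_neg (mul_ne_zero hh₁ hh₂), hol_ord_mul τ h₁ h₂ hh₁ hh₂,
      ← WithZero.exp_add]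
    congr 1
    push_cast
    ring
  map_add_le_max' h₁ h₂ := by
    by_cases hh : h₁ + h₂ = 0
    · rw [if_pos hh]
      exact zero_le
    by_cases hh₁ : h₁ = 0
    · simp [hh₁]
    by_cases hh₂ : h₂ = 0
    · simp [hh₂]
    rw [if_neg hh, if_neg hh₁, if_neg hh₂]
    have := hol_ord_add τ h₁ h₂ hh₁ hh₂ hh
    rcases min_le_iff.mp this with h | h
    · exact le_max_of_le_left (WithZero.exp_le_exp.mpr (by omega))
    · exact le_max_of_le_right (WithZero.exp_le_exp.mpr (by omega))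

theorem hol_val₀_apply (τ : ℍ) (h : hol_ring) (hh : h ≠ 0) :
    hol_val₀ τ h = WithZero.exp (-(hol_ord τ h : ℤ)) := if_neg hh

theorem hol_val₀_eq_zero_iff (τ : ℍ) (h : hol_ring) : hol_val₀ τ h = 0 ↔ h = 0 := by
  constructor
  · intro hv
    by_contra hh
    rw [hol_val₀_apply τ h hh] at hv
    exact WithZero.exp_ne_zero hv
  · rintro rfl
    exact map_zero _

theorem hol_nonZeroDivisors_le (τ : ℍ) :
    nonZeroDivisors hol_ring ≤ (hol_val₀ τ).supp.primeCompl := by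
  intro s hs
  show s ∉ (hol_val₀ τ).supp
  rw [Valuation.mem_supp_iff, hol_val₀_eq_zero_iff]
  exact nonZeroDivisors.ne_zero hs

/-- The order valuation at `τ` on the field of meromorphic functions. -/
noncomputable def hol_val (τ : ℍ) : Valuation hol_Mer (WithZero (Multiplicative ℤ)) :=
  (hol_val₀ τ).extendToLocalization (hol_nonZeroDivisors_le τ) hol_Mer

theorem hol_val_algebraMap' (τ : ℍ) (h : hol_ring) :
    hol_val τ (algebraMap hol_ring hol_Mer h) = hol_val₀ τ h :=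
  Valuation.extendToLocalization_apply_map_apply _ _ _ h

theorem hol_val_algebraMap (τ : ℍ) (h : hol_ring) (hh : h ≠ 0) :
    hol_val τ (algebraMap hol_ring hol_Mer h)
      = WithZero.exp (-(analyticOrderNatAt ((h : ℍ → ℂ) ∘ ofComplex) (τ : ℂ) : ℤ)) := by
  rw [hol_val_algebraMap', hol_val₀_apply τ h hh]
  rfl

theorem hol_val_div (τ : ℍ) (a b : hol_ring) :
    hol_val τ (algebraMap hol_ring hol_Mer a / algebraMap hol_ring hol_Mer b)
      = hol_val₀ τ a / hol_val₀ τ b := by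
  rw [map_div₀, hol_val_algebraMap', hol_val_algebraMap']

theorem hol_val_constMer (τ : ℍ) (c : ℂ) (hc : c ≠ 0) : hol_val τ (hol_constMer c) = 1 := by
  have hne : hol_const c ≠ 0 := by
    rw [hol_ne_zero_iff]
    exact ⟨τ, hc⟩
  show hol_val τ (algebraMap hol_ring hol_Mer (hol_const c)) = 1
  rw [hol_val_algebraMap', hol_val₀_apply τ _ hne, hol_ord_eq_zero_of_ne τ _ (by simpa using hc)]
  simp

/-- Every nonzero meromorphic function has valuation `exp k` for an integer `k`. -/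
theorem hol_val_exists (τ : ℍ) (x : hol_Mer) (hx : x ≠ 0) :
    ∃ k : ℤ, hol_val τ x = WithZero.exp k := by
  obtain ⟨a, s, hs, rfl⟩ := IsFractionRing.div_surjective (A := hol_ring) x
  have ha : a ≠ 0 := by
    rintro rfl
    simp at hx
  have hs' : s ≠ 0 := nonZeroDivisors.ne_zero hs
  refine ⟨-(hol_ord τ a : ℤ) - (-(hol_ord τ s : ℤ)), ?_⟩
  rw [hol_val_div, hol_val₀_apply τ a ha, hol_val₀_apply τ s hs', WithZero.exp_sub]

/-! ### Möbius transformations on `ℂ` -/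

/-- The Möbius transformation of `γ` as a function on `ℂ`. -/
noncomputable def hol_moeb (γ : SL(2, ℤ)) (z : ℂ) : ℂ :=
  ((γ 0 0 : ℂ) * z + (γ 0 1 : ℂ)) / ((γ 1 0 : ℂ) * z + (γ 1 1 : ℂ))

/-- The denominator `c z + d`. -/
noncomputable def hol_den (γ : SL(2, ℤ)) (z : ℂ) : ℂ := (γ 1 0 : ℂ) * z + (γ 1 1 : ℂ)

theorem hol_den_eq_denom (γ : SL(2, ℤ)) (τ : ℍ) : hol_den γ (τ : ℂ) = denom γ τ := by
  simp [hol_den, denom]

theorem hol_den_ne_zero (γ : SL(2, ℤ)) (τ : ℍ) : hol_den γ (τ : ℂ) ≠ 0 := by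
  rw [hol_den_eq_denom]
  exact denom_ne_zero γ τ

theorem hol_coe_smul (γ : SL(2, ℤ)) (τ : ℍ) : ((γ • τ : ℍ) : ℂ) = hol_moeb γ (τ : ℂ) := by
  rw [coe_specialLinearGroup_apply]
  simp [hol_moeb]

theorem hol_det (γ : SL(2, ℤ)) :
    (γ 0 0 : ℂ) * (γ 1 1 : ℂ) - (γ 0 1 : ℂ) * (γ 1 0 : ℂ) = 1 := by
  have h := γ.det_coe
  rw [Matrix.det_fin_two] at h
  have : ((γ 0 0 * γ 1 1 - γ 0 1 * γ 1 0 : ℤ) : ℂ) = 1 := by
    rw [h]
    simp
  push_cast at this
  exact this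

/-- The difference formula `γ z - γ w = (z - w) / ((c z + d) (c w + d))`. -/
theorem hol_moeb_sub (γ : SL(2, ℤ)) (z w : ℂ) (hz : hol_den γ z ≠ 0) (hw : hol_den γ w ≠ 0) :
    hol_moeb γ z - hol_moeb γ w = (z - w) / (hol_den γ z * hol_den γ w) := by
  have hd := hol_det γ
  have hz' : (γ 1 0 : ℂ) * z + (γ 1 1 : ℂ) ≠ 0 := hz
  have hw' : (γ 1 0 : ℂ) * w + (γ 1 1 : ℂ) ≠ 0 := hw
  show ((γ 0 0 : ℂ) * z + (γ 0 1 : ℂ)) / ((γ 1 0 : ℂ) * z + (γ 1 1 : ℂ))
      - ((γ 0 0 : ℂ) * w + (γ 0 1 : ℂ)) / ((γ 1 0 : ℂ) * w + (γ 1 1 : ℂ))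
      = (z - w) / (((γ 1 0 : ℂ) * z + (γ 1 1 : ℂ)) * ((γ 1 0 : ℂ) * w + (γ 1 1 : ℂ)))
  rw [div_sub_div _ _ hz' hw', div_left_inj' (mul_ne_zero hz' hw')]
  linear_combination (z - w) * hd

theorem hol_analyticAt_den (γ : SL(2, ℤ)) (z : ℂ) : AnalyticAt ℂ (hol_den γ) z := by
  unfold hol_den
  fun_prop

theorem hol_analyticAt_moeb (γ : SL(2, ℤ)) (z : ℂ) (hz : hol_den γ z ≠ 0) :
    AnalyticAt ℂ (hol_moeb γ) z := by
  have hz' : (γ 1 0 : ℂ) * z + (γ 1 1 : ℂ) ≠ 0 := hz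
  unfold hol_moeb
  fun_prop (disch := exact hz')

theorem hol_hasDerivAt_moeb (γ : SL(2, ℤ)) (z : ℂ) (hz : hol_den γ z ≠ 0) :
    HasDerivAt (hol_moeb γ) (1 / hol_den γ z ^ 2) z := by
  have hz' : (γ 1 0 : ℂ) * z + (γ 1 1 : ℂ) ≠ 0 := hz
  have h1 : HasDerivAt (fun z : ℂ => (γ 0 0 : ℂ) * z + (γ 0 1 : ℂ)) (γ 0 0 : ℂ) z := by
    simpa using ((hasDerivAt_id z).const_mul (γ 0 0 : ℂ)).add_const (γ 0 1 : ℂ)
  have h2 : HasDerivAt (fun z : ℂ => (γ 1 0 : ℂ) * z + (γ 1 1 : ℂ)) (γ 1 0 : ℂ) z := by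
    simpa using ((hasDerivAt_id z).const_mul (γ 1 0 : ℂ)).add_const (γ 1 1 : ℂ)
  have h3 := h1.div h2 hz'
  have hd := hol_det γ
  have heq : (1 / hol_den γ z ^ 2)
      = ((γ 0 0 : ℂ) * ((γ 1 0 : ℂ) * z + (γ 1 1 : ℂ))
          - ((γ 0 0 : ℂ) * z + (γ 0 1 : ℂ)) * (γ 1 0 : ℂ))
            / ((γ 1 0 : ℂ) * z + (γ 1 1 : ℂ)) ^ 2 := by
    show 1 / ((γ 1 0 : ℂ) * z + (γ 1 1 : ℂ)) ^ 2
      = ((γ 0 0 : ℂ) * ((γ 1 0 : ℂ) * z + (γ 1 1 : ℂ))
          - ((γ 0 0 : ℂ) * z + (γ 0 1 : ℂ)) * (γ 1 0 : ℂ))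
            / ((γ 1 0 : ℂ) * z + (γ 1 1 : ℂ)) ^ 2
    rw [div_left_inj' (pow_ne_zero 2 hz')]
    linear_combination -hd
  rw [heq]
  exact h3

theorem hol_deriv_moeb_ne_zero (γ : SL(2, ℤ)) (τ : ℍ) : deriv (hol_moeb γ) (τ : ℂ) ≠ 0 := by
  rw [(hol_hasDerivAt_moeb γ τ (hol_den_ne_zero γ τ)).deriv]
  exact one_div_ne_zero (pow_ne_zero 2 (hol_den_ne_zero γ τ))

/-- Near a point of `ℍ`, `(h ∘ γ) ∘ ofComplex = (h ∘ ofComplex) ∘ moeb γ`. -/
theorem hol_comp_eventuallyEq (γ : SL(2, ℤ)) (h : hol_ring) (τ : ℍ) :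
    ((hol_comp γ h : ℍ → ℂ) ∘ ofComplex) =ᶠ[𝓝 (τ : ℂ)]
      (((h : ℍ → ℂ) ∘ ofComplex) ∘ hol_moeb γ) := by
  filter_upwards [isOpen_upperHalfPlaneSet.mem_nhds τ.im_pos] with z hz
  have hz' : 0 < z.im := hz
  simp only [Function.comp_apply, ofComplex_apply_of_im_pos hz', hol_comp_apply]
  have : hol_moeb γ z = ((γ • (⟨z, hz'⟩ : ℍ) : ℍ) : ℂ) := (hol_coe_smul γ ⟨z, hz'⟩).symm
  rw [this, ofComplex_apply]

/-- The order of `h ∘ γ` at `τ` is the order of `h` at `γ τ`. -/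
theorem hol_ord_comp (γ : SL(2, ℤ)) (h : hol_ring) (τ : ℍ) :
    hol_ord τ (hol_comp γ h) = hol_ord (γ • τ) h := by
  unfold hol_ord analyticOrderNatAt
  congr 1
  rw [analyticOrderAt_congr (hol_comp_eventuallyEq γ h τ),
    analyticOrderAt_comp_of_deriv_ne_zero (hol_analyticAt_moeb γ τ (hol_den_ne_zero γ τ))
      (hol_deriv_moeb_ne_zero γ τ), hol_coe_smul]

theorem hol_comp_ne_zero (γ : SL(2, ℤ)) (h : hol_ring) (hh : h ≠ 0) : hol_comp γ h ≠ 0 :=
  (EmbeddingLike.map_ne_zero_iff (f := hol_comp γ)).mpr hh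

theorem hol_val₀_comp (γ : SL(2, ℤ)) (h : hol_ring) (τ : ℍ) :
    hol_val₀ τ (hol_comp γ h) = hol_val₀ (γ • τ) h := by
  by_cases hh : h = 0
  · subst hh
    simp
  · rw [hol_val₀_apply _ _ (hol_comp_ne_zero γ h hh), hol_val₀_apply _ _ hh, hol_ord_comp]

/-- The valuation at `τ` of `x ∘ γ` is the valuation of `x` at `γ τ`. -/
theorem hol_val_act (γ : SL(2, ℤ)) (τ : ℍ) (x : hol_Mer) :
    hol_val τ (hol_act γ x) = hol_val (γ • τ) x := by
  obtain ⟨a, s, -, rfl⟩ := IsFractionRing.div_surjective (A := hol_ring) x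
  rw [map_div₀, hol_act_algebraMap, hol_act_algebraMap, hol_val_div, hol_val_div,
    hol_val₀_comp, hol_val₀_comp]

end Fermat.Agent.S24
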