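import Mathlib
import Fermat.Agent.S24.AnaQexp
import Fermat.Agent.S24.AnaJd
import Fermat.Agent.S24.EvAlg
import Fermat.Agent.S24.Hol

/-!
# S24, package ANA-EV (part 3): the evaluation homomorphism and the conjugate embeddings

* `ana_ev N : s24F N →+* ana_M N` : the unique ring homomorphism whose `q_N`-expansion is the
  formal series (`ana_ev_spec`).
* `ana_rho N : s24Q N → (s24F N →+* ana_M N)` : the conjugate embeddings
  `ana_rho N ↑g = (ana_act N g).comp (ana_ev N)`.
* `ana_toMer N : ana_M N →+* hol_Mer` : the comparison with the field of meromorphic functions.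
-/

set_option autoImplicit false

noncomputable section

namespace Fermat.Agent.S24

open UpperHalfPlane hiding I
open Filter Function Topology ModularForm Complex ModularCurve
open scoped Manifold MatrixGroups ModularForm Real
open Fermat.Agent.S23

/-- `τ ↦ J (d τ)` as an element of `ana_ring N`. -/
def ana_Jd (N : ℕ) [NeZero N] (d : ℕ) [NeZero d] (hd : d ∣ N) : ana_ring N :=
  ⟨fun τ : ℍ => ord_J (pe_mulN d (NeZero.pos d) τ), ana_Jd_mem N d hd (NeZero.pos d)⟩

@[simp] theorem ana_Jd_apply (N : ℕ) [NeZero N] (d : ℕ) [NeZero d] (hd : d ∣ N) (τ : ℍ) :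
    (ana_Jd N d hd : ℍ → ℂ) τ = ord_J (pe_mulN d (NeZero.pos d) τ) := rfl

theorem ana_pe_mulN_one (h : 0 < 1) (τ : ℍ) : pe_mulN 1 h τ = τ := by
  apply UpperHalfPlane.ext
  rw [pe_mulN_coe]
  simp

/-- `J` as an element of `ana_ring N`. -/
def ana_J (N : ℕ) [NeZero N] : ana_ring N :=
  ⟨ord_J, by
    have h := ana_Jd_mem N 1 (one_dvd N) one_pos
    have h2 : (fun τ : ℍ => ord_J (pe_mulN 1 one_pos τ)) = ord_J := by
      funext τ
      rw [ana_pe_mulN_one]
    rwa [h2] at h⟩

@[simp] theorem ana_J_apply (N : ℕ) [NeZero N] (τ : ℍ) : (ana_J N : ℍ → ℂ) τ = ord_J τ := rfl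

theorem ana_Jd_one (N : ℕ) [NeZero N] : ana_Jd N 1 (one_dvd N) = ana_J N := by
  apply Subtype.ext
  funext τ
  simp [ana_pe_mulN_one]

theorem ana_comp_J (N : ℕ) [NeZero N] (g : SL(2, ℤ)) : ana_comp N g (ana_J N) = ana_J N := by
  apply Subtype.ext
  funext τ
  show ord_J (g • τ) = ord_J τ
  exact ord_J_smul g τ

theorem ana_coeffMap_iota_coeffEmb (x : LaurentSeries ℚ) :
    coeffMap ana_iota (coeffEmb s24K x) = coeffEmb ℂ x := by
  rw [coeffEmb, coeffMap_coeffMap, coeffEmb]
  apply coeffMap_congr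
  ext r
  simp only [RingHom.comp_apply]
  rw [ana_iota_ratCast]
  simp

theorem ana_qexp_Jd' (N : ℕ) [NeZero N] (d : ℕ) [NeZero d] (hd : d ∣ N) :
    ana_qexp N (ana_Jd N d hd) = qExpand ℂ N (coeffEmb ℂ (qExpand ℚ d jq)) :=
  ana_qexp_Jd N d hd

theorem ana_qexp_J (N : ℕ) [NeZero N] :
    ana_qexp N (ana_J N) = qExpand ℂ N (coeffEmb ℂ jq) := by
  have h := ana_qexp_Jd' N 1 (one_dvd N)
  rw [qExpand_one_apply, ana_Jd_one] at h
  exact h

/-- The formal embedding `F → ℂ((q_N))`. -/
def ana_Phi (N : ℕ) [NeZero N] : s24F N →+* LaurentSeries ℂ :=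
  ((qExpand ℂ N).comp (coeffMap ana_iota)).comp
    (algebraMap (s24F N) (LaurentSeries s24K))

theorem ana_Phi_apply (N : ℕ) [NeZero N] (x : s24F N) :
    ana_Phi N x = qExpand ℂ N (coeffMap ana_iota (x : LaurentSeries s24K)) := rfl

theorem ana_Phi_algebraMap (N : ℕ) [NeZero N] (c : s24K) :
    ana_Phi N (algebraMap s24K (s24F N) c) = HahnSeries.C (ana_iota c) := by
  rw [ana_Phi_apply]
  have h1 : ((algebraMap s24K (s24F N) c : s24F N) : LaurentSeries s24K)
      = HahnSeries.single 0 c := by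
    rw [← algebraMap_laurentSeries_eq_single]
    rfl
  rw [h1, coeffMap_single]
  exact qExpand_C N (ana_iota c)

theorem ana_Phi_jd (N : ℕ) [NeZero N] (d : ℕ) [NeZero d] (hd : d ∣ N) :
    ana_Phi N (eva_jd N d hd) = qExpand ℂ N (coeffEmb ℂ (qExpand ℚ d jq)) := by
  rw [ana_Phi_apply]
  show qExpand ℂ N (coeffMap ana_iota (coeffEmb s24K (qExpand ℚ d jq))) = _
  rw [ana_coeffMap_iota_coeffEmb]

theorem ana_exists_ev (N : ℕ) [NeZero N] :
    ∃ ev : s24F N →+* ana_M N, ∀ x : s24F N, ana_qexpM N (ev x) = ana_Phi N x :=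
  eva_exists (ana_qexpM N) ana_iota N
    (fun c => ⟨algebraMap _ _ (ana_const N (ana_iota c)), by
      rw [ana_qexpM_algebraMap, ana_qexp_const]⟩)
    (fun d hd _ => ⟨algebraMap _ _ (ana_Jd N d hd), by
      rw [ana_qexpM_algebraMap, ana_qexp_Jd', ana_coeffMap_iota_coeffEmb]⟩)

/-- The evaluation homomorphism: a formal series in the function field is sent to the
modular function having it as `q`-expansion. -/
def ana_ev (N : ℕ) [NeZero N] : s24F N →+* ana_M N := (ana_exists_ev N).choose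

theorem ana_ev_spec' (N : ℕ) [NeZero N] (x : s24F N) :
    ana_qexpM N (ana_ev N x) = ana_Phi N x := (ana_exists_ev N).choose_spec x

theorem ana_ev_spec (N : ℕ) [NeZero N] (x : s24F N) :
    ana_qexpM N (ana_ev N x) = qExpand ℂ N (coeffMap ana_iota (x : LaurentSeries s24K)) :=
  ana_ev_spec' N x

theorem ana_ev_eq_of_qexp (N : ℕ) [NeZero N] {x : s24F N} {m : ana_M N}
    (h : ana_qexpM N m = ana_Phi N x) : ana_ev N x = m :=
  ana_qexpM_injective N (by rw [ana_ev_spec', h])

theorem ana_ev_algebraMap (N : ℕ) [NeZero N] (c : s24K) :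
    ana_ev N (algebraMap s24K (s24F N) c)
      = algebraMap (ana_ring N) (ana_M N) (ana_const N (ana_iota c)) :=
  ana_ev_eq_of_qexp N (by rw [ana_qexpM_algebraMap, ana_qexp_const, ana_Phi_algebraMap])

theorem ana_ev_jd (N : ℕ) [NeZero N] (d : ℕ) [NeZero d] (hd : d ∣ N) :
    ana_ev N (eva_jd N d hd) = algebraMap (ana_ring N) (ana_M N) (ana_Jd N d hd) :=
  ana_ev_eq_of_qexp N (by rw [ana_qexpM_algebraMap, ana_qexp_Jd', ana_Phi_jd])

theorem ana_ev_j (N : ℕ) [NeZero N] :
    ana_ev N (s24j N) = algebraMap (ana_ring N) (ana_M N) (ana_J N) := by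
  rw [← eva_jd_one, ana_ev_jd, ana_Jd_one]

/-! ### ring homomorphisms out of the function field are determined on the generators -/

theorem ana_coeffEmb_ratCast (r : ℚ) :
    coeffEmb s24K (algebraMap ℚ (LaurentSeries ℚ) r)
      = algebraMap s24K (LaurentSeries s24K) (algebraMap ℚ s24K r) := by
  rw [algebraMap_laurentSeries_eq_single, algebraMap_laurentSeries_eq_single, coeffEmb,
    coeffMap_single]

theorem ana_ringHom_ext_F {N : ℕ} [NeZero N] {L : Type*} [Field L] {φ ψ : s24F N →+* L}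
    (hK : ∀ c : s24K, φ (algebraMap s24K (s24F N) c) = ψ (algebraMap s24K (s24F N) c))
    (hJ : ∀ (d : ℕ) [NeZero d] (hd : d ∣ N), φ (eva_jd N d hd) = ψ (eva_jd N d hd)) :
    φ = ψ := by
  -- inner induction: elements `coeffEmb z`, `z` in the rational function field
  have inner : ∀ (z : LaurentSeries ℚ) (hz : z ∈ modularFunctionFieldFull N),
      φ ⟨coeffEmb s24K z, coeffEmb_mem_laurentBaseChange _ hz⟩
        = ψ ⟨coeffEmb s24K z, coeffEmb_mem_laurentBaseChange _ hz⟩ := by
    intro z hz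
    induction hz using IntermediateField.adjoin_induction with
    | mem x hx =>
      obtain ⟨d, hne, hd, rfl⟩ := hx
      exact @hJ d hne hd
    | algebraMap r =>
      have h1 : (⟨coeffEmb s24K (algebraMap ℚ (LaurentSeries ℚ) r),
          coeffEmb_mem_laurentBaseChange _ ((modularFunctionFieldFull N).algebraMap_mem r)⟩ :
          s24F N) = algebraMap s24K (s24F N) (algebraMap ℚ s24K r) :=
        Subtype.ext (ana_coeffEmb_ratCast r)
      rw [h1]
      exact hK _
    | add x y hx hy ihx ihy =>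
      have h1 : (⟨coeffEmb s24K (x + y), coeffEmb_mem_laurentBaseChange _ (add_mem hx hy)⟩ :
          s24F N) = ⟨coeffEmb s24K x, coeffEmb_mem_laurentBaseChange _ hx⟩
            + ⟨coeffEmb s24K y, coeffEmb_mem_laurentBaseChange _ hy⟩ :=
        Subtype.ext (map_add _ x y)
      rw [h1, map_add, map_add, ihx, ihy]
    | inv x hx ihx =>
      have h1 : (⟨coeffEmb s24K x⁻¹, coeffEmb_mem_laurentBaseChange _ (inv_mem hx)⟩ :
          s24F N) = (⟨coeffEmb s24K x, coeffEmb_mem_laurentBaseChange _ hx⟩ : s24F N)⁻¹ :=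
        Subtype.ext (map_inv₀ _ x)
      rw [h1, map_inv₀, map_inv₀, ihx]
    | mul x y hx hy ihx ihy =>
      have h1 : (⟨coeffEmb s24K (x * y), coeffEmb_mem_laurentBaseChange _ (mul_mem hx hy)⟩ :
          s24F N) = ⟨coeffEmb s24K x, coeffEmb_mem_laurentBaseChange _ hx⟩
            * ⟨coeffEmb s24K y, coeffEmb_mem_laurentBaseChange _ hy⟩ :=
        Subtype.ext (map_mul _ x y)
      rw [h1, map_mul, map_mul, ihx, ihy]
  have outer : ∀ (x : LaurentSeries s24K) (hx : x ∈ modularFunctionFieldBar N),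
      φ ⟨x, hx⟩ = ψ ⟨x, hx⟩ := by
    intro x hx
    induction hx using IntermediateField.adjoin_induction with
    | mem x hx =>
      obtain ⟨z, hz, rfl⟩ := hx
      exact inner z hz
    | algebraMap c => exact hK c
    | add x y hx hy ihx ihy =>
      have h1 : (⟨x + y, add_mem hx hy⟩ : s24F N) = ⟨x, hx⟩ + ⟨y, hy⟩ := rfl
      rw [h1, map_add, map_add, ihx, ihy]
    | inv x hx ihx =>
      have h1 : (⟨x⁻¹, inv_mem hx⟩ : s24F N) = (⟨x, hx⟩ : s24F N)⁻¹ := rfl
      rw [h1, map_inv₀, map_inv₀, ihx]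
    | mul x y hx hy ihx ihy =>
      have h1 : (⟨x * y, mul_mem hx hy⟩ : s24F N) = ⟨x, hx⟩ * ⟨y, hy⟩ := rfl
      rw [h1, map_mul, map_mul, ihx, ihy]
  ext ⟨x, hx⟩
  exact outer x hx

/-! ### invariance under `Γ₀(N)` and the conjugate embeddings -/

theorem ana_comp_Jd_of_mem (N : ℕ) [NeZero N] (d : ℕ) [NeZero d] (hd : d ∣ N) (γ : SL(2, ℤ))
    (hγ : γ ∈ CongruenceSubgroup.Gamma0 N) : ana_comp N γ (ana_Jd N d hd) = ana_Jd N d hd := by
  apply Subtype.ext
  funext τ
  exact ana_Jd_comp_Gamma0 N d hd (NeZero.pos d) hγ τ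

theorem ana_act_ev_of_mem (N : ℕ) [NeZero N] (γ : SL(2, ℤ))
    (hγ : γ ∈ CongruenceSubgroup.Gamma0 N) : (ana_act N γ).comp (ana_ev N) = ana_ev N := by
  apply ana_ringHom_ext_F
  · intro c
    simp only [RingHom.comp_apply]
    rw [ana_ev_algebraMap, ana_act_algebraMap, ana_comp_const]
  · intro d _ hd
    simp only [RingHom.comp_apply]
    rw [ana_ev_jd, ana_act_algebraMap, ana_comp_Jd_of_mem N d hd γ⁻¹ (inv_mem hγ)]

/-- The conjugate embedding attached to `g : SL(2,ℤ)`. -/
def ana_rhoG (N : ℕ) [NeZero N] (g : SL(2, ℤ)) : s24F N →+* ana_M N :=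
  (ana_act N g).comp (ana_ev N)

theorem ana_rhoG_mul_of_mem (N : ℕ) [NeZero N] (g γ : SL(2, ℤ))
    (hγ : γ ∈ CongruenceSubgroup.Gamma0 N) : ana_rhoG N (g * γ) = ana_rhoG N g := by
  unfold ana_rhoG
  rw [ana_act_mul, RingHom.comp_assoc, ana_act_ev_of_mem N γ hγ]

/-- The conjugate embeddings, indexed by the cosets `g Γ₀(N)`. -/
def ana_rho (N : ℕ) [NeZero N] (q : s24Q N) : s24F N →+* ana_M N :=
  Quotient.liftOn' q (ana_rhoG N) (fun a b hab => by
    have h : a⁻¹ * b ∈ CongruenceSubgroup.Gamma0 N := QuotientGroup.leftRel_apply.mp hab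
    have := ana_rhoG_mul_of_mem N a (a⁻¹ * b) h
    rw [mul_inv_cancel_left] at this
    exact this.symm)

theorem ana_rho_mk (N : ℕ) [NeZero N] (g : SL(2, ℤ)) :
    ana_rho N (g : s24Q N) = (ana_act N g).comp (ana_ev N) := rfl

theorem ana_rho_smul (N : ℕ) [NeZero N] (c : SL(2, ℤ)) (q : s24Q N) :
    ana_rho N (c • q) = (ana_act N c).comp (ana_rho N q) := by
  induction q using QuotientGroup.induction_on with
  | _ g =>
    have h1 : c • ((g : SL(2, ℤ)) : s24Q N) = (((c * g : SL(2, ℤ))) : s24Q N) := rfl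
    rw [h1, ana_rho_mk, ana_rho_mk, ana_act_mul, RingHom.comp_assoc]

theorem ana_rho_algebraMap (N : ℕ) [NeZero N] (q : s24Q N) (c : s24K) :
    ana_rho N q (algebraMap s24K (s24F N) c)
      = algebraMap (ana_ring N) (ana_M N) (ana_const N (ana_iota c)) := by
  induction q using QuotientGroup.induction_on with
  | _ g =>
    rw [ana_rho_mk, RingHom.comp_apply, ana_ev_algebraMap, ana_act_algebraMap, ana_comp_const]

theorem ana_rho_j (N : ℕ) [NeZero N] (q : s24Q N) :
    ana_rho N q (s24j N) = algebraMap (ana_ring N) (ana_M N) (ana_J N) := by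
  induction q using QuotientGroup.induction_on with
  | _ g =>
    rw [ana_rho_mk, RingHom.comp_apply, ana_ev_j, ana_act_algebraMap, ana_comp_J]

theorem ana_rho_jd (N : ℕ) [NeZero N] (g : SL(2, ℤ)) (d : ℕ) [NeZero d] (hd : d ∣ N) :
    ana_rho N (g : s24Q N) (eva_jd N d hd)
      = algebraMap (ana_ring N) (ana_M N) (ana_comp N g⁻¹ (ana_Jd N d hd)) := by
  rw [ana_rho_mk, RingHom.comp_apply, ana_ev_jd, ana_act_algebraMap]

/-- `ρ_x` of `CountingData`. -/
theorem ana_rho_x (N : ℕ) [NeZero N] (q q' : s24Q N) :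
    ana_rho N q (s24j N) = ana_rho N q' (s24j N) := by
  rw [ana_rho_j, ana_rho_j]

/-- `ρ_K` of `CountingData`. -/
theorem ana_rho_K (N : ℕ) [NeZero N] (q q' : s24Q N) (c : s24K) :
    ana_rho N q (algebraMap s24K (s24F N) c) = ana_rho N q' (algebraMap s24K (s24F N) c) := by
  rw [ana_rho_algebraMap, ana_rho_algebraMap]

/-- `ρ_injective` of `CountingData`: the conjugates of `j_N` are pairwise distinct. -/
theorem ana_rho_injective (N : ℕ) [NeZero N] : Function.Injective (ana_rho N) := by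
  intro q q' h
  induction q using QuotientGroup.induction_on with
  | _ g =>
  induction q' using QuotientGroup.induction_on with
  | _ g' =>
    have h1 := congrArg (fun φ : s24F N →+* ana_M N => φ (eva_jd N N dvd_rfl)) h
    simp only [ana_rho_jd] at h1
    have h2 := IsFractionRing.injective (ana_ring N) (ana_M N) h1
    rw [← dist_conj_eq_iff N (NeZero.pos N) g g']
    intro z
    have h3 := congrArg (fun f : ana_ring N => (f : ℍ → ℂ) z) h2
    simpa [distJN] using h3

/-! ### comparison with meromorphic functions on `ℍ` -/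

/-- The inclusion of `ana_ring N` into the ring of all holomorphic functions. -/
def ana_incl (N : ℕ) : ana_ring N →+* hol_ring where
  toFun f := ⟨(f : ℍ → ℂ), f.2.1⟩
  map_one' := rfl
  map_mul' _ _ := rfl
  map_zero' := rfl
  map_add' _ _ := rfl

@[simp] theorem ana_incl_apply (N : ℕ) (f : ana_ring N) (τ : ℍ) :
    (ana_incl N f : ℍ → ℂ) τ = (f : ℍ → ℂ) τ := rfl

theorem ana_incl_injective (N : ℕ) : Function.Injective (ana_incl N) := by
  intro a b h
  apply Subtype.ext
  exact congrArg (fun f : hol_ring => (f : ℍ → ℂ)) h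

/-- The comparison map to the field of meromorphic functions on `ℍ`. -/
def ana_toMer (N : ℕ) : ana_M N →+* hol_Mer :=
  IsFractionRing.lift (g := (algebraMap hol_ring hol_Mer).comp (ana_incl N))
    ((IsFractionRing.injective hol_ring hol_Mer).comp (ana_incl_injective N))

@[simp] theorem ana_toMer_algebraMap (N : ℕ) (f : ana_ring N) :
    ana_toMer N (algebraMap (ana_ring N) (ana_M N) f)
      = algebraMap hol_ring hol_Mer (ana_incl N f) := by
  unfold ana_toMer
  rw [IsFractionRing.lift_algebraMap]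
  rfl

theorem ana_toMer_injective (N : ℕ) : Function.Injective (ana_toMer N) :=
  (ana_toMer N).injective

theorem ana_incl_comp (N : ℕ) (g : SL(2, ℤ)) (f : ana_ring N) :
    ana_incl N (ana_comp N g f) = hol_comp g (ana_incl N f) := rfl

/-- equivariance of the comparison map -/
theorem ana_toMer_act (N : ℕ) (g : SL(2, ℤ)) (m : ana_M N) :
    ana_toMer N (ana_act N g m) = hol_act g⁻¹ (ana_toMer N m) := by
  have h : (ana_toMer N).comp (ana_act N g)
      = ((hol_act g⁻¹ : hol_Mer ≃+* hol_Mer) : hol_Mer →+* hol_Mer).comp (ana_toMer N) := by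
    apply ana_ringHom_ext_M
    intro f
    simp only [RingHom.comp_apply, ana_act_algebraMap, ana_toMer_algebraMap, RingHom.coe_coe,
      hol_act_algebraMap, ana_incl_comp]
  exact congrArg (fun φ : ana_M N →+* hol_Mer => φ m) h

theorem ana_toMer_rho_algebraMap (N : ℕ) [NeZero N] (q : s24Q N) (c : s24K) :
    ana_toMer N (ana_rho N q (algebraMap s24K (s24F N) c)) = hol_constMer (ana_iota c) := by
  rw [ana_rho_algebraMap, ana_toMer_algebraMap]
  rfl

theorem ana_toMer_rho_j (N : ℕ) [NeZero N] (q : s24Q N) :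
    ana_toMer N (ana_rho N q (s24j N))
      = algebraMap hol_ring hol_Mer ⟨ord_J, ord_mdiff_J⟩ := by
  rw [ana_rho_j, ana_toMer_algebraMap]
  rfl

end Fermat.Agent.S24
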