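import Mathlib
import Fermat.Agent.S24.Defs

/-!
# S24 — package MG, part MODEL (prefix `mgm_`)

* abstract orbit counting for a cyclic group `⟨c⟩` acting on a finite coset space `G ⧸ H` when
  `c ^ m` acts trivially: orbit sizes divide `m`; for `m` prime,
  `m * #orbits = #(G ⧸ H) + (m - 1) * #Fix(c)`;
* the concrete model of `s24Q N = SL(2,ℤ) ⧸ Γ₀(N)`: two matrices define the same coset iff
  their first columns are proportional mod `N`, i.e. `a c' - c a' ≡ 0 (mod N)`;
  every coprime pair mod `N` is the first column of some matrix.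
-/

set_option autoImplicit false

namespace Fermat.Agent.S24

open MulAction Subgroup Function
open scoped MatrixGroups

/-! ### Abstract orbit counting -/

section Abstract

variable {G : Type*} [Group G] (H : Subgroup G)

theorem mgm_minimalPeriod_dvd (c : G) (m : ℕ) (hc : ∀ x : G ⧸ H, c ^ m • x = x) (x : G ⧸ H) :
    minimalPeriod (c • ·) x ∣ m := by
  apply IsPeriodicPt.minimalPeriod_dvd
  rw [IsPeriodicPt, IsFixedPt, smul_iterate]
  exact hc x

/-- The class of `x` for the orbit relation is the orbit of `x`. -/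
theorem mgm_card_class_eq [Finite (G ⧸ H)] (c : G) (x : G ⧸ H) :
    Nat.card {y // (MulAction.orbitRel (zpowers c) (G ⧸ H)).r x y}
      = minimalPeriod (c • ·) x := by
  have hset : {y // (MulAction.orbitRel (zpowers c) (G ⧸ H)).r x y}
      = ↥(MulAction.orbit (zpowers c) x) := by
    congr 1
    ext y
    change x ∈ MulAction.orbit (zpowers c) y ↔ y ∈ MulAction.orbit (zpowers c) x
    exact ⟨fun h => (MulAction.orbitRel (zpowers c) (G ⧸ H)).symm h,
      fun h => (MulAction.orbitRel (zpowers c) (G ⧸ H)).symm h⟩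
  rw [hset]
  exact (Nat.card_congr (MulAction.orbitZPowersEquiv c x)).trans (Nat.card_zmod _)

/-- Orbit sizes divide `m` if `c ^ m` acts trivially. -/
theorem mgm_card_class_dvd [Finite (G ⧸ H)] (c : G) (m : ℕ)
    (hc : ∀ x : G ⧸ H, c ^ m • x = x) (x : G ⧸ H) :
    Nat.card {y // (MulAction.orbitRel (zpowers c) (G ⧸ H)).r x y} ∣ m := by
  rw [mgm_card_class_eq]
  exact mgm_minimalPeriod_dvd H c m hc x

/-- The fixed points of `c` are in bijection with the orbits of size one. -/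
theorem mgm_card_fixed_eq [Finite (G ⧸ H)] (c : G) :
    Nat.card {q : Quotient (MulAction.orbitRel (zpowers c) (G ⧸ H)) // c • q.out = q.out}
      = Nat.card {x : G ⧸ H // c • x = x} := by
  have hfix : ∀ x : G ⧸ H, c • x = x → ∀ y, (MulAction.orbitRel (zpowers c) (G ⧸ H)).r y x →
      y = x := by
    intro x hx y hy
    change y ∈ MulAction.orbit (zpowers c) x at hy
    obtain ⟨⟨g, hg⟩, rfl⟩ := hy
    obtain ⟨k, rfl⟩ := Subgroup.mem_zpowers_iff.mp hg
    change c ^ k • x = x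
    have h1 : IsFixedPt (c • ·) x := hx
    have h2 : ∀ n : ℕ, c ^ n • x = x := by
      intro n
      have := h1.iterate n
      rwa [smul_iterate] at this
    have h3 : ∀ n : ℕ, (c ^ n)⁻¹ • x = x := by
      intro n
      rw [inv_smul_eq_iff, h2 n]
    rcases k with n | n
    · simpa using h2 n
    · simpa using h3 (n + 1)
  apply Nat.card_congr
  refine
    { toFun := fun q => ⟨q.1.out, q.2⟩
      invFun := fun x => ⟨Quotient.mk _ x.1, ?_⟩
      left_inv := ?_
      right_inv := ?_ }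
  · have : (Quotient.mk (MulAction.orbitRel (zpowers c) (G ⧸ H)) x.1).out = x.1 :=
      hfix x.1 x.2 _ (Quotient.exact (Quotient.out_eq _))
    rw [this]
    exact x.2
  · intro q
    apply Subtype.ext
    exact Quotient.out_eq _
  · intro x
    apply Subtype.ext
    exact hfix x.1 x.2 _ (Quotient.exact (Quotient.out_eq _))

/-- Orbit counting for a cyclic group acting through a quotient of prime order `m`:
`m * #orbits = #X + (m - 1) * #Fix`. -/
theorem mgm_burnside_prime [Finite (G ⧸ H)] (c : G) (m : ℕ) (hm : m.Prime)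
    (hc : ∀ x : G ⧸ H, c ^ m • x = x) :
    m * Nat.card (Quotient (MulAction.orbitRel (zpowers c) (G ⧸ H)))
      = Nat.card (G ⧸ H) + (m - 1) * Nat.card {x : G ⧸ H // c • x = x} := by
  classical
  letI : Fintype (G ⧸ H) := Fintype.ofFinite _
  letI : Fintype (Quotient (MulAction.orbitRel (zpowers c) (G ⧸ H))) := Fintype.ofFinite _
  have h1 : Nat.card (G ⧸ H) = ∑ q : Quotient (MulAction.orbitRel (zpowers c) (G ⧸ H)),
      minimalPeriod (c • ·) q.out := by
    rw [← Subgroup.index_eq_card]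
    exact Subgroup.index_eq_sum_minimalPeriod H c
  have h2 : ∀ q : Quotient (MulAction.orbitRel (zpowers c) (G ⧸ H)),
      minimalPeriod (c • ·) q.out = if c • q.out = q.out then 1 else m := by
    intro q
    have hdvd := mgm_minimalPeriod_dvd H c m hc q.out
    split_ifs with hq
    · exact minimalPeriod_eq_one_iff_isFixedPt.mpr hq
    · rcases (Nat.dvd_prime hm).mp hdvd with h | h
      · exact absurd (minimalPeriod_eq_one_iff_isFixedPt.mp h) hq
      · exact h
  have h3 : Nat.card {q : Quotient (MulAction.orbitRel (zpowers c) (G ⧸ H)) // c • q.out = q.out}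
      = (Finset.univ.filter fun q : Quotient (MulAction.orbitRel (zpowers c) (G ⧸ H)) =>
          c • q.out = q.out).card := by
    rw [Nat.card_eq_fintype_card, Fintype.card_subtype]
  have h4 := Finset.card_filter_add_card_filter_not
    (s := (Finset.univ : Finset (Quotient (MulAction.orbitRel (zpowers c) (G ⧸ H)))))
    (fun q => c • q.out = q.out)
  rw [Finset.card_univ, ← Nat.card_eq_fintype_card] at h4
  rw [← mgm_card_fixed_eq, h3, h1]
  simp_rw [h2]
  rw [Finset.sum_ite, Finset.sum_const, Finset.sum_const, smul_eq_mul, smul_eq_mul, mul_one,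
    ← h4]
  have hm1 : 1 ≤ m := hm.one_le
  obtain ⟨m', rfl⟩ : ∃ m', m = m' + 1 := ⟨m - 1, by omega⟩
  simp only [Nat.add_sub_cancel]
  ring

end Abstract

/-! ### The concrete model of `SL(2,ℤ) ⧸ Γ₀(N)` -/

section Concrete

open CongruenceSubgroup Matrix ModularGroup

variable (N : ℕ)

/-- The lower-left entry of `g⁻¹ * g'`. -/
theorem mgm_inv_mul_apply (g g' : SL(2, ℤ)) :
    ((g⁻¹ * g' : SL(2, ℤ)) 1 0 : ℤ) = g 0 0 * g' 1 0 - g 1 0 * g' 0 0 := by
  rw [Matrix.SpecialLinearGroup.coe_mul, Matrix.SpecialLinearGroup.SL2_inv_expl,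
    Matrix.mul_apply, Fin.sum_univ_two]
  simp
  ring

/-- Two matrices define the same coset of `Γ₀(N)` iff their first columns are proportional
mod `N`. -/
theorem mgm_coset_eq_iff (g g' : SL(2, ℤ)) :
    ((g : SL(2, ℤ)) : s24Q N) = ((g' : SL(2, ℤ)) : s24Q N) ↔
      ((g 0 0 : ℤ) : ZMod N) * ((g' 1 0 : ℤ) : ZMod N)
        - ((g 1 0 : ℤ) : ZMod N) * ((g' 0 0 : ℤ) : ZMod N) = 0 := by
  rw [QuotientGroup.eq, Gamma0_mem, mgm_inv_mul_apply]
  push_cast
  rfl

theorem mgm_smul_mk (c g : SL(2, ℤ)) :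
    c • ((g : SL(2, ℤ)) : s24Q N) = ((c * g : SL(2, ℤ)) : s24Q N) := rfl

/-- `c` fixes the coset of `g` iff a binary quadratic form vanishes at the first column
of `g`. -/
theorem mgm_smul_eq_iff (c g : SL(2, ℤ)) :
    c • ((g : SL(2, ℤ)) : s24Q N) = ((g : SL(2, ℤ)) : s24Q N) ↔
      (((c * g : SL(2, ℤ)) 0 0 : ℤ) : ZMod N) * ((g 1 0 : ℤ) : ZMod N)
        - (((c * g : SL(2, ℤ)) 1 0 : ℤ) : ZMod N) * ((g 0 0 : ℤ) : ZMod N) = 0 := by
  rw [mgm_smul_mk, mgm_coset_eq_iff]

theorem mgm_S_mul_apply (g : SL(2, ℤ)) :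
    ((S * g : SL(2, ℤ)) 0 0 : ℤ) = - g 1 0 ∧ ((S * g : SL(2, ℤ)) 1 0 : ℤ) = g 0 0 := by
  constructor <;>
  · rw [Matrix.SpecialLinearGroup.coe_mul, coe_S, Matrix.mul_apply, Fin.sum_univ_two]
    simp

theorem mgm_ST_mul_apply (g : SL(2, ℤ)) :
    ((S * T * g : SL(2, ℤ)) 0 0 : ℤ) = - g 1 0 ∧
      ((S * T * g : SL(2, ℤ)) 1 0 : ℤ) = g 0 0 + g 1 0 := by
  constructor <;>
  · rw [Matrix.SpecialLinearGroup.coe_mul, Matrix.SpecialLinearGroup.coe_mul, coe_S, coe_T,
      Matrix.mul_apply, Fin.sum_univ_two]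
    simp [Matrix.mul_apply, Fin.sum_univ_two]

theorem mgm_T_pow_mul_apply (n : ℕ) (g : SL(2, ℤ)) :
    ((T ^ n * g : SL(2, ℤ)) 0 0 : ℤ) = g 0 0 + n * g 1 0 ∧
      ((T ^ n * g : SL(2, ℤ)) 1 0 : ℤ) = g 1 0 := by
  have h := coe_T_zpow (n : ℤ)
  rw [zpow_natCast] at h
  constructor <;>
  · rw [Matrix.SpecialLinearGroup.coe_mul, h, Matrix.mul_apply, Fin.sum_univ_two]
    simp

/-- `S` fixes the coset of `g` iff `a² + c² ≡ 0`. -/
theorem mgm_S_smul_eq_iff (g : SL(2, ℤ)) :
    S • ((g : SL(2, ℤ)) : s24Q N) = ((g : SL(2, ℤ)) : s24Q N) ↔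
      ((g 0 0 : ℤ) : ZMod N) ^ 2 + ((g 1 0 : ℤ) : ZMod N) ^ 2 = 0 := by
  rw [mgm_smul_eq_iff, (mgm_S_mul_apply g).1, (mgm_S_mul_apply g).2]
  push_cast
  constructor
  · intro h
    linear_combination -h
  · intro h
    linear_combination -h

/-- `S * T` fixes the coset of `g` iff `a² + a c + c² ≡ 0`. -/
theorem mgm_ST_smul_eq_iff (g : SL(2, ℤ)) :
    (S * T) • ((g : SL(2, ℤ)) : s24Q N) = ((g : SL(2, ℤ)) : s24Q N) ↔
      ((g 0 0 : ℤ) : ZMod N) ^ 2 + ((g 0 0 : ℤ) : ZMod N) * ((g 1 0 : ℤ) : ZMod N)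
        + ((g 1 0 : ℤ) : ZMod N) ^ 2 = 0 := by
  rw [mgm_smul_eq_iff, (mgm_ST_mul_apply g).1, (mgm_ST_mul_apply g).2]
  push_cast
  constructor
  · intro h
    linear_combination -h
  · intro h
    linear_combination -h

/-- `-1` acts trivially. -/
theorem mgm_neg_one_smul (x : s24Q N) : (-1 : SL(2, ℤ)) • x = x := by
  induction x using QuotientGroup.induction_on with
  | H g =>
    rw [mgm_smul_eq_iff]
    have h0 : ((-1 * g : SL(2, ℤ)) 0 0 : ℤ) = - g 0 0 := by simp
    have h1 : ((-1 * g : SL(2, ℤ)) 1 0 : ℤ) = - g 1 0 := by simp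
    rw [h0, h1]
    push_cast
    ring

theorem mgm_S_sq_smul (x : s24Q N) : S ^ 2 • x = x := by
  have : (S ^ 2 : SL(2, ℤ)) = -1 := by decide
  rw [this]
  exact mgm_neg_one_smul N x

theorem mgm_ST_cube_smul (x : s24Q N) : (S * T) ^ 3 • x = x := by
  have : ((S * T) ^ 3 : SL(2, ℤ)) = -1 := by decide
  rw [this]
  exact mgm_neg_one_smul N x

theorem mgm_T_pow_smul (x : s24Q N) : T ^ N • x = x := by
  induction x using QuotientGroup.induction_on with
  | H g =>
    rw [mgm_smul_eq_iff, (mgm_T_pow_mul_apply N g).1, (mgm_T_pow_mul_apply N g).2]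
    push_cast
    rw [ZMod.natCast_self]
    ring

theorem mgm_one_pow_smul (x : s24Q N) : (1 : SL(2, ℤ)) ^ 1 • x = x := by
  simp

/-- The first column of a matrix of `SL(2,ℤ)` is a coprime pair mod `N`. -/
theorem mgm_isCoprime_col (g : SL(2, ℤ)) :
    IsCoprime ((g 0 0 : ℤ) : ZMod N) ((g 1 0 : ℤ) : ZMod N) := by
  refine ⟨((g 1 1 : ℤ) : ZMod N), -((g 0 1 : ℤ) : ZMod N), ?_⟩
  have h := g.det_coe
  rw [Matrix.det_fin_two] at h
  have h' := congrArg (fun z : ℤ => (z : ZMod N)) h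
  simp only [Int.cast_sub, Int.cast_mul, Int.cast_one] at h'
  rw [← h']
  ring

/-- A matrix with first column `(x, 1)` mod `N`. -/
def mgmLift (x : ZMod N) : SL(2, ℤ) :=
  ⟨!![(ZMod.cast x : ℤ), -1; 1, 0], by simp [Matrix.det_fin_two_of]⟩

theorem mgmLift_apply_zero (x : ZMod N) : (((mgmLift N x) 0 0 : ℤ) : ZMod N) = x := by
  simp [mgmLift]

theorem mgmLift_apply_one (x : ZMod N) : (((mgmLift N x) 1 0 : ℤ) : ZMod N) = 1 := by
  simp [mgmLift]

/-- If the fixed points of `c₀` are cut out by the form `a² + β a c + γ c²`, then they are in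
bijection with the roots of `x² + β x + γ` in `ZMod N`. -/
theorem mgm_card_fixed (c₀ : SL(2, ℤ)) (β γ : ZMod N)
    (hfix : ∀ g : SL(2, ℤ), c₀ • ((g : SL(2, ℤ)) : s24Q N) = ((g : SL(2, ℤ)) : s24Q N) ↔
      ((g 0 0 : ℤ) : ZMod N) ^ 2 + β * ((g 0 0 : ℤ) : ZMod N) * ((g 1 0 : ℤ) : ZMod N)
        + γ * ((g 1 0 : ℤ) : ZMod N) ^ 2 = 0) :
    Nat.card {x : s24Q N // c₀ • x = x} = Nat.card {x : ZMod N // x ^ 2 + β * x + γ = 0} := by
  symm
  apply Nat.card_congr
  refine Equiv.ofBijective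
    (fun x => ⟨((mgmLift N x.1 : SL(2, ℤ)) : s24Q N), ?_⟩) ⟨?_, ?_⟩
  · rw [hfix, mgmLift_apply_zero, mgmLift_apply_one]
    have := x.2
    linear_combination this
  · intro x y hxy
    have h := congrArg Subtype.val hxy
    simp only at h
    rw [mgm_coset_eq_iff, mgmLift_apply_zero, mgmLift_apply_one, mgmLift_apply_zero,
      mgmLift_apply_one] at h
    apply Subtype.ext
    linear_combination h
  · rintro ⟨q, hq⟩
    induction q using QuotientGroup.induction_on with
    | H g =>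
      rw [hfix] at hq
      set a : ZMod N := ((g 0 0 : ℤ) : ZMod N) with ha
      set c : ZMod N := ((g 1 0 : ℤ) : ZMod N) with hc
      have hcop : IsCoprime a c := mgm_isCoprime_col N g
      have hdvd : c ∣ a ^ 2 := ⟨-(β * a + γ * c), by linear_combination hq⟩
      have hunit : IsUnit c := (hcop.pow_left (m := 2)).isUnit_of_dvd' hdvd dvd_rfl
      obtain ⟨u, hu⟩ := hunit
      have hcu : c * (↑u⁻¹ : ZMod N) = 1 := by rw [← hu]; exact u.mul_inv
      refine ⟨⟨a * (↑u⁻¹ : ZMod N), ?_⟩, ?_⟩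
      · linear_combination ((↑u⁻¹ : ZMod N)) ^ 2 * hq
          - (β * a * (↑u⁻¹ : ZMod N) + γ * (c * (↑u⁻¹ : ZMod N) + 1)) * hcu
      · apply Subtype.ext
        simp only
        rw [mgm_coset_eq_iff, mgmLift_apply_zero, mgmLift_apply_one]
        linear_combination a * hcu

end Concrete

end Fermat.Agent.S24
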