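import Mathlib
import Fermat.Agent.S24.Defs
import Fermat.Agent.S24.MGModel

/-!
# S24 — package MG, part CARD (prefix `mgc_`)

`#(SL(2,ℤ) ⧸ Γ₀(N)) = dedekindPsi N`, by counting the coprime pairs mod `N`
(`= φ(N) ψ(N)`, multiplicativity + prime powers) and dividing by the free action of the units.
-/

set_option autoImplicit false

namespace Fermat.Agent.S24

open MulAction Subgroup Function
open scoped MatrixGroups

section Lift

open CongruenceSubgroup Matrix ModularGroup

/-- Lifting lemma: every coprime pair mod `N` is the first column of a matrix in `SL(2,ℤ)`. -/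
theorem mgc_exists_col (N : ℕ) [NeZero N] (a c : ZMod N) (h : IsCoprime a c) :
    ∃ g : SL(2, ℤ), ((g 0 0 : ℤ) : ZMod N) = a ∧ ((g 1 0 : ℤ) : ZMod N) = c := by
  -- a positive integer lift `e` of `c`
  obtain ⟨e, he0, hec⟩ : ∃ e : ℕ, 0 < e ∧ ((e : ℕ) : ZMod N) = c := by
    rcases Nat.eq_zero_or_pos c.val with h0 | h0
    · refine ⟨N, Nat.pos_of_ne_zero (NeZero.ne N), ?_⟩
      rw [ZMod.natCast_self]
      exact ((ZMod.val_eq_zero c).mp h0).symm
    · exact ⟨c.val, h0, ZMod.natCast_zmod_val c⟩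
  haveI : NeZero e := ⟨he0.ne'⟩
  set d := Nat.gcd N e with hd
  have hdN : d ∣ N := Nat.gcd_dvd_left N e
  have hde : d ∣ e := Nat.gcd_dvd_right N e
  -- `a` is a unit mod `d`
  have hx : (a.val).Coprime d := by
    rw [← ZMod.isUnit_iff_coprime]
    obtain ⟨u, v, huv⟩ := h
    have h1 := congrArg (ZMod.castHom hdN (ZMod d)) huv
    simp only [map_add, map_mul, map_one] at h1
    have hc0 : ZMod.castHom hdN (ZMod d) c = 0 := by
      rw [← hec, map_natCast]
      exact (ZMod.natCast_eq_zero_iff e d).mpr hde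
    have ha : ZMod.castHom hdN (ZMod d) a = ((a.val : ℕ) : ZMod d) := by
      conv_lhs => rw [← ZMod.natCast_zmod_val a]
      rw [map_natCast]
    rw [hc0, mul_zero, add_zero, ha] at h1
    exact IsUnit.of_mul_eq_one _ (by rw [mul_comm]; exact h1)
  -- lift the unit to `ZMod e`
  obtain ⟨u, hu⟩ := ZMod.unitsMap_surjective hde (ZMod.unitOfCoprime _ hx)
  have hy : (u : ZMod e).val.Coprime e := ZMod.val_coe_unit_coprime u
  have hxy : a.val ≡ (u : ZMod e).val [MOD Nat.gcd N e] := by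
    rw [← hd, ← ZMod.natCast_eq_natCast_iff]
    have h2 := congrArg (fun w : (ZMod d)ˣ => (w : ZMod d)) hu
    simp only [ZMod.unitsMap_val, ZMod.coe_unitOfCoprime] at h2
    rw [← h2, ZMod.cast_eq_val]
  obtain ⟨k, hkN, hke⟩ := Nat.chineseRemainder' hxy
  have hk : k.Coprime e := by
    have := Nat.ModEq.gcd_eq hke
    rw [Nat.coprime_iff_gcd_eq_one, this]
    exact hy
  obtain ⟨g, hg0, hg1⟩ := (Nat.isCoprime_iff_coprime.mpr hk).exists_SL2_col 0
  refine ⟨g, ?_, ?_⟩
  · rw [hg0, Int.cast_natCast, (ZMod.natCast_eq_natCast_iff _ _ _).mpr hkN,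
      ZMod.natCast_zmod_val]
  · rw [hg1, Int.cast_natCast, hec]

end Lift

/-! ### Coprime pairs modulo units -/

section Pairs

variable {R : Type*} [CommRing R]

/-- Two proportional coprime pairs differ by a unit. -/
theorem mgc_exists_unit {a c a' c' : R} (h : IsCoprime a c) (h' : IsCoprime a' c')
    (hprop : a' * c - c' * a = 0) : ∃ u : Rˣ, a = u * a' ∧ c = u * c' := by
  obtain ⟨x, y, hxy⟩ := h
  obtain ⟨x', y', hxy'⟩ := h'
  have h1 : (x' * a + y' * c) * a' = a := by linear_combination a * hxy' + y' * hprop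
  have h2 : (x' * a + y' * c) * c' = c := by linear_combination c * hxy' - x' * hprop
  have h3 : (x * a' + y * c') * a = a' := by linear_combination a' * hxy - y * hprop
  have h4 : (x * a' + y * c') * c = c' := by linear_combination c' * hxy + x * hprop
  have h5 : (x' * a + y' * c) * (x * a' + y * c') = 1 := by
    linear_combination x' * h3 + y' * h4 + hxy'
  exact ⟨⟨x' * a + y' * c, x * a' + y * c', h5, by rw [mul_comm]; exact h5⟩, h1.symm, h2.symm⟩

/-- The type of coprime pairs of a commutative ring. -/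
abbrev mgcU (R : Type*) [CommRing R] : Type _ := {v : R × R // IsCoprime v.1 v.2}

theorem mgc_isCoprime_unit_mul {a c : R} (h : IsCoprime a c) (u : Rˣ) :
    IsCoprime ((u : R) * a) ((u : R) * c) := by
  obtain ⟨x, y, hxy⟩ := h
  refine ⟨x * (↑u⁻¹ : R), y * (↑u⁻¹ : R), ?_⟩
  have hu : (↑u⁻¹ : R) * (u : R) = 1 := u.inv_mul
  linear_combination hxy + (x * a + y * c) * hu

theorem mgc_unit_eq_of_mul_eq {a c : R} (h : IsCoprime a c) {u v : Rˣ}
    (ha : (u : R) * a = v * a) (hc : (u : R) * c = v * c) : u = v := by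
  obtain ⟨x, y, hxy⟩ := h
  apply Units.ext
  linear_combination (↑u - ↑v) * hxy * (-1) + x * ha + y * hc

end Pairs

/-! ### Coprime pairs mod `N` and cosets -/

section Cosets

open CongruenceSubgroup Matrix ModularGroup

/-- `#{coprime pairs mod N} = #(SL(2,ℤ) ⧸ Γ₀(N)) * φ(N)`. -/
theorem mgc_card_U (N : ℕ) [NeZero N] :
    Nat.card (mgcU (ZMod N)) = Nat.card (s24Q N) * Nat.totient N := by
  let f : s24Q N × (ZMod N)ˣ → mgcU (ZMod N) := fun p =>
    ⟨((p.2 : ZMod N) * (((Quotient.out p.1 : SL(2, ℤ)) 0 0 : ℤ) : ZMod N),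
      (p.2 : ZMod N) * (((Quotient.out p.1 : SL(2, ℤ)) 1 0 : ℤ) : ZMod N)),
      mgc_isCoprime_unit_mul (mgm_isCoprime_col N _) p.2⟩
  have hinj : Function.Injective f := by
    rintro ⟨q, u⟩ ⟨q', u'⟩ h
    have h1 : (u : ZMod N) * (((Quotient.out q : SL(2, ℤ)) 0 0 : ℤ) : ZMod N)
        = (u' : ZMod N) * (((Quotient.out q' : SL(2, ℤ)) 0 0 : ℤ) : ZMod N) :=
      congrArg (fun v : mgcU (ZMod N) => v.1.1) h
    have h2 : (u : ZMod N) * (((Quotient.out q : SL(2, ℤ)) 1 0 : ℤ) : ZMod N)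
        = (u' : ZMod N) * (((Quotient.out q' : SL(2, ℤ)) 1 0 : ℤ) : ZMod N) :=
      congrArg (fun v : mgcU (ZMod N) => v.1.2) h
    have hq : q = q' := by
      rw [← QuotientGroup.out_eq' q, ← QuotientGroup.out_eq' q', mgm_coset_eq_iff]
      have hu : (↑u⁻¹ : ZMod N) * (u : ZMod N) = 1 := u.inv_mul
      have h1' : (((Quotient.out q : SL(2, ℤ)) 0 0 : ℤ) : ZMod N)
          = (↑u⁻¹ : ZMod N) * ((u' : ZMod N) * (((Quotient.out q' : SL(2, ℤ)) 0 0 : ℤ) : ZMod N)) := by
        rw [← h1, ← mul_assoc, hu, one_mul]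
      have h2' : (((Quotient.out q : SL(2, ℤ)) 1 0 : ℤ) : ZMod N)
          = (↑u⁻¹ : ZMod N) * ((u' : ZMod N) * (((Quotient.out q' : SL(2, ℤ)) 1 0 : ℤ) : ZMod N)) := by
        rw [← h2, ← mul_assoc, hu, one_mul]
      rw [h1', h2']
      ring
    subst hq
    have hu : u = u' := mgc_unit_eq_of_mul_eq (mgm_isCoprime_col N _) h1 h2
    rw [hu]
  have hsurj : Function.Surjective f := by
    rintro ⟨⟨a, c⟩, hac⟩
    obtain ⟨g, hg0, hg1⟩ := mgc_exists_col N a c hac
    set q : s24Q N := ((g : SL(2, ℤ)) : s24Q N) with hq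
    have hout : ((Quotient.out q : SL(2, ℤ)) : s24Q N) = ((g : SL(2, ℤ)) : s24Q N) :=
      QuotientGroup.out_eq' q
    rw [mgm_coset_eq_iff, hg0, hg1] at hout
    obtain ⟨u, hu1, hu2⟩ := mgc_exists_unit hac (mgm_isCoprime_col N (Quotient.out q))
      (by linear_combination hout)
    refine ⟨(q, u), ?_⟩
    apply Subtype.ext
    simp only [f]
    rw [← hu1, ← hu2]
  rw [← Nat.card_congr (Equiv.ofBijective f ⟨hinj, hsurj⟩), Nat.card_prod,
    Nat.card_eq_fintype_card (α := (ZMod N)ˣ), ZMod.card_units_eq_totient]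

end Cosets

/-! ### Counting coprime pairs -/

section Count

theorem mgc_card_U_congr {R S : Type*} [CommRing R] [CommRing S] (e : R ≃+* S) :
    Nat.card (mgcU R) = Nat.card (mgcU S) := by
  apply Nat.card_congr
  refine
    { toFun := fun v => ⟨(e v.1.1, e v.1.2), v.2.map e.toRingHom⟩
      invFun := fun v => ⟨(e.symm v.1.1, e.symm v.1.2), v.2.map e.symm.toRingHom⟩
      left_inv := fun v => by apply Subtype.ext; simp
      right_inv := fun v => by apply Subtype.ext; simp }

theorem mgc_isCoprime_prod_iff {R S : Type*} [CommRing R] [CommRing S] (a c : R × S) :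
    IsCoprime a c ↔ IsCoprime a.1 c.1 ∧ IsCoprime a.2 c.2 := by
  constructor
  · intro h
    exact ⟨h.map (RingHom.fst R S), h.map (RingHom.snd R S)⟩
  · rintro ⟨⟨x, y, hxy⟩, ⟨x', y', hxy'⟩⟩
    exact ⟨(x, x'), (y, y'), Prod.ext hxy hxy'⟩

theorem mgc_card_U_prod (R S : Type*) [CommRing R] [CommRing S] :
    Nat.card (mgcU (R × S)) = Nat.card (mgcU R) * Nat.card (mgcU S) := by
  rw [← Nat.card_prod]
  apply Nat.card_congr
  refine
    { toFun := fun v => (⟨(v.1.1.1, v.1.2.1), ((mgc_isCoprime_prod_iff _ _).mp v.2).1⟩,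
        ⟨(v.1.1.2, v.1.2.2), ((mgc_isCoprime_prod_iff _ _).mp v.2).2⟩)
      invFun := fun w => ⟨((w.1.1.1, w.2.1.1), (w.1.1.2, w.2.1.2)),
        (mgc_isCoprime_prod_iff _ _).mpr ⟨w.1.2, w.2.2⟩⟩
      left_inv := fun v => by apply Subtype.ext; rfl
      right_inv := fun w => by rfl }

/-- Multiplicativity of the number of coprime pairs. -/
theorem mgc_card_U_mul {m n : ℕ} (h : m.Coprime n) :
    Nat.card (mgcU (ZMod (m * n))) = Nat.card (mgcU (ZMod m)) * Nat.card (mgcU (ZMod n)) := by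
  rw [mgc_card_U_congr (ZMod.chineseRemainder h), mgc_card_U_prod]

/-! #### `dedekindPsi` is multiplicative -/

/-- The indicator of squarefree numbers as an arithmetic function. -/
noncomputable def mgcSq : ArithmeticFunction ℕ :=
  ⟨fun n => if Squarefree n then 1 else 0, by simp⟩

theorem mgcSq_apply (n : ℕ) : mgcSq n = if Squarefree n then 1 else 0 := rfl

theorem mgcSq_isMultiplicative : mgcSq.IsMultiplicative := by
  refine ⟨by simp [mgcSq_apply], ?_⟩
  intro m n h
  simp only [mgcSq_apply, Nat.squarefree_mul h]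
  by_cases hm : Squarefree m <;> by_cases hn : Squarefree n <;> simp [hm, hn]

theorem mgc_psi_eq (n : ℕ) : ModularCurve.dedekindPsi n = (mgcSq * ArithmeticFunction.id) n := by
  rw [ArithmeticFunction.mul_apply,
    Nat.sum_divisorsAntidiagonal (fun d e => mgcSq d * ArithmeticFunction.id e),
    ModularCurve.dedekindPsi, Finset.sum_filter]
  apply Finset.sum_congr rfl
  intro d _
  rw [mgcSq_apply, ArithmeticFunction.id_apply]
  split_ifs <;> simp

theorem mgc_psi_mul {m n : ℕ} (h : m.Coprime n) :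
    ModularCurve.dedekindPsi (m * n)
      = ModularCurve.dedekindPsi m * ModularCurve.dedekindPsi n := by
  rw [mgc_psi_eq, mgc_psi_eq, mgc_psi_eq]
  exact (mgcSq_isMultiplicative.mul ArithmeticFunction.isMultiplicative_id).2 h

theorem mgc_psi_prime_pow {p e : ℕ} (hp : p.Prime) (he : 0 < e) :
    ModularCurve.dedekindPsi (p ^ e) = p ^ e + p ^ (e - 1) := by
  obtain ⟨k, rfl⟩ : ∃ k, e = k + 1 := ⟨e - 1, by omega⟩
  rw [ModularCurve.dedekindPsi, Nat.divisors_prime_pow hp, Finset.sum_filter, Finset.sum_map]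
  simp only [Function.Embedding.coeFn_mk, Nat.add_sub_cancel]
  rw [Finset.sum_range_succ', Finset.sum_range_succ']
  have hrest : ∑ i ∈ Finset.range k,
      (if Squarefree (p ^ (i + 1 + 1)) then p ^ (k + 1) / p ^ (i + 1 + 1) else 0) = 0 := by
    apply Finset.sum_eq_zero
    intro i _
    rw [if_neg]
    rw [Nat.squarefree_pow_iff hp.ne_one (by omega)]
    omega
  rw [hrest, zero_add]
  have h1 : Squarefree (p ^ (0 + 1)) := by simpa using hp.squarefree
  have h0 : Squarefree (p ^ 0) := by simp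
  rw [if_pos h1, if_pos h0]
  simp only [zero_add, pow_one, pow_zero, Nat.div_one]
  rw [pow_succ, Nat.mul_div_cancel _ hp.pos, add_comm]

/-! #### Coprime pairs modulo a prime power -/

theorem mgc_isCoprime_iff_prime_pow {p e : ℕ} (hp : p.Prime) (he : 0 < e)
    (a c : ZMod (p ^ e)) : IsCoprime a c ↔ IsUnit a ∨ IsUnit c := by
  haveI : NeZero (p ^ e) := ⟨pow_ne_zero _ hp.ne_zero⟩
  constructor
  · intro h
    by_contra hcon
    push Not at hcon
    obtain ⟨ha, hc⟩ := hcon
    have ha' : p ∣ a.val := by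
      by_contra hpa
      apply ha
      rw [← ZMod.natCast_zmod_val a]
      exact (ZMod.isUnit_natCast_iff_not_dvd_pow hp he).mpr hpa
    have hc' : p ∣ c.val := by
      by_contra hpc
      apply hc
      rw [← ZMod.natCast_zmod_val c]
      exact (ZMod.isUnit_natCast_iff_not_dvd_pow hp he).mpr hpc
    obtain ⟨a', ha'⟩ := ha'
    obtain ⟨c', hc'⟩ := hc'
    obtain ⟨x, y, hxy⟩ := h
    have haa : a = (p : ZMod (p ^ e)) * (a' : ZMod (p ^ e)) := by
      rw [← ZMod.natCast_zmod_val a, ha']; push_cast; rfl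
    have hcc : c = (p : ZMod (p ^ e)) * (c' : ZMod (p ^ e)) := by
      rw [← ZMod.natCast_zmod_val c, hc']; push_cast; rfl
    apply ZMod.prime_natCast_not_isUnit_pow hp he
    refine IsUnit.of_mul_eq_one (x * a' + y * c') ?_
    rw [← hxy, haa, hcc]
    ring
  · rintro (h | h)
    · obtain ⟨u, rfl⟩ := h
      exact ⟨(↑u⁻¹ : ZMod (p ^ e)), 0, by simp⟩
    · obtain ⟨u, rfl⟩ := h
      exact ⟨0, (↑u⁻¹ : ZMod (p ^ e)), by simp⟩

theorem mgc_card_isUnit (n : ℕ) [NeZero n] :
    Nat.card {a : ZMod n // IsUnit a} = Nat.totient n := by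
  rw [← ZMod.card_units_eq_totient, ← Nat.card_eq_fintype_card]
  apply Nat.card_congr
  exact
    { toFun := fun a => a.2.unit
      invFun := fun u => ⟨u, u.isUnit⟩
      left_inv := fun a => by apply Subtype.ext; simp
      right_inv := fun u => by apply Units.ext; simp }

theorem mgc_card_U_prime_pow {p e : ℕ} (hp : p.Prime) (he : 0 < e) :
    Nat.card (mgcU (ZMod (p ^ e)))
      = Nat.totient (p ^ e) * ModularCurve.dedekindPsi (p ^ e) := by
  classical
  haveI : NeZero (p ^ e) := ⟨pow_ne_zero _ hp.ne_zero⟩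
  have h1 : Nat.card (mgcU (ZMod (p ^ e)))
      = Nat.card {v : ZMod (p ^ e) × ZMod (p ^ e) // IsUnit v.1 ∨ IsUnit v.2} := by
    apply Nat.card_congr
    exact Equiv.subtypeEquivRight fun v => mgc_isCoprime_iff_prime_pow hp he v.1 v.2
  have h2 : Nat.card {v : ZMod (p ^ e) × ZMod (p ^ e) // IsUnit v.1 ∨ IsUnit v.2}
      + Nat.card {v : ZMod (p ^ e) × ZMod (p ^ e) // ¬ (IsUnit v.1 ∨ IsUnit v.2)}
      = (p ^ e) ^ 2 := by
    rw [Nat.card_eq_fintype_card, Nat.card_eq_fintype_card, Fintype.card_subtype_compl,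
      Nat.add_sub_cancel' (Fintype.card_subtype_le _), Fintype.card_prod, ZMod.card]
    ring
  have h3 : Nat.card {v : ZMod (p ^ e) × ZMod (p ^ e) // ¬ (IsUnit v.1 ∨ IsUnit v.2)}
      = Nat.card {a : ZMod (p ^ e) // ¬ IsUnit a} ^ 2 := by
    rw [pow_two, ← Nat.card_prod]
    apply Nat.card_congr
    exact
      { toFun := fun v => (⟨v.1.1, fun h => v.2 (Or.inl h)⟩, ⟨v.1.2, fun h => v.2 (Or.inr h)⟩)
        invFun := fun w => ⟨(w.1.1, w.2.1), fun h => h.elim w.1.2 w.2.2⟩
        left_inv := fun v => rfl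
        right_inv := fun w => rfl }
  have h4 : Nat.card {a : ZMod (p ^ e) // IsUnit a} + Nat.card {a : ZMod (p ^ e) // ¬ IsUnit a}
      = p ^ e := by
    rw [Nat.card_eq_fintype_card, Nat.card_eq_fintype_card, Fintype.card_subtype_compl,
      Nat.add_sub_cancel' (Fintype.card_subtype_le _), ZMod.card]
  rw [mgc_card_isUnit] at h4
  have h5 : Nat.totient (p ^ e) = p ^ (e - 1) * (p - 1) := Nat.totient_prime_pow hp he
  have h6 : p ^ e = p ^ (e - 1) * p := by
    obtain ⟨k, rfl⟩ : ∃ k, e = k + 1 := ⟨e - 1, by omega⟩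
    simp [pow_succ]
  rw [h1, mgc_psi_prime_pow hp he]
  obtain ⟨p', rfl⟩ : ∃ p', p = p' + 1 := ⟨p - 1, by have := hp.pos; omega⟩
  simp only [Nat.add_sub_cancel] at h5
  set s := (p' + 1) ^ (e - 1) with hs
  set J := Nat.card {v : ZMod ((p' + 1) ^ e) × ZMod ((p' + 1) ^ e) // IsUnit v.1 ∨ IsUnit v.2}
  set B := Nat.card {a : ZMod ((p' + 1) ^ e) // ¬ IsUnit a}
  rw [h3] at h2
  rw [h5, h6] at h4
  have hB : B = s := by nlinarith
  rw [hB, h6] at h2
  rw [h5, h6]
  nlinarith

/-- The number of coprime pairs mod `N` is `φ(N) ψ(N)`. -/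
theorem mgc_card_U_eq (N : ℕ) (hN : N ≠ 0) :
    Nat.card (mgcU (ZMod N)) = Nat.totient N * ModularCurve.dedekindPsi N := by
  induction N using Nat.recOnPosPrimePosCoprime with
  | prime_pow p n hp hn => exact mgc_card_U_prime_pow hp hn
  | zero => exact absurd rfl hN
  | one =>
    rw [Nat.totient_one, ModularCurve.dedekindPsi_one, mul_one]
    haveI : Subsingleton (ZMod 1) := inferInstanceAs (Subsingleton (Fin 1))
    haveI : Unique (mgcU (ZMod 1)) :=
      { default := ⟨(0, 0), ⟨0, 0, Subsingleton.elim _ _⟩⟩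
        uniq := fun v => Subtype.ext (Subsingleton.elim _ _) }
    exact Nat.card_unique
  | coprime a b ha hb hab iha ihb =>
    rw [mgc_card_U_mul hab, iha (by omega), ihb (by omega), Nat.totient_mul hab,
      mgc_psi_mul hab]
    ring

end Count

/-! ### The index of `Γ₀(N)` -/

section Main

open ModularCurve

/-- [MG-CARD] the index of `Γ₀(N)`. -/
theorem mg_card (N : ℕ) [NeZero N] : Nat.card (s24Q N) = dedekindPsi N := by
  have h1 := mgc_card_U N
  rw [mgc_card_U_eq N (NeZero.ne N)] at h1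
  have hφ : 0 < Nat.totient N := Nat.totient_pos.mpr (Nat.pos_of_ne_zero (NeZero.ne N))
  have h2 : Nat.totient N * dedekindPsi N = Nat.totient N * Nat.card (s24Q N) := by
    rw [h1, mul_comm]
  exact (Nat.eq_of_mul_eq_mul_left hφ h2).symm

/-- [MG-ONE] orbits of the trivial group. -/
theorem mg_orbits_one (N : ℕ) [NeZero N] :
    Nat.card (Quotient (s24Orb N 1)) = dedekindPsi N := by
  rw [← mg_card N]
  symm
  apply Nat.card_congr
  refine Equiv.ofBijective (Quotient.mk (s24Orb N 1)) ⟨?_, Quotient.mk_surjective⟩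
  intro x y hxy
  have h := Quotient.exact hxy
  change x ∈ MulAction.orbit (Subgroup.zpowers (1 : SL(2, ℤ))) y at h
  obtain ⟨⟨g, hg⟩, rfl⟩ := h
  rw [Subgroup.zpowers_one_eq_bot, Subgroup.mem_bot] at hg
  subst hg
  exact one_smul _ y

end Main

end Fermat.Agent.S24
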