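import Mathlib
import Fermat.Agent.S23.QRing
import Fermat.Agent.S23.Conj
import Fermat.Agent.S23.PrimEltInt
import Fermat.Agent.S24.Ord

/-!
# S24, package ANA-POLYJ: holomorphic `SL(2,ℤ)`-invariant functions are polynomials in `J`

* `pj_basis` : a level-one modular form of weight `12 m` is a combination of the
  `E₄ ^ (3 i) * Δ ^ (m - i)`, `0 ≤ i ≤ m`, with coefficients in any subfield of `ℂ` containing its
  `q`-expansion coefficients.
* `pj_exists_poly` : a holomorphic `SL(2,ℤ)`-invariant function `h` on `ℍ` with `Δ ^ m * h`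
  bounded at `i∞` is `p (J)` for a polynomial `p` of degree `≤ m`.
* `pj_exists_poly_of_ringHom` : the same with coefficients in a field `L` mapping to `ℂ`, if the
  `q`-expansion coefficients of `Δ ^ m * h` come from `L`.
-/

set_option autoImplicit false

noncomputable section

namespace Fermat.Agent.S24

open UpperHalfPlane hiding I
open Filter Function Topology ModularForm Complex
open scoped Manifold MatrixGroups ModularForm Real CongruenceSubgroup
open Fermat.Agent.S23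

local notation "Δ" => ModularForm.discriminant

/-! ### division of power series by `q * unit` -/

/-- If `A = B * C` with `B = q + O(q²)` and `A`, `B` have coefficients in `K`, so has `C`. -/
theorem pj_coeff_mem_of_mul (K : Subfield ℂ) {A B C : PowerSeries ℂ} (h : A = B * C)
    (hB0 : B.coeff 0 = 0) (hB1 : B.coeff 1 = 1) (hA : ∀ n, A.coeff n ∈ K)
    (hB : ∀ n, B.coeff n ∈ K) : ∀ n, C.coeff n ∈ K := by
  intro n
  induction n using Nat.strong_induction_on with
  | _ n ih =>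
    have hsum : A.coeff (n + 1) =
        ∑ p ∈ Finset.HasAntidiagonal.antidiagonal (n + 1), B.coeff p.1 * C.coeff p.2 := by
      rw [h, PowerSeries.coeff_mul]
    have hmem : ((1, n) : ℕ × ℕ) ∈ Finset.HasAntidiagonal.antidiagonal (n + 1) := by
      rw [Finset.HasAntidiagonal.mem_antidiagonal]
      omega
    rw [← Finset.add_sum_erase _ _ hmem] at hsum
    simp only [hB1, one_mul] at hsum
    have hC : C.coeff n = A.coeff (n + 1) -
        ∑ p ∈ (Finset.HasAntidiagonal.antidiagonal (n + 1)).erase (1, n), B.coeff p.1 * C.coeff p.2 := by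
      rw [hsum]
      ring
    rw [hC]
    refine K.sub_mem (hA _) (K.sum_mem fun p hp => ?_)
    rw [Finset.mem_erase, Finset.HasAntidiagonal.mem_antidiagonal] at hp
    obtain ⟨hne, hp⟩ := hp
    by_cases h0 : p.1 = 0
    · rw [h0, hB0, zero_mul]
      exact K.zero_mem
    · have h1 : p.1 ≠ 1 := by
        intro h1
        apply hne
        ext
        · exact h1
        · simp only
          omega
      exact K.mul_mem (hB _) (ih p.2 (by omega))

/-! ### `q`-expansions of `E₄` and `Δ` -/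

theorem pj_int_mem (K : Subfield ℂ) (r : ℤ) : (r : ℂ) ∈ K := by
  have := K.intCast_mem r
  exact this

theorem pj_E4_coeff_mem (K : Subfield ℂ) (n : ℕ) : (qExpansion 1 E₄).coeff n ∈ K := by
  rw [pe_qExpansion_E4, PowerSeries.coeff_map]
  exact pj_int_mem K _

theorem pj_disc_coeff_mem (K : Subfield ℂ) (n : ℕ) : (qExpansion 1 Δ).coeff n ∈ K := by
  obtain ⟨r, hr⟩ := pe_discriminant_coeff_int n
  rw [hr]
  exact pj_int_mem K r

theorem pj_E4_coeff_zero : (qExpansion 1 E₄).coeff 0 = 1 := by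
  rw [pe_qExpansion_E4, PowerSeries.coeff_map]
  simp [pe_A]

theorem pj_disc_mem : (Δ : ℍ → ℂ) ∈ qr_ring :=
  qr_mem_of_cuspForm one_mem_strictPeriods_SL CuspForm.discriminant

theorem pj_disc_coeff_zero : (qExpansion 1 Δ).coeff 0 = 0 :=
  (qr_isZeroAtImInfty_iff pj_disc_mem).mp discriminant_isZeroAtImInfty

/-- coefficients of powers of power series with coefficients in `K`. -/
theorem pj_pow_coeff_mem (K : Subfield ℂ) {A : PowerSeries ℂ} (hA : ∀ n, A.coeff n ∈ K)
    (e : ℕ) : ∀ n, (A ^ e).coeff n ∈ K := by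
  induction e with
  | zero =>
    intro n
    rw [pow_zero, PowerSeries.coeff_one]
    split_ifs
    · exact K.one_mem
    · exact K.zero_mem
  | succ e ih =>
    intro n
    rw [pow_succ, PowerSeries.coeff_mul]
    exact K.sum_mem fun p _ => K.mul_mem (ih _) (hA _)

/-! ### the basis `E₄ ^ (3 i) * Δ ^ (m - i)` of `M_{12 m}` -/

theorem pj_slash_levelOne {k : ℤ} (F : ModularForm 𝒮ℒ k) (γ : SL(2, ℤ)) :
    (F : ℍ → ℂ) ∣[k] γ = F :=
  SlashInvariantFormClass.slash_action_eq F _ ⟨γ, rfl⟩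

theorem pj_E4_pow_mem (e : ℕ) : (fun τ : ℍ => E₄ τ ^ e) ∈ qr_ring :=
  qr_ring.pow_mem ord_E4_mem e

theorem pj_qExpansion_E4_pow (e : ℕ) :
    qExpansion 1 (fun τ : ℍ => E₄ τ ^ e) = qExpansion 1 E₄ ^ e :=
  qr_qExpansion_pow ord_E4_mem e

theorem pj_E4_pow_coeff_zero (e : ℕ) : (qExpansion 1 E₄ ^ e).coeff 0 = 1 := by
  rw [PowerSeries.coeff_zero_eq_constantCoeff_apply, map_pow,
    ← PowerSeries.coeff_zero_eq_constantCoeff_apply, pj_E4_coeff_zero, one_pow]

theorem pj_slash_E4_pow (e : ℕ) (γ : SL(2, ℤ)) :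
    (fun τ : ℍ => E₄ τ ^ e) ∣[(4 : ℤ) * (e : ℤ)] γ = fun τ : ℍ => E₄ τ ^ e := by
  have h := cj_slash_pow (⇑E₄ : ℍ → ℂ) 4 e γ
  rw [ord_slash_E4] at h
  exact h

theorem pj_basis_aux (K : Subfield ℂ) : ∀ (m : ℕ) (k : ℤ) (_ : k = 12 * (m : ℤ))
    (F : ModularForm 𝒮ℒ k), (∀ n, (qExpansion 1 F).coeff n ∈ K) →
    ∃ p : ℕ → ℂ, (∀ i, p i ∈ K) ∧
      ∀ τ, F τ = ∑ i ∈ Finset.range (m + 1), p i * (E₄ τ ^ (3 * i) * Δ τ ^ (m - i)) := by
  intro m
  induction m with
  | zero =>
    intro k hk F hF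
    have hk0 : k = 0 := by simpa using hk
    subst hk0
    obtain ⟨c, hc⟩ := ModularFormClass.levelOne_weight_zero_const F
    have hcK : c ∈ K := by
      have h0 := hF 0
      have h1 : qExpansion 1 (F : ℍ → ℂ) = PowerSeries.C c := by
        rw [hc]
        exact qr_qExpansion_const c
      rw [h1] at h0
      simpa using h0
    refine ⟨fun _ => c, fun _ => hcK, fun τ => ?_⟩
    have := congrFun hc τ
    simp [this]
  | succ m ih =>
    intro k hk F hF
    set c : ℂ := (qExpansion 1 F).coeff 0 with hc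
    have hcK : c ∈ K := hF 0
    have hFmem : (F : ℍ → ℂ) ∈ qr_ring := qr_mem_of_modularForm one_mem_strictPeriods_SL F
    set e : ℕ := 3 * (m + 1) with he
    -- the function `G₀ = F - c E₄ ^ e`
    set G₀ : ℍ → ℂ := (F : ℍ → ℂ) - c • (fun τ : ℍ => E₄ τ ^ e) with hG₀
    have hG₀mem : G₀ ∈ qr_ring :=
      qr_ring.sub_mem hFmem (qr_smul_mem c (pj_E4_pow_mem e))
    have hG₀q : qExpansion 1 G₀ = qExpansion 1 F - c • qExpansion 1 E₄ ^ e := by
      rw [hG₀, qr_qExpansion_sub hFmem (qr_smul_mem c (pj_E4_pow_mem e)),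
        qr_qExpansion_smul c (pj_E4_pow_mem e), pj_qExpansion_E4_pow]
    have hwt : (4 : ℤ) * (e : ℤ) = k := by
      rw [hk, he]
      push_cast
      ring
    have hG₀inv : ∀ γ : SL(2, ℤ), G₀ ∣[k] γ = G₀ := by
      intro γ
      have h4 := pj_slash_E4_pow e γ
      rw [hwt] at h4
      rw [hG₀, sub_eq_add_neg, SlashAction.add_slash, SlashAction.neg_slash,
        ModularForm.SL_smul_slash, pj_slash_levelOne, h4]
    obtain ⟨G, hG⟩ := cj_mkModularForm hG₀mem.1 hG₀inv hG₀mem.2.2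
    have hGq : qExpansion 1 G = qExpansion 1 F - c • qExpansion 1 E₄ ^ e := by
      rw [hG, hG₀q]
    have hcusp : (qExpansion 1 G).coeff 0 = 0 := by
      rw [hGq, map_sub, PowerSeries.coeff_smul, pj_E4_pow_coeff_zero, smul_eq_mul, mul_one,
        ← hc, sub_self]
    have hGK : ∀ n, (qExpansion 1 G).coeff n ∈ K := by
      intro n
      rw [hGq, map_sub, PowerSeries.coeff_smul, smul_eq_mul]
      exact K.sub_mem (hF n) (K.mul_mem hcK (pj_pow_coeff_mem K (pj_E4_coeff_mem K) e n))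
    -- divide by `Δ`
    have hdiv := ModularForm.qExpansion_eq_qExpansion_discriminant_mul G hcusp
    set F' : ModularForm 𝒮ℒ (k - 12) := CuspForm.discriminantEquiv (toCuspForm G hcusp) with hF'
    have hF'K : ∀ n, (qExpansion 1 F').coeff n ∈ K :=
      pj_coeff_mem_of_mul K hdiv pj_disc_coeff_zero discriminant_qExpansion_coeff_one hGK
        (pj_disc_coeff_mem K)
    have hk' : k - 12 = 12 * (m : ℤ) := by
      rw [hk]
      push_cast
      ring
    obtain ⟨p', hp'K, hp'⟩ := ih (k - 12) hk' F' hF'K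
    refine ⟨fun i => if i ≤ m then p' i else c, fun i => ?_, fun τ => ?_⟩
    · simp only
      split_ifs
      · exact hp'K i
      · exact hcK
    · have h1 : Δ τ * F' τ = G τ := by
        rw [hF']
        exact ModularForm.discriminant_mul_discriminantEquiv_apply (toCuspForm G hcusp) τ
      have h2 : G τ = F τ - c * E₄ τ ^ e := by
        rw [hG, hG₀]
        simp
      have h3 : F τ = Δ τ * F' τ + c * E₄ τ ^ e := by
        rw [h1, h2]
        ring
      rw [h3, hp' τ]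
      conv_rhs => rw [Finset.sum_range_succ]
      rw [Finset.mul_sum]
      congr 1
      · refine Finset.sum_congr rfl fun i hi => ?_
        have hi' : i ≤ m := Nat.lt_succ_iff.mp (Finset.mem_range.mp hi)
        have h4 : m + 1 - i = (m - i) + 1 := by omega
        simp only [hi', if_true]
        rw [h4, pow_succ]
        ring
      · have h5 : ¬ (m + 1 ≤ m) := by omega
        simp only [h5, if_false, Nat.sub_self, pow_zero, mul_one]
        rfl

/-- **basis of `M_{12 m}`**, with coefficients in a subfield. -/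
theorem pj_basis (K : Subfield ℂ) (m : ℕ) (F : ModularForm 𝒮ℒ (12 * (m : ℤ)))
    (hF : ∀ n, (qExpansion 1 F).coeff n ∈ K) :
    ∃ p : ℕ → ℂ, (∀ i, p i ∈ K) ∧
      ∀ τ, F τ = ∑ i ∈ Finset.range (m + 1), p i * (E₄ τ ^ (3 * i) * Δ τ ^ (m - i)) :=
  pj_basis_aux K m _ rfl F hF

/-! ### polynomials in `J` -/

theorem pj_disc_pow_mem (m : ℕ) : (fun τ : ℍ => Δ τ ^ m) ∈ qr_ring :=
  qr_ring.pow_mem pj_disc_mem m

/-- `Δ ^ m * h` is a level-one modular form of weight `12 m` if `h` is holomorphic, invariant, and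
`Δ ^ m * h` is bounded at `i∞`. -/
theorem pj_exists_modularForm (h : ℍ → ℂ) (hh : MDiff h)
    (hinv : ∀ (γ : SL(2, ℤ)) (τ : ℍ), h (γ • τ) = h τ) (m : ℕ)
    (hbdd : IsBoundedAtImInfty (fun τ : ℍ => Δ τ ^ m * h τ)) :
    ∃ F : ModularForm 𝒮ℒ (12 * (m : ℤ)), ⇑F = fun τ : ℍ => Δ τ ^ m * h τ := by
  refine cj_mkModularForm ((pj_disc_pow_mem m).1.mul hh) (fun γ => ?_) hbdd
  rw [cj_slash_eq_iff]
  intro τ
  have hΔ : Δ (γ • τ) = cj_denom γ τ ^ (12 : ℤ) * Δ τ := ord_disc_smul γ τ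
  rw [hinv γ τ, hΔ, mul_pow, ← zpow_natCast (cj_denom γ τ ^ (12 : ℤ)) m, ← zpow_mul]
  ring

/-- **holomorphic + `SL(2,ℤ)`-invariant + pole of order `≤ m` at `i∞` ⟹ polynomial in `J`**, with
coefficients in any subfield of `ℂ` containing the `q`-expansion coefficients of `Δ ^ m * h`. -/
theorem pj_exists_poly_subfield (K : Subfield ℂ) (h : ℍ → ℂ) (hh : MDiff h)
    (hinv : ∀ (γ : SL(2, ℤ)) (τ : ℍ), h (γ • τ) = h τ) (m : ℕ)
    (hbdd : IsBoundedAtImInfty (fun τ : ℍ => Δ τ ^ m * h τ))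
    (hK : ∀ n, (qExpansion 1 (fun τ : ℍ => Δ τ ^ m * h τ)).coeff n ∈ K) :
    ∃ p : Polynomial ℂ, p.natDegree ≤ m ∧ (∀ i, p.coeff i ∈ K) ∧
      ∀ τ, h τ = p.eval (ord_J τ) := by
  obtain ⟨F, hF⟩ := pj_exists_modularForm h hh hinv m hbdd
  obtain ⟨c, hcK, hc⟩ := pj_basis K m F (by rw [hF]; exact hK)
  refine ⟨∑ i ∈ Finset.range (m + 1), Polynomial.C (c i) * Polynomial.X ^ i, ?_, ?_, ?_⟩
  · refine Polynomial.natDegree_sum_le_of_forall_le _ _ fun i hi => ?_
    exact (Polynomial.natDegree_C_mul_X_pow_le (c i) i).trans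
      (Nat.lt_succ_iff.mp (Finset.mem_range.mp hi))
  · intro i
    rw [Polynomial.finsetSum_coeff]
    refine K.sum_mem fun j _ => ?_
    rw [Polynomial.coeff_C_mul_X_pow]
    split_ifs
    · exact hcK j
    · exact K.zero_mem
  · intro τ
    have hΔ : Δ τ ^ m ≠ 0 := pow_ne_zero _ (ord_disc_ne_zero τ)
    have h1 : Δ τ ^ m * h τ = ∑ i ∈ Finset.range (m + 1), c i * (E₄ τ ^ (3 * i) * Δ τ ^ (m - i)) := by
      rw [← hc τ, hF]
    have h2 : ∀ i ∈ Finset.range (m + 1),
        c i * (E₄ τ ^ (3 * i) * Δ τ ^ (m - i)) = Δ τ ^ m * (c i * ord_J τ ^ i) := by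
      intro i hi
      have hi' : i ≤ m := Nat.lt_succ_iff.mp (Finset.mem_range.mp hi)
      have h3 : E₄ τ ^ (3 * i) = ord_J τ ^ i * Δ τ ^ i := by
        rw [← mul_pow, ord_J_mul_disc, ← pow_mul]
      have h4 : Δ τ ^ m = Δ τ ^ i * Δ τ ^ (m - i) := by
        rw [← pow_add, Nat.add_sub_cancel' hi']
      rw [h3, h4]
      ring
    rw [Finset.sum_congr rfl h2, ← Finset.mul_sum] at h1
    have h5 := mul_left_cancel₀ hΔ h1
    rw [h5, Polynomial.eval_finsetSum]
    refine Finset.sum_congr rfl fun i _ => ?_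
    rw [Polynomial.eval_mul, Polynomial.eval_C, Polynomial.eval_pow, Polynomial.eval_X]

/-- **holomorphic + `SL(2,ℤ)`-invariant + pole of order `≤ m` at `i∞` ⟹ polynomial in `J`**. -/
theorem pj_exists_poly (h : ℍ → ℂ) (hh : MDiff h)
    (hinv : ∀ (γ : SL(2, ℤ)) (τ : ℍ), h (γ • τ) = h τ) (m : ℕ)
    (hbdd : IsBoundedAtImInfty (fun τ : ℍ => Δ τ ^ m * h τ)) :
    ∃ p : Polynomial ℂ, p.natDegree ≤ m ∧ ∀ τ, h τ = p.eval (ord_J τ) := by
  obtain ⟨p, hp, -, hp'⟩ := pj_exists_poly_subfield ⊤ h hh hinv m hbdd (fun _ => Subfield.mem_top _)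
  exact ⟨p, hp, hp'⟩

/-- the same with coefficients in a field `L` mapping to `ℂ`. -/
theorem pj_exists_poly_of_ringHom {L : Type*} [Field L] (ι : L →+* ℂ) (h : ℍ → ℂ) (hh : MDiff h)
    (hinv : ∀ (γ : SL(2, ℤ)) (τ : ℍ), h (γ • τ) = h τ) (m : ℕ)
    (hbdd : IsBoundedAtImInfty (fun τ : ℍ => Δ τ ^ m * h τ))
    (hL : ∀ n, ∃ a : L, ι a = (qExpansion 1 (fun τ : ℍ => Δ τ ^ m * h τ)).coeff n) :
    ∃ P : Polynomial L, P.natDegree ≤ m ∧ ∀ τ, h τ = (P.map ι).eval (ord_J τ) := by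
  obtain ⟨p, hp, hpK, hp'⟩ := pj_exists_poly_subfield ι.fieldRange h hh hinv m hbdd
    (fun n => by
      obtain ⟨a, ha⟩ := hL n
      exact ⟨a, ha⟩)
  choose a ha using fun i => (RingHom.mem_fieldRange.mp (hpK i))
  have hmap : (∑ i ∈ Finset.range (m + 1), Polynomial.C (a i) * Polynomial.X ^ i).map ι = p := by
    rw [Polynomial.map_sum]
    simp only [Polynomial.map_mul, Polynomial.map_C, Polynomial.map_pow, Polynomial.map_X, ha]
    conv_rhs => rw [p.as_sum_range' (m + 1) (Nat.lt_succ_of_le hp)]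
    refine Finset.sum_congr rfl fun i _ => ?_
    rw [← Polynomial.C_mul_X_pow_eq_monomial]
  refine ⟨∑ i ∈ Finset.range (m + 1), Polynomial.C (a i) * Polynomial.X ^ i, ?_, fun τ => ?_⟩
  · refine Polynomial.natDegree_sum_le_of_forall_le _ _ fun i hi => ?_
    exact (Polynomial.natDegree_C_mul_X_pow_le (a i) i).trans
      (Nat.lt_succ_iff.mp (Finset.mem_range.mp hi))
  · rw [hmap]
    exact hp' τ

end Fermat.Agent.S24
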