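import Mathlib
import Fermat.Agent.S23.QRing
import Fermat.Agent.S23.Conj
import Fermat.Agent.S23.Hankel
import Fermat.Agent.S23.PrimElt
import Fermat.Agent.S24.Defs
import Fermat.Agent.S24.Ord
import Fermat.Agent.S24.Dist
import Fermat.Agent.S24.PolyJ

/-!
# S24, package ANA-SYM, function-level core

* `sym_mer` : the ring of holomorphic functions on `ℍ` with at most a pole at `i∞`
  (`Δ ^ m * h` bounded for some `m`).
* `sym_ring N` : the ring of `Γ₀(N)`-invariant holomorphic functions all of whose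
  `SL(2,ℤ)`-translates lie in `sym_mer`; it contains the constants and `τ ↦ J (d τ)`, `d ∣ N`.
* `sym_core` : every `f ∈ sym_ring N` satisfies `f * B(J) = ∑ i < n, J_N ^ i * G i (J)` with
  polynomials `B ≠ 0`, `G i` (`n = |SL(2,ℤ) ⧸ Γ₀(N)|`).
* `sym_vdm` : `∑ i < n, J_N ^ i * P i (J) = 0` implies `P i = 0` for all `i`.
-/

set_option autoImplicit false

noncomputable section

namespace Fermat.Agent.S24

open UpperHalfPlane hiding I
open Filter Function Topology ModularForm Complex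
open scoped Manifold MatrixGroups ModularForm Real CongruenceSubgroup
open CongruenceSubgroup
open Fermat.Agent.S23

local notation "Δ" => ModularForm.discriminant

/-! ### holomorphic functions with a pole at `i∞` -/

theorem sym_const_bounded (c : ℂ) : IsBoundedAtImInfty (fun _ : ℍ => c) :=
  const_boundedAtFilter atImInfty c

theorem sym_const_bounded' (c : ℂ) : IsBoundedAtImInfty (fun τ : ℍ => Δ τ ^ 0 * c) := by
  have : (fun τ : ℍ => Δ τ ^ 0 * c) = fun _ : ℍ => c := by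
    funext τ
    simp
  rw [this]
  exact sym_const_bounded c

theorem sym_disc_bounded : IsBoundedAtImInfty (fun τ : ℍ => Δ τ) :=
  pj_disc_mem.2.2

theorem sym_disc_pow_bounded (m : ℕ) : IsBoundedAtImInfty (fun τ : ℍ => Δ τ ^ m) :=
  (pj_disc_pow_mem m).2.2

theorem sym_disc_pow_mdiff (m : ℕ) : MDiff (fun τ : ℍ => Δ τ ^ m) :=
  (pj_disc_pow_mem m).1

/-- raising the exponent keeps boundedness. -/
theorem sym_bounded_of_le {h : ℍ → ℂ} {m m' : ℕ} (hmm : m ≤ m')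
    (hb : IsBoundedAtImInfty (fun τ : ℍ => Δ τ ^ m * h τ)) :
    IsBoundedAtImInfty (fun τ : ℍ => Δ τ ^ m' * h τ) := by
  have h1 : (fun τ : ℍ => Δ τ ^ m' * h τ)
      = (fun τ : ℍ => Δ τ ^ (m' - m)) * (fun τ : ℍ => Δ τ ^ m * h τ) := by
    funext τ
    simp only [Pi.mul_apply]
    rw [← mul_assoc, ← pow_add, Nat.sub_add_cancel hmm]
  rw [h1]
  exact (sym_disc_pow_bounded (m' - m)).mul hb

/-- the ring of holomorphic functions on `ℍ` with at most a pole at `i∞`. -/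
def sym_mer : Subring (ℍ → ℂ) where
  carrier := {h | MDiff h ∧ ∃ m : ℕ, IsBoundedAtImInfty (fun τ : ℍ => Δ τ ^ m * h τ)}
  mul_mem' := by
    rintro f g ⟨hf, m, hm⟩ ⟨hg, m', hm'⟩
    refine ⟨hf.mul hg, m + m', ?_⟩
    have h1 : (fun τ : ℍ => Δ τ ^ (m + m') * (f * g) τ)
        = (fun τ : ℍ => Δ τ ^ m * f τ) * (fun τ : ℍ => Δ τ ^ m' * g τ) := by
      funext τ
      simp only [Pi.mul_apply]
      ring
    rw [h1]
    exact hm.mul hm'
  one_mem' := by
    exact ⟨mdifferentiable_const, 0, sym_const_bounded' 1⟩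
  add_mem' := by
    rintro f g ⟨hf, m, hm⟩ ⟨hg, m', hm'⟩
    refine ⟨hf.add hg, m + m', ?_⟩
    have h1 : (fun τ : ℍ => Δ τ ^ (m + m') * (f + g) τ)
        = (fun τ : ℍ => Δ τ ^ (m + m') * f τ) + (fun τ : ℍ => Δ τ ^ (m + m') * g τ) := by
      funext τ
      simp only [Pi.add_apply]
      ring
    rw [h1]
    exact (sym_bounded_of_le (Nat.le_add_right m m') hm).add
      (sym_bounded_of_le (Nat.le_add_left m' m) hm')
  zero_mem' := by
    exact ⟨mdifferentiable_const, 0, sym_const_bounded' 0⟩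
  neg_mem' := by
    rintro f ⟨hf, m, hm⟩
    refine ⟨hf.neg, m, ?_⟩
    have h1 : (fun τ : ℍ => Δ τ ^ m * (-f) τ) = -(fun τ : ℍ => Δ τ ^ m * f τ) := by
      funext τ
      simp only [Pi.neg_apply]
      ring
    rw [h1]
    exact hm.neg

theorem sym_mem_mer_iff {h : ℍ → ℂ} :
    h ∈ sym_mer ↔ MDiff h ∧ ∃ m : ℕ, IsBoundedAtImInfty (fun τ : ℍ => Δ τ ^ m * h τ) := Iff.rfl

theorem sym_const_mem_mer (c : ℂ) : (fun _ : ℍ => c) ∈ sym_mer := by
  exact ⟨mdifferentiable_const, 0, sym_const_bounded' c⟩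

/-- **invariant elements of `sym_mer` are polynomials in `J`**. -/
theorem sym_exists_poly {h : ℍ → ℂ} (hh : h ∈ sym_mer)
    (hinv : ∀ (γ : SL(2, ℤ)) (τ : ℍ), h (γ • τ) = h τ) :
    ∃ p : Polynomial ℂ, ∀ τ, h τ = p.eval (ord_J τ) := by
  obtain ⟨hd, m, hm⟩ := hh
  obtain ⟨p, -, hp⟩ := pj_exists_poly h hd hinv m hm
  exact ⟨p, hp⟩

/-- translation by an element of `SL(2,ℤ)` is holomorphic. -/
theorem sym_mdiff_comp {f : ℍ → ℂ} (hf : MDiff f) (g : SL(2, ℤ)) :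
    MDiff (fun τ : ℍ => f (g • τ)) := by
  have h := hf.slash (0 : ℤ) (g : GL (Fin 2) ℝ)
  rw [← ModularForm.SL_slash] at h
  have h2 : (f ∣[(0 : ℤ)] g) = fun τ : ℍ => f (g • τ) := by
    funext τ
    have := cj_slash_apply f 0 g τ
    simpa using this
  rwa [h2] at h

/-! ### the ring `sym_ring N` and conjugates -/

/-- `Γ₀(N)`-invariant holomorphic functions all of whose translates have at most a pole at
`i∞`. -/
def sym_ring (N : ℕ) : Subring (ℍ → ℂ) where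
  carrier := {f | (∀ γ ∈ Gamma0 N, ∀ τ : ℍ, f (γ • τ) = f τ) ∧
    ∀ g : SL(2, ℤ), (fun τ : ℍ => f (g • τ)) ∈ sym_mer}
  mul_mem' := by
    rintro f g ⟨hf, hf'⟩ ⟨hg, hg'⟩
    refine ⟨fun γ hγ τ => ?_, fun γ => sym_mer.mul_mem (hf' γ) (hg' γ)⟩
    simp only [Pi.mul_apply]
    rw [hf γ hγ τ, hg γ hγ τ]
  one_mem' := ⟨fun _ _ _ => rfl, fun _ => sym_mer.one_mem⟩
  add_mem' := by
    rintro f g ⟨hf, hf'⟩ ⟨hg, hg'⟩
    refine ⟨fun γ hγ τ => ?_, fun γ => sym_mer.add_mem (hf' γ) (hg' γ)⟩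
    simp only [Pi.add_apply]
    rw [hf γ hγ τ, hg γ hγ τ]
  zero_mem' := ⟨fun _ _ _ => rfl, fun _ => sym_mer.zero_mem⟩
  neg_mem' := by
    rintro f ⟨hf, hf'⟩
    refine ⟨fun γ hγ τ => ?_, fun γ => sym_mer.neg_mem (hf' γ)⟩
    simp only [Pi.neg_apply]
    rw [hf γ hγ τ]

theorem sym_mem_ring_iff {N : ℕ} {f : ℍ → ℂ} : f ∈ sym_ring N ↔
    (∀ γ ∈ Gamma0 N, ∀ τ : ℍ, f (γ • τ) = f τ) ∧
      ∀ g : SL(2, ℤ), (fun τ : ℍ => f (g • τ)) ∈ sym_mer := Iff.rfl

theorem sym_const_mem_ring (N : ℕ) (c : ℂ) : (fun _ : ℍ => c) ∈ sym_ring N :=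
  sym_mem_ring_iff.mpr ⟨fun _ _ _ => rfl, fun _ => sym_const_mem_mer c⟩

theorem sym_mem_mer_of_mem_ring {N : ℕ} {f : ℍ → ℂ} (hf : f ∈ sym_ring N) : f ∈ sym_mer := by
  have := (sym_mem_ring_iff.mp hf).2 1
  simpa using this

/-- the conjugate of `f` attached to the coset `q = g Γ₀(N)` is `f ∘ g⁻¹`. -/
def sym_conj (N : ℕ) (f : ℍ → ℂ) (q : s24Q N) : ℍ → ℂ :=
  fun τ => f ((Quotient.out q : SL(2, ℤ))⁻¹ • τ)

theorem sym_conj_mk {N : ℕ} {f : ℍ → ℂ} (hf : ∀ γ ∈ Gamma0 N, ∀ τ : ℍ, f (γ • τ) = f τ)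
    (g : SL(2, ℤ)) (τ : ℍ) : sym_conj N f ((g : SL(2, ℤ)) : s24Q N) τ = f (g⁻¹ • τ) := by
  have h1 : ((Quotient.out ((g : SL(2, ℤ)) : s24Q N) : SL(2, ℤ)) : s24Q N)
      = ((g : SL(2, ℤ)) : s24Q N) := QuotientGroup.out_eq' _
  rw [QuotientGroup.eq] at h1
  have h2 := hf _ h1 (g⁻¹ • τ)
  rw [← h2, ← mul_smul, mul_assoc, mul_inv_cancel, mul_one]
  rfl

theorem sym_conj_one {N : ℕ} {f : ℍ → ℂ} (hf : ∀ γ ∈ Gamma0 N, ∀ τ : ℍ, f (γ • τ) = f τ) :
    sym_conj N f ((1 : SL(2, ℤ)) : s24Q N) = f := by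
  funext τ
  rw [sym_conj_mk hf]
  simp

theorem sym_conj_smul {N : ℕ} {f : ℍ → ℂ} (hf : ∀ γ ∈ Gamma0 N, ∀ τ : ℍ, f (γ • τ) = f τ)
    (γ : SL(2, ℤ)) (q : s24Q N) (τ : ℍ) :
    sym_conj N f q (γ • τ) = sym_conj N f (γ⁻¹ • q) τ := by
  induction q using QuotientGroup.induction_on with
  | _ g =>
    have h1 : γ⁻¹ • ((g : SL(2, ℤ)) : s24Q N) = (((γ⁻¹ * g : SL(2, ℤ))) : s24Q N) := rfl
    rw [h1, sym_conj_mk hf, sym_conj_mk hf, mul_inv_rev, inv_inv, mul_smul]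

theorem sym_conj_mem_mer {N : ℕ} {f : ℍ → ℂ} (hf : f ∈ sym_ring N) (q : s24Q N) :
    sym_conj N f q ∈ sym_mer :=
  (sym_mem_ring_iff.mp hf).2 _

/-- symmetric sums of conjugates are `SL(2,ℤ)`-invariant. -/
theorem sym_sum_invariant {N : ℕ} [NeZero N] (Φ : s24Q N → ℍ → ℂ)
    (hΦ : ∀ (γ : SL(2, ℤ)) (q : s24Q N) (τ : ℍ), Φ q (γ • τ) = Φ (γ⁻¹ • q) τ)
    (γ : SL(2, ℤ)) (τ : ℍ) : (∑ q, Φ q) (γ • τ) = (∑ q, Φ q) τ := by
  rw [Finset.sum_apply, Finset.sum_apply]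
  simp only [hΦ]
  exact Fintype.sum_equiv (MulAction.toPerm γ⁻¹) _ _ (fun q => rfl)

/-! ### the interpolation identity -/

/-- evaluation of polynomials at `J`. -/
def sym_evJ : Polynomial ℂ →+* (ℍ → ℂ) :=
  RingHom.pi fun τ => Polynomial.evalRingHom (ord_J τ)

theorem sym_evJ_apply (P : Polynomial ℂ) (τ : ℍ) : sym_evJ P τ = P.eval (ord_J τ) := rfl

theorem sym_adj_map {R R' : Type*} [CommRing R] [CommRing R'] (φ : R →+* R') (n : ℕ)
    (S T : ℕ → R) (i : Fin n) :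
    φ (Matrix.mulVec (cj_H n S).adjugate (fun j : Fin n => T (j : ℕ)) i)
      = Matrix.mulVec (cj_H n (fun m => φ (S m))).adjugate (fun j : Fin n => φ (T (j : ℕ))) i := by
  simp only [Matrix.mulVec, dotProduct, map_sum, map_mul]
  refine Finset.sum_congr rfl fun j _ => ?_
  congr 1
  have := congrFun (congrFun (RingHom.map_adjugate φ (cj_H n S)) i) j
  rw [cj_H_map] at this
  simpa using this

theorem sym_pow_sum_mem {N : ℕ} [NeZero N] {u : ℍ → ℂ} (hu : u ∈ sym_ring N) (m : ℕ) :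
    (∑ q : s24Q N, sym_conj N u q ^ m) ∈ sym_mer :=
  sym_mer.sum_mem fun q _ => sym_mer.pow_mem (sym_conj_mem_mer hu q) m

theorem sym_pow_sum_inv {N : ℕ} [NeZero N] {u : ℍ → ℂ} (hu : u ∈ sym_ring N) (m : ℕ)
    (γ : SL(2, ℤ)) (τ : ℍ) :
    (∑ q : s24Q N, sym_conj N u q ^ m) (γ • τ) = (∑ q : s24Q N, sym_conj N u q ^ m) τ := by
  refine sym_sum_invariant (fun q => sym_conj N u q ^ m) (fun γ q τ => ?_) γ τ
  simp only [Pi.pow_apply]
  rw [sym_conj_smul (sym_mem_ring_iff.mp hu).1]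

theorem sym_tw_sum_mem {N : ℕ} [NeZero N] {u f : ℍ → ℂ} (hu : u ∈ sym_ring N)
    (hf : f ∈ sym_ring N) (j : ℕ) :
    (∑ q : s24Q N, sym_conj N u q ^ j * sym_conj N f q) ∈ sym_mer :=
  sym_mer.sum_mem fun q _ =>
    sym_mer.mul_mem (sym_mer.pow_mem (sym_conj_mem_mer hu q) j) (sym_conj_mem_mer hf q)

theorem sym_tw_sum_inv {N : ℕ} [NeZero N] {u f : ℍ → ℂ} (hu : u ∈ sym_ring N)
    (hf : f ∈ sym_ring N) (j : ℕ) (γ : SL(2, ℤ)) (τ : ℍ) :
    (∑ q : s24Q N, sym_conj N u q ^ j * sym_conj N f q) (γ • τ)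
      = (∑ q : s24Q N, sym_conj N u q ^ j * sym_conj N f q) τ := by
  refine sym_sum_invariant (fun q => sym_conj N u q ^ j * sym_conj N f q)
    (fun γ q τ => ?_) γ τ
  simp only [Pi.mul_apply, Pi.pow_apply]
  rw [sym_conj_smul (sym_mem_ring_iff.mp hu).1, sym_conj_smul (sym_mem_ring_iff.mp hf).1]

/-- **SYM-CORE**: the interpolation identity with coefficients in `ℂ[J]`. -/
theorem sym_core {N : ℕ} [NeZero N] {u f : ℍ → ℂ} (hu : u ∈ sym_ring N) (hf : f ∈ sym_ring N)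
    (hdist : ∃ τ₀ : ℍ, Function.Injective (fun q : s24Q N => sym_conj N u q τ₀)) :
    ∃ (B : Polynomial ℂ) (G : Fin (Fintype.card (s24Q N)) → Polynomial ℂ), B ≠ 0 ∧
      ∀ τ, B.eval (ord_J τ) * f τ
        = ∑ i : Fin (Fintype.card (s24Q N)), u τ ^ (i : ℕ) * (G i).eval (ord_J τ) := by
  classical
  set n := Fintype.card (s24Q N) with hn
  -- power sums and twisted traces are polynomials in `J`
  choose S hS using fun m : ℕ => sym_exists_poly (sym_pow_sum_mem hu m) (sym_pow_sum_inv hu m)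
  choose T hT using fun j : ℕ =>
    sym_exists_poly (sym_tw_sum_mem hu hf j) (sym_tw_sum_inv hu hf j)
  have hS' : ∀ m, sym_evJ (S m) = ∑ q : s24Q N, sym_conj N u q ^ m := fun m =>
    funext fun τ => (hS m τ).symm
  have hT' : ∀ j, sym_evJ (T j) = ∑ q : s24Q N, sym_conj N u q ^ j * sym_conj N f q := fun j =>
    funext fun τ => (hT j τ).symm
  have hid := cj_interp_identity (R := ℍ → ℂ) hn.symm (fun q : s24Q N => sym_conj N u q)
    (fun q : s24Q N => sym_conj N f q) ((1 : SL(2, ℤ)) : s24Q N)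
  rw [sym_conj_one (sym_mem_ring_iff.mp hu).1, sym_conj_one (sym_mem_ring_iff.mp hf).1] at hid
  have hB : sym_evJ (cj_B n S) = cj_B n (fun m => ∑ q : s24Q N, sym_conj N u q ^ m) := by
    rw [cj_B_map]
    simp only [hS']
  refine ⟨cj_B n S, fun i => Matrix.mulVec (cj_H n S).adjugate (fun j : Fin n => T (j : ℕ)) i,
    ?_, ?_⟩
  · -- `B ≠ 0`
    obtain ⟨τ₀, hτ₀⟩ := hdist
    intro h0
    have h1 : cj_B n (fun m => ∑ q : s24Q N, sym_conj N u q ^ m) = 0 := by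
      rw [← hB, h0, map_zero]
    have h2 := congrArg (Pi.evalRingHom (fun _ : ℍ => ℂ) τ₀) h1
    rw [cj_B_map, map_zero] at h2
    have h3 : (fun m => (Pi.evalRingHom (fun _ : ℍ => ℂ) τ₀) (∑ q : s24Q N, sym_conj N u q ^ m))
        = fun m => ∑ q : s24Q N, (sym_conj N u q τ₀) ^ m := by
      funext m
      simp
    rw [h3] at h2
    exact hk_detQ_ne_zero hn.symm (fun q : s24Q N => sym_conj N u q τ₀) hτ₀ h2
  · intro τ
    have h1 := congrFun hid τ
    rw [← hB] at h1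
    simp only [Pi.mul_apply, sym_evJ_apply] at h1
    rw [h1]
    unfold cj_A
    rw [Finset.sum_apply]
    refine Finset.sum_congr rfl fun i _ => ?_
    simp only [Pi.mul_apply, Pi.pow_apply]
    congr 1
    have h2 := sym_adj_map sym_evJ n S T i
    simp only [hS', hT'] at h2
    rw [← sym_evJ_apply, h2]

/-! ### growth of `J ((a τ + b) / d)` at `i∞` -/

theorem sym_E4_bounded : IsBoundedAtImInfty (fun τ : ℍ => E₄ τ) :=
  ord_E4_mem.2.2

/-- `Δ ^ a * J ((a τ + b) / d)` is bounded at `i∞`. -/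
theorem sym_growth (a b d : ℤ) (ha : 0 < a) (hd : 0 < d) :
    IsBoundedAtImInfty
      (fun τ : ℍ => Δ τ ^ a.toNat * ord_J (pe_aff a b d ha hd τ)) := by
  have hw := pe_tendsto_aff a b d ha hd
  -- `E₄ ∘ w` is bounded
  have hE : (fun τ : ℍ => E₄ (pe_aff a b d ha hd τ) ^ 3) =O[atImInfty] (fun _ : ℍ => (1 : ℝ)) := by
    have h1 : (fun τ : ℍ => E₄ (pe_aff a b d ha hd τ)) =O[atImInfty] (fun _ : ℍ => (1 : ℝ)) :=
      (sym_E4_bounded : (fun τ : ℍ => E₄ τ) =O[atImInfty] (1 : ℍ → ℝ)).comp_tendsto hw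
    have h2 := h1.pow 3
    simpa using h2
  -- `Δ ^ m`
  have hΔ : (fun τ : ℍ => Δ τ ^ a.toNat) =O[atImInfty]
      (fun τ : ℍ => Real.exp (-2 * π * τ.im) ^ a.toNat) :=
    pe_discriminant_isBigO_exp.pow _
  -- `1 / Δ ∘ w`
  have hinv : (fun τ : ℍ => (Δ (pe_aff a b d ha hd τ))⁻¹) =O[atImInfty]
      (fun τ : ℍ => (Real.exp (-2 * π * (pe_aff a b d ha hd τ).im))⁻¹) := by
    have h1 : (fun τ : ℍ => Real.exp (-2 * π * (pe_aff a b d ha hd τ).im)) =O[atImInfty]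
        (fun τ : ℍ => Δ (pe_aff a b d ha hd τ)) :=
      exp_isBigO_discriminant.comp_tendsto hw
    refine h1.inv_rev (Eventually.of_forall fun τ h0 => ?_)
    exact absurd h0 (Real.exp_pos _).ne'
  have hprod := (hΔ.mul hinv).mul hE
  have hbound : (fun τ : ℍ => Real.exp (-2 * π * τ.im) ^ a.toNat *
      (Real.exp (-2 * π * (pe_aff a b d ha hd τ).im))⁻¹ * (1 : ℝ)) =O[atImInfty]
      (fun _ : ℍ => (1 : ℝ)) := by
    refine Asymptotics.IsBigO.of_bound 1 (Eventually.of_forall fun τ => ?_)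
    rw [mul_one, one_mul, norm_one, ← Real.exp_nat_mul, ← Real.exp_neg, ← Real.exp_add,
      Real.norm_of_nonneg (Real.exp_pos _).le, Real.exp_le_one_iff, pe_aff_im]
    have ha' : ((a.toNat : ℕ) : ℝ) = (a : ℝ) := by
      have : ((a.toNat : ℕ) : ℤ) = a := Int.toNat_of_nonneg ha.le
      exact_mod_cast this
    rw [ha']
    have hy : 0 < τ.im := τ.im_pos
    have hd1 : (1 : ℝ) ≤ d := by exact_mod_cast hd
    have ha0 : (0 : ℝ) < a := by exact_mod_cast ha
    have hd0 : (0 : ℝ) < d := by linarith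
    have h1 : (a : ℝ) * τ.im / d ≤ a * τ.im :=
      div_le_self (mul_pos ha0 hy).le hd1
    nlinarith [Real.pi_pos, mul_pos Real.pi_pos hy]
  have hfinal := hprod.trans hbound
  refine hfinal.congr_left fun τ => ?_
  rw [ord_J_def]
  ring

/-! ### `τ ↦ J (d τ)` lies in `sym_ring N` for `d ∣ N` -/

theorem sym_mdiff_JN (d : ℕ) (hd : 0 < d) : MDiff (distJN d hd) := by
  rw [UpperHalfPlane.mdifferentiable_iff]
  have h1 : DifferentiableOn ℂ (ord_J ∘ ofComplex) {z | 0 < z.im} :=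
    UpperHalfPlane.mdifferentiable_iff.mp ord_mdiff_J
  have h2 : DifferentiableOn ℂ (fun z : ℂ => (d : ℂ) * z) {z | 0 < z.im} := by
    fun_prop
  have hN' : (0 : ℝ) < d := by exact_mod_cast hd
  have hmaps : Set.MapsTo (fun z : ℂ => (d : ℂ) * z) {z | 0 < z.im} {z | 0 < z.im} := by
    intro z hz
    simp only [Set.mem_ofPred_eq] at hz ⊢
    simp only [Complex.mul_im, Complex.natCast_re, Complex.natCast_im, zero_mul, add_zero]
    positivity
  have h3 := h1.comp h2 hmaps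
  refine h3.congr ?_
  intro z hz
  simp only [Set.mem_ofPred_eq] at hz
  have hz' : 0 < ((d : ℂ) * z).im := hmaps hz
  simp only [Function.comp_apply, distJN]
  congr 1
  apply UpperHalfPlane.ext
  rw [pe_mulN_coe, ofComplex_apply_of_im_pos hz, ofComplex_apply_of_im_pos hz']

theorem sym_Gamma0_le {d N : ℕ} (hdN : d ∣ N) {g : SL(2, ℤ)} (hg : g ∈ Gamma0 N) :
    g ∈ Gamma0 d := by
  rw [Gamma0_mem, ZMod.intCast_zmod_eq_zero_iff_dvd] at hg ⊢
  exact (Int.natCast_dvd_natCast.mpr hdN).trans hg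

theorem sym_JN_translate_mem (d : ℕ) (hd : 0 < d) (g : SL(2, ℤ)) :
    (fun τ : ℍ => distJN d hd (g • τ)) ∈ sym_mer := by
  refine ⟨sym_mdiff_comp (sym_mdiff_JN d hd) g, ?_⟩
  obtain ⟨γ, a, b, δ, ha, hδ, -, -, h00, h01, h10, h11⟩ := pe_hermite d hd g
  refine ⟨a.toNat, ?_⟩
  have h1 : (fun τ : ℍ => Δ τ ^ a.toNat * distJN d hd (g • τ))
      = fun τ : ℍ => Δ τ ^ a.toNat * ord_J (pe_aff a b δ ha hδ τ) := by
    funext τ
    rw [dist_JN_smul_eq d hd g γ a b δ ha hδ h00 h01 h10 h11 τ]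
  rw [h1]
  exact sym_growth a b δ ha hδ

/-- `τ ↦ J (d τ)` lies in `sym_ring N` for `d ∣ N`. -/
theorem sym_JN_mem {d N : ℕ} (hd : 0 < d) (hdN : d ∣ N) : distJN d hd ∈ sym_ring N :=
  sym_mem_ring_iff.mpr
    ⟨fun γ hγ τ => dist_eq_of_mem_Gamma0 d hd γ (sym_Gamma0_le hdN hγ) τ,
      fun g => sym_JN_translate_mem d hd g⟩

/-- `J` itself. -/
theorem sym_J_mem (N : ℕ) : ord_J ∈ sym_ring N := by
  refine sym_mem_ring_iff.mpr ⟨fun γ _ τ => ord_J_smul γ τ, fun g => ?_⟩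
  have h1 : (fun τ : ℍ => ord_J (g • τ)) = ord_J := funext fun τ => ord_J_smul g τ
  rw [h1]
  refine ⟨ord_mdiff_J, 1, ?_⟩
  have h2 : (fun τ : ℍ => Δ τ ^ 1 * ord_J τ) = fun τ : ℍ => E₄ τ ^ 3 := by
    funext τ
    rw [pow_one, mul_comm, ord_J_mul_disc]
  rw [h2]
  exact (pj_E4_pow_mem 3).2.2

/-! ### distinct conjugates of `J (N τ)` and Vandermonde -/

theorem sym_conj_JN_eq (N : ℕ) (hN : 0 < N) (q : s24Q N) :
    sym_conj N (distJN N hN) q = distConj N hN q := rfl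

theorem sym_conj_JN_injective (N : ℕ) (hN : 0 < N) :
    Function.Injective (fun q : s24Q N => sym_conj N (distJN N hN) q) :=
  distConj_injective N hN

theorem sym_conj_mdiff {N : ℕ} {f : ℍ → ℂ} (hf : f ∈ sym_ring N) (q : s24Q N) :
    MDiff (sym_conj N f q) :=
  (sym_conj_mem_mer hf q).1

theorem sym_mdiff_prod {ι : Type*} (s : Finset ι) {G : ι → ℍ → ℂ}
    (hG : ∀ i ∈ s, MDiff (G i)) : MDiff (∏ i ∈ s, G i) := by
  classical
  induction s using Finset.induction_on with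
  | empty =>
    rw [Finset.prod_empty]
    exact (mdifferentiable_const : MDiff (fun _ : ℍ => (1 : ℂ)))
  | insert a s ha ih =>
    rw [Finset.prod_insert ha]
    exact (hG a (Finset.mem_insert_self a s)).mul
      (ih fun i hi => hG i (Finset.mem_insert_of_mem hi))

theorem sym_mdiff_eval (P : Polynomial ℂ) : MDiff (fun τ : ℍ => P.eval (ord_J τ)) := by
  have h1 : (fun τ : ℍ => P.eval (ord_J τ))
      = ∑ k ∈ Finset.range (P.natDegree + 1), (fun _ : ℍ => P.coeff k) * ord_J ^ k := by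
    funext τ
    rw [Polynomial.eval_eq_sum_range, Finset.sum_apply]
    rfl
  rw [h1]
  exact cj_mdiff_sum _ fun k _ =>
    (mdifferentiable_const : MDiff (fun _ : ℍ => P.coeff k)).mul (cj_mdiff_pow ord_mdiff_J k)

open Classical in
/-- the product of the differences of the conjugates of `J (N τ)`. -/
def sym_disc (N : ℕ) [NeZero N] : ℍ → ℂ :=
  ∏ p ∈ (Finset.univ : Finset (s24Q N × s24Q N)).filter (fun p => p.1 ≠ p.2),
    (sym_conj N (distJN N (NeZero.pos N)) p.1 - sym_conj N (distJN N (NeZero.pos N)) p.2)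

theorem sym_disc_mdiff (N : ℕ) [NeZero N] : MDiff (sym_disc N) := by
  unfold sym_disc
  refine sym_mdiff_prod _ fun p _ => ?_
  exact (sym_conj_mdiff (sym_JN_mem (NeZero.pos N) dvd_rfl) p.1).sub
    (sym_conj_mdiff (sym_JN_mem (NeZero.pos N) dvd_rfl) p.2)

theorem sym_disc_ne_zero (N : ℕ) [NeZero N] : sym_disc N ≠ 0 := by
  classical
  intro h0
  unfold sym_disc at h0
  rw [UpperHalfPlane.prod_eq_zero_iff (fun p _ =>
    (sym_conj_mdiff (sym_JN_mem (NeZero.pos N) dvd_rfl) p.1).sub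
      (sym_conj_mdiff (sym_JN_mem (NeZero.pos N) dvd_rfl) p.2))] at h0
  obtain ⟨p, hp, hp0⟩ := h0
  have hp' : p.1 ≠ p.2 := (Finset.mem_filter.mp hp).2
  exact hp' (sym_conj_JN_injective N (NeZero.pos N) (sub_eq_zero.mp hp0))

theorem sym_injective_of_disc_ne_zero (N : ℕ) [NeZero N] (τ : ℍ) (hτ : sym_disc N τ ≠ 0) :
    Function.Injective (fun q : s24Q N => sym_conj N (distJN N (NeZero.pos N)) q τ) := by
  classical
  intro q q' hqq
  by_contra hne'
  apply hτ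
  unfold sym_disc
  rw [Finset.prod_apply]
  refine Finset.prod_eq_zero (i := (q, q')) (Finset.mem_filter.mpr ⟨Finset.mem_univ _, hne'⟩) ?_
  simp only [Pi.sub_apply]
  exact sub_eq_zero.mpr hqq

theorem sym_exists_injective (N : ℕ) [NeZero N] :
    ∃ τ₀ : ℍ, Function.Injective
      (fun q : s24Q N => sym_conj N (distJN N (NeZero.pos N)) q τ₀) := by
  obtain ⟨τ, hτ⟩ : ∃ τ, sym_disc N τ ≠ 0 := by
    by_contra hcon
    push Not at hcon
    exact sym_disc_ne_zero N (funext hcon)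
  exact ⟨τ, sym_injective_of_disc_ne_zero N τ hτ⟩

/-- **SYM-CORE** for `u = J (N τ)`. -/
theorem sym_core_JN {N : ℕ} [NeZero N] {f : ℍ → ℂ} (hf : f ∈ sym_ring N) :
    ∃ (B : Polynomial ℂ) (G : Fin (Fintype.card (s24Q N)) → Polynomial ℂ), B ≠ 0 ∧
      ∀ τ, B.eval (ord_J τ) * f τ
        = ∑ i : Fin (Fintype.card (s24Q N)),
            distJN N (NeZero.pos N) τ ^ (i : ℕ) * (G i).eval (ord_J τ) :=
  sym_core (sym_JN_mem (NeZero.pos N) dvd_rfl) hf (sym_exists_injective N)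

/-- **Vandermonde**: `1, J_N, …, J_N ^ (n - 1)` are linearly independent over `ℂ[J]`. -/
theorem sym_vdm {N : ℕ} [NeZero N] (P : Fin (Fintype.card (s24Q N)) → Polynomial ℂ)
    (h : ∀ τ : ℍ, ∑ i : Fin (Fintype.card (s24Q N)),
      distJN N (NeZero.pos N) τ ^ (i : ℕ) * (P i).eval (ord_J τ) = 0) :
    ∀ i, P i = 0 := by
  classical
  -- the relation for all conjugates
  have hconj : ∀ (q : s24Q N) (τ : ℍ), ∑ i : Fin (Fintype.card (s24Q N)),
      sym_conj N (distJN N (NeZero.pos N)) q τ ^ (i : ℕ) * (P i).eval (ord_J τ) = 0 := by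
    intro q τ
    have h1 := h ((Quotient.out q : SL(2, ℤ))⁻¹ • τ)
    rw [ord_J_smul] at h1
    exact h1
  -- at a point where the conjugates are distinct
  have hpt : ∀ τ : ℍ, sym_disc N τ ≠ 0 → ∀ i, (P i).eval (ord_J τ) = 0 := by
    intro τ hτ i
    have hinj := sym_injective_of_disc_ne_zero N τ hτ
    set p : Polynomial ℂ := ∑ i : Fin (Fintype.card (s24Q N)),
      Polynomial.C ((P i).eval (ord_J τ)) * Polynomial.X ^ (i : ℕ) with hp
    have hdeg : p.natDegree < Fintype.card (s24Q N) := by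
      have hpos : 0 < Fintype.card (s24Q N) := Fintype.card_pos
      have hle : p.natDegree ≤ Fintype.card (s24Q N) - 1 := by
        refine Polynomial.natDegree_sum_le_of_forall_le _ _ fun i _ => ?_
        exact (Polynomial.natDegree_C_mul_X_pow_le _ _).trans (by omega)
      omega
    have heval : ∀ q : s24Q N,
        p.eval (sym_conj N (distJN N (NeZero.pos N)) q τ) = 0 := by
      intro q
      rw [hp, Polynomial.eval_finsetSum]
      simp only [Polynomial.eval_mul, Polynomial.eval_C, Polynomial.eval_pow, Polynomial.eval_X]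
      rw [← hconj q τ]
      refine Finset.sum_congr rfl fun i _ => ?_
      ring
    have hp0 := Polynomial.eq_zero_of_natDegree_lt_card_of_eval_eq_zero p hinj heval hdeg
    have hcoeff : p.coeff (i : ℕ) = (P i).eval (ord_J τ) := by
      rw [hp, Polynomial.finsetSum_coeff]
      simp only [Polynomial.coeff_C_mul_X_pow]
      rw [Finset.sum_eq_single i]
      · simp
      · intro j _ hji
        have : (i : ℕ) ≠ (j : ℕ) := fun h => hji (Fin.ext h.symm)
        simp [this]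
      · intro hi
        exact absurd (Finset.mem_univ i) hi
    rw [← hcoeff, hp0, Polynomial.coeff_zero]
  intro i
  -- `(P i) ∘ J = 0`
  have hmd : MDiff (fun τ : ℍ => (P i).eval (ord_J τ)) := sym_mdiff_eval (P i)
  have hmul : sym_disc N * (fun τ : ℍ => (P i).eval (ord_J τ)) = 0 := by
    funext τ
    simp only [Pi.mul_apply, Pi.zero_apply]
    by_cases hτ : sym_disc N τ = 0
    · rw [hτ, zero_mul]
    · rw [hpt τ hτ i, mul_zero]
  rw [UpperHalfPlane.mul_eq_zero_iff (sym_disc_mdiff N) hmd] at hmul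
  rcases hmul with h0 | h0
  · exact absurd h0 (sym_disc_ne_zero N)
  · apply Polynomial.funext
    intro z
    obtain ⟨τ, rfl⟩ := ord_J_surjective z
    rw [Polynomial.eval_zero]
    exact congrFun h0 τ

end Fermat.Agent.S24
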