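import Fermat.Agent.S24.AnaData
import Fermat.Agent.S24.Hol

/-!
# S24 — [ANA-DATA]: the analytic package from a comparison map to `hol_Mer` (prefix `ad_`)

Given the conjugate embeddings `ρ q : F →+* M`, equivariant for `act`, and a comparison map
`toMer : M →+* hol_Mer` to the field of meromorphic functions on `ℍ`, the order valuations at the
points of `ℍ` are `(hol_val τ).comap toMer`; this file proves the fields `val_K`, `val_act_fix`,
`val_j_sub`, `stab_S`, `stab_ST` of `AdPkg` for them.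
-/

set_option autoImplicit false

namespace Fermat.Agent.S24

open MulAction Subgroup Function IntermediateField UpperHalfPlane
open scoped MatrixGroups

/-- `J` as a holomorphic function. -/
noncomputable def ad_J : hol_ring := ⟨ord_J, ord_mdiff_J⟩

theorem ad_J_apply (τ : ℍ) : (ad_J : ℍ → ℂ) τ = ord_J τ := rfl

theorem ad_J_sub_const_ne_zero (c : ℂ) : ad_J - hol_const c ≠ 0 := by
  rw [hol_ne_zero_iff]
  obtain ⟨τ, hτ⟩ := ord_J_surjective (c + 1)
  refine ⟨τ, ?_⟩
  change ord_J τ - c ≠ 0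
  rw [hτ]
  simp

theorem ad_J_sub_const_comp (c : ℂ) :
    ((ad_J - hol_const c : hol_ring) : ℍ → ℂ) ∘ ofComplex
      = fun z : ℂ => ord_J (ofComplex z) - c := rfl

/-- The valuation of `J - c` at `τ`. -/
theorem ad_hol_val_J_sub (τ : ℍ) (c : ℂ) :
    hol_val τ (algebraMap hol_ring hol_Mer ad_J - hol_constMer c)
      = WithZero.exp (-(analyticOrderNatAt (fun z : ℂ => ord_J (ofComplex z) - c) (τ : ℂ) : ℤ)) := by
  have h : algebraMap hol_ring hol_Mer ad_J - hol_constMer c
      = algebraMap hol_ring hol_Mer (ad_J - hol_const c) := by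
    rw [map_sub]
    rfl
  rw [h, hol_val_algebraMap τ _ (ad_J_sub_const_ne_zero c), ad_J_sub_const_comp]

/-- Invariance of the valuation at a fixed point. -/
theorem ad_hol_val_act_fix (τ : ℍ) (g : SL(2, ℤ)) (hg : g • τ = τ) (x : hol_Mer) :
    hol_val τ (hol_act g x) = hol_val τ x := by
  rw [hol_val_act, hg]

section pkg

variable {N : ℕ} [NeZero N] {M : Type} [Field M]
  (act : SL(2, ℤ) → (M →+* M)) (ρ : s24Q N → (s24F N →+* M)) (ι : s24K →+* ℂ)
  (toMer : M →+* hol_Mer)

/-- The order valuation at `τ`, transported to `M`. -/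
noncomputable def ad_val (τ : ℍ) : Valuation M (WithZero (Multiplicative ℤ)) :=
  (hol_val τ).comap toMer

theorem ad_val_apply (τ : ℍ) (m : M) : ad_val toMer τ m = hol_val τ (toMer m) := rfl

omit [NeZero N] in
theorem ad_val_K
    (hK : ∀ (q : s24Q N) (a : s24K),
      toMer (ρ q (algebraMap s24K (s24F N) a)) = hol_constMer (ι a))
    (τ : ℍ) (q : s24Q N) (a : s24K) (ha : a ≠ 0) :
    ad_val toMer τ (ρ q (algebraMap s24K (s24F N) a)) = 1 := by
  rw [ad_val_apply, hK, hol_val_constMer τ _ ((map_ne_zero ι).mpr ha)]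

/-- Invariance at fixed points, for `toMer ∘ act g = hol_act g⁻¹ ∘ toMer`. -/
theorem ad_val_act_fix
    (hact : ∀ (g : SL(2, ℤ)) (m : M), toMer (act g m) = hol_act g⁻¹ (toMer m))
    (τ : ℍ) (g : SL(2, ℤ)) (hg : g • τ = τ) (m : M) :
    ad_val toMer τ (act g m) = ad_val toMer τ m := by
  rw [ad_val_apply, hact, ad_hol_val_act_fix τ g⁻¹ (by rw [inv_smul_eq_iff, hg]), ad_val_apply]

/-- Invariance at fixed points, for `toMer ∘ act g = hol_act g ∘ toMer`. -/
theorem ad_val_act_fix'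
    (hact : ∀ (g : SL(2, ℤ)) (m : M), toMer (act g m) = hol_act g (toMer m))
    (τ : ℍ) (g : SL(2, ℤ)) (hg : g • τ = τ) (m : M) :
    ad_val toMer τ (act g m) = ad_val toMer τ m := by
  rw [ad_val_apply, hact, ad_hol_val_act_fix τ g hg, ad_val_apply]

theorem ad_val_j_sub
    (hK : ∀ (q : s24Q N) (a : s24K),
      toMer (ρ q (algebraMap s24K (s24F N) a)) = hol_constMer (ι a))
    (hj : ∀ q : s24Q N, toMer (ρ q (s24j N)) = algebraMap hol_ring hol_Mer ad_J)
    (τ : ℍ) (q : s24Q N) (a : s24K) :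
    ad_val toMer τ (ρ q (s24j N - algebraMap s24K (s24F N) a))
      = WithZero.exp
          (-(analyticOrderNatAt (fun z : ℂ => ord_J (ofComplex z) - ι a) (τ : ℂ) : ℤ)) := by
  rw [ad_val_apply, map_sub, map_sub, hK, hj, ad_hol_val_J_sub]

/-- Transport of the stabiliser statement, for `toMer ∘ act g = hol_act g⁻¹ ∘ toMer`. -/
theorem ad_stab
    (hact : ∀ (g : SL(2, ℤ)) (m : M), toMer (act g m) = hol_act g⁻¹ (toMer m))
    (c : SL(2, ℤ)) (τ : ℍ) (o : ℕ)
    (hstab : ∀ x : hol_Mer, x ≠ 0 → hol_act c x = x →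
      ∃ k : ℤ, hol_val τ x = WithZero.exp (k * (o : ℤ)))
    (m : M) (hm : m ≠ 0) (hinv : act c m = m) :
    ∃ k : ℤ, ad_val toMer τ m = WithZero.exp (k * (o : ℤ)) := by
  apply hstab (toMer m) ((map_ne_zero toMer).mpr hm)
  have h := hact c m
  rw [hinv] at h
  conv_lhs => rw [h]
  exact hol_act_act_inv c _

/-- Transport of the stabiliser statement, for `toMer ∘ act g = hol_act g ∘ toMer`. -/
theorem ad_stab'
    (hact : ∀ (g : SL(2, ℤ)) (m : M), toMer (act g m) = hol_act g (toMer m))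
    (c : SL(2, ℤ)) (τ : ℍ) (o : ℕ)
    (hstab : ∀ x : hol_Mer, x ≠ 0 → hol_act c x = x →
      ∃ k : ℤ, hol_val τ x = WithZero.exp (k * (o : ℤ)))
    (m : M) (hm : m ≠ 0) (hinv : act c m = m) :
    ∃ k : ℤ, ad_val toMer τ m = WithZero.exp (k * (o : ℤ)) := by
  apply hstab (toMer m) ((map_ne_zero toMer).mpr hm)
  rw [← hact, hinv]

end pkg

end Fermat.Agent.S24
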