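import Mathlib
import Fermat.Agent.S24.AnaRing
import Fermat.Agent.S24.Hol
import Fermat.Agent.S24.AnaPkg

/-!
# S24: the comparison map `ana_M N → hol_Mer` and growth of modular functions at `i∞`

* `amer_incl N : ana_ring N →+* hol_ring`, `amer_toMer N : ana_M N →+* hol_Mer`;
* `amer_toMer_act` : `toMer (ana_act N g m) = hol_act g⁻¹ (toMer m)`;
* `amer_toMer_const`, `amer_toMer_J` : the images of the constants and of `J`;
* `amer_disc_pow_bounded` : for `h ∈ ana_ring N`, `Δ ^ m * h` is bounded at `i∞` for some `m`.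
-/

set_option autoImplicit false

noncomputable section

namespace Fermat.Agent.S24

open UpperHalfPlane hiding I
open Filter Function Topology ModularForm Complex
open scoped Manifold MatrixGroups ModularForm Real

local notation "Δ" => ModularForm.discriminant
local notation "𝕢" => Function.Periodic.qParam

/-- the inclusion of modular functions of level `N` into holomorphic functions -/
def amer_incl (N : ℕ) : ana_ring N →+* hol_ring where
  toFun f := ⟨(f : ℍ → ℂ), f.2.1⟩
  map_one' := rfl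
  map_mul' _ _ := rfl
  map_zero' := rfl
  map_add' _ _ := rfl

@[simp] theorem amer_incl_apply (N : ℕ) (f : ana_ring N) (τ : ℍ) :
    (amer_incl N f : ℍ → ℂ) τ = (f : ℍ → ℂ) τ := rfl

theorem amer_incl_coe (N : ℕ) (f : ana_ring N) : ((amer_incl N f : hol_ring) : ℍ → ℂ) = f := rfl

theorem amer_incl_injective (N : ℕ) : Function.Injective (amer_incl N) := by
  intro f g h
  apply Subtype.ext
  exact congrArg (fun x : hol_ring => (x : ℍ → ℂ)) h

theorem amer_algebraMap_incl_injective (N : ℕ) :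
    Function.Injective ((algebraMap hol_ring hol_Mer).comp (amer_incl N)) :=
  (IsFractionRing.injective hol_ring hol_Mer).comp (amer_incl_injective N)

/-- the comparison map from modular functions of level `N` to meromorphic functions on `ℍ` -/
def amer_toMer (N : ℕ) : ana_M N →+* hol_Mer :=
  IsFractionRing.lift (amer_algebraMap_incl_injective N)

@[simp] theorem amer_toMer_algebraMap (N : ℕ) (f : ana_ring N) :
    amer_toMer N (algebraMap (ana_ring N) (ana_M N) f) =
      algebraMap hol_ring hol_Mer (amer_incl N f) := by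
  unfold amer_toMer
  rw [IsFractionRing.lift_algebraMap]
  rfl

theorem amer_toMer_injective (N : ℕ) : Function.Injective (amer_toMer N) :=
  (amer_toMer N).injective

theorem amer_incl_comp (N : ℕ) (g : SL(2, ℤ)) (f : ana_ring N) :
    amer_incl N (ana_comp N g f) = hol_comp g (amer_incl N f) := by
  apply Subtype.ext
  funext τ
  rfl

/-- **equivariance**: `toMer ∘ ana_act N g = hol_act g⁻¹ ∘ toMer` -/
theorem amer_toMer_act (N : ℕ) (g : SL(2, ℤ)) (m : ana_M N) :
    amer_toMer N (ana_act N g m) = hol_act g⁻¹ (amer_toMer N m) := by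
  have h : (amer_toMer N).comp (ana_act N g) =
      ((hol_act g⁻¹ : hol_Mer ≃+* hol_Mer) : hol_Mer →+* hol_Mer).comp (amer_toMer N) := by
    apply ana_ringHom_ext_M
    intro f
    simp only [RingHom.comp_apply, ana_act_algebraMap, amer_toMer_algebraMap, RingHom.coe_coe,
      hol_act_algebraMap, amer_incl_comp]
  exact congrArg (fun φ : ana_M N →+* hol_Mer => φ m) h

/-- the image of a constant -/
theorem amer_toMer_const (N : ℕ) (c : ℂ) :
    amer_toMer N (algebraMap (ana_ring N) (ana_M N) (ana_const N c)) = hol_constMer c := by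
  rw [amer_toMer_algebraMap]
  rfl

/-- the image of `J` -/
theorem amer_toMer_J (N : ℕ) (f : ana_ring N) (hf : (f : ℍ → ℂ) = ord_J) :
    amer_toMer N (algebraMap (ana_ring N) (ana_M N) f) = algebraMap hol_ring hol_Mer ad_J := by
  rw [amer_toMer_algebraMap]
  congr 1
  apply Subtype.ext
  exact hf

/-- the valuation at `τ` on `ana_M N` -/
theorem amer_val_algebraMap (N : ℕ) (τ : ℍ) (f : ana_ring N) (hf : f ≠ 0) :
    ad_val (amer_toMer N) τ (algebraMap (ana_ring N) (ana_M N) f) =
      WithZero.exp (-(analyticOrderNatAt ((f : ℍ → ℂ) ∘ ofComplex) (τ : ℂ) : ℤ)) := by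
  rw [ad_val_apply, amer_toMer_algebraMap, hol_val_algebraMap τ (amer_incl N f)
    (fun h => hf ((amer_incl_injective N) (by rw [h, map_zero])))]
  rfl

/-! ## growth at `i∞` in terms of `Δ` -/

theorem amer_exists_poleLE {N : ℕ} {f : ℍ → ℂ} (hf : f ∈ ana_ring N) :
    ∃ m : ℕ, ana_PoleLE N m f := by
  obtain ⟨m, hm⟩ := (hf.2 1).2
  refine ⟨m, ?_⟩
  simpa only [one_smul] using hm

theorem amer_q_pow (N : ℕ) (hN : 0 < N) (τ : ℍ) : ana_q N τ ^ N = 𝕢 1 (τ : ℂ) := by
  rw [ana_q, Function.Periodic.qParam, Function.Periodic.qParam, ← Complex.exp_nat_mul]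
  congr 1
  have hN0 : (N : ℂ) ≠ 0 := by exact_mod_cast hN.ne'
  push_cast
  field_simp

theorem amer_disc_div_q_bounded : IsBoundedAtImInfty (fun τ : ℍ => Δ τ / 𝕢 1 (τ : ℂ)) :=
  ord_disc_div_q_tendsto.isBigO_one ℝ

theorem amer_bounded_pow {f : ℍ → ℂ} (hf : IsBoundedAtImInfty f) (m : ℕ) :
    IsBoundedAtImInfty (f ^ m) := by
  induction m with
  | zero =>
    simp only [pow_zero]
    exact Filter.const_boundedAtFilter _ (1 : ℂ)
  | succ k ih =>
    rw [pow_succ]
    exact BoundedAtFilter.mul ih hf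

/-- a pole of order `≤ m` in `q_N` is killed by `Δ ^ m` -/
theorem amer_disc_pow_bounded_of_poleLE (N : ℕ) (hN : 0 < N) {m : ℕ} {h : ℍ → ℂ}
    (hm : ana_PoleLE N m h) : IsBoundedAtImInfty (fun τ : ℍ => Δ τ ^ m * h τ) := by
  have h1 : (fun τ : ℍ => Δ τ ^ m * h τ) =
      ((fun τ : ℍ => Δ τ / 𝕢 1 (τ : ℂ)) ^ m * (fun τ : ℍ => ana_q N τ ^ ((N - 1) * m))) *
        (fun τ : ℍ => ana_q N τ ^ m * h τ) := by
    funext τ
    simp only [Pi.mul_apply, Pi.pow_apply]
    have hq : 𝕢 1 (τ : ℂ) ≠ 0 := Function.Periodic.qParam_ne_zero _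
    have h2 : 𝕢 1 (τ : ℂ) ^ m = ana_q N τ ^ ((N - 1) * m) * ana_q N τ ^ m := by
      rw [← amer_q_pow N hN τ, ← pow_mul, ← pow_add]
      congr 1
      have : N = (N - 1) + 1 := by omega
      nth_rewrite 1 [this]
      ring
    rw [div_pow]
    field_simp
    rw [h2]
    ring
  rw [h1]
  exact BoundedAtFilter.mul
    (BoundedAtFilter.mul (amer_bounded_pow amer_disc_div_q_bounded m) (ana_q_pow_bounded N _)) hm

/-- **growth**: for a modular function `h` of level `N`, `Δ ^ m * h` is bounded at `i∞`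
for some `m` -/
theorem amer_disc_pow_bounded (N : ℕ) [NeZero N] {h : ℍ → ℂ} (hh : h ∈ ana_ring N) :
    ∃ m : ℕ, IsBoundedAtImInfty (fun τ : ℍ => Δ τ ^ m * h τ) := by
  obtain ⟨m, hm⟩ := (amer_exists_poleLE hh)
  exact ⟨m, amer_disc_pow_bounded_of_poleLE N (NeZero.pos N) hm⟩

/-- the same for all translates -/
theorem amer_disc_pow_bounded_comp (N : ℕ) [NeZero N] {h : ℍ → ℂ} (hh : h ∈ ana_ring N)
    (g : SL(2, ℤ)) :
    ∃ m : ℕ, IsBoundedAtImInfty (fun τ : ℍ => Δ τ ^ m * h (g • τ)) := by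
  obtain ⟨m, hm⟩ := (hh.2 g).2
  exact ⟨m, amer_disc_pow_bounded_of_poleLE N (NeZero.pos N) hm⟩

end Fermat.Agent.S24
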