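import Mathlib

/-!
# S24, package LAURENT-Q: Laurent `q`-expansions of periodic holomorphic functions on `ℍ`
that are meromorphic at `i∞`

For `h > 0` and `f : ℍ → ℂ`:

* `lq_IsNice h f` : holomorphic, `h`-periodic, bounded at `i∞`;
* `lq_IsMer h f` : holomorphic, `h`-periodic, `q_h ^ m * f` bounded at `i∞` for some `m`;
* `lq_laurent h f : LaurentSeries ℂ` : the Laurent expansion in `q_h = exp (2 π i τ / h)`;
  `lq_laurent_eq` (it is `q^(-m) * qExpansion h (q^m f)` for every admissible `m`),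
  `lq_laurent_add`, `lq_laurent_mul`, `lq_laurent_const`, `lq_laurent_eq_zero_iff`;
* `lq_laurent_vadd_coeff` : the expansion of `τ ↦ f (t + τ)` is obtained by `q ↦ q_h(t) q`.
-/

set_option autoImplicit false

noncomputable section

open UpperHalfPlane hiding I
open Filter Topology ModularForm Complex Function
open scoped Manifold Real

namespace Fermat.Agent.S24

local notation "𝕢" => Function.Periodic.qParam

variable {h : ℝ}

/-! ## periodicity -/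

theorem lq_periodic_of_vadd {f : ℍ → ℂ} (hf : ∀ τ : ℍ, f (h +ᵥ τ) = f τ) :
    Periodic (f ∘ ofComplex) (h : ℂ) := by
  intro w
  by_cases hw : 0 < w.im
  · have hw' : 0 < (w + (h : ℂ)).im := by simpa using hw
    simp only [comp_apply, ofComplex_apply_of_im_pos hw', ofComplex_apply_of_im_pos hw]
    rw [← hf ⟨w, hw⟩]
    congr 1
    ext
    simp [add_comm]
  · have hw0 : w.im ≤ 0 := not_lt.mp hw
    have hw' : (w + (h : ℂ)).im ≤ 0 := by simpa using hw0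
    simp only [comp_apply]
    rw [ofComplex_apply_of_im_nonpos hw', ofComplex_apply_of_im_nonpos hw0]

theorem lq_vadd_of_periodic {f : ℍ → ℂ} (hf : Periodic (f ∘ ofComplex) (h : ℂ)) (τ : ℍ) :
    f (h +ᵥ τ) = f τ := by
  have h1 := hf (τ : ℂ)
  simp only [comp_apply, ofComplex_apply] at h1
  rw [← h1]
  have hpos : 0 < ((τ : ℂ) + (h : ℂ)).im := by simpa using τ.im_pos
  rw [ofComplex_apply_of_im_pos hpos]
  congr 1
  ext
  simp [add_comm]

/-! ## the parameter `q_h` -/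

theorem lq_q_add (z : ℂ) (hh : h ≠ 0) : 𝕢 h (z + h) = 𝕢 h z := by
  simp only [Function.Periodic.qParam]
  have hc : (h : ℂ) ≠ 0 := by exact_mod_cast hh
  have : 2 * π * I * (z + h) / h = 2 * π * I * z / h + 2 * π * I := by
    field_simp
  rw [this, Complex.exp_add, Complex.exp_two_pi_mul_I, mul_one]

theorem lq_q_vadd (hh : h ≠ 0) (τ : ℍ) : 𝕢 h ((h +ᵥ τ : ℍ) : ℂ) = 𝕢 h (τ : ℂ) := by
  rw [UpperHalfPlane.coe_vadd, add_comm]
  exact lq_q_add (τ : ℂ) hh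

/-- `q_h (t + τ) = q_h (t) * q_h (τ)` -/
theorem lq_q_vadd_real (t : ℝ) (τ : ℍ) :
    𝕢 h ((t +ᵥ τ : ℍ) : ℂ) = 𝕢 h (t : ℂ) * 𝕢 h (τ : ℂ) := by
  rw [UpperHalfPlane.coe_vadd]
  simp only [Function.Periodic.qParam]
  rw [← Complex.exp_add]
  congr 1
  ring

theorem lq_mdiff_q : MDiff (fun τ : ℍ => 𝕢 h (τ : ℂ)) := by
  rw [UpperHalfPlane.mdifferentiable_iff]
  have h1 : DifferentiableOn ℂ (fun z : ℂ => 𝕢 h z) {z | 0 < z.im} :=
    (Function.Periodic.differentiable_qParam (h := h)).differentiableOn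
  refine h1.congr ?_
  intro z hz
  simp only [Set.mem_ofPred_eq] at hz
  simp only [Function.comp_apply, ofComplex_apply_of_im_pos hz]

/-! ## nice functions: holomorphic, periodic, bounded at `i∞` -/

/-- holomorphic, `h`-periodic and bounded at `i∞` -/
def lq_IsNice (h : ℝ) (f : ℍ → ℂ) : Prop :=
  MDiff f ∧ Periodic (f ∘ ofComplex) (h : ℂ) ∧ IsBoundedAtImInfty f

theorem lq_IsNice.analyticAt {f : ℍ → ℂ} (hf : lq_IsNice h f) (hh : 0 < h) :
    AnalyticAt ℂ (cuspFunction h f) 0 :=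
  analyticAt_cuspFunction_zero hh hf.2.1 hf.1 hf.2.2

theorem lq_IsNice.hasSum {f : ℍ → ℂ} (hf : lq_IsNice h f) (hh : 0 < h) (τ : ℍ) :
    HasSum (fun m : ℕ => (qExpansion h f).coeff m • 𝕢 h τ ^ m) (f τ) :=
  hasSum_qExpansion hh hf.2.1 hf.1 hf.2.2 τ

theorem lq_IsNice.mul {f g : ℍ → ℂ} (hf : lq_IsNice h f) (hg : lq_IsNice h g) :
    lq_IsNice h (f * g) := by
  refine ⟨hf.1.mul hg.1, ?_, hf.2.2.mul hg.2.2⟩
  intro z
  have h1 := hf.2.1 z
  have h2 := hg.2.1 z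
  simp only [comp_apply, Pi.mul_apply] at h1 h2 ⊢
  rw [h1, h2]

theorem lq_IsNice.add {f g : ℍ → ℂ} (hf : lq_IsNice h f) (hg : lq_IsNice h g) :
    lq_IsNice h (f + g) := by
  refine ⟨hf.1.add hg.1, ?_, hf.2.2.add hg.2.2⟩
  intro z
  have h1 := hf.2.1 z
  have h2 := hg.2.1 z
  simp only [comp_apply, Pi.add_apply] at h1 h2 ⊢
  rw [h1, h2]

theorem lq_IsNice.neg {f : ℍ → ℂ} (hf : lq_IsNice h f) : lq_IsNice h (-f) := by
  refine ⟨hf.1.neg, ?_, hf.2.2.neg_left⟩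
  intro z
  have h1 := hf.2.1 z
  simp only [comp_apply, Pi.neg_apply] at h1 ⊢
  rw [h1]

theorem lq_isNice_const (h : ℝ) (c : ℂ) : lq_IsNice h (fun _ : ℍ => c) :=
  ⟨mdifferentiable_const, fun _ => rfl, Filter.const_boundedAtFilter _ c⟩

theorem lq_isNice_q (hh : 0 < h) : lq_IsNice h (fun τ : ℍ => 𝕢 h (τ : ℂ)) := by
  refine ⟨lq_mdiff_q, lq_periodic_of_vadd (lq_q_vadd hh.ne'), ?_⟩
  exact (qParam_tendsto_atImInfty hh).isBigO_one ℝ

theorem lq_isNice_q_pow (hh : 0 < h) (k : ℕ) : lq_IsNice h (fun τ : ℍ => 𝕢 h (τ : ℂ) ^ k) := by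
  induction k with
  | zero => simpa using lq_isNice_const h 1
  | succ k ih =>
    have := ih.mul (lq_isNice_q hh)
    refine (congrArg (lq_IsNice h) ?_).mp this
    funext τ
    simp [pow_succ]

/-- uniqueness of `q`-expansion coefficients, for plain functions -/
theorem lq_coeff_unique (hh : 0 < h) {f : ℍ → ℂ} {c : ℕ → ℂ}
    (hfanalytic : AnalyticAt ℂ (cuspFunction h f) 0)
    (hf : ∀ τ : ℍ, HasSum (fun m ↦ c m • 𝕢 h τ ^ m) (f τ)) (m : ℕ) :
    c m = (qExpansion h f).coeff m := by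
  let _i : FunLike (ℍ → ℂ) ℍ ℂ := { coe := fun g => g, coe_injective := fun _ _ h => h }
  exact UpperHalfPlane.qExpansion_coeff_unique (F := ℍ → ℂ) f hh hfanalytic hf m

theorem lq_qExpansion_q (hh : 0 < h) :
    qExpansion h (fun τ : ℍ => 𝕢 h (τ : ℂ)) = PowerSeries.X := by
  ext n
  symm
  rw [PowerSeries.coeff_X]
  refine lq_coeff_unique hh (c := fun n => if n = 1 then (1 : ℂ) else 0)
    ((lq_isNice_q hh).analyticAt hh) ?_ n
  intro τ
  have h1 := hasSum_ite_eq (1 : ℕ) (𝕢 h (τ : ℂ))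
  refine h1.congr_fun ?_
  intro m
  by_cases hm : m = 1
  · subst hm
    simp
  · simp [hm]

theorem lq_qExpansion_mul (hh : 0 < h) {f g : ℍ → ℂ} (hf : lq_IsNice h f) (hg : lq_IsNice h g) :
    qExpansion h (f * g) = qExpansion h f * qExpansion h g :=
  qExpansion_mul (hf.analyticAt hh) (hg.analyticAt hh)

theorem lq_qExpansion_add (hh : 0 < h) {f g : ℍ → ℂ} (hf : lq_IsNice h f) (hg : lq_IsNice h g) :
    qExpansion h (f + g) = qExpansion h f + qExpansion h g :=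
  qExpansion_add (hf.analyticAt hh) (hg.analyticAt hh)

theorem lq_qExpansion_neg (hh : 0 < h) {f : ℍ → ℂ} (hf : lq_IsNice h f) :
    qExpansion h (-f) = -qExpansion h f :=
  qExpansion_neg (hf.analyticAt hh)

theorem lq_qExpansion_const (hh : 0 < h) (c : ℂ) :
    qExpansion h (fun _ : ℍ => c) = PowerSeries.C c := by
  have h1 : (fun _ : ℍ => c) = c • (1 : ℍ → ℂ) := by
    ext τ
    simp
  have h2 : lq_IsNice h (1 : ℍ → ℂ) := lq_isNice_const h 1
  rw [h1, qExpansion_smul (h2.analyticAt hh) c, qExpansion_one]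
  ext n
  simp [PowerSeries.coeff_C, PowerSeries.coeff_one]

theorem lq_qExpansion_q_pow (hh : 0 < h) (k : ℕ) :
    qExpansion h (fun τ : ℍ => 𝕢 h (τ : ℂ) ^ k) = PowerSeries.X ^ k := by
  induction k with
  | zero =>
    have := lq_qExpansion_const hh 1
    simpa using this
  | succ k ih =>
    have h1 : (fun τ : ℍ => 𝕢 h (τ : ℂ) ^ (k + 1)) =
        (fun τ : ℍ => 𝕢 h (τ : ℂ) ^ k) * (fun τ : ℍ => 𝕢 h (τ : ℂ)) := by
      funext τ
      simp [pow_succ]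
    rw [h1, lq_qExpansion_mul hh (lq_isNice_q_pow hh k) (lq_isNice_q hh), ih, lq_qExpansion_q hh,
      pow_succ]

theorem lq_qExpansion_eq_zero_iff (hh : 0 < h) {f : ℍ → ℂ} (hf : lq_IsNice h f) :
    qExpansion h f = 0 ↔ f = 0 :=
  qExpansion_eq_zero_iff hh hf.2.1 hf.1 hf.2.2

/-! ## meromorphic at `i∞` -/

/-- `q_h ^ m * f` -/
def lq_qpow (h : ℝ) (m : ℕ) (f : ℍ → ℂ) : ℍ → ℂ := fun τ => 𝕢 h (τ : ℂ) ^ m * f τ

theorem lq_qpow_apply (m : ℕ) (f : ℍ → ℂ) (τ : ℍ) :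
    lq_qpow h m f τ = 𝕢 h (τ : ℂ) ^ m * f τ := rfl

theorem lq_qpow_eq_mul (m : ℕ) (f : ℍ → ℂ) :
    lq_qpow h m f = (fun τ : ℍ => 𝕢 h (τ : ℂ) ^ m) * f := rfl

theorem lq_qpow_zero (f : ℍ → ℂ) : lq_qpow h 0 f = f := by
  funext τ
  simp [lq_qpow]

theorem lq_qpow_add (m k : ℕ) (f : ℍ → ℂ) :
    lq_qpow h (m + k) f = (fun τ : ℍ => 𝕢 h (τ : ℂ) ^ k) * lq_qpow h m f := by
  funext τ
  simp only [lq_qpow, Pi.mul_apply]
  ring

theorem lq_qpow_mul (m₁ m₂ : ℕ) (f g : ℍ → ℂ) :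
    lq_qpow h (m₁ + m₂) (f * g) = lq_qpow h m₁ f * lq_qpow h m₂ g := by
  funext τ
  simp only [lq_qpow, Pi.mul_apply]
  ring

theorem lq_qpow_add_fun (m : ℕ) (f g : ℍ → ℂ) :
    lq_qpow h m (f + g) = lq_qpow h m f + lq_qpow h m g := by
  funext τ
  simp only [lq_qpow, Pi.add_apply]
  ring

theorem lq_qpow_neg (m : ℕ) (f : ℍ → ℂ) :
    lq_qpow h m (-f) = -lq_qpow h m f := by
  funext τ
  simp only [lq_qpow, Pi.neg_apply]
  ring

/-- holomorphic, `h`-periodic and meromorphic at `i∞` -/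
def lq_IsMer (h : ℝ) (f : ℍ → ℂ) : Prop :=
  MDiff f ∧ Periodic (f ∘ ofComplex) (h : ℂ) ∧ ∃ m : ℕ, IsBoundedAtImInfty (lq_qpow h m f)

theorem lq_IsNice.isMer {f : ℍ → ℂ} (hf : lq_IsNice h f) : lq_IsMer h f :=
  ⟨hf.1, hf.2.1, 0, by rw [lq_qpow_zero]; exact hf.2.2⟩

theorem lq_isNice_qpow (hh : 0 < h) {f : ℍ → ℂ} (hf1 : MDiff f)
    (hf2 : Periodic (f ∘ ofComplex) (h : ℂ)) {m : ℕ}
    (hm : IsBoundedAtImInfty (lq_qpow h m f)) : lq_IsNice h (lq_qpow h m f) := by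
  refine ⟨?_, ?_, hm⟩
  · rw [lq_qpow_eq_mul]
    exact (lq_isNice_q_pow hh m).1.mul hf1
  · intro z
    have h1 := (lq_isNice_q_pow hh m).2.1 z
    have h2 := hf2 z
    simp only [comp_apply, lq_qpow] at h1 h2 ⊢
    rw [h1, h2]

theorem lq_IsMer.isNice_qpow (hh : 0 < h) {f : ℍ → ℂ} (hf : lq_IsMer h f) {m : ℕ}
    (hm : IsBoundedAtImInfty (lq_qpow h m f)) : lq_IsNice h (lq_qpow h m f) :=
  lq_isNice_qpow hh hf.1 hf.2.1 hm

theorem lq_bounded_add (hh : 0 < h) {f : ℍ → ℂ} {m : ℕ}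
    (hm : IsBoundedAtImInfty (lq_qpow h m f)) (k : ℕ) :
    IsBoundedAtImInfty (lq_qpow h (m + k) f) := by
  rw [lq_qpow_add]
  exact (lq_isNice_q_pow hh k).2.2.mul hm

theorem lq_bounded_of_le (hh : 0 < h) {f : ℍ → ℂ} {m m' : ℕ} (hmm' : m ≤ m')
    (hm : IsBoundedAtImInfty (lq_qpow h m f)) : IsBoundedAtImInfty (lq_qpow h m' f) := by
  obtain ⟨k, rfl⟩ := Nat.exists_eq_add_of_le hmm'
  exact lq_bounded_add hh hm k

theorem lq_qExpansion_qpow_add (hh : 0 < h) {f : ℍ → ℂ} (hf : lq_IsMer h f) {m : ℕ}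
    (hm : IsBoundedAtImInfty (lq_qpow h m f)) (k : ℕ) :
    qExpansion h (lq_qpow h (m + k) f) = PowerSeries.X ^ k * qExpansion h (lq_qpow h m f) := by
  rw [lq_qpow_add, lq_qExpansion_mul hh (lq_isNice_q_pow hh k) (hf.isNice_qpow hh hm),
    lq_qExpansion_q_pow hh]

/-- the Laurent series computed with the exponent `m` -/
def lq_laurentAt (h : ℝ) (m : ℕ) (f : ℍ → ℂ) : LaurentSeries ℂ :=
  HahnSeries.single (-(m : ℤ)) (1 : ℂ) *
    HahnSeries.ofPowerSeries ℤ ℂ (qExpansion h (lq_qpow h m f))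

theorem lq_laurentAt_add (hh : 0 < h) {f : ℍ → ℂ} (hf : lq_IsMer h f) {m : ℕ}
    (hm : IsBoundedAtImInfty (lq_qpow h m f)) (k : ℕ) :
    lq_laurentAt h (m + k) f = lq_laurentAt h m f := by
  rw [lq_laurentAt, lq_laurentAt, lq_qExpansion_qpow_add hh hf hm, map_mul, map_pow,
    HahnSeries.ofPowerSeries_X, HahnSeries.single_pow, one_pow, ← mul_assoc,
    HahnSeries.single_mul_single, one_mul]
  congr 2
  simp

theorem lq_laurentAt_eq (hh : 0 < h) {f : ℍ → ℂ} (hf : lq_IsMer h f) {m m' : ℕ}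
    (hm : IsBoundedAtImInfty (lq_qpow h m f)) (hm' : IsBoundedAtImInfty (lq_qpow h m' f)) :
    lq_laurentAt h m f = lq_laurentAt h m' f := by
  rw [← lq_laurentAt_add hh hf hm m', ← lq_laurentAt_add hh hf hm' m, add_comm]

open Classical in
/-- the Laurent expansion in `q_h` of a function meromorphic at `i∞` -/
def lq_laurent (h : ℝ) (f : ℍ → ℂ) : LaurentSeries ℂ :=
  if hf : ∃ m : ℕ, IsBoundedAtImInfty (lq_qpow h m f) then lq_laurentAt h (Nat.find hf) f else 0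

theorem lq_laurent_eq (hh : 0 < h) {f : ℍ → ℂ} (hf : lq_IsMer h f) {m : ℕ}
    (hm : IsBoundedAtImInfty (lq_qpow h m f)) :
    lq_laurent h f = HahnSeries.single (-(m : ℤ)) (1 : ℂ) *
      HahnSeries.ofPowerSeries ℤ ℂ (qExpansion h (lq_qpow h m f)) := by
  classical
  have hex : ∃ m : ℕ, IsBoundedAtImInfty (lq_qpow h m f) := ⟨m, hm⟩
  rw [lq_laurent, dif_pos hex]
  exact lq_laurentAt_eq hh hf (Nat.find_spec hex) hm

theorem lq_laurent_of_isNice (hh : 0 < h) {f : ℍ → ℂ} (hf : lq_IsNice h f) :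
    lq_laurent h f = HahnSeries.ofPowerSeries ℤ ℂ (qExpansion h f) := by
  have hm : IsBoundedAtImInfty (lq_qpow h 0 f) := by rw [lq_qpow_zero]; exact hf.2.2
  rw [lq_laurent_eq hh hf.isMer hm, lq_qpow_zero]
  simp

/-! ## ring operations -/

theorem lq_IsMer.mul {f g : ℍ → ℂ} (hf : lq_IsMer h f) (hg : lq_IsMer h g) :
    lq_IsMer h (f * g) := by
  obtain ⟨m₁, hm₁⟩ := hf.2.2
  obtain ⟨m₂, hm₂⟩ := hg.2.2
  refine ⟨hf.1.mul hg.1, ?_, m₁ + m₂, ?_⟩
  · intro z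
    have h1 := hf.2.1 z
    have h2 := hg.2.1 z
    simp only [comp_apply, Pi.mul_apply] at h1 h2 ⊢
    rw [h1, h2]
  · rw [lq_qpow_mul]
    exact hm₁.mul hm₂

theorem lq_IsMer.add (hh : 0 < h) {f g : ℍ → ℂ} (hf : lq_IsMer h f) (hg : lq_IsMer h g) :
    lq_IsMer h (f + g) := by
  obtain ⟨m₁, hm₁⟩ := hf.2.2
  obtain ⟨m₂, hm₂⟩ := hg.2.2
  refine ⟨hf.1.add hg.1, ?_, m₁ + m₂, ?_⟩
  · intro z
    have h1 := hf.2.1 z
    have h2 := hg.2.1 z
    simp only [comp_apply, Pi.add_apply] at h1 h2 ⊢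
    rw [h1, h2]
  · rw [lq_qpow_add_fun]
    exact (lq_bounded_add hh hm₁ m₂).add (by rw [add_comm]; exact lq_bounded_add hh hm₂ m₁)

theorem lq_IsMer.neg {f : ℍ → ℂ} (hf : lq_IsMer h f) : lq_IsMer h (-f) := by
  obtain ⟨m₁, hm₁⟩ := hf.2.2
  refine ⟨hf.1.neg, ?_, m₁, ?_⟩
  · intro z
    have h1 := hf.2.1 z
    simp only [comp_apply, Pi.neg_apply] at h1 ⊢
    rw [h1]
  · rw [lq_qpow_neg]
    exact hm₁.neg_left

theorem lq_isMer_const (h : ℝ) (c : ℂ) : lq_IsMer h (fun _ : ℍ => c) :=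
  (lq_isNice_const h c).isMer

theorem lq_laurent_mul (hh : 0 < h) {f g : ℍ → ℂ} (hf : lq_IsMer h f) (hg : lq_IsMer h g) :
    lq_laurent h (f * g) = lq_laurent h f * lq_laurent h g := by
  obtain ⟨m₁, hm₁⟩ := hf.2.2
  obtain ⟨m₂, hm₂⟩ := hg.2.2
  have hm : IsBoundedAtImInfty (lq_qpow h (m₁ + m₂) (f * g)) := by
    rw [lq_qpow_mul]
    exact hm₁.mul hm₂
  rw [lq_laurent_eq hh (hf.mul hg) hm, lq_laurent_eq hh hf hm₁, lq_laurent_eq hh hg hm₂,
    lq_qpow_mul, lq_qExpansion_mul hh (hf.isNice_qpow hh hm₁) (hg.isNice_qpow hh hm₂), map_mul]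
  have h1 : HahnSeries.single (-((m₁ + m₂ : ℕ) : ℤ)) (1 : ℂ) =
      HahnSeries.single (-(m₁ : ℤ)) (1 : ℂ) * HahnSeries.single (-(m₂ : ℤ)) (1 : ℂ) := by
    rw [HahnSeries.single_mul_single, one_mul, Nat.cast_add, neg_add]
  rw [h1]
  exact mul_mul_mul_comm _ _ _ _

theorem lq_laurent_add (hh : 0 < h) {f g : ℍ → ℂ} (hf : lq_IsMer h f) (hg : lq_IsMer h g) :
    lq_laurent h (f + g) = lq_laurent h f + lq_laurent h g := by
  obtain ⟨m₁, hm₁⟩ := hf.2.2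
  obtain ⟨m₂, hm₂⟩ := hg.2.2
  have hm₁' : IsBoundedAtImInfty (lq_qpow h (m₁ + m₂) f) := lq_bounded_add hh hm₁ m₂
  have hm₂' : IsBoundedAtImInfty (lq_qpow h (m₁ + m₂) g) := by
    rw [add_comm]; exact lq_bounded_add hh hm₂ m₁
  have hm : IsBoundedAtImInfty (lq_qpow h (m₁ + m₂) (f + g)) := by
    rw [lq_qpow_add_fun]
    exact hm₁'.add hm₂'
  rw [lq_laurent_eq hh (hf.add hh hg) hm, lq_laurent_eq hh hf hm₁', lq_laurent_eq hh hg hm₂',
    lq_qpow_add_fun, lq_qExpansion_add hh (hf.isNice_qpow hh hm₁') (hg.isNice_qpow hh hm₂'),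
    map_add, mul_add]

theorem lq_laurent_const (hh : 0 < h) (c : ℂ) :
    lq_laurent h (fun _ : ℍ => c) = HahnSeries.C c := by
  rw [lq_laurent_of_isNice hh (lq_isNice_const h c), lq_qExpansion_const hh,
    HahnSeries.ofPowerSeries_C]

theorem lq_laurent_one (hh : 0 < h) : lq_laurent h (1 : ℍ → ℂ) = 1 := by
  have h1 := lq_laurent_const hh 1
  rw [map_one] at h1
  exact h1

theorem lq_laurent_zero (hh : 0 < h) : lq_laurent h (0 : ℍ → ℂ) = 0 := by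
  have h1 := lq_laurent_const hh 0
  rw [map_zero] at h1
  exact h1

theorem lq_laurent_neg (hh : 0 < h) {f : ℍ → ℂ} (hf : lq_IsMer h f) :
    lq_laurent h (-f) = -lq_laurent h f := by
  have h1 := lq_laurent_add hh hf hf.neg
  rw [add_neg_cancel, lq_laurent_zero hh] at h1
  exact eq_neg_of_add_eq_zero_right h1.symm

theorem lq_laurent_eq_zero_iff (hh : 0 < h) {f : ℍ → ℂ} (hf : lq_IsMer h f) :
    lq_laurent h f = 0 ↔ f = 0 := by
  constructor
  · intro h0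
    obtain ⟨m, hm⟩ := hf.2.2
    rw [lq_laurent_eq hh hf hm] at h0
    have h1 : HahnSeries.single (-(m : ℤ)) (1 : ℂ) ≠ 0 := by
      simp
    have h2 := (mul_eq_zero.mp h0).resolve_left h1
    have h3 : qExpansion h (lq_qpow h m f) = 0 := by
      have := HahnSeries.ofPowerSeries_injective (Γ := ℤ) (R := ℂ)
        (a₁ := qExpansion h (lq_qpow h m f)) (a₂ := 0) (by rw [h2, map_zero])
      exact this
    have h4 := (lq_qExpansion_eq_zero_iff hh (hf.isNice_qpow hh hm)).mp h3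
    funext τ
    have h5 := congrFun h4 τ
    simp only [lq_qpow, Pi.zero_apply] at h5
    exact (mul_eq_zero.mp h5).resolve_left (pow_ne_zero _ (Function.Periodic.qParam_ne_zero _))
  · rintro rfl
    exact lq_laurent_zero hh

/-! ## the ring of functions meromorphic at `i∞` and its Laurent expansion -/

/-- the ring of holomorphic, `N`-periodic functions on `ℍ` which are meromorphic at `i∞` -/
def lq_ring (N : ℕ) [NeZero N] : Subring (ℍ → ℂ) where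
  carrier := {f | lq_IsMer (N : ℝ) f}
  mul_mem' hf hg := hf.mul hg
  one_mem' := lq_isMer_const _ 1
  add_mem' hf hg := hf.add (by exact_mod_cast NeZero.pos N) hg
  zero_mem' := lq_isMer_const _ 0
  neg_mem' hf := hf.neg

theorem lq_mem_ring_iff (N : ℕ) [NeZero N] {f : ℍ → ℂ} :
    f ∈ lq_ring N ↔ lq_IsMer (N : ℝ) f := Iff.rfl

/-- the Laurent expansion in `q_N`, as a ring homomorphism -/
def lq_hom (N : ℕ) [NeZero N] : lq_ring N →+* LaurentSeries ℂ where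
  toFun f := lq_laurent (N : ℝ) (f : ℍ → ℂ)
  map_one' := lq_laurent_one (by exact_mod_cast NeZero.pos N)
  map_mul' f g := lq_laurent_mul (by exact_mod_cast NeZero.pos N) f.2 g.2
  map_zero' := lq_laurent_zero (by exact_mod_cast NeZero.pos N)
  map_add' f g := lq_laurent_add (by exact_mod_cast NeZero.pos N) f.2 g.2

theorem lq_hom_apply (N : ℕ) [NeZero N] (f : lq_ring N) :
    lq_hom N f = lq_laurent (N : ℝ) (f : ℍ → ℂ) := rfl

theorem lq_hom_injective (N : ℕ) [NeZero N] : Function.Injective (lq_hom N) := by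
  rw [injective_iff_map_eq_zero]
  intro f hf
  exact Subtype.ext ((lq_laurent_eq_zero_iff (by exact_mod_cast NeZero.pos N) f.2).mp hf)

/-! ## coefficients -/

theorem lq_laurent_coeff (hh : 0 < h) {f : ℍ → ℂ} (hf : lq_IsMer h f) {m : ℕ}
    (hm : IsBoundedAtImInfty (lq_qpow h m f)) (n : ℤ) :
    (lq_laurent h f).coeff n =
      if 0 ≤ n + m then (qExpansion h (lq_qpow h m f)).coeff (n + m).toNat else 0 := by
  rw [lq_laurent_eq hh hf hm, HahnSeries.coeff_single_mul, one_mul, sub_neg_eq_add]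
  split_ifs with h0
  · obtain ⟨k, hk⟩ := Int.eq_ofNat_of_zero_le h0
    rw [hk, HahnSeries.ofPowerSeries_apply_coeff, Int.toNat_natCast]
  · rw [HahnSeries.ofPowerSeries_apply]
    refine HahnSeries.embDomain_of_notMem_range ?_
    rintro ⟨k, hk⟩
    apply h0
    rw [← hk]
    exact Int.natCast_nonneg k

/-! ## translations `τ ↦ t + τ` -/

theorem lq_mdiff_vadd {f : ℍ → ℂ} (hf : MDiff f) (t : ℝ) : MDiff (fun τ : ℍ => f (t +ᵥ τ)) := by
  rw [UpperHalfPlane.mdifferentiable_iff]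
  have h1 : DifferentiableOn ℂ (f ∘ ofComplex) {z | 0 < z.im} :=
    UpperHalfPlane.mdifferentiable_iff.mp hf
  have h2 : DifferentiableOn ℂ (fun z : ℂ => (t : ℂ) + z) {z | 0 < z.im} := by
    fun_prop
  have hmaps : Set.MapsTo (fun z : ℂ => (t : ℂ) + z) {z | 0 < z.im} {z | 0 < z.im} := by
    intro z hz
    simp only [Set.mem_ofPred_eq] at hz ⊢
    simpa using hz
  have h3 := h1.comp h2 hmaps
  refine h3.congr ?_
  intro z hz
  simp only [Set.mem_ofPred_eq] at hz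
  have hz' : 0 < ((t : ℂ) + z).im := hmaps hz
  simp only [Function.comp_apply]
  congr 1
  apply UpperHalfPlane.ext
  rw [UpperHalfPlane.coe_vadd, ofComplex_apply_of_im_pos hz, ofComplex_apply_of_im_pos hz']

theorem lq_tendsto_vadd (t : ℝ) : Tendsto (fun τ : ℍ => t +ᵥ τ) atImInfty atImInfty := by
  rw [UpperHalfPlane.atImInfty, Filter.tendsto_comap_iff]
  have h1 : (UpperHalfPlane.im ∘ fun τ : ℍ => t +ᵥ τ) = UpperHalfPlane.im := by
    funext τ
    simp [UpperHalfPlane.vadd_im]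
  rw [h1]
  exact Filter.tendsto_comap

theorem lq_vadd_comm (s t : ℝ) (τ : ℍ) : s +ᵥ (t +ᵥ τ) = t +ᵥ (s +ᵥ τ) := by
  apply UpperHalfPlane.ext
  simp only [UpperHalfPlane.coe_vadd]
  ring

theorem lq_qpow_vadd (m : ℕ) (f : ℍ → ℂ) (t : ℝ) (τ : ℍ) :
    lq_qpow h m (fun τ : ℍ => f (t +ᵥ τ)) τ =
      (𝕢 h (t : ℂ) ^ m)⁻¹ * lq_qpow h m f (t +ᵥ τ) := by
  simp only [lq_qpow]
  rw [lq_q_vadd_real, mul_pow, ← mul_assoc, ← mul_assoc,
    inv_mul_cancel₀ (pow_ne_zero _ (Function.Periodic.qParam_ne_zero _)), one_mul]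

theorem lq_bounded_vadd {f : ℍ → ℂ} {m : ℕ} (hm : IsBoundedAtImInfty (lq_qpow h m f)) (t : ℝ) :
    IsBoundedAtImInfty (lq_qpow h m (fun τ : ℍ => f (t +ᵥ τ))) := by
  have h1 : lq_qpow h m (fun τ : ℍ => f (t +ᵥ τ)) =
      (fun _ : ℍ => (𝕢 h (t : ℂ) ^ m)⁻¹) * (lq_qpow h m f ∘ fun τ : ℍ => t +ᵥ τ) := by
    funext τ
    exact lq_qpow_vadd m f t τ
  rw [h1]
  exact (Filter.const_boundedAtFilter _ _).mul (hm.comp_tendsto (lq_tendsto_vadd t))

theorem lq_IsMer.vadd {f : ℍ → ℂ} (hf : lq_IsMer h f) (t : ℝ) :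
    lq_IsMer h (fun τ : ℍ => f (t +ᵥ τ)) := by
  obtain ⟨m, hm⟩ := hf.2.2
  refine ⟨lq_mdiff_vadd hf.1 t, ?_, m, lq_bounded_vadd hm t⟩
  refine lq_periodic_of_vadd fun τ => ?_
  rw [lq_vadd_comm, lq_vadd_of_periodic hf.2.1]

/-- the `q`-expansion of a translate of a nice function -/
theorem lq_qExpansion_vadd_coeff (hh : 0 < h) {f : ℍ → ℂ} (hf : lq_IsNice h f) (t : ℝ) (k : ℕ) :
    (qExpansion h (fun τ : ℍ => f (t +ᵥ τ))).coeff k = 𝕢 h (t : ℂ) ^ k * (qExpansion h f).coeff k := by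
  have hnice : lq_IsNice h (fun τ : ℍ => f (t +ᵥ τ)) := by
    refine ⟨lq_mdiff_vadd hf.1 t, ?_, hf.2.2.comp_tendsto (lq_tendsto_vadd t)⟩
    refine lq_periodic_of_vadd fun τ => ?_
    rw [lq_vadd_comm, lq_vadd_of_periodic hf.2.1]
  symm
  refine lq_coeff_unique hh (c := fun k => 𝕢 h (t : ℂ) ^ k * (qExpansion h f).coeff k)
    (hnice.analyticAt hh) ?_ k
  intro τ
  have h1 := hf.hasSum hh (t +ᵥ τ)
  rw [lq_q_vadd_real] at h1
  refine h1.congr_fun ?_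
  intro n
  simp only [smul_eq_mul, mul_pow]
  ring

/-- **translation = twist**: the Laurent coefficients of `τ ↦ f (t + τ)` are those of `f`
multiplied by `q_h(t) ^ n`. -/
theorem lq_laurent_vadd_coeff (hh : 0 < h) {f : ℍ → ℂ} (hf : lq_IsMer h f) (t : ℝ) (n : ℤ) :
    (lq_laurent h (fun τ : ℍ => f (t +ᵥ τ))).coeff n =
      𝕢 h (t : ℂ) ^ n * (lq_laurent h f).coeff n := by
  obtain ⟨m, hm⟩ := hf.2.2
  rw [lq_laurent_coeff hh (hf.vadd t) (lq_bounded_vadd hm t), lq_laurent_coeff hh hf hm]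
  split_ifs with h0
  · have h1 : lq_qpow h m (fun τ : ℍ => f (t +ᵥ τ)) =
        (fun _ : ℍ => (𝕢 h (t : ℂ) ^ m)⁻¹) * (fun τ : ℍ => lq_qpow h m f (t +ᵥ τ)) := by
      funext τ
      exact lq_qpow_vadd m f t τ
    have hnice := hf.isNice_qpow hh hm
    have hnice' : lq_IsNice h (fun τ : ℍ => lq_qpow h m f (t +ᵥ τ)) := by
      refine ⟨lq_mdiff_vadd hnice.1 t, ?_, hnice.2.2.comp_tendsto (lq_tendsto_vadd t)⟩
      refine lq_periodic_of_vadd fun τ => ?_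
      rw [lq_vadd_comm, lq_vadd_of_periodic hnice.2.1]
    rw [h1, lq_qExpansion_mul hh (lq_isNice_const h _) hnice', lq_qExpansion_const hh,
      PowerSeries.coeff_C_mul, lq_qExpansion_vadd_coeff hh hnice]
    obtain ⟨k, hk⟩ := Int.eq_ofNat_of_zero_le h0
    rw [hk, Int.toNat_natCast]
    have hn : n = (k : ℤ) - m := by omega
    rw [hn, zpow_sub₀ (Function.Periodic.qParam_ne_zero _), zpow_natCast, zpow_natCast]
    field_simp
  · rw [mul_zero]

/-! ## invariance under a translation: only some exponents occur -/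

/-- if `f (s + τ) = f τ`, then the `n`-th Laurent coefficient vanishes unless `q_h(s) ^ n = 1` -/
theorem lq_laurent_coeff_of_vadd_invariant (hh : 0 < h) {f : ℍ → ℂ} (hf : lq_IsMer h f) (s : ℝ)
    (hinv : ∀ τ : ℍ, f (s +ᵥ τ) = f τ) (n : ℤ) (hn : (lq_laurent h f).coeff n ≠ 0) :
    𝕢 h (s : ℂ) ^ n = 1 := by
  have h1 := lq_laurent_vadd_coeff hh hf s n
  have h2 : (fun τ : ℍ => f (s +ᵥ τ)) = f := funext hinv
  rw [h2] at h1
  have h3 : (𝕢 h (s : ℂ) ^ n - 1) * (lq_laurent h f).coeff n = 0 := by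
    rw [sub_mul, one_mul, ← h1, sub_self]
  exact sub_eq_zero.mp ((mul_eq_zero.mp h3).resolve_right hn)

theorem lq_qParam_zpow_eq_one_iff (N s : ℕ) (hN : 0 < N) (n : ℤ) :
    𝕢 (N : ℝ) ((s : ℝ) : ℂ) ^ n = 1 ↔ (N : ℤ) ∣ s * n := by
  rw [Function.Periodic.qParam, ← Complex.exp_int_mul, Complex.exp_eq_one_iff]
  have hN0 : (N : ℂ) ≠ 0 := by exact_mod_cast hN.ne'
  have h2pi : (2 * π * I : ℂ) ≠ 0 := by
    simp [Real.pi_ne_zero]
  constructor
  · rintro ⟨k, hk⟩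
    refine ⟨k, ?_⟩
    have h1 : ((s : ℂ) * n) = (N : ℂ) * k := by
      have h3 : (n : ℂ) * (2 * π * I * ((s : ℝ) : ℂ) / ((N : ℝ) : ℂ)) * N =
          (k : ℂ) * (2 * π * I) * N := by rw [hk]
      have h4 : (2 * π * I : ℂ) * ((s : ℂ) * n) = (2 * π * I : ℂ) * ((N : ℂ) * k) := by
        have h5 : (n : ℂ) * (2 * π * I * ((s : ℝ) : ℂ) / ((N : ℝ) : ℂ)) * N =
            (2 * π * I : ℂ) * ((s : ℂ) * n) := by
          push_cast
          field_simp
        rw [← h5, h3]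
        ring
      exact mul_left_cancel₀ h2pi h4
    exact_mod_cast h1
  · rintro ⟨k, hk⟩
    refine ⟨k, ?_⟩
    have h1 : ((s : ℂ) * n) = (N : ℂ) * k := by exact_mod_cast hk
    have h5 : (n : ℂ) * (2 * π * I * ((s : ℝ) : ℂ) / ((N : ℝ) : ℂ)) =
        (2 * π * I : ℂ) * ((s : ℂ) * n) / N := by
      push_cast
      field_simp
    rw [h5, h1]
    field_simp

/-- **`w_div` at the cusp, function level**: if `f` is `N`-periodic, meromorphic at `i∞`, and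
moreover `s`-periodic with `s ∣ N`, then only multiples of `N / s` occur as exponents in its
`q_N`-expansion. -/
theorem lq_laurent_coeff_of_periodic (N s : ℕ) (hN : 0 < N) (hs : s ∣ N) {f : ℍ → ℂ}
    (hf : lq_IsMer (N : ℝ) f) (hinv : ∀ τ : ℍ, f ((s : ℝ) +ᵥ τ) = f τ) (n : ℤ)
    (hn : (lq_laurent (N : ℝ) f).coeff n ≠ 0) : ((N / s : ℕ) : ℤ) ∣ n := by
  have h1 := lq_laurent_coeff_of_vadd_invariant (by exact_mod_cast hN) hf (s : ℝ) hinv n hn
  rw [lq_qParam_zpow_eq_one_iff N s hN] at h1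
  obtain ⟨c, rfl⟩ := hs
  have hs0 : 0 < s := Nat.pos_of_ne_zero (by rintro rfl; simp at hN)
  rw [Nat.mul_div_cancel_left _ hs0]
  obtain ⟨k, hk⟩ := h1
  refine ⟨k, ?_⟩
  have hs' : (s : ℤ) ≠ 0 := by exact_mod_cast hs0.ne'
  have h2 : (s : ℤ) * n = (s : ℤ) * ((c : ℤ) * k) := by
    rw [hk]
    push_cast
    ring
  exact mul_left_cancel₀ hs' h2

end Fermat.Agent.S24
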