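import Mathlib
import Fermat.Agent.S24.AnaQexp
import Fermat.Agent.S24.LaurentQ
import Fermat.Agent.S24.CuspFormal
import Fermat.Agent.S24.AnaJd

/-!
# S24, packages CUSP-TWIST and CUSP-WRAP: the valuation at the cusp `i∞` on `ana_M N`

* `atw_laurent_vadd` : the `q_N`-expansion of `τ ↦ F (k + τ)` is the twist by `ζ_N ^ k` of that
  of `F`;
* `atw_qexpM_act_T` : `ana_qexpM N (ana_act N (T ^ k) x) = cf_twist (ζ_N⁻¹ ^ k) (ana_qexpM N x)`;
* `atw_valInfty N` : the order valuation at `i∞` on `ana_M N`, with the four properties needed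
  for the counting data at the cusp: `atw_valInfty_const`, `atw_valInfty_J`,
  `atw_valInfty_act`, `atw_valInfty_div`.
-/

set_option autoImplicit false

noncomputable section

namespace Fermat.Agent.S24

open UpperHalfPlane hiding I
open Filter Function Topology ModularForm Complex CongruenceSubgroup
open Fermat.Agent.S23
open scoped Manifold MatrixGroups ModularForm Real

local notation "𝕢" => Function.Periodic.qParam

/-! ## `ana_laurent` and `lq_laurent` agree -/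

theorem atw_isMer_lq {N : ℕ} {F : ℍ → ℂ} (hF : ana_IsMer N F) : lq_IsMer (N : ℝ) F :=
  ⟨hF.1, lq_periodic_of_vadd hF.2.1, hF.2.2⟩

theorem atw_isMer_of_lq {N : ℕ} {F : ℍ → ℂ} (hF : lq_IsMer (N : ℝ) F) : ana_IsMer N F :=
  ⟨hF.1, lq_vadd_of_periodic hF.2.1, hF.2.2⟩

theorem atw_laurent_eq_lq {N : ℕ} [NeZero N] {F : ℍ → ℂ} (hF : ana_IsMer N F) :
    ana_laurent N F = lq_laurent (N : ℝ) F := by
  obtain ⟨m, hm⟩ := hF.2.2
  have hN : (0 : ℝ) < N := by exact_mod_cast NeZero.pos N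
  rw [ana_laurent_eq hF hm, lq_laurent_eq hN (atw_isMer_lq hF) hm]
  rfl

theorem atw_isMer_vadd {N : ℕ} {F : ℍ → ℂ} (hF : ana_IsMer N F) (t : ℝ) :
    ana_IsMer N (fun τ : ℍ => F (t +ᵥ τ)) :=
  atw_isMer_of_lq ((atw_isMer_lq hF).vadd t)

/-- translation = twist, coefficientwise -/
theorem atw_laurent_vadd_coeff {N : ℕ} [NeZero N] {F : ℍ → ℂ} (hF : ana_IsMer N F) (t : ℝ)
    (n : ℤ) :
    (ana_laurent N (fun τ : ℍ => F (t +ᵥ τ))).coeff n =
      𝕢 (N : ℝ) (t : ℂ) ^ n * (ana_laurent N F).coeff n := by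
  have hN : (0 : ℝ) < N := by exact_mod_cast NeZero.pos N
  rw [atw_laurent_eq_lq (atw_isMer_vadd hF t), atw_laurent_eq_lq hF]
  exact lq_laurent_vadd_coeff hN (atw_isMer_lq hF) t n

/-- `w_div` at the cusp, function level -/
theorem atw_laurent_coeff_of_periodic {N : ℕ} [NeZero N] (s : ℕ) (hs : s ∣ N) {F : ℍ → ℂ}
    (hF : ana_IsMer N F) (hinv : ∀ τ : ℍ, F ((s : ℝ) +ᵥ τ) = F τ) (n : ℤ)
    (hn : (ana_laurent N F).coeff n ≠ 0) : ((N / s : ℕ) : ℤ) ∣ n := by
  rw [atw_laurent_eq_lq hF] at hn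
  exact lq_laurent_coeff_of_periodic N s (NeZero.pos N) hs (atw_isMer_lq hF) hinv n hn

/-! ## the root of unity `ζ_N` -/

/-- `ζ_N = exp (2 π i / N)`, as a unit of `ℂ` -/
def atw_zeta (N : ℕ) : ℂˣ :=
  Units.mk0 (𝕢 (N : ℝ) (((1 : ℝ) : ℂ))) (Function.Periodic.qParam_ne_zero _)

theorem atw_zeta_coe (N : ℕ) : ((atw_zeta N : ℂˣ) : ℂ) = Complex.exp (2 * π * I / N) := by
  simp [atw_zeta, Function.Periodic.qParam]

theorem atw_zeta_isPrimitiveRoot (N : ℕ) [NeZero N] : IsPrimitiveRoot (atw_zeta N) N := by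
  rw [← IsPrimitiveRoot.coe_units_iff, atw_zeta_coe]
  exact Complex.isPrimitiveRoot_exp N (NeZero.ne N)

theorem atw_qParam_int (N : ℕ) (k : ℤ) :
    𝕢 (N : ℝ) (((k : ℝ) : ℂ)) = ((atw_zeta N ^ k : ℂˣ) : ℂ) := by
  rw [Units.val_zpow_eq_zpow_val, atw_zeta_coe, ← Complex.exp_int_mul,
    Function.Periodic.qParam]
  congr 1
  push_cast
  ring

/-- **CUSP-TWIST**: the `q_N`-expansion of `τ ↦ F (k + τ)` is the twist by `ζ_N ^ k`. -/
theorem atw_laurent_vadd {N : ℕ} [NeZero N] {F : ℍ → ℂ} (hF : ana_IsMer N F) (k : ℤ) :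
    ana_laurent N (fun τ : ℍ => F ((k : ℝ) +ᵥ τ)) = cf_twist (atw_zeta N ^ k) (ana_laurent N F) := by
  ext n
  rw [atw_laurent_vadd_coeff hF, cf_twist_coeff, atw_qParam_int, Units.val_zpow_eq_zpow_val,
    Units.val_zpow_eq_zpow_val, Units.val_zpow_eq_zpow_val]

/-! ## the action of `T ^ k` on `q_N`-expansions -/

theorem atw_T_zpow_inv_smul (k : ℤ) (τ : ℍ) :
    (ModularGroup.T ^ k)⁻¹ • τ = (((-k : ℤ) : ℝ)) +ᵥ τ := by
  rw [← zpow_neg, UpperHalfPlane.modular_T_zpow_smul]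

theorem atw_qexp_comp_T {N : ℕ} [NeZero N] (k : ℤ) (f : ana_ring N) :
    ana_qexp N (ana_comp N (ModularGroup.T ^ k)⁻¹ f) =
      cf_twist ((atw_zeta N)⁻¹ ^ k) (ana_qexp N f) := by
  rw [ana_qexp_apply, ana_qexp_apply]
  have h1 : ((ana_comp N (ModularGroup.T ^ k)⁻¹ f : ana_ring N) : ℍ → ℂ) =
      fun τ : ℍ => (f : ℍ → ℂ) ((((-k : ℤ) : ℝ)) +ᵥ τ) := by
    funext τ
    rw [ana_comp_apply, atw_T_zpow_inv_smul]
  rw [h1, atw_laurent_vadd (ana_isMer_of_mem f.2) (-k), zpow_neg, inv_zpow]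

/-- the `q_N`-expansion of `ana_act N (T ^ k) x` is the twist by `ζ_N⁻¹ ^ k` -/
theorem atw_qexpM_act_T {N : ℕ} [NeZero N] (k : ℤ) (x : ana_M N) :
    ana_qexpM N (ana_act N (ModularGroup.T ^ k) x) =
      cf_twist ((atw_zeta N)⁻¹ ^ k) (ana_qexpM N x) := by
  have h : (ana_qexpM N).comp (ana_act N (ModularGroup.T ^ k)) =
      ((cf_twist ((atw_zeta N)⁻¹ ^ k) : LaurentSeries ℂ ≃+* LaurentSeries ℂ) :
        LaurentSeries ℂ →+* LaurentSeries ℂ).comp (ana_qexpM N) := by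
    apply ana_ringHom_ext_M
    intro f
    simp only [RingHom.comp_apply, ana_act_algebraMap, ana_qexpM_algebraMap, RingHom.coe_coe]
    exact atw_qexp_comp_T k f
  exact congrArg (fun φ : ana_M N →+* LaurentSeries ℂ => φ x) h

/-! ## the valuation at `i∞` -/

/-- the order valuation at `i∞` (in the parameter `q_N`) on `ana_M N` -/
def atw_valInfty (N : ℕ) [NeZero N] : Valuation (ana_M N) (WithZero (Multiplicative ℤ)) :=
  (cf_val (k := ℂ)).comap (ana_qexpM N)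

theorem atw_valInfty_apply (N : ℕ) [NeZero N] (x : ana_M N) :
    atw_valInfty N x = cf_val (ana_qexpM N x) := rfl

theorem atw_valInfty_algebraMap (N : ℕ) [NeZero N] (f : ana_ring N) :
    atw_valInfty N (algebraMap (ana_ring N) (ana_M N) f) = cf_val (ana_laurent N (f : ℍ → ℂ)) := by
  rw [atw_valInfty_apply, ana_qexpM_algebraMap, ana_qexp_apply]

/-- constants have valuation `1` -/
theorem atw_valInfty_const (N : ℕ) [NeZero N] {c : ℂ} (hc : c ≠ 0) :
    atw_valInfty N (algebraMap (ana_ring N) (ana_M N) (ana_const N c)) = 1 := by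
  rw [atw_valInfty_apply, ana_qexpM_algebraMap, ana_qexp_const, cf_val_C hc]

/-- `J_d` has a pole of order `N d` at `i∞` -/
theorem atw_valInfty_Jd (N : ℕ) [NeZero N] (d : ℕ) [NeZero d] (hd : d ∣ N) :
    atw_valInfty N (algebraMap (ana_ring N) (ana_M N) ⟨_, ana_Jd_mem N d hd (NeZero.pos d)⟩) =
      WithZero.exp ((N : ℤ) * d) := by
  rw [atw_valInfty_apply, ana_qexpM_algebraMap, ana_qexp_Jd N d hd]
  have h := cf_val_jd (K := ℂ) (k := ℂ) (RingHom.id ℂ) N d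
  rw [ModularCurve.coeffMap_id] at h
  exact h

/-- `J` has a pole of order `N` at `i∞` -/
theorem atw_valInfty_J (N : ℕ) [NeZero N] (f : ana_ring N) (hf : (f : ℍ → ℂ) = ord_J) :
    atw_valInfty N (algebraMap (ana_ring N) (ana_M N) f) = WithZero.exp (N : ℤ) := by
  have h1 : f = ⟨_, ana_Jd_mem N 1 (one_dvd N) one_pos⟩ := by
    apply Subtype.ext
    rw [hf]
    funext τ
    exact (br_Jd_one τ).symm
  have h2 := atw_valInfty_Jd N 1 (one_dvd N)
  rw [Nat.cast_one, mul_one] at h2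
  rw [h1]
  exact h2

/-- **`valInfty_act`**: the valuation at `i∞` is invariant under the powers of `T` -/
theorem atw_valInfty_act (N : ℕ) [NeZero N] (g : SL(2, ℤ))
    (hg : g ∈ Subgroup.zpowers (ModularGroup.T : SL(2, ℤ))) (m : ana_M N) :
    atw_valInfty N (ana_act N g m) = atw_valInfty N m := by
  obtain ⟨k, rfl⟩ := hg
  rw [atw_valInfty_apply, atw_valInfty_apply]
  have h := atw_qexpM_act_T k m
  rw [h, cf_val_twist]

/-- **`valInfty_div`**: an element fixed by `T ^ s`, `s ∣ N`, has order divisible by `N / s` -/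
theorem atw_valInfty_div (N : ℕ) [NeZero N] (s : ℕ) (hs : s ∣ N) (m : ana_M N) (hm : m ≠ 0)
    (hinv : ana_act N (ModularGroup.T ^ s) m = m) :
    ∃ k : ℤ, atw_valInfty N m = WithZero.exp (k * ((N / s : ℕ) : ℤ)) := by
  rw [atw_valInfty_apply]
  have h0 : ana_qexpM N m ≠ 0 := by
    intro h
    exact hm ((ana_qexpM_injective N) (by rw [h, map_zero]))
  have h1 := atw_qexpM_act_T (N := N) (s : ℤ) m
  rw [zpow_natCast, hinv, zpow_natCast] at h1
  exact cf_val_of_twist_eq (NeZero.ne N) hs (atw_zeta_isPrimitiveRoot N).inv h0 h1.symm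

end Fermat.Agent.S24
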