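import Mathlib

/-!
# A lattice in `ℂ` is determined by its invariants `g₂`, `g₃`

Two period pairs with the same `g₂` and `g₃` span the same lattice.  The proof uses only the
differential equation `℘'² = 4℘³ - g₂ ℘ - g₃` of Mathlib's Weierstrass `℘`-function:
the difference `f` of the regular parts of the two `℘`-functions at `0` satisfies
`z f'(z) A(z) = f(z) B(z)` with `A 0 = -4`, `B 0 = 12`, which is impossible for a nonzero germ
of finite order `n ≥ 0` (it would force `-4 n = 12`).  Hence the two `℘`-functions agree near `0`,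
hence everywhere (identity theorem), hence their pole sets agree.
-/

open Filter Topology PeriodPair

namespace Fermat.Agent.S24

/-- The basic identity near `0`, obtained by subtracting the two differential equations. -/
theorem li_key_identity (L₁ L₂ : PeriodPair) (h2 : L₁.g₂ = L₂.g₂) (h3 : L₁.g₃ = L₂.g₃) :
    ∀ᶠ z in 𝓝 (0 : ℂ),
      z * (℘'[L₁ - (0 : ℂ)] z - ℘'[L₂ - (0 : ℂ)] z) *
          (z ^ 3 * (℘'[L₁ - (0 : ℂ)] z + ℘'[L₂ - (0 : ℂ)] z) - 4) =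
        (℘[L₁ - (0 : ℂ)] z - ℘[L₂ - (0 : ℂ)] z) *
          (4 * ((z ^ 2 * ℘[L₁ - (0 : ℂ)] z + 1) ^ 2 +
              (z ^ 2 * ℘[L₁ - (0 : ℂ)] z + 1) * (z ^ 2 * ℘[L₂ - (0 : ℂ)] z + 1) +
              (z ^ 2 * ℘[L₂ - (0 : ℂ)] z + 1) ^ 2) - L₁.g₂ * z ^ 4) := by
  filter_upwards [L₁.compl_lattice_sdiff_singleton_mem_nhds 0,
    L₂.compl_lattice_sdiff_singleton_mem_nhds 0] with z hz₁ hz₂
  by_cases hz0 : z = 0
  · subst hz0
    simp
  have hz₁' : z ∉ L₁.lattice := fun h => hz₁ ⟨h, hz0⟩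
  have hz₂' : z ∉ L₂.lattice := fun h => hz₂ ⟨h, hz0⟩
  have e1 := L₁.derivWeierstrassP_sq z hz₁'
  have e2 := L₂.derivWeierstrassP_sq z hz₂'
  have p1 : ℘[L₁] z = ℘[L₁ - (0 : ℂ)] z + 1 / z ^ 2 := by
    have := L₁.weierstrassPExcept_add (0 : L₁.lattice) z
    simp only [ZeroMemClass.coe_zero, sub_zero] at this
    rw [← this]; simp
  have p2 : ℘[L₂] z = ℘[L₂ - (0 : ℂ)] z + 1 / z ^ 2 := by
    have := L₂.weierstrassPExcept_add (0 : L₂.lattice) z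
    simp only [ZeroMemClass.coe_zero, sub_zero] at this
    rw [← this]; simp
  have d1 : ℘'[L₁] z = ℘'[L₁ - (0 : ℂ)] z - 2 / z ^ 3 := by
    have := L₁.derivWeierstrassPExcept_sub (0 : L₁.lattice) z
    simp only [ZeroMemClass.coe_zero, sub_zero] at this
    rw [← this]
  have d2 : ℘'[L₂] z = ℘'[L₂ - (0 : ℂ)] z - 2 / z ^ 3 := by
    have := L₂.derivWeierstrassPExcept_sub (0 : L₂.lattice) z
    simp only [ZeroMemClass.coe_zero, sub_zero] at this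
    rw [← this]
  rw [p1, d1] at e1
  rw [p2, d2, ← h2, ← h3] at e2
  generalize ℘[L₁ - (0 : ℂ)] z = a at *
  generalize ℘[L₂ - (0 : ℂ)] z = b at *
  generalize ℘'[L₁ - (0 : ℂ)] z = c at *
  generalize ℘'[L₂ - (0 : ℂ)] z = d at *
  generalize L₁.g₂ = g at *
  generalize L₁.g₃ = g' at *
  have hz2 : z ^ 2 ≠ 0 := pow_ne_zero _ hz0
  have hz3 : z ^ 3 ≠ 0 := pow_ne_zero _ hz0
  have hz6 : z ^ 6 ≠ 0 := pow_ne_zero _ hz0
  -- multiply the difference of the two equations by `z ^ 4`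
  have key : z ^ 4 * ((c - 2 / z ^ 3) ^ 2 - (d - 2 / z ^ 3) ^ 2) =
      z ^ 4 * ((4 * (a + 1 / z ^ 2) ^ 3 - g * (a + 1 / z ^ 2) - g') -
        (4 * (b + 1 / z ^ 2) ^ 3 - g * (b + 1 / z ^ 2) - g')) := by
    rw [e1, e2]
  have lhs : z ^ 4 * ((c - 2 / z ^ 3) ^ 2 - (d - 2 / z ^ 3) ^ 2) =
      z * (c - d) * (z ^ 3 * (c + d) - 4) := by
    field_simp
    ring
  have rhs : z ^ 4 * ((4 * (a + 1 / z ^ 2) ^ 3 - g * (a + 1 / z ^ 2) - g') -
        (4 * (b + 1 / z ^ 2) ^ 3 - g * (b + 1 / z ^ 2) - g')) =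
      (a - b) * (4 * ((z ^ 2 * a + 1) ^ 2 + (z ^ 2 * a + 1) * (z ^ 2 * b + 1) +
        (z ^ 2 * b + 1) ^ 2) - g * z ^ 4) := by
    field_simp
    ring
  rw [← lhs, ← rhs, key]

/-- The regular parts of the two `℘`-functions agree near `0`. -/
theorem li_except_eventuallyEq (L₁ L₂ : PeriodPair) (h2 : L₁.g₂ = L₂.g₂) (h3 : L₁.g₃ = L₂.g₃) :
    ∀ᶠ z in 𝓝 (0 : ℂ), ℘[L₁ - (0 : ℂ)] z - ℘[L₂ - (0 : ℂ)] z = 0 := by
  by_contra hne
  have hf : AnalyticAt ℂ (fun z => ℘[L₁ - (0 : ℂ)] z - ℘[L₂ - (0 : ℂ)] z) 0 :=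
    (L₁.analyticAt_weierstrassPExcept 0).sub (L₂.analyticAt_weierstrassPExcept 0)
  obtain ⟨n, g, hg, hg0, hfg⟩ := (hf.exists_eventuallyEq_pow_smul_nonzero_iff).mpr hne
  simp only [sub_zero, smul_eq_mul] at hfg
  -- derivative of `f`
  have hderiv : ∀ᶠ z in 𝓝 (0 : ℂ),
      deriv (fun z => ℘[L₁ - (0 : ℂ)] z - ℘[L₂ - (0 : ℂ)] z) z =
        ℘'[L₁ - (0 : ℂ)] z - ℘'[L₂ - (0 : ℂ)] z := by
    filter_upwards [L₁.compl_lattice_sdiff_singleton_mem_nhds 0,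
      L₂.compl_lattice_sdiff_singleton_mem_nhds 0,
      (L₁.analyticAt_weierstrassPExcept 0).eventually_analyticAt,
      (L₂.analyticAt_weierstrassPExcept 0).eventually_analyticAt] with z hz₁ hz₂ ha₁ ha₂
    rw [deriv_fun_sub ha₁.differentiableAt ha₂.differentiableAt,
      L₁.eqOn_deriv_weierstrassPExcept_derivWeierstrassPExcept 0 hz₁,
      L₂.eqOn_deriv_weierstrassPExcept_derivWeierstrassPExcept 0 hz₂]
  have hderiv' : ∀ᶠ z in 𝓝 (0 : ℂ),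
      deriv (fun z => ℘[L₁ - (0 : ℂ)] z - ℘[L₂ - (0 : ℂ)] z) z =
        deriv (fun z => z ^ n * g z) z :=
    (Filter.EventuallyEq.deriv (show (fun z => ℘[L₁ - (0 : ℂ)] z - ℘[L₂ - (0 : ℂ)] z)
      =ᶠ[𝓝 0] (fun z => z ^ n * g z) from hfg))
  have hderiv'' : ∀ᶠ z in 𝓝 (0 : ℂ),
      z * deriv (fun z => z ^ n * g z) z = z ^ n * (n * g z + z * deriv g z) := by
    filter_upwards [hg.eventually_analyticAt] with z hz
    rw [deriv_fun_mul (by fun_prop) hz.differentiableAt]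
    simp only [differentiableAt_fun_id, deriv_fun_pow, deriv_id'', mul_one]
    rcases Nat.eq_zero_or_pos n with rfl | hn
    · simp
    · have : z * z ^ (n - 1) = z ^ n := by
        rw [← pow_succ', Nat.sub_add_cancel hn]
      linear_combination (n : ℂ) * g z * this
  -- the identity away from `0`
  have hkey : ∀ᶠ z in 𝓝[≠] (0 : ℂ),
      (n * g z + z * deriv g z) * (z ^ 3 * (℘'[L₁ - (0 : ℂ)] z + ℘'[L₂ - (0 : ℂ)] z) - 4) =
        g z * (4 * ((z ^ 2 * ℘[L₁ - (0 : ℂ)] z + 1) ^ 2 +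
              (z ^ 2 * ℘[L₁ - (0 : ℂ)] z + 1) * (z ^ 2 * ℘[L₂ - (0 : ℂ)] z + 1) +
              (z ^ 2 * ℘[L₂ - (0 : ℂ)] z + 1) ^ 2) - L₁.g₂ * z ^ 4) := by
    have h1 := li_key_identity L₁ L₂ h2 h3
    have hall := ((h1.and hfg).and (hderiv.and hderiv')).and hderiv''
    filter_upwards [mem_nhdsWithin_of_mem_nhds hall, self_mem_nhdsWithin]
      with z ⟨⟨⟨hk, hf'⟩, ⟨hd, hd'⟩⟩, hd''⟩ hz0
    have hz0' : z ≠ 0 := hz0
    rw [← hd, hd', hf'] at hk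
    have : z ^ n ≠ 0 := pow_ne_zero _ hz0'
    apply mul_left_cancel₀ this
    rw [← mul_assoc, ← hd'', ← mul_assoc (z ^ n)]
    exact hk
  -- take the limit `z → 0`
  have hcg : ContinuousAt g 0 := hg.continuousAt
  have hcdg : ContinuousAt (deriv g) 0 := hg.deriv.continuousAt
  have hc1 : ContinuousAt ℘[L₁ - (0 : ℂ)] 0 := (L₁.analyticAt_weierstrassPExcept 0).continuousAt
  have hc2 : ContinuousAt ℘[L₂ - (0 : ℂ)] 0 := (L₂.analyticAt_weierstrassPExcept 0).continuousAt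
  have hd1 : ContinuousAt ℘'[L₁ - (0 : ℂ)] 0 :=
    (L₁.analyticAt_derivWeierstrassPExcept 0).continuousAt
  have hd2 : ContinuousAt ℘'[L₂ - (0 : ℂ)] 0 :=
    (L₂.analyticAt_derivWeierstrassPExcept 0).continuousAt
  have hL : ContinuousAt (fun z : ℂ => (n * g z + z * deriv g z) *
      (z ^ 3 * (℘'[L₁ - (0 : ℂ)] z + ℘'[L₂ - (0 : ℂ)] z) - 4)) 0 := by
    fun_prop
  have hR : ContinuousAt (fun z : ℂ => g z * (4 * ((z ^ 2 * ℘[L₁ - (0 : ℂ)] z + 1) ^ 2 +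
              (z ^ 2 * ℘[L₁ - (0 : ℂ)] z + 1) * (z ^ 2 * ℘[L₂ - (0 : ℂ)] z + 1) +
              (z ^ 2 * ℘[L₂ - (0 : ℂ)] z + 1) ^ 2) - L₁.g₂ * z ^ 4)) 0 := by
    fun_prop
  have hlim := tendsto_nhds_unique_of_eventuallyEq
    (hL.tendsto.mono_left nhdsWithin_le_nhds) (hR.tendsto.mono_left nhdsWithin_le_nhds) hkey
  simp only [zero_mul, add_zero, ne_eq, OfNat.ofNat_ne_zero, not_false_eq_true, zero_pow,
    zero_sub, mul_zero, zero_add, one_pow, mul_one, sub_zero] at hlim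
  have h3' : ((n : ℂ) + 3) * g 0 = 0 := by linear_combination (-1 / 4 : ℂ) * hlim
  rcases mul_eq_zero.mp h3' with h | h
  · have : ((n + 3 : ℕ) : ℂ) = 0 := by push_cast; exact h
    exact absurd (Nat.cast_eq_zero.mp this) (by omega)
  · exact hg0 h

/-- The two `℘`-functions agree off the union of the two lattices. -/
theorem li_weierstrassP_eqOn (L₁ L₂ : PeriodPair) (h2 : L₁.g₂ = L₂.g₂) (h3 : L₁.g₃ = L₂.g₃) :
    Set.EqOn ℘[L₁] ℘[L₂] ((L₁.lattice : Set ℂ) ∪ (L₂.lattice : Set ℂ))ᶜ := by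
  have hcount : ((L₁.lattice : Set ℂ) ∪ (L₂.lattice : Set ℂ)).Countable :=
    (Set.countable_coe_iff.mp (inferInstance : Countable L₁.lattice)).union
      (Set.countable_coe_iff.mp (inferInstance : Countable L₂.lattice))
  have hconn : IsPreconnected ((L₁.lattice : Set ℂ) ∪ (L₂.lattice : Set ℂ))ᶜ :=
    (hcount.isPathConnected_compl_of_one_lt_rank
      (by rw [Complex.rank_real_complex]; norm_num)).isConnected.isPreconnected
  have han₁ : AnalyticOnNhd ℂ ℘[L₁] ((L₁.lattice : Set ℂ) ∪ (L₂.lattice : Set ℂ))ᶜ :=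
    L₁.analyticOnNhd_weierstrassP.mono (Set.compl_subset_compl.mpr Set.subset_union_left)
  have han₂ : AnalyticOnNhd ℂ ℘[L₂] ((L₁.lattice : Set ℂ) ∪ (L₂.lattice : Set ℂ))ᶜ :=
    L₂.analyticOnNhd_weierstrassP.mono (Set.compl_subset_compl.mpr Set.subset_union_right)
  -- a small punctured ball around `0` on which everything is fine
  have hev := ((li_except_eventuallyEq L₁ L₂ h2 h3).and
    (L₁.compl_lattice_sdiff_singleton_mem_nhds 0)).and
    (L₂.compl_lattice_sdiff_singleton_mem_nhds 0)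
  obtain ⟨r, hr, hball⟩ := Metric.eventually_nhds_iff_ball.mp hev
  have hr2 : ((r / 2 : ℝ) : ℂ) ≠ 0 := by
    exact_mod_cast (half_pos hr).ne'
  have hgood : ∀ z : ℂ, z ∈ Metric.ball (0 : ℂ) r → z ≠ 0 →
      z ∈ ((L₁.lattice : Set ℂ) ∪ (L₂.lattice : Set ℂ))ᶜ ∧ ℘[L₁] z = ℘[L₂] z := by
    intro z hz hz0
    obtain ⟨⟨he, h1⟩, h2'⟩ := hball z hz
    have hz₁ : z ∉ L₁.lattice := fun h => h1 ⟨h, hz0⟩
    have hz₂ : z ∉ L₂.lattice := fun h => h2' ⟨h, hz0⟩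
    refine ⟨by simp [hz₁, hz₂], ?_⟩
    have p1 := L₁.weierstrassPExcept_add (0 : L₁.lattice) z
    have p2 := L₂.weierstrassPExcept_add (0 : L₂.lattice) z
    simp only [ZeroMemClass.coe_zero, sub_zero] at p1 p2
    rw [← p1, ← p2, sub_eq_zero.mp he]
  have hz₀ : ((r / 2 : ℝ) : ℂ) ∈ Metric.ball (0 : ℂ) r := by
    rw [Metric.mem_ball, dist_zero_right, Complex.norm_real, Real.norm_eq_abs,
      abs_of_pos (half_pos hr)]
    linarith
  refine han₁.eqOn_of_preconnected_of_eventuallyEq han₂ hconn (hgood _ hz₀ hr2).1 ?_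
  have hopen : IsOpen (Metric.ball (0 : ℂ) r \ {0}) :=
    Metric.isOpen_ball.sdiff isClosed_singleton
  filter_upwards [hopen.mem_nhds ⟨hz₀, hr2⟩] with z hz
  exact (hgood z hz.1 hz.2).2

/-- One inclusion of lattices. -/
theorem li_lattice_le (L₁ L₂ : PeriodPair) (h2 : L₁.g₂ = L₂.g₂) (h3 : L₁.g₃ = L₂.g₃) :
    L₁.lattice ≤ L₂.lattice := by
  intro l hl
  by_contra hl₂
  have heq := li_weierstrassP_eqOn L₁ L₂ h2 h3
  have hev : ℘[L₁] =ᶠ[𝓝[≠] l] ℘[L₂] := by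
    have h1 : ∀ᶠ z in 𝓝[≠] l, z ∈ ((L₁.lattice : Set ℂ) \ {l})ᶜ :=
      mem_nhdsWithin_of_mem_nhds (L₁.compl_lattice_sdiff_singleton_mem_nhds l)
    have h2' : ∀ᶠ z in 𝓝[≠] l, z ∈ ((L₂.lattice : Set ℂ))ᶜ :=
      mem_nhdsWithin_of_mem_nhds (L₂.isClosed_lattice.isOpen_compl.mem_nhds hl₂)
    filter_upwards [h1, h2', self_mem_nhdsWithin] with z hz₁ hz₂ hzl
    refine heq ?_
    have hzl' : z ≠ l := hzl
    have : z ∉ L₁.lattice := fun h => hz₁ ⟨h, hzl'⟩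
    simp only [Set.compl_union, Set.mem_inter_iff, Set.mem_compl_iff, SetLike.mem_coe]
    exact ⟨this, hz₂⟩
  have ho := meromorphicOrderAt_congr hev
  rw [L₁.order_weierstrassP l hl] at ho
  have hnn := (L₂.analyticOnNhd_weierstrassP l hl₂).meromorphicOrderAt_nonneg
  rw [← ho] at hnn
  exact absurd hnn (by decide)

/-- **A lattice is determined by `g₂` and `g₃`.** -/
theorem li_lattice_eq_of_g2_g3 (L₁ L₂ : PeriodPair) (h2 : L₁.g₂ = L₂.g₂) (h3 : L₁.g₃ = L₂.g₃) :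
    L₁.lattice = L₂.lattice :=
  le_antisymm (li_lattice_le L₁ L₂ h2 h3) (li_lattice_le L₂ L₁ h2.symm h3.symm)

end Fermat.Agent.S24
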