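import Fermat.Agent.S24.Defs

/-!
# S24 — [ANA-0] `j` is transcendental over the constants

Purely formal: `j = q⁻¹ + 744 + …` is a Laurent series with a pole, so for a polynomial `p` of
degree `n` the coefficient of `q⁻ⁿ` in `p(j)` is the leading coefficient of `p`.
-/

set_option autoImplicit false

namespace Fermat.Agent.S24

open ModularCurve Polynomial

/-- The coefficient of `q^{-n}` in `(coeffEmb jq)^i`, `i ≤ n`. -/
theorem ad_coeff_jq_pow (L : Type*) [Field L] [Algebra ℚ L] (i n : ℕ) (hin : i ≤ n) :
    ((coeffEmb L jq) ^ i).coeff (-(n : ℤ)) = if i = n then 1 else 0 := by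
  rw [← map_pow, coeffEmb_coeff]
  split_ifs with h
  · subst h
    rw [coeff_jq_pow_self, map_one]
  · rw [coeff_jq_pow_of_lt, map_zero]
    have : i < n := lt_of_le_of_ne hin h
    omega

/-- The coefficient of `q^{-deg p}` in `p(j)` is the leading coefficient of `p`. -/
theorem ad_coeff_aeval_jq (L : Type*) [Field L] [Algebra ℚ L] (p : L[X]) :
    (aeval (coeffEmb L jq) p).coeff (-(p.natDegree : ℤ)) = p.leadingCoeff := by
  rw [aeval_def, eval₂_eq_sum_range, HahnSeries.coeff_sum]
  rw [Finset.sum_eq_single p.natDegree]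
  · rw [algebraMap_laurentSeries_eq_single, HahnSeries.coeff_single_zero_mul,
      ad_coeff_jq_pow L _ _ le_rfl, if_pos rfl, mul_one]
    rfl
  · intro i hi hne
    have hle : i ≤ p.natDegree := Nat.lt_succ_iff.mp (Finset.mem_range.mp hi)
    rw [algebraMap_laurentSeries_eq_single, HahnSeries.coeff_single_zero_mul,
      ad_coeff_jq_pow L _ _ hle, if_neg hne, mul_zero]
  · intro h
    exact absurd (Finset.mem_range.mpr (Nat.lt_succ_self _)) h

/-- `coeffEmb jq` is transcendental over the constants. -/
theorem ad_transcendental_jq (L : Type*) [Field L] [Algebra ℚ L] :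
    Transcendental L (coeffEmb L jq) := by
  rintro ⟨p, hp0, hp⟩
  have h := ad_coeff_aeval_jq L p
  rw [hp, HahnSeries.coeff_zero] at h
  exact hp0 (leadingCoeff_eq_zero.mp h.symm)

/-- [ANA-0] `j` is transcendental over `K`. -/
theorem ana_transcendental (N : ℕ) [NeZero N] : Transcendental s24K (s24j N) := by
  have h := ad_transcendental_jq s24K
  intro halg
  apply h
  have h2 : IsAlgebraic s24K (algebraMap (s24F N) (LaurentSeries s24K) (s24j N)) :=
    halg.algebraMap
  exact h2

end Fermat.Agent.S24
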