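import Mathlib
import Fermat.Prelude.Def_ModularCurve_LaurentCoeff

/-!
# S24, package ANA-SYM, linear disjointness

A `K`-linearly independent finite family of functions `X → K` (or of Laurent series over `K`) stays
linearly independent over any extension field `L` of `K`: some maximal minor of the matrix of
values is nonzero.
-/

set_option autoImplicit false

noncomputable section

namespace Fermat.Agent.S24

open Matrix

variable {K L : Type*} [Field K] [Field L]

/-- a linearly independent family of `r` functions has a nonvanishing `r × r` minor. -/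
theorem sym_exists_minor {X : Type*} : ∀ (r : ℕ) (v : Fin r → (X → K)),
    LinearIndependent K v → ∃ x : Fin r → X, (Matrix.of fun i j => v i (x j)).det ≠ 0 := by
  intro r
  induction r with
  | zero =>
    intro v _
    exact ⟨Fin.elim0, by simp⟩
  | succ r ih =>
    intro v hv
    have hv' : LinearIndependent K (v ∘ Fin.castSucc) :=
      hv.comp _ (Fin.castSucc_injective r)
    obtain ⟨x', hx'⟩ := ih (v ∘ Fin.castSucc) hv'
    -- the cofactors
    set c : Fin (r + 1) → K := fun i =>
      (-1) ^ ((i : ℕ) + r) * (Matrix.of fun i' j' : Fin r => v (i.succAbove i') (x' j')).det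
      with hc
    have hclast : c (Fin.last r) ≠ 0 := by
      rw [hc]
      simp only
      refine mul_ne_zero (pow_ne_zero _ (by norm_num)) ?_
      have : (Matrix.of fun i' j' : Fin r => v ((Fin.last r).succAbove i') (x' j'))
          = Matrix.of fun i j => (v ∘ Fin.castSucc) i (x' j) := by
        ext i' j'
        simp [Fin.succAbove_last]
      rw [this]
      exact hx'
    have hu : ∑ i, c i • v i ≠ 0 := by
      intro h0
      have := (Fintype.linearIndependent_iff.mp hv) c h0 (Fin.last r)
      exact hclast this
    obtain ⟨y, hy⟩ : ∃ y, (∑ i, c i • v i) y ≠ 0 := by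
      by_contra hne
      push Not at hne
      exact hu (funext hne)
    refine ⟨Fin.snoc x' y, ?_⟩
    rw [Matrix.det_succ_column _ (Fin.last r)]
    have hterm : ∀ i : Fin (r + 1),
        (-1) ^ ((i : ℕ) + ((Fin.last r : Fin (r + 1)) : ℕ)) *
          (Matrix.of fun i j => v i ((Fin.snoc x' y : Fin (r + 1) → X) j)) i (Fin.last r) *
          ((Matrix.of fun i j => v i ((Fin.snoc x' y : Fin (r + 1) → X) j)).submatrix
            i.succAbove (Fin.last r).succAbove).det = (c i • v i) y := by
      intro i
      have h1 : ((Matrix.of fun i j => v i ((Fin.snoc x' y : Fin (r + 1) → X) j)).submatrix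
          i.succAbove (Fin.last r).succAbove)
          = Matrix.of fun i' j' : Fin r => v (i.succAbove i') (x' j') := by
        ext i' j'
        simp [Fin.succAbove_last]
      rw [h1, hc]
      simp only [Matrix.of_apply, Fin.snoc_last, Fin.val_last, Pi.smul_apply, smul_eq_mul]
      ring
    rw [Finset.sum_congr rfl fun i _ => hterm i]
    rw [Finset.sum_apply] at hy
    exact hy

/-- **linear disjointness**, for functions. -/
theorem sym_ld_fun (ι : K →+* L) {X : Type*} {r : ℕ} (v : Fin r → (X → K))
    (hv : LinearIndependent K v) :
    LinearIndependent L (fun i => fun x => ι (v i x)) := by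
  classical
  obtain ⟨x, hx⟩ := sym_exists_minor r v hv
  rw [Fintype.linearIndependent_iff]
  intro g hg
  have hdet : ((Matrix.of fun i j => v i (x j)).map ι).det ≠ 0 := by
    have h := RingHom.map_det ι (Matrix.of fun i j => v i (x j))
    rw [RingHom.mapMatrix_apply] at h
    rw [← h]
    exact (map_ne_zero ι).mpr hx
  have hvec : Matrix.vecMul g ((Matrix.of fun i j => v i (x j)).map ι) = 0 := by
    funext j
    have := congrFun hg (x j)
    simp only [Finset.sum_apply, Pi.smul_apply, smul_eq_mul, Pi.zero_apply] at this
    simpa [Matrix.vecMul, dotProduct] using this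
  have := Matrix.eq_zero_of_vecMul_eq_zero hdet hvec
  intro i
  exact congrFun this i

/-- **linear disjointness**, for Laurent series, finite index type. -/
theorem sym_ld (ι : K →+* L) {I : Type*} [Fintype I] (v : I → LaurentSeries K)
    (hv : LinearIndependent K v) :
    LinearIndependent L (fun i => ModularCurve.coeffMap ι (v i)) := by
  classical
  set e : Fin (Fintype.card I) ≃ I := (Fintype.equivFin I).symm with he
  have h1 : LinearIndependent K (fun i : Fin (Fintype.card I) => (v (e i)).coeff) := by
    rw [Fintype.linearIndependent_iff]
    intro g hg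
    have h2 : ∑ i, g i • (v ∘ e) i = 0 := by
      ext k
      have := congrFun hg k
      simpa using this
    exact Fintype.linearIndependent_iff.mp ((linearIndependent_equiv e).mpr hv) g h2
  have h3 := sym_ld_fun ι _ h1
  have h4 : LinearIndependent L (fun i : Fin (Fintype.card I) =>
      ModularCurve.coeffMap ι (v (e i))) := by
    rw [Fintype.linearIndependent_iff]
    intro g hg
    refine Fintype.linearIndependent_iff.mp h3 g ?_
    funext k
    have := congrArg (fun s : LaurentSeries L => s.coeff k) hg
    simpa [ModularCurve.coeffMap_coeff] using this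
  exact (linearIndependent_equiv e (f := fun i => ModularCurve.coeffMap ι (v i))).mp h4

/-- contrapositive form: a nontrivial `L`-linear relation between the images gives a nontrivial
`K`-linear relation. -/
theorem sym_ld_relation (ι : K →+* L) {I : Type*} [Fintype I] (v : I → LaurentSeries K)
    (c : I → L) (hc : ∑ i, c i • ModularCurve.coeffMap ι (v i) = 0) (i₀ : I) (hi₀ : c i₀ ≠ 0) :
    ∃ g : I → K, ∑ i, g i • v i = 0 ∧ ∃ i, g i ≠ 0 := by
  by_contra hne
  have hv : LinearIndependent K v := by
    rw [Fintype.linearIndependent_iff]
    intro g hg i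
    by_contra hgi
    exact hne ⟨g, hg, i, hgi⟩
  exact hi₀ (Fintype.linearIndependent_iff.mp (sym_ld ι v hv) c hc i₀)

end Fermat.Agent.S24
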