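import Mathlib
import Fermat.Prelude.Def_ModularCurve_X0
import Fermat.Prelude.Def_ModularCurve_LaurentCoeff
import Fermat.Agent.S23.QRing
import Fermat.Agent.S24.BridgeJ
import Fermat.Agent.S24.SymCore

/-!
# S24, package ANA-SYM: the Laurent `q`-expansion of `1`-periodic holomorphic functions with a
pole at `i∞`

* `sym_R1` : the ring of functions `f` on `ℍ` with `Δ ^ m * f ∈ qr_ring` for some `m`;
* `sym_psi : sym_R1 →+* LaurentSeries ℂ`, injective, extending `qExpansion 1` on `qr_ring`;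
* `sym_psi_Jd` : the expansion of `τ ↦ J (d τ)` is the formal series `qExpand d jq`.
-/

set_option autoImplicit false

noncomputable section

namespace Fermat.Agent.S24

open UpperHalfPlane hiding I
open Filter Function Topology ModularForm Complex
open scoped Manifold MatrixGroups ModularForm Real CongruenceSubgroup
open CongruenceSubgroup
open Fermat.Agent.S23

local notation "Δ" => ModularForm.discriminant

/-- the ring of `1`-periodic holomorphic functions with at most a pole at `i∞`. -/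
def sym_R1 : Subring (ℍ → ℂ) where
  carrier := {f | ∃ m : ℕ, (fun τ : ℍ => Δ τ ^ m * f τ) ∈ qr_ring}
  mul_mem' := by
    rintro f g ⟨m, hm⟩ ⟨m', hm'⟩
    refine ⟨m + m', ?_⟩
    have h1 : (fun τ : ℍ => Δ τ ^ (m + m') * (f * g) τ)
        = (fun τ : ℍ => Δ τ ^ m * f τ) * (fun τ : ℍ => Δ τ ^ m' * g τ) := by
      funext τ
      simp only [Pi.mul_apply]
      ring
    rw [h1]
    exact qr_ring.mul_mem hm hm'
  one_mem' := by
    refine ⟨0, ?_⟩
    have h1 : (fun τ : ℍ => Δ τ ^ 0 * (1 : ℍ → ℂ) τ) = 1 := by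
      funext τ
      simp
    rw [h1]
    exact qr_ring.one_mem
  add_mem' := by
    rintro f g ⟨m, hm⟩ ⟨m', hm'⟩
    refine ⟨m + m', ?_⟩
    have h1 : (fun τ : ℍ => Δ τ ^ (m + m') * (f + g) τ)
        = (fun τ : ℍ => Δ τ ^ m') * (fun τ : ℍ => Δ τ ^ m * f τ)
          + (fun τ : ℍ => Δ τ ^ m) * (fun τ : ℍ => Δ τ ^ m' * g τ) := by
      funext τ
      simp only [Pi.add_apply, Pi.mul_apply]
      ring
    rw [h1]
    exact qr_ring.add_mem (qr_ring.mul_mem (pj_disc_pow_mem m') hm)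
      (qr_ring.mul_mem (pj_disc_pow_mem m) hm')
  zero_mem' := by
    refine ⟨0, ?_⟩
    have h1 : (fun τ : ℍ => Δ τ ^ 0 * (0 : ℍ → ℂ) τ) = 0 := by
      funext τ
      simp
    rw [h1]
    exact qr_ring.zero_mem
  neg_mem' := by
    rintro f ⟨m, hm⟩
    refine ⟨m, ?_⟩
    have h1 : (fun τ : ℍ => Δ τ ^ m * (-f) τ) = -(fun τ : ℍ => Δ τ ^ m * f τ) := by
      funext τ
      simp only [Pi.neg_apply]
      ring
    rw [h1]
    exact qr_ring.neg_mem hm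

theorem sym_mem_R1_iff {f : ℍ → ℂ} :
    f ∈ sym_R1 ↔ ∃ m : ℕ, (fun τ : ℍ => Δ τ ^ m * f τ) ∈ qr_ring := Iff.rfl

theorem sym_qr_le_R1 {F : ℍ → ℂ} (hF : F ∈ qr_ring) : F ∈ sym_R1 := by
  refine ⟨0, ?_⟩
  have h1 : (fun τ : ℍ => Δ τ ^ 0 * F τ) = F := by
    funext τ
    simp
  rw [h1]
  exact hF

/-- `Γ₀(N)`-invariant functions of `sym_ring N` are `1`-periodic with a pole at `i∞`. -/
theorem sym_ring_le_R1 {N : ℕ} {f : ℍ → ℂ} (hf : f ∈ sym_ring N) : f ∈ sym_R1 := by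
  obtain ⟨hinv, hmer⟩ := sym_mem_ring_iff.mp hf
  obtain ⟨hmd, m, hm⟩ := sym_mem_mer_of_mem_ring hf
  refine ⟨m, (sym_disc_pow_mdiff m).mul hmd, fun τ => ?_, hm⟩
  have hT : ModularGroup.T ∈ Gamma0 N := by
    rw [Gamma0_mem]
    simp [ModularGroup.T]
  have h1 : f ((1 : ℝ) +ᵥ τ) = f τ := by
    rw [← UpperHalfPlane.modular_T_smul]
    exact hinv _ hT τ
  have h2 : Δ ((1 : ℝ) +ᵥ τ) = Δ τ := pj_disc_mem.2.1 τ
  simp only [h1, h2]

/-- the `q`-expansion of `Δ` as a Laurent series. -/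
def sym_D : LaurentSeries ℂ := HahnSeries.ofPowerSeries ℤ ℂ (qExpansion 1 Δ)

theorem sym_D_ne_zero : sym_D ≠ 0 := by
  intro h
  unfold sym_D at h
  have h1 : qExpansion 1 Δ = 0 := by
    apply HahnSeries.ofPowerSeries_injective (Γ := ℤ) (R := ℂ)
    rw [h, map_zero]
  have h2 := (qr_qExpansion_eq_zero_iff pj_disc_mem).mp h1
  exact ord_disc_ne_zero UpperHalfPlane.I (congrFun h2 _)

/-- the candidate Laurent expansion computed with the exponent `m`. -/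
def sym_psiAt (m : ℕ) (f : ℍ → ℂ) : LaurentSeries ℂ :=
  sym_D⁻¹ ^ m * HahnSeries.ofPowerSeries ℤ ℂ (qExpansion 1 (fun τ : ℍ => Δ τ ^ m * f τ))

theorem sym_psiAt_indep {f : ℍ → ℂ} {m m' : ℕ}
    (hm : (fun τ : ℍ => Δ τ ^ m * f τ) ∈ qr_ring)
    (hm' : (fun τ : ℍ => Δ τ ^ m' * f τ) ∈ qr_ring) : sym_psiAt m f = sym_psiAt m' f := by
  have key : sym_D ^ m' * HahnSeries.ofPowerSeries ℤ ℂ (qExpansion 1 (fun τ : ℍ => Δ τ ^ m * f τ))
      = sym_D ^ m * HahnSeries.ofPowerSeries ℤ ℂ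
          (qExpansion 1 (fun τ : ℍ => Δ τ ^ m' * f τ)) := by
    have e1 : (fun τ : ℍ => Δ τ ^ m') * (fun τ : ℍ => Δ τ ^ m * f τ)
        = (fun τ : ℍ => Δ τ ^ m) * (fun τ : ℍ => Δ τ ^ m' * f τ) := by
      funext τ
      simp only [Pi.mul_apply]
      ring
    have e2 := congrArg (qExpansion 1) e1
    rw [qr_qExpansion_mul (pj_disc_pow_mem m') hm, qr_qExpansion_mul (pj_disc_pow_mem m) hm'] at e2
    have e3 : ∀ k : ℕ, qExpansion 1 (fun τ : ℍ => Δ τ ^ k) = qExpansion 1 Δ ^ k := fun k =>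
      qr_qExpansion_pow pj_disc_mem k
    rw [e3, e3] at e2
    have e4 := congrArg (HahnSeries.ofPowerSeries ℤ ℂ) e2
    rw [map_mul, map_mul, map_pow, map_pow] at e4
    exact e4
  unfold sym_psiAt
  have hD := sym_D_ne_zero
  have i1 : ∀ k : ℕ, sym_D⁻¹ ^ k * sym_D ^ k = 1 := fun k => by
    rw [← mul_pow, inv_mul_cancel₀ hD, one_pow]
  calc sym_D⁻¹ ^ m * HahnSeries.ofPowerSeries ℤ ℂ (qExpansion 1 (fun τ : ℍ => Δ τ ^ m * f τ))
      = sym_D⁻¹ ^ m * (sym_D⁻¹ ^ m' * sym_D ^ m') *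
          HahnSeries.ofPowerSeries ℤ ℂ (qExpansion 1 (fun τ : ℍ => Δ τ ^ m * f τ)) := by
        rw [i1, mul_one]
    _ = sym_D⁻¹ ^ m * sym_D⁻¹ ^ m' * (sym_D ^ m' *
          HahnSeries.ofPowerSeries ℤ ℂ (qExpansion 1 (fun τ : ℍ => Δ τ ^ m * f τ))) := by ring
    _ = sym_D⁻¹ ^ m * sym_D⁻¹ ^ m' * (sym_D ^ m *
          HahnSeries.ofPowerSeries ℤ ℂ (qExpansion 1 (fun τ : ℍ => Δ τ ^ m' * f τ))) := by
        rw [key]
    _ = sym_D⁻¹ ^ m' * (sym_D⁻¹ ^ m * sym_D ^ m) *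
          HahnSeries.ofPowerSeries ℤ ℂ (qExpansion 1 (fun τ : ℍ => Δ τ ^ m' * f τ)) := by ring
    _ = sym_D⁻¹ ^ m' *
          HahnSeries.ofPowerSeries ℤ ℂ (qExpansion 1 (fun τ : ℍ => Δ τ ^ m' * f τ)) := by
        rw [i1, mul_one]

/-- the Laurent `q`-expansion, as a function. -/
def sym_psiFun (f : ℍ → ℂ) : LaurentSeries ℂ :=
  open Classical in
  if h : ∃ m : ℕ, (fun τ : ℍ => Δ τ ^ m * f τ) ∈ qr_ring then sym_psiAt (Classical.choose h) f
  else 0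

theorem sym_psiFun_eq {f : ℍ → ℂ} {m : ℕ} (hm : (fun τ : ℍ => Δ τ ^ m * f τ) ∈ qr_ring) :
    sym_psiFun f = sym_psiAt m f := by
  have h : ∃ m : ℕ, (fun τ : ℍ => Δ τ ^ m * f τ) ∈ qr_ring := ⟨m, hm⟩
  unfold sym_psiFun
  rw [dif_pos h]
  exact sym_psiAt_indep (Classical.choose_spec h) hm

theorem sym_psiFun_of_qr {F : ℍ → ℂ} (hF : F ∈ qr_ring) :
    sym_psiFun F = HahnSeries.ofPowerSeries ℤ ℂ (qExpansion 1 F) := by
  have h0 : (fun τ : ℍ => Δ τ ^ 0 * F τ) = F := by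
    funext τ
    simp
  have h1 : (fun τ : ℍ => Δ τ ^ 0 * F τ) ∈ qr_ring := by rw [h0]; exact hF
  rw [sym_psiFun_eq h1, sym_psiAt, h0, pow_zero, one_mul]

theorem sym_psiFun_mul {f g : ℍ → ℂ} (hf : f ∈ sym_R1) (hg : g ∈ sym_R1) :
    sym_psiFun (f * g) = sym_psiFun f * sym_psiFun g := by
  obtain ⟨m, hm⟩ := hf
  obtain ⟨m', hm'⟩ := hg
  have h1 : (fun τ : ℍ => Δ τ ^ (m + m') * (f * g) τ)
      = (fun τ : ℍ => Δ τ ^ m * f τ) * (fun τ : ℍ => Δ τ ^ m' * g τ) := by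
    funext τ
    simp only [Pi.mul_apply]
    ring
  have h2 : (fun τ : ℍ => Δ τ ^ (m + m') * (f * g) τ) ∈ qr_ring := by
    rw [h1]
    exact qr_ring.mul_mem hm hm'
  rw [sym_psiFun_eq h2, sym_psiFun_eq hm, sym_psiFun_eq hm', sym_psiAt, sym_psiAt, sym_psiAt,
    h1, qr_qExpansion_mul hm hm', map_mul, pow_add]
  ring

theorem sym_psiFun_add {f g : ℍ → ℂ} (hf : f ∈ sym_R1) (hg : g ∈ sym_R1) :
    sym_psiFun (f + g) = sym_psiFun f + sym_psiFun g := by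
  obtain ⟨m, hm⟩ := hf
  obtain ⟨m', hm'⟩ := hg
  have hf' : (fun τ : ℍ => Δ τ ^ (m + m') * f τ) ∈ qr_ring := by
    have h1 : (fun τ : ℍ => Δ τ ^ (m + m') * f τ)
        = (fun τ : ℍ => Δ τ ^ m') * (fun τ : ℍ => Δ τ ^ m * f τ) := by
      funext τ
      simp only [Pi.mul_apply]
      ring
    rw [h1]
    exact qr_ring.mul_mem (pj_disc_pow_mem m') hm
  have hg' : (fun τ : ℍ => Δ τ ^ (m + m') * g τ) ∈ qr_ring := by
    have h1 : (fun τ : ℍ => Δ τ ^ (m + m') * g τ)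
        = (fun τ : ℍ => Δ τ ^ m) * (fun τ : ℍ => Δ τ ^ m' * g τ) := by
      funext τ
      simp only [Pi.mul_apply]
      ring
    rw [h1]
    exact qr_ring.mul_mem (pj_disc_pow_mem m) hm'
  have h1 : (fun τ : ℍ => Δ τ ^ (m + m') * (f + g) τ)
      = (fun τ : ℍ => Δ τ ^ (m + m') * f τ) + (fun τ : ℍ => Δ τ ^ (m + m') * g τ) := by
    funext τ
    simp only [Pi.add_apply]
    ring
  have h2 : (fun τ : ℍ => Δ τ ^ (m + m') * (f + g) τ) ∈ qr_ring := by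
    rw [h1]
    exact qr_ring.add_mem hf' hg'
  rw [sym_psiFun_eq h2, sym_psiFun_eq hf', sym_psiFun_eq hg', sym_psiAt, sym_psiAt, sym_psiAt,
    h1, qr_qExpansion_add hf' hg', map_add, mul_add]

/-- **the Laurent `q`-expansion**. -/
def sym_psi : sym_R1 →+* LaurentSeries ℂ where
  toFun f := sym_psiFun (f : ℍ → ℂ)
  map_one' := by
    have h := sym_psiFun_of_qr qr_ring.one_mem
    rw [qExpansion_one, map_one] at h
    exact h
  map_mul' f g := sym_psiFun_mul f.2 g.2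
  map_zero' := by
    have h := sym_psiFun_of_qr qr_ring.zero_mem
    rw [qExpansion_zero, map_zero] at h
    exact h
  map_add' f g := sym_psiFun_add f.2 g.2

theorem sym_psi_apply (f : sym_R1) : sym_psi f = sym_psiFun (f : ℍ → ℂ) := rfl

theorem sym_psi_of_qr {F : ℍ → ℂ} (hF : F ∈ qr_ring) :
    sym_psi ⟨F, sym_qr_le_R1 hF⟩ = HahnSeries.ofPowerSeries ℤ ℂ (qExpansion 1 F) :=
  sym_psiFun_of_qr hF

theorem sym_psi_injective : Function.Injective sym_psi := by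
  rw [injective_iff_map_eq_zero]
  rintro ⟨f, m, hm⟩ h0
  rw [sym_psi_apply, sym_psiFun_eq hm, sym_psiAt] at h0
  have h1 : HahnSeries.ofPowerSeries ℤ ℂ (qExpansion 1 (fun τ : ℍ => Δ τ ^ m * f τ)) = 0 := by
    rcases mul_eq_zero.mp h0 with h | h
    · exact absurd h (pow_ne_zero _ (inv_ne_zero sym_D_ne_zero))
    · exact h
  have h2 : qExpansion 1 (fun τ : ℍ => Δ τ ^ m * f τ) = 0 := by
    apply HahnSeries.ofPowerSeries_injective (Γ := ℤ) (R := ℂ)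
    rw [h1, map_zero]
  have h3 := (qr_qExpansion_eq_zero_iff hm).mp h2
  apply Subtype.ext
  funext τ
  have h4 := congrFun h3 τ
  simp only [Pi.zero_apply] at h4
  rcases mul_eq_zero.mp h4 with h | h
  · exact absurd h (pow_ne_zero _ (ord_disc_ne_zero τ))
  · exact h

theorem sym_psi_const (c : ℂ) :
    sym_psi ⟨fun _ : ℍ => c, sym_qr_le_R1 (qr_const_mem c)⟩ = HahnSeries.C c := by
  rw [sym_psi_of_qr (qr_const_mem c), qr_qExpansion_const, HahnSeries.ofPowerSeries_C]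

/-- the expansion of `τ ↦ J (d τ)` is `qExpand d jq`. -/
theorem sym_psi_Jd (d : ℕ) [NeZero d] (h : distJN d (NeZero.pos d) ∈ sym_R1) :
    sym_psi ⟨distJN d (NeZero.pos d), h⟩
      = ModularCurve.coeffEmb ℂ (ModularCurve.qExpand ℚ d ModularCurve.jq) := by
  have hΔd := br_disc_d_mem d (NeZero.pos d)
  have hEd := br_E4_d_mem d (NeZero.pos d)
  have h1 : (⟨distJN d (NeZero.pos d), h⟩ : sym_R1)
      * ⟨fun τ => Δ (pe_mulN d (NeZero.pos d) τ), sym_qr_le_R1 hΔd⟩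
      = ⟨fun τ => E₄ (pe_mulN d (NeZero.pos d) τ), sym_qr_le_R1 hEd⟩ ^ 3 := by
    apply Subtype.ext
    funext τ
    exact ord_J_mul_disc _
  have h2 := congrArg sym_psi h1
  rw [map_mul, map_pow, sym_psi_of_qr hΔd, sym_psi_of_qr hEd, ← map_pow, ← br_jqd_spec d] at h2
  have h3 : HahnSeries.ofPowerSeries ℤ ℂ
      (qExpansion 1 (fun τ => Δ (pe_mulN d (NeZero.pos d) τ))) ≠ 0 := by
    intro h0
    apply br_qExpansion_disc_d_ne_zero d (NeZero.pos d)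
    apply HahnSeries.ofPowerSeries_injective (Γ := ℤ) (R := ℂ)
    rw [h0, map_zero]
  rw [mul_comm] at h2
  exact mul_left_cancel₀ h3 h2

end Fermat.Agent.S24
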