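import Mathlib
import Fermat.Prelude.Def_ModularCurve_X0
import Fermat.Prelude.Def_ModularCurve_LaurentCoeff
import Fermat.Agent.S24.SymLD
import Fermat.Agent.S24.SymCore
import Fermat.Agent.S24.SymPsi

/-!
# S24, package ANA-SYM: the algebraic relation over `K`

For every polynomial expression `a` in the formal series `j_d = qExpand d jq` (`d ∣ N`) with
coefficients in a field `K ⊆ ℂ` there are polynomials `B ≠ 0`, `G i` over `K` with
`a * B(j) + ∑ i < n, j_N ^ i * G i (j) = 0`, `n = |SL(2,ℤ) ⧸ Γ₀(N)|`.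
-/

set_option autoImplicit false

noncomputable section

namespace Fermat.Agent.S24

open UpperHalfPlane hiding I
open Filter Function Topology ModularForm Complex
open scoped Manifold MatrixGroups ModularForm Real CongruenceSubgroup
open CongruenceSubgroup ModularCurve
open Fermat.Agent.S23

local notation "Δ" => ModularForm.discriminant

/-- index type of the generators `j_d`, `d ∣ N`. -/
abbrev symI (N : ℕ) : Type := {d : ℕ // d ∈ N.divisors}

theorem symI_pos {N : ℕ} (d : symI N) : 0 < d.1 := Nat.pos_of_mem_divisors d.2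

theorem symI_dvd {N : ℕ} (d : symI N) : d.1 ∣ N := Nat.dvd_of_mem_divisors d.2

/-- the formal generator `j_d` with coefficients in `L`. -/
def sym_jd (L : Type*) [Field L] [Algebra ℚ L] {N : ℕ} (d : symI N) : LaurentSeries L :=
  haveI : NeZero d.1 := ⟨(symI_pos d).ne'⟩
  coeffEmb L (qExpand ℚ d.1 jq)

/-- the analytic generator `τ ↦ J (d τ)`. -/
def sym_Jd {N : ℕ} (d : symI N) : sym_ring N :=
  ⟨distJN d.1 (symI_pos d), sym_JN_mem (symI_pos d) (symI_dvd d)⟩

/-- constants. -/
def sym_cst {K : Type*} [Field K] (ι : K →+* ℂ) (N : ℕ) : K →+* sym_ring N where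
  toFun c := ⟨fun _ : ℍ => ι c, sym_const_mem_ring N (ι c)⟩
  map_one' := by
    apply Subtype.ext
    funext τ
    simp
  map_mul' a b := by
    apply Subtype.ext
    funext τ
    simp
  map_zero' := by
    apply Subtype.ext
    funext τ
    simp
  map_add' a b := by
    apply Subtype.ext
    funext τ
    simp

/-- the Laurent expansion on `sym_ring N`. -/
def sym_psiN (N : ℕ) : sym_ring N →+* LaurentSeries ℂ :=
  sym_psi.comp (Subring.inclusion (fun _ hf => sym_ring_le_R1 hf))

theorem sym_psiN_apply {N : ℕ} (f : sym_ring N) :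
    sym_psiN N f = sym_psi ⟨(f : ℍ → ℂ), sym_ring_le_R1 f.2⟩ := rfl

theorem sym_psiN_injective (N : ℕ) : Function.Injective (sym_psiN N) := by
  intro f g h
  rw [sym_psiN_apply, sym_psiN_apply] at h
  have := sym_psi_injective h
  exact Subtype.ext (congrArg (fun x : sym_R1 => (x : ℍ → ℂ)) this)

theorem sym_psiN_cst {K : Type*} [Field K] (ι : K →+* ℂ) (N : ℕ) (c : K) :
    sym_psiN N (sym_cst ι N c) = HahnSeries.C (ι c) :=
  sym_psi_const (ι c)

theorem sym_psiN_Jd {N : ℕ} (d : symI N) : sym_psiN N (sym_Jd d) = sym_jd ℂ d := by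
  haveI : NeZero d.1 := ⟨(symI_pos d).ne'⟩
  exact sym_psi_Jd d.1 _

/-- base change of the formal generators. -/
theorem sym_coeffMap_jd {K : Type*} [Field K] [Algebra ℚ K] (ι : K →+* ℂ) {N : ℕ} (d : symI N) :
    coeffMap ι (sym_jd K d) = sym_jd ℂ d := by
  unfold sym_jd coeffEmb
  rw [coeffMap_coeffMap]
  exact coeffMap_congr (Subsingleton.elim _ _) _

theorem sym_coeffMap_algebraMap {K : Type*} [Field K] (ι : K →+* ℂ) (c : K) :
    coeffMap ι (algebraMap K (LaurentSeries K) c) = HahnSeries.C (ι c) := by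
  rw [algebraMap_laurentSeries_eq_single, coeffMap_single]
  rfl

/-- the formal evaluation of polynomial expressions. -/
def sym_piL (K : Type*) [Field K] [Algebra ℚ K] (N : ℕ) :
    MvPolynomial (symI N) K →+* LaurentSeries K :=
  (MvPolynomial.aeval (sym_jd K (N := N))).toRingHom

/-- the analytic evaluation of polynomial expressions. -/
def sym_piAn {K : Type*} [Field K] (ι : K →+* ℂ) (N : ℕ) :
    MvPolynomial (symI N) K →+* sym_ring N :=
  MvPolynomial.eval₂Hom (sym_cst ι N) (sym_Jd (N := N))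

/-- **compatibility**: the Laurent expansion of the analytic evaluation is the base change of the
formal evaluation. -/
theorem sym_compat {K : Type*} [Field K] [Algebra ℚ K] (ι : K →+* ℂ) (N : ℕ)
    (p : MvPolynomial (symI N) K) :
    sym_psiN N (sym_piAn ι N p) = coeffMap ι (sym_piL K N p) := by
  have h : (sym_psiN N).comp (sym_piAn ι N) = (coeffMap ι).comp (sym_piL K N) := by
    apply MvPolynomial.ringHom_ext
    · intro c
      simp only [RingHom.comp_apply, sym_piAn, sym_piL, MvPolynomial.eval₂Hom_C,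
        AlgHom.toRingHom_eq_coe, RingHom.coe_coe, MvPolynomial.aeval_C]
      rw [sym_psiN_cst, sym_coeffMap_algebraMap]
    · intro d
      simp only [RingHom.comp_apply, sym_piAn, sym_piL, MvPolynomial.eval₂Hom_X',
        AlgHom.toRingHom_eq_coe, RingHom.coe_coe, MvPolynomial.aeval_X]
      rw [sym_psiN_Jd, sym_coeffMap_jd]
  exact congrArg (fun φ => φ p) h

/-! ### descent of polynomial relations -/

section LDPoly

variable {K L : Type*} [Field K] [Field L]

theorem sym_coeffMap_aeval (ι : K →+* L) (x : LaurentSeries K) (P : Polynomial K) :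
    coeffMap ι (Polynomial.aeval x P) = Polynomial.aeval (coeffMap ι x) (P.map ι) := by
  apply Polynomial.map_aeval_eq_aeval_map
  apply RingHom.ext
  intro c
  simp only [RingHom.comp_apply]
  rw [algebraMap_laurentSeries_eq_single, algebraMap_laurentSeries_eq_single, coeffMap_single]

theorem sym_smul_eq (r : L) (y : LaurentSeries L) :
    r • y = algebraMap L (LaurentSeries L) r * y := by
  rw [algebraMap_laurentSeries_eq_single]
  exact HahnSeries.C_mul_eq_smul.symm

theorem sym_sum_fin_coeff {R A : Type*} [CommRing R] [CommRing A] [Algebra R A] (x : A)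
    (P : Polynomial R) (M : ℕ) (hM : P.natDegree ≤ M) :
    ∑ k : Fin (M + 1), P.coeff (k : ℕ) • x ^ (k : ℕ) = Polynomial.aeval x P := by
  rw [Polynomial.aeval_eq_sum_range' (Nat.lt_succ_of_le hM),
    ← Fin.sum_univ_eq_sum_range (fun i => P.coeff i • x ^ i)]

theorem sym_aeval_fin {R A : Type*} [CommRing R] [CommRing A] [Algebra R A] (x : A) (M : ℕ)
    (g : Fin (M + 1) → R) :
    Polynomial.aeval x (∑ k : Fin (M + 1), Polynomial.C (g k) * Polynomial.X ^ (k : ℕ))
      = ∑ k : Fin (M + 1), g k • x ^ (k : ℕ) := by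
  simp [map_sum, Algebra.smul_def]

theorem sym_coeff_fin {R : Type*} [CommRing R] (M : ℕ) (g : Fin (M + 1) → R) (m : Fin (M + 1)) :
    (∑ k : Fin (M + 1), Polynomial.C (g k) * Polynomial.X ^ (k : ℕ)).coeff (m : ℕ) = g m := by
  classical
  rw [Polynomial.finsetSum_coeff]
  simp only [Polynomial.coeff_C_mul_X_pow]
  rw [Finset.sum_eq_single m]
  · simp
  · intro b _ hb
    rw [if_neg]
    intro h
    exact hb (Fin.ext h.symm)
  · simp

/-- a nontrivial relation `∑ u_o P_o(x) = 0` with polynomials over the big field gives a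
nontrivial relation with polynomials over the small field. -/
theorem sym_ld_poly (ι : K →+* L) {J : Type*} [Fintype J] (u : J → LaurentSeries K)
    (x : LaurentSeries K) (P : J → Polynomial L)
    (hP : ∑ o, coeffMap ι (u o) * Polynomial.aeval (coeffMap ι x) (P o) = 0)
    (o₀ : J) (ho₀ : P o₀ ≠ 0) :
    ∃ P' : J → Polynomial K, ∑ o, u o * Polynomial.aeval x (P' o) = 0 ∧ ∃ o, P' o ≠ 0 := by
  classical
  have hle : ∀ o, (P o).natDegree ≤ Finset.univ.sup (fun o => (P o).natDegree) := fun o =>
    Finset.le_sup (f := fun o => (P o).natDegree) (Finset.mem_univ o)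
  generalize Finset.univ.sup (fun o => (P o).natDegree) = M at hle
  let v : J × Fin (M + 1) → LaurentSeries K := fun i => u i.1 * x ^ (i.2 : ℕ)
  let c : J × Fin (M + 1) → L := fun i => (P i.1).coeff (i.2 : ℕ)
  have hc : ∑ i, c i • coeffMap ι (v i) = 0 := by
    rw [Fintype.sum_prod_type, ← hP]
    refine Finset.sum_congr rfl fun o _ => ?_
    rw [← sym_sum_fin_coeff (coeffMap ι x) (P o) M (hle o), Finset.mul_sum]
    refine Finset.sum_congr rfl fun k _ => ?_
    simp only [v, c, map_mul, map_pow]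
    rw [sym_smul_eq, Algebra.smul_def]
    ring
  have hne : c (o₀, ⟨(P o₀).natDegree, Nat.lt_succ_of_le (hle o₀)⟩) ≠ 0 := by
    simpa [c] using ho₀
  obtain ⟨g, hg, i, hi⟩ := sym_ld_relation ι v c hc _ hne
  refine ⟨fun o => ∑ k : Fin (M + 1), Polynomial.C (g (o, k)) * Polynomial.X ^ (k : ℕ), ?_,
    i.1, ?_⟩
  · rw [← hg, Fintype.sum_prod_type]
    refine Finset.sum_congr rfl fun o _ => ?_
    rw [sym_aeval_fin, Finset.mul_sum]
    refine Finset.sum_congr rfl fun k _ => ?_
    simp only [v]
    rw [sym_smul_eq, Algebra.smul_def]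
    ring
  · intro h
    apply hi
    have := congrArg (fun p => p.coeff (i.2 : ℕ)) h
    simp only [Polynomial.coeff_zero] at this
    rw [sym_coeff_fin M (fun k => g (i.1, k)) i.2] at this
    exact this

end LDPoly

/-! ### the relation over `K` -/

/-- the index of `j`. -/
def symI_one (N : ℕ) [NeZero N] : symI N := ⟨1, Nat.one_mem_divisors.mpr (NeZero.ne N)⟩

/-- the index of `j_N`. -/
def symI_top (N : ℕ) [NeZero N] : symI N := ⟨N, Nat.mem_divisors_self N (NeZero.ne N)⟩

theorem sym_jd_one (L : Type*) [Field L] [Algebra ℚ L] (N : ℕ) [NeZero N] :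
    sym_jd L (symI_one N) = coeffEmb L jq := by
  unfold sym_jd symI_one
  simp only
  rw [qExpand_one_apply]

theorem sym_Jd_one_apply (N : ℕ) [NeZero N] (τ : ℍ) :
    (sym_Jd (symI_one N) : ℍ → ℂ) τ = ord_J τ := by
  show distJN 1 _ τ = ord_J τ
  exact br_Jd_one τ

theorem sym_Jd_top_apply (N : ℕ) [NeZero N] (τ : ℍ) :
    (sym_Jd (symI_top N) : ℍ → ℂ) τ = distJN N (NeZero.pos N) τ := rfl

/-- evaluation of polynomials at `J`, in `sym_ring N`. -/
def sym_evJN (N : ℕ) [NeZero N] : Polynomial ℂ →+* sym_ring N :=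
  Polynomial.eval₂RingHom (sym_cst (RingHom.id ℂ) N) (sym_Jd (symI_one N))

theorem sym_evJN_apply (N : ℕ) [NeZero N] (P : Polynomial ℂ) (τ : ℍ) :
    (sym_evJN N P : ℍ → ℂ) τ = P.eval (ord_J τ) := by
  have h : ((Pi.evalRingHom (fun _ : ℍ => ℂ) τ).comp ((sym_ring N).subtype)).comp (sym_evJN N)
      = Polynomial.evalRingHom (ord_J τ) := by
    apply Polynomial.ringHom_ext
    · intro a
      simp [sym_evJN, sym_cst]
    · simp [sym_evJN, sym_Jd_one_apply]
  exact congrArg (fun φ => φ P) h

theorem sym_psiN_evJN (N : ℕ) [NeZero N] (P : Polynomial ℂ) :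
    sym_psiN N (sym_evJN N P) = Polynomial.aeval (sym_jd ℂ (symI_one N)) P := by
  have h : (sym_psiN N).comp (sym_evJN N)
      = (Polynomial.aeval (sym_jd ℂ (symI_one N)) : Polynomial ℂ →ₐ[ℂ] LaurentSeries ℂ).toRingHom := by
    apply Polynomial.ringHom_ext
    · intro a
      simp only [RingHom.comp_apply, sym_evJN, Polynomial.coe_eval₂RingHom, Polynomial.eval₂_C,
        AlgHom.toRingHom_eq_coe, RingHom.coe_coe, Polynomial.aeval_C]
      rw [sym_psiN_cst, algebraMap_laurentSeries_eq_single]
      rfl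
    · simp only [RingHom.comp_apply, sym_evJN, Polynomial.coe_eval₂RingHom, Polynomial.eval₂_X,
        AlgHom.toRingHom_eq_coe, RingHom.coe_coe, Polynomial.aeval_X]
      rw [sym_psiN_Jd]
  exact congrArg (fun φ => φ P) h

/-- the analytic relation, pushed to Laurent series over `ℂ`. -/
theorem sym_rel_C {K : Type*} [Field K] [Algebra ℚ K] (ι : K →+* ℂ) (N : ℕ) [NeZero N]
    (p : MvPolynomial (symI N) K) :
    ∃ (B : Polynomial ℂ) (G : Fin (Fintype.card (s24Q N)) → Polynomial ℂ), B ≠ 0 ∧
      Polynomial.aeval (sym_jd ℂ (symI_one N)) B * coeffMap ι (sym_piL K N p)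
        = ∑ i : Fin (Fintype.card (s24Q N)), sym_jd ℂ (symI_top N) ^ (i : ℕ) * Polynomial.aeval (sym_jd ℂ (symI_one N)) (G i) := by
  obtain ⟨B, G, hB, hrel⟩ := sym_core_JN (sym_piAn ι N p).2
  refine ⟨B, G, hB, ?_⟩
  have h1 : sym_evJN N B * sym_piAn ι N p
      = ∑ i : Fin (Fintype.card (s24Q N)), sym_Jd (symI_top N) ^ (i : ℕ) * sym_evJN N (G i) := by
    apply (sym_ring N).subtype_injective
    rw [map_mul, map_sum]
    funext τ
    simp only [Subring.subtype_apply, Pi.mul_apply, Finset.sum_apply, map_mul, map_pow,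
      Pi.pow_apply, sym_evJN_apply, sym_Jd_top_apply]
    exact hrel τ
  have h2 := congrArg (sym_psiN N) h1
  rw [map_mul, map_sum, sym_psiN_evJN, sym_compat] at h2
  rw [h2]
  refine Finset.sum_congr rfl fun i _ => ?_
  rw [map_mul, map_pow, sym_psiN_Jd, sym_psiN_evJN]

/-- independence of the powers of `j_N` over `ℂ[j]`, formal version. -/
theorem sym_vdm_formal {K : Type*} [Field K] [Algebra ℚ K] (ι : K →+* ℂ) (N : ℕ) [NeZero N]
    (G : Fin (Fintype.card (s24Q N)) → Polynomial K)
    (h : ∑ i : Fin (Fintype.card (s24Q N)), sym_jd K (symI_top N) ^ (i : ℕ) * Polynomial.aeval (sym_jd K (symI_one N)) (G i)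
      = 0) :
    ∀ i, G i = 0 := by
  have h1 := congrArg (coeffMap ι) h
  rw [map_sum, map_zero] at h1
  have h2 : sym_psiN N (∑ i : Fin (Fintype.card (s24Q N)), sym_Jd (symI_top N) ^ (i : ℕ) * sym_evJN N ((G i).map ι)) = 0 := by
    rw [map_sum, ← h1]
    refine Finset.sum_congr rfl fun i _ => ?_
    rw [map_mul, map_pow, sym_psiN_Jd, sym_psiN_evJN, map_mul, map_pow, sym_coeffMap_jd,
      sym_coeffMap_aeval, sym_coeffMap_jd]
  have h3 := sym_psiN_injective N (h2.trans (map_zero _).symm)
  have h4 : ∀ τ : ℍ, ∑ i : Fin (Fintype.card (s24Q N)),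
      distJN N (NeZero.pos N) τ ^ (i : ℕ) * ((G i).map ι).eval (ord_J τ) = 0 := by
    intro τ
    have := congrFun (congrArg (sym_ring N).subtype h3) τ
    rw [map_sum] at this
    simpa only [Subring.subtype_apply, Pi.mul_apply, Finset.sum_apply, map_mul, map_pow,
      Pi.pow_apply, sym_evJN_apply, sym_Jd_top_apply, map_zero, Pi.zero_apply] using this
  intro i
  have := sym_vdm _ h4 i
  exact Polynomial.map_injective ι ι.injective (this.trans (Polynomial.map_zero ι).symm)

/-- **the relation over `K`**: every polynomial expression `a` in the `j_d` satisfies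
`a * B(j) + ∑ i < n, j_N ^ i * G i (j) = 0` with `B ≠ 0`, `G i` polynomials over `K`. -/
theorem sym_rel {K : Type*} [Field K] [Algebra ℚ K] (ι : K →+* ℂ) (N : ℕ) [NeZero N]
    (p : MvPolynomial (symI N) K) :
    ∃ (B : Polynomial K) (G : Fin (Fintype.card (s24Q N)) → Polynomial K), B ≠ 0 ∧
      sym_piL K N p * Polynomial.aeval (sym_jd K (symI_one N)) B
        + ∑ i : Fin (Fintype.card (s24Q N)), sym_jd K (symI_top N) ^ (i : ℕ)
            * Polynomial.aeval (sym_jd K (symI_one N)) (G i) = 0 := by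
  classical
  obtain ⟨B, G, hB, hrel⟩ := sym_rel_C ι N p
  let u : Option (Fin (Fintype.card (s24Q N))) → LaurentSeries K := fun o =>
    Option.elim o (sym_piL K N p) (fun i => sym_jd K (symI_top N) ^ (i : ℕ))
  let P : Option (Fin (Fintype.card (s24Q N))) → Polynomial ℂ := fun o =>
    Option.elim o B (fun i => - G i)
  have hP : ∑ o, coeffMap ι (u o) * Polynomial.aeval (coeffMap ι (sym_jd K (symI_one N))) (P o)
      = 0 := by
    rw [Fintype.sum_option]
    simp only [u, P, Option.elim_none, Option.elim_some, map_pow, sym_coeffMap_jd, map_neg,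
      mul_neg, Finset.sum_neg_distrib]
    rw [mul_comm, hrel, add_neg_cancel]
  obtain ⟨P', hP', o, ho⟩ := sym_ld_poly ι u (sym_jd K (symI_one N)) P hP none hB
  rw [Fintype.sum_option] at hP'
  simp only [u, Option.elim_none, Option.elim_some] at hP'
  refine ⟨P' none, fun i => P' (some i), ?_, hP'⟩
  intro hB'
  rw [hB', map_zero, mul_zero, zero_add] at hP'
  have hG := sym_vdm_formal ι N (fun i => P' (some i)) hP'
  cases o with
  | none => exact ho hB'
  | some i => exact ho (hG i)

end Fermat.Agent.S24
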