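import Fermat.Agent.S24.Hol
import Fermat.Agent.S24.Ord

/-!
# S24, package ANA-HOL (part 2): the function `J` in `hol_ring` and its orders

* `hol_J : hol_ring` : the function `ord_J`;
* `hol_act_J` : invariance under `SL(2, ℤ)`;
* `hol_val_J_zero`, `hol_val_J_1728`, `hol_val_J_generic` : the valuation of `J - J τ₀` at `τ₀`
  is `exp (-3)`, `exp (-2)`, `exp (-1)`.
-/

set_option autoImplicit false

open UpperHalfPlane Complex Filter Topology
open scoped MatrixGroups Manifold

namespace Fermat.Agent.S24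

/-- The function `J`, as a holomorphic function on `ℍ`. -/
noncomputable def hol_J : hol_ring := ⟨ord_J, ord_mdiff_J⟩

@[simp] theorem hol_J_apply (τ : ℍ) : (hol_J : ℍ → ℂ) τ = ord_J τ := rfl

theorem hol_comp_J (γ : SL(2, ℤ)) : hol_comp γ hol_J = hol_J :=
  hol_ext fun τ => by
    rw [hol_comp_apply]
    exact ord_J_smul γ τ

/-- `J`, as a meromorphic function. -/
noncomputable def hol_JMer : hol_Mer := algebraMap hol_ring hol_Mer hol_J

theorem hol_act_J (γ : SL(2, ℤ)) : hol_act γ hol_JMer = hol_JMer := by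
  rw [hol_JMer, hol_act_algebraMap, hol_comp_J]

theorem hol_J_sub_apply (c : ℂ) (τ : ℍ) :
    ((hol_J - hol_const c : hol_ring) : ℍ → ℂ) τ = ord_J τ - c := rfl

theorem hol_J_sub_ne_zero (c : ℂ) : hol_J - hol_const c ≠ 0 := by
  rw [hol_ne_zero_iff]
  obtain ⟨τ, hτ⟩ := ord_J_surjective (c + 1)
  refine ⟨τ, ?_⟩
  rw [hol_J_sub_apply, hτ]
  simp

theorem hol_J_sub_comp (c : ℂ) :
    (((hol_J - hol_const c : hol_ring) : ℍ → ℂ) ∘ ofComplex)
      = fun z : ℂ => ord_J (ofComplex z) - c := rfl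

theorem hol_ord_J_sub_of_order (c : ℂ) (τ : ℍ) (n : ℕ)
    (h : analyticOrderAt (fun z : ℂ => ord_J (ofComplex z) - c) (τ : ℂ) = n) :
    hol_ord τ (hol_J - hol_const c) = n := by
  unfold hol_ord analyticOrderNatAt
  rw [hol_J_sub_comp, h]
  rfl

theorem hol_val_J_sub_of_order (c : ℂ) (τ : ℍ) (n : ℕ)
    (h : analyticOrderAt (fun z : ℂ => ord_J (ofComplex z) - c) (τ : ℂ) = n) :
    hol_val τ (hol_JMer - hol_constMer c) = WithZero.exp (-(n : ℤ)) := by
  have e : hol_JMer - hol_constMer c = algebraMap hol_ring hol_Mer (hol_J - hol_const c) := by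
    rw [map_sub]
    rfl
  rw [e, hol_val_algebraMap', hol_val₀_apply _ _ (hol_J_sub_ne_zero c),
    hol_ord_J_sub_of_order c τ n h]

/-- The valuation of `J - c` at `τ` in terms of the analytic order. -/
theorem hol_val_J_sub (c : ℂ) (τ : ℍ) :
    hol_val τ (hol_JMer - hol_constMer c)
      = WithZero.exp
          (-(analyticOrderNatAt (fun z : ℂ => ord_J (ofComplex z) - c) (τ : ℂ) : ℤ)) := by
  have e : hol_JMer - hol_constMer c = algebraMap hol_ring hol_Mer (hol_J - hol_const c) := by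
    rw [map_sub]
    rfl
  rw [e, hol_val_algebraMap _ _ (hol_J_sub_ne_zero c), hol_J_sub_comp]

/-- At a zero of `J`, the valuation of `J` is `exp (-3)`. -/
theorem hol_val_J_zero (τ : ℍ) (h : ord_J τ = 0) :
    hol_val τ hol_JMer = WithZero.exp (-(3 : ℤ)) := by
  have h3 : analyticOrderAt (fun z : ℂ => ord_J (ofComplex z) - 0) (τ : ℂ) = (3 : ℕ) := by
    simp only [sub_zero]
    exact ord_analyticOrderAt_zero τ h
  have := hol_val_J_sub_of_order 0 τ 3 h3
  simpa using this

/-- At a point where `J = 1728`, the valuation of `J - 1728` is `exp (-2)`. -/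
theorem hol_val_J_1728 (τ : ℍ) (h : ord_J τ = 1728) :
    hol_val τ (hol_JMer - hol_constMer 1728) = WithZero.exp (-(2 : ℤ)) := by
  have h2 : analyticOrderAt (fun z : ℂ => ord_J (ofComplex z) - 1728) (τ : ℂ) = (2 : ℕ) :=
    ord_analyticOrderAt_1728 τ h
  exact hol_val_J_sub_of_order 1728 τ 2 h2

/-- At a point where `J ≠ 0, 1728`, the valuation of `J - J τ` is `exp (-1)`. -/
theorem hol_val_J_generic (τ : ℍ) (h0 : ord_J τ ≠ 0) (h1 : ord_J τ ≠ 1728) :
    hol_val τ (hol_JMer - hol_constMer (ord_J τ)) = WithZero.exp (-(1 : ℤ)) := by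
  have h2 : analyticOrderAt (fun z : ℂ => ord_J (ofComplex z) - ord_J τ) (τ : ℂ) = (1 : ℕ) :=
    ord_analyticOrderAt_generic τ h0 h1
  exact hol_val_J_sub_of_order (ord_J τ) τ 1 h2

/-- The valuation at a fixed point of `γ` is invariant under the action of `γ`. -/
theorem hol_val_act_of_fix (γ : SL(2, ℤ)) (τ : ℍ) (hfix : γ • τ = τ) (x : hol_Mer) :
    hol_val τ (hol_act γ x) = hol_val τ x := by
  rw [hol_val_act, hfix]

theorem hol_val_act_zpow_of_fix (γ : SL(2, ℤ)) (τ : ℍ) (hfix : γ • τ = τ) (k : ℤ) (x : hol_Mer) :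
    hol_val τ (hol_act (γ ^ k) x) = hol_val τ x := by
  apply hol_val_act_of_fix
  have hmem : γ ∈ MulAction.stabilizer SL(2, ℤ) τ := hfix
  exact (MulAction.stabilizer SL(2, ℤ) τ).zpow_mem hmem k

end Fermat.Agent.S24
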