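import Fermat.Agent.S24.AnaPkg
import Fermat.Agent.S24.AnaTwist
import Fermat.Agent.S24.HolJ

/-!
# S24 — [ANA-DATA]: the analytic package for `M = ana_M N` (prefix `adf_`)

`adf_pkg` : the term of `AdPkg N` from the conjugate embeddings `ρ : s24Q N → (s24F N →+* ana_M N)`
(package EV: equivariance, values on the constants and on `j`; DIST: injectivity; SYM: norms),
the comparison map `ana_M N →+* hol_Mer`, and the stabiliser statements (package STAB).
The cusp half is `atw_valInfty` (package CUSP).
-/

set_option autoImplicit false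

namespace Fermat.Agent.S24

open MulAction Subgroup Function IntermediateField UpperHalfPlane
open scoped MatrixGroups

section

variable (N : ℕ) [NeZero N] (toMer : ana_M N →+* hol_Mer)
  (htoMer : ∀ f : ana_ring N, toMer (algebraMap (ana_ring N) (ana_M N) f)
    = algebraMap hol_ring hol_Mer ⟨(f : ℍ → ℂ), ana_mdiff f⟩)

omit [NeZero N] in
include htoMer in
/-- The comparison map is equivariant. -/
theorem adf_toMer_act (g : SL(2, ℤ)) (m : ana_M N) :
    toMer (ana_act N g m) = hol_act g⁻¹ (toMer m) := by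
  have h : toMer.comp (ana_act N g) = ((hol_act g⁻¹ : hol_Mer ≃+* hol_Mer) : hol_Mer →+* hol_Mer).comp
      toMer := by
    apply ana_ringHom_ext_M
    intro f
    simp only [RingHom.comp_apply, ana_act_algebraMap, htoMer, RingHom.coe_coe,
      hol_act_algebraMap]
    rfl
  exact congrArg (fun φ : ana_M N →+* hol_Mer => φ m) h

omit [NeZero N] in
include htoMer in
/-- The comparison map on constants. -/
theorem adf_toMer_const (c : ℂ) :
    toMer (algebraMap (ana_ring N) (ana_M N) (ana_const N c)) = hol_constMer c := by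
  rw [htoMer]
  rfl

omit [NeZero N] in
include htoMer in
/-- The comparison map on `J`. -/
theorem adf_toMer_J (f : ana_ring N) (hf : (f : ℍ → ℂ) = ord_J) :
    toMer (algebraMap (ana_ring N) (ana_M N) f) = algebraMap hol_ring hol_Mer ad_J := by
  rw [htoMer]
  congr 1
  exact Subtype.ext hf

/-- **The analytic package.** -/
noncomputable def adf_pkg
    (ρ : s24Q N → (s24F N →+* ana_M N))
    (hsmul : ∀ (g : SL(2, ℤ)) (q : s24Q N), ρ (g • q) = (ana_act N g).comp (ρ q))
    (hinj : Function.Injective ρ)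
    (hK : ∀ (q : s24Q N) (a : s24K), ρ q (algebraMap s24K (s24F N) a)
      = algebraMap (ana_ring N) (ana_M N) (ana_const N (ana_iota a)))
    (hj : ∀ q : s24Q N, ∃ f : ana_ring N, (f : ℍ → ℂ) = ord_J ∧
      ρ q (s24j N) = algebraMap (ana_ring N) (ana_M N) f)
    (hnorm : ∀ f : s24F N, ∃ g ∈ s24K⟮s24j N⟯, ∀ q, ρ q g = ∏ q', ρ q' f)
    (hstabS : ∀ x : hol_Mer, x ≠ 0 → hol_act ModularGroup.S x = x →
      ∃ k : ℤ, hol_val UpperHalfPlane.I x = WithZero.exp (k * ((2 : ℕ) : ℤ)))
    (hstabST : ∀ x : hol_Mer, x ≠ 0 → hol_act (ModularGroup.S * ModularGroup.T) x = x →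
      ∃ k : ℤ, hol_val ord_rho x = WithZero.exp (k * ((3 : ℕ) : ℤ))) :
    AdPkg N where
  M := ana_M N
  act := ana_act N
  ρ := ρ
  ρ_smul := hsmul
  ρ_injective := hinj
  ρ_x := by
    intro q q'
    obtain ⟨f, hf, h⟩ := hj q
    obtain ⟨f', hf', h'⟩ := hj q'
    rw [h, h']
    congr 1
    exact Subtype.ext (hf.trans hf'.symm)
  ρ_K := fun q q' a => (hK q a).trans (hK q' a).symm
  norm_mem := hnorm
  ι := ana_iota
  val := ad_val toMer
  val_K := ad_val_K ρ ana_iota toMer
    (fun q a => by rw [hK, adf_toMer_const N toMer htoMer])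
  val_act_fix := ad_val_act_fix (ana_act N) toMer (adf_toMer_act N toMer htoMer)
  val_j_sub := ad_val_j_sub ρ ana_iota toMer
    (fun q a => by rw [hK, adf_toMer_const N toMer htoMer])
    (fun q => by
      obtain ⟨f, hf, h⟩ := hj q
      rw [h, adf_toMer_J N toMer htoMer f hf])
  stab_S := ad_stab (ana_act N) toMer (adf_toMer_act N toMer htoMer) _ _ 2 hstabS
  stab_ST := ad_stab (ana_act N) toMer (adf_toMer_act N toMer htoMer) _ _ 3 hstabST
  valInfty := atw_valInfty N
  valInfty_K := fun q a ha => by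
    rw [hK]
    exact atw_valInfty_const N ((map_ne_zero ana_iota).mpr ha)
  valInfty_j := fun q => by
    obtain ⟨f, hf, h⟩ := hj q
    rw [h]
    exact atw_valInfty_J N f hf
  valInfty_act := fun g hg m => atw_valInfty_act N g hg m
  valInfty_div := fun s hs m hm hinv => atw_valInfty_div N s hs m hm hinv

end

end Fermat.Agent.S24
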