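import Fermat.Agent.S24.DegGen
import Fermat.Agent.S24.SymRel
import Fermat.Agent.S24.EvAlg
import Fermat.Agent.S24.AnaTrans
import Fermat.Agent.S24.AnaRing

/-!
# S24 — [SYM-DEG] for the modular function field (prefix `deg_`)

`F = K(j_d : d ∣ N)` is finite over `K(j)` of degree at most `[SL(2,ℤ) : Γ₀(N)]`:
the generic algebra step `deg_finite` applied to the relations `sym_rel`.
-/

set_option autoImplicit false

noncomputable section

namespace Fermat.Agent.S24

open ModularCurve IntermediateField Polynomial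

/-- the generators `j_d`, `d ∣ N`, as elements of the function field. -/
def deg_gen (N : ℕ) [NeZero N] (d : symI N) : s24F N :=
  haveI : NeZero d.1 := ⟨(symI_pos d).ne'⟩
  eva_jd N d.1 (symI_dvd d)

theorem deg_gen_coe (N : ℕ) [NeZero N] (d : symI N) :
    ((deg_gen N d : s24F N) : LaurentSeries s24K) = sym_jd s24K d := rfl

theorem deg_j_coe (N : ℕ) [NeZero N] :
    ((s24j N : s24F N) : LaurentSeries s24K) = sym_jd s24K (symI_one N) := by
  rw [sym_jd_one]
  rfl

/-- the function field is generated by the `j_d`. -/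
theorem deg_adjoin_top (N : ℕ) [NeZero N] :
    IntermediateField.adjoin s24K (Set.range (deg_gen N)) = ⊤ := by
  rw [eq_top_iff]
  intro f _
  have hf : (f : LaurentSeries s24K) ∈
      IntermediateField.adjoin s24K (⇑(coeffEmb s24K) '' divisorExpansions N) := by
    rw [← eva_bar_eq_adjoin]
    exact f.2
  have himg : (⇑(coeffEmb s24K) '' divisorExpansions N)
      = (modularFunctionFieldBar N).val '' (Set.range (deg_gen N)) := by
    ext y
    constructor
    · rintro ⟨_, ⟨d, hd0, hd, rfl⟩, rfl⟩
      have hmem : d ∈ N.divisors := Nat.mem_divisors.mpr ⟨hd, NeZero.ne N⟩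
      exact ⟨deg_gen N ⟨d, hmem⟩, ⟨⟨d, hmem⟩, rfl⟩, rfl⟩
    · rintro ⟨_, ⟨d, rfl⟩, rfl⟩
      have hne : NeZero d.1 := ⟨(symI_pos d).ne'⟩
      exact ⟨_, ⟨d.1, hne, symI_dvd d, rfl⟩, rfl⟩
  rw [himg, ← IntermediateField.adjoin_map] at hf
  obtain ⟨g, hg, hgf⟩ := hf
  have : g = f := Subtype.ext hgf
  rw [← this]
  exact hg

/-- the relation, in the function field. -/
theorem deg_rel (N : ℕ) [NeZero N] (a : s24F N)
    (ha : a ∈ Algebra.adjoin s24K (Set.range (deg_gen N))) :
    ∃ (B : s24K[X]) (G : Fin (Fintype.card (s24Q N)) → s24K[X]), aeval (s24j N) B ≠ 0 ∧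
      a * aeval (s24j N) B
        + ∑ i : Fin (Fintype.card (s24Q N)), deg_gen N (symI_top N) ^ (i : ℕ)
            * aeval (s24j N) (G i) = 0 := by
  rw [Algebra.adjoin_range_eq_range_aeval] at ha
  obtain ⟨p, rfl⟩ := ha
  obtain ⟨B, G, hB, hrel⟩ := sym_rel ana_iota N p
  refine ⟨B, G, ?_, ?_⟩
  · intro h0
    exact hB ((transcendental_iff.mp (ana_transcendental N)) B h0)
  · let v : s24F N →+* LaurentSeries s24K := algebraMap (s24F N) (LaurentSeries s24K)
    have hinj : Function.Injective v := v.injective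
    apply hinj
    have h1 : v ((MvPolynomial.aeval (deg_gen N)).toRingHom p) = sym_piL s24K N p := by
      have h := MvPolynomial.comp_aeval_apply (deg_gen N) (modularFunctionFieldBar N).val p
      exact h
    have h2 : ∀ P : s24K[X], v (aeval (s24j N) P) = aeval (sym_jd s24K (symI_one N)) P := by
      intro P
      rw [← deg_j_coe]
      exact (Polynomial.aeval_algHom_apply (modularFunctionFieldBar N).val (s24j N) P).symm
    rw [map_add v, map_mul v, map_sum v, h1, h2, map_zero v]
    rw [← hrel]
    congr 1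
    refine Finset.sum_congr rfl fun i _ => ?_
    rw [map_mul v, map_pow v, h2]
    rfl

/-- **[SYM-DEG]** the function field is finite over `K(j)` of degree at most the index. -/
theorem deg_main (N : ℕ) [NeZero N] :
    FiniteDimensional s24K⟮s24j N⟯ (s24F N) ∧
      Module.finrank s24K⟮s24j N⟯ (s24F N) ≤ Fintype.card (s24Q N) :=
  deg_finite (s24j N) (deg_gen N (symI_top N)) (Fintype.card (s24Q N)) (Set.range (deg_gen N))
    (deg_adjoin_top N) (deg_rel N)

theorem deg_finiteDimensional (N : ℕ) [NeZero N] :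
    FiniteDimensional s24K⟮s24j N⟯ (s24F N) := (deg_main N).1

theorem deg_finrank_le (N : ℕ) [NeZero N] :
    Module.finrank s24K⟮s24j N⟯ (s24F N) ≤ Fintype.card (s24Q N) := (deg_main N).2

end Fermat.Agent.S24

end
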