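import Fermat.Agent.S24.AlgADedekind

/-!
# S24 / ALG-A, part 3: the fundamental identity and principal divisors

`K` algebraically closed of characteristic `0`, `F ⊇ K` a field, `x : F` transcendental over `K`
with `F` finite over `K(x)`.  For `y ∈ F` transcendental over `K`:

* `alg_finite_zeros`, `alg_sum_zeros` : `∑_{v : ord_v (y - a) > 0} ord_v (y - a) = [F : K(y)]`;
* `alg_finite_poles`, `alg_sum_poles` : `∑_{v : ord_v y < 0} (- ord_v y) = [F : K(y)]`;
* `alg_hasPrincipalDivisors`.

Route: `B = ` integral closure of `K[z]` in `F` is a Dedekind domain with fraction field `F`, the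
zeros of `z` are the places of the primes of `B` over `(z)`, with `ord = ` ramification index and
residue degree `1`; conclude with `Ideal.sum_ramification_inertia`.
-/

set_option autoImplicit false
set_option linter.deprecated false
set_option linter.unusedSectionVars false
set_option linter.unusedVariables false
set_option linter.style.haveILetI false

namespace Fermat.Agent.S24

open AlgebraicCurve IntermediateField Polynomial IsDedekindDomain
open scoped IntermediateField.algebraAdjoinAdjoin

section core
variable {K F : Type*} [Field K] [Field F] [Algebra K F]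

/-- `K[z]` is a PID for transcendental `z`. -/
theorem algaz_isPrincipalIdealRing (z : F) (hz : Transcendental K z) :
    IsPrincipalIdealRing (Algebra.adjoin K ({z} : Set F)) :=
  IsPrincipalIdealRing.of_surjective (Polynomial.algEquivOfTranscendental K z hz).toRingEquiv
    (Polynomial.algEquivOfTranscendental K z hz).surjective

theorem algaz_isDedekindDomain (z : F) (hz : Transcendental K z) :
    IsDedekindDomain (Algebra.adjoin K ({z} : Set F)) := by
  have := algaz_isPrincipalIdealRing z hz
  infer_instance

/-- The element `z` of `K[z]`. -/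
def algaz_gen (z : F) : Algebra.adjoin K ({z} : Set F) := ⟨z, Algebra.self_mem_adjoin_singleton K z⟩

theorem algaz_gen_ne_zero (z : F) (hz : Transcendental K z) : algaz_gen (K := K) z ≠ 0 := by
  intro h
  have h1 : z = 0 := congrArg Subtype.val h
  rw [h1] at hz
  exact hz (isAlgebraic_zero)

theorem algaz_prime_gen (z : F) (hz : Transcendental K z) : Prime (algaz_gen (K := K) z) := by
  have h1 : Prime (X : K[X]) := Polynomial.prime_X
  have h2 := (MulEquiv.prime_iff (Polynomial.algEquivOfTranscendental K z hz)).mpr h1
  rw [Polynomial.algEquivOfTranscendental_apply_X K z hz] at h2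
  exact h2

end core

section core2
variable {K F : Type*} [Field K] [Field F] [Algebra K F] [IsAlgClosed K] [CharZero K]

theorem algaz_core (x : F) [FiniteDimensional K⟮x⟯ F] (z : F) (hz : Transcendental K z) :
    {v : Place K F | 0 < v.ord z}.Finite ∧
    ∑ᶠ v ∈ {v : Place K F | 0 < v.ord z}, v.ord z = (Module.finrank K⟮z⟯ F : ℤ) := by
  classical
  have hDed : IsDedekindDomain (Algebra.adjoin K ({z} : Set F)) := algaz_isDedekindDomain z hz
  have hfin : FiniteDimensional K⟮z⟯ F := alga_finiteDimensional_of_transcendental x z hz
  have hchar : CharZero K⟮z⟯ := charZero_of_injective_algebraMap (algebraMap K K⟮z⟯).injective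
  have hsep : Algebra.IsSeparable K⟮z⟯ F := inferInstance
  have hDedB : IsDedekindDomain (integralClosure (Algebra.adjoin K ({z} : Set F)) F) :=
    integralClosure.isDedekindDomain (Algebra.adjoin K ({z} : Set F)) K⟮z⟯ F
  have hFracB : IsFractionRing (integralClosure (Algebra.adjoin K ({z} : Set F)) F) F :=
    integralClosure.isFractionRing_of_finite_extension K⟮z⟯ F
  have hFinB : Module.Finite (Algebra.adjoin K ({z} : Set F))
      (integralClosure (Algebra.adjoin K ({z} : Set F)) F) :=
    IsIntegralClosure.finite (Algebra.adjoin K ({z} : Set F)) K⟮z⟯ F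
      (integralClosure (Algebra.adjoin K ({z} : Set F)) F)
  -- the prime `(z)` of `K[z]`
  have hgen0 : algaz_gen (K := K) z ≠ 0 := algaz_gen_ne_zero z hz
  have hpprime : (Ideal.span {algaz_gen (K := K) z}).IsPrime :=
    (Ideal.span_singleton_prime hgen0).mpr (algaz_prime_gen z hz)
  have hp0 : Ideal.span {algaz_gen (K := K) z} ≠ ⊥ := by
    rw [ne_eq, Ideal.span_singleton_eq_bot]
    exact hgen0
  have hpmax : (Ideal.span {algaz_gen (K := K) z}).IsMaximal := hpprime.isMaximal hp0
  have hA : ∀ v : Place K F,
      0 < v.ord (algebraMap (Algebra.adjoin K ({z} : Set F)) F (algaz_gen (K := K) z)) →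
      ∀ a : Algebra.adjoin K ({z} : Set F),
        algebraMap (Algebra.adjoin K ({z} : Set F)) F a ∈ v.toValuationSubring := by
    intro v hv a
    have hzmem : z ∈ v.toValuationSubring := alga_mem_of_ord_nonneg v hv.le
    have hc : (a : F) ∈ (aeval z : K[X] →ₐ[K] F).range := by
      rw [← Algebra.adjoin_singleton_eq_range_aeval]
      exact a.2
    obtain ⟨q, hq⟩ := hc
    show (a : F) ∈ v.toValuationSubring
    rw [← hq]
    exact alga_aeval_mem v hzmem q
  exact algad_core (K := K) (F := F) K⟮z⟯ (integralClosure (Algebra.adjoin K ({z} : Set F)) F) x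
    (algaz_gen (K := K) z) hgen0 hpmax hA

end core2

section transfer
variable {K F : Type*} [Field K] [Field F] [Algebra K F]

theorem algaz_transcendental_sub {y : F} (hy : Transcendental K y) (a : K) :
    Transcendental K (y - algebraMap K F a) := by
  intro h
  apply hy
  have := h.add (isAlgebraic_algebraMap (R := K) (A := F) a)
  simpa using this

theorem algaz_transcendental_inv {y : F} (hy : Transcendental K y) :
    Transcendental K y⁻¹ := by
  intro h
  apply hy
  have := h.inv
  simpa using this

theorem algaz_adjoin_sub (y : F) (a : K) : K⟮y - algebraMap K F a⟯ = K⟮y⟯ := by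
  apply le_antisymm
  · rw [adjoin_simple_le_iff]
    exact sub_mem (mem_adjoin_simple_self K y) (IntermediateField.algebraMap_mem _ a)
  · rw [adjoin_simple_le_iff]
    have h : (y - algebraMap K F a) + algebraMap K F a ∈ K⟮y - algebraMap K F a⟯ :=
      add_mem (mem_adjoin_simple_self K _) (IntermediateField.algebraMap_mem _ a)
    simpa using h

theorem algaz_adjoin_inv (y : F) : K⟮y⁻¹⟯ = K⟮y⟯ := by
  apply le_antisymm
  · rw [adjoin_simple_le_iff]
    exact inv_mem (mem_adjoin_simple_self K y)
  · rw [adjoin_simple_le_iff]
    have h : (y⁻¹)⁻¹ ∈ K⟮y⁻¹⟯ := inv_mem (mem_adjoin_simple_self K _)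
    simpa using h

theorem algaz_finrank_congr {E₁ E₂ : IntermediateField K F} (h : E₁ = E₂) :
    Module.finrank E₁ F = Module.finrank E₂ F := by
  subst h
  rfl

end transfer

section final

variable {K F : Type*} [Field K] [Field F] [Algebra K F] [IsAlgClosed K] [CharZero K]

/-- [ALG-A3] zeros of `y - a`, `y ∉ K`: finitely many. -/
theorem alg_finite_zeros (x : F) (hx : Transcendental K x) [FiniteDimensional K⟮x⟯ F]
    (y : F) (hy : Transcendental K y) (a : K) :
    {v : Place K F | 0 < v.ord (y - algebraMap K F a)}.Finite :=
  (algaz_core x (y - algebraMap K F a) (algaz_transcendental_sub hy a)).1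

/-- [ALG-A3'] fundamental identity at a finite point. -/
theorem alg_sum_zeros (x : F) (hx : Transcendental K x) [FiniteDimensional K⟮x⟯ F]
    (y : F) (hy : Transcendental K y) (a : K) :
    ∑ᶠ v ∈ {v : Place K F | 0 < v.ord (y - algebraMap K F a)}, v.ord (y - algebraMap K F a)
      = (Module.finrank K⟮y⟯ F : ℤ) := by
  rw [(algaz_core x (y - algebraMap K F a) (algaz_transcendental_sub hy a)).2,
    algaz_finrank_congr (algaz_adjoin_sub y a)]

/-- [ALG-A4] poles of `y`: finitely many. -/
theorem alg_finite_poles (x : F) (hx : Transcendental K x) [FiniteDimensional K⟮x⟯ F]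
    (y : F) (hy : Transcendental K y) :
    {v : Place K F | v.ord y < 0}.Finite := by
  have h := (algaz_core x y⁻¹ (algaz_transcendental_inv hy)).1
  have hset : {v : Place K F | v.ord y < 0} = {v : Place K F | 0 < v.ord y⁻¹} := by
    ext v
    simp only [Set.mem_setOf_eq, Place.ord_inv]
    omega
  rw [hset]
  exact h

/-- [ALG-A4'] fundamental identity at infinity. -/
theorem alg_sum_poles (x : F) (hx : Transcendental K x) [FiniteDimensional K⟮x⟯ F]
    (y : F) (hy : Transcendental K y) :
    ∑ᶠ v ∈ {v : Place K F | v.ord y < 0}, (- v.ord y) = (Module.finrank K⟮y⟯ F : ℤ) := by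
  have h := (algaz_core x y⁻¹ (algaz_transcendental_inv hy)).2
  have hset : {v : Place K F | v.ord y < 0} = {v : Place K F | 0 < v.ord y⁻¹} := by
    ext v
    simp only [Set.mem_setOf_eq, Place.ord_inv]
    omega
  rw [hset, ← algaz_finrank_congr (algaz_adjoin_inv (K := K) y), ← h]
  simp only [Place.ord_inv]

/-- [ALG-A5] principal divisors exist and have degree 0. -/
theorem alg_hasPrincipalDivisors (x : F) (hx : Transcendental K x) [FiniteDimensional K⟮x⟯ F] :
    HasPrincipalDivisors K F := by
  classical
  refine ⟨fun f hf => ?_⟩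
  by_cases halg : IsAlgebraic K f
  · obtain ⟨a, rfl⟩ := alga_mem_range_of_isAlgebraic halg
    refine ⟨0, fun v => ?_, map_zero _⟩
    rw [alga_ord_algebraMap]
    rfl
  · have htr : Transcendental K f := halg
    have hZ : {v : Place K F | 0 < v.ord f}.Finite := by
      have := alg_finite_zeros x hx f htr 0
      simpa using this
    have hZsum : ∑ᶠ v ∈ {v : Place K F | 0 < v.ord f}, v.ord f
        = (Module.finrank K⟮f⟯ F : ℤ) := by
      have := alg_sum_zeros x hx f htr 0
      simpa using this
    have hP := alg_finite_poles x hx f htr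
    have hPsum := alg_sum_poles x hx f htr
    have hsupp : (Function.support fun v : Place K F => v.ord f)
        = {v | 0 < v.ord f} ∪ {v | v.ord f < 0} := by
      ext v
      simp only [Function.mem_support, Set.mem_union, Set.mem_setOf_eq]
      omega
    have hfin : (Function.support fun v : Place K F => v.ord f).Finite := by
      rw [hsupp]
      exact hZ.union hP
    refine ⟨Finsupp.ofSupportFinite (fun v => v.ord f) hfin, fun v => rfl, ?_⟩
    have hdeg : Divisor.degree (Finsupp.ofSupportFinite (fun v : Place K F => v.ord f) hfin)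
        = ∑ v ∈ hfin.toFinset, v.ord f := by
      simp only [Divisor.degree, Finsupp.liftAddHom_apply, Finsupp.sum,
        Finsupp.ofSupportFinite_support]
      refine Finset.sum_congr rfl fun v _ => ?_
      rw [AddMonoidHom.coe_mulRight, alg_deg_eq_one x hx v, Nat.cast_one]
      show (Finsupp.ofSupportFinite (fun v : Place K F => v.ord f) hfin) v * 1 = v.ord f
      rw [mul_one]
      rfl
    have hdisj : Disjoint {v : Place K F | 0 < v.ord f} {v : Place K F | v.ord f < 0} := by
      rw [Set.disjoint_left]
      intro v hv hv'
      simp only [Set.mem_setOf_eq] at hv hv'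
      omega
    rw [hdeg, ← finsum_eq_sum_of_support_subset _ (by simp), ← finsum_mem_support, hsupp,
      finsum_mem_union hdisj hZ hP, hZsum]
    have hneg : ∑ᶠ v ∈ {v : Place K F | v.ord f < 0}, v.ord f
        = - ∑ᶠ v ∈ {v : Place K F | v.ord f < 0}, (- v.ord f) := by
      rw [finsum_mem_neg_distrib (fun v : Place K F => v.ord f) hP, neg_neg]
    rw [hneg, hPsum, add_neg_cancel]

end final
end Fermat.Agent.S24
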