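import Fermat.Agent.S24.Defs

/-!
# S24 / ALG-A, part 1: basic facts on places of a function field in one variable

`K` algebraically closed, `F ⊇ K` a field, `x : F` transcendental over `K` with `F` finite over
`K(x)`.

* `alga_mem_iff` : `f ∈ 𝒪_v ↔ 0 ≤ ord_v f` (for `f ≠ 0`);
* `alg_ord_algebraMap` : places are trivial on `K`;
* `alga_isAlgebraic_of_transcendental`, `alga_finiteDimensional_of_transcendental` :
  `F` is finite over `K(y)` for every transcendental `y`;
* `alga_exists_sub_mem` : the residue field of a place is `K`;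
* `alg_deg_eq_one`, `alg_exists_value`.
-/

set_option autoImplicit false
set_option linter.unusedSectionVars false
set_option linter.unusedVariables false

namespace Fermat.Agent.S24

open AlgebraicCurve IntermediateField Polynomial

section basics

variable {K F : Type*} [Field K] [Field F] [Algebra K F]

/-- Elements of nonnegative order are in the valuation ring. -/
theorem alga_mem_of_ord_nonneg (v : Place K F) {f : F} (h : 0 ≤ v.ord f) :
    f ∈ v.toValuationSubring := by
  rcases eq_or_ne f 0 with rfl | hf
  · exact v.toValuationSubring.zero_mem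
  obtain ⟨π, hπ⟩ := IsDiscreteValuationRing.exists_irreducible v.toValuationSubring
  obtain ⟨u, hu⟩ := v.exists_unit_mul_zpow hf hπ
  rw [hu]
  refine v.toValuationSubring.mul_mem _ _ (u : v.toValuationSubring).2 ?_
  obtain ⟨n, hn⟩ := Int.eq_ofNat_of_zero_le h
  rw [hn, zpow_natCast]
  exact v.toValuationSubring.pow_mem π.2 n

/-- A nonzero element of the valuation ring which is not a unit has positive order; in general
elements of the valuation ring have nonnegative order. -/
theorem alga_ord_nonneg_of_mem (v : Place K F) {f : F} (h : f ∈ v.toValuationSubring) :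
    0 ≤ v.ord f := by
  rcases eq_or_ne f 0 with rfl | hf
  · simp
  obtain ⟨π, hπ⟩ := IsDiscreteValuationRing.exists_irreducible v.toValuationSubring
  obtain ⟨u, hu⟩ := v.exists_unit_mul_zpow hf hπ
  by_contra hneg
  rw [not_le] at hneg
  have hπF : (π : F) ≠ 0 := by
    simpa [ne_eq, ZeroMemClass.coe_eq_zero] using hπ.ne_zero
  obtain ⟨n, hn⟩ := Int.exists_eq_neg_ofNat hneg.le
  have hn0 : n ≠ 0 := by
    rintro rfl
    rw [hn] at hneg
    simp at hneg
  have key : ((u : v.toValuationSubring) : F) = f * (π : F) ^ n := by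
    have h1 : f = ((u : v.toValuationSubring) : F) * ((π : F) ^ n)⁻¹ := by
      rw [hu, hn, zpow_neg, zpow_natCast]
    rw [h1, mul_assoc, inv_mul_cancel₀ (pow_ne_zero n hπF), mul_one]
  have key' : (u : v.toValuationSubring) = ⟨f, h⟩ * π ^ n := Subtype.ext (by simpa using key)
  have hnu : ¬ IsUnit (⟨f, h⟩ * π ^ n : v.toValuationSubring) := by
    intro hu'
    have h1 : IsUnit (π ^ n) := isUnit_of_mul_isUnit_right hu'
    exact hπ.not_isUnit ((isUnit_pow_iff hn0).mp h1)
  exact hnu (key' ▸ u.isUnit)

theorem alga_mem_iff (v : Place K F) {f : F} :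
    f ∈ v.toValuationSubring ↔ 0 ≤ v.ord f :=
  ⟨alga_ord_nonneg_of_mem v, alga_mem_of_ord_nonneg v⟩

/-- `ord_v f = 0` for units of the valuation ring, stated for elements of `F`. -/
theorem alga_ord_eq_zero_of_mem_of_inv_mem (v : Place K F) {f : F}
    (h : f ∈ v.toValuationSubring) (h' : f⁻¹ ∈ v.toValuationSubring) : v.ord f = 0 := by
  have h1 := alga_ord_nonneg_of_mem v h
  have h2 := alga_ord_nonneg_of_mem v h'
  rw [v.ord_inv] at h2
  omega

/-- [ALG-A2] a place is trivial on `K`. -/
theorem alga_ord_algebraMap (v : Place K F) (a : K) : v.ord (algebraMap K F a) = 0 := by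
  refine alga_ord_eq_zero_of_mem_of_inv_mem v (v.algebraMap_mem' a) ?_
  rw [← map_inv₀]
  exact v.algebraMap_mem' a⁻¹

/-- Positive order means: in the valuation ring, nonzero, and the inverse is not. -/
theorem alga_ord_pos_iff (v : Place K F) {f : F} :
    0 < v.ord f ↔ f ∈ v.toValuationSubring ∧ f⁻¹ ∉ v.toValuationSubring := by
  constructor
  · intro h
    refine ⟨alga_mem_of_ord_nonneg v h.le, fun h' => ?_⟩
    have := alga_ord_nonneg_of_mem v h'
    rw [v.ord_inv] at this
    omega
  · rintro ⟨h, h'⟩
    have h1 := alga_ord_nonneg_of_mem v h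
    rcases h1.lt_or_eq with h2 | h2
    · exact h2
    · exfalso
      apply h'
      apply alga_mem_of_ord_nonneg
      rw [v.ord_inv, ← h2, neg_zero]

/-- Strict triangle inequality in the form we need: if `0 < ord f` and `0 < ord g` then
`f + g = 0` or `0 < ord (f + g)`. -/
theorem alga_ord_add_pos (v : Place K F) {f g : F} (hf : 0 < v.ord f) (hg : 0 < v.ord g)
    (hfg : f + g ≠ 0) : 0 < v.ord (f + g) := by
  rw [alga_ord_pos_iff] at hf hg ⊢
  have hf0 : f ≠ 0 := by
    rintro rfl
    exact hf.2 (by simp)
  have hg0 : g ≠ 0 := by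
    rintro rfl
    exact hg.2 (by simp)
  refine ⟨v.toValuationSubring.add_mem _ _ hf.1 hg.1, fun h => ?_⟩
  -- `f, g` are nonunits of the local ring `𝒪_v`, so is `f + g`
  have hfn : (⟨f, hf.1⟩ : v.toValuationSubring) ∈ IsLocalRing.maximalIdeal v.toValuationSubring := by
    rw [IsLocalRing.mem_maximalIdeal, mem_nonunits_iff]
    intro hu
    obtain ⟨u, hu⟩ := hu
    apply hf.2
    have : f⁻¹ = ((u⁻¹ : v.toValuationSubringˣ) : v.toValuationSubring) := by
      rw [eq_comm, ← mul_eq_one_iff_eq_inv₀ hf0]
      have h1 := congrArg (Subtype.val) (u⁻¹.mul_inv)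
      rw [inv_inv, hu] at h1
      simpa using h1
    rw [this]
    exact Subtype.property _
  have hgn : (⟨g, hg.1⟩ : v.toValuationSubring) ∈ IsLocalRing.maximalIdeal v.toValuationSubring := by
    rw [IsLocalRing.mem_maximalIdeal, mem_nonunits_iff]
    intro hu
    obtain ⟨u, hu⟩ := hu
    apply hg.2
    have : g⁻¹ = ((u⁻¹ : v.toValuationSubringˣ) : v.toValuationSubring) := by
      rw [eq_comm, ← mul_eq_one_iff_eq_inv₀ hg0]
      have h1 := congrArg (Subtype.val) (u⁻¹.mul_inv)
      rw [inv_inv, hu] at h1
      simpa using h1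
    rw [this]
    exact Subtype.property _
  have hsum := (IsLocalRing.maximalIdeal v.toValuationSubring).add_mem hfn hgn
  rw [IsLocalRing.mem_maximalIdeal, mem_nonunits_iff] at hsum
  apply hsum
  refine ⟨⟨⟨f, hf.1⟩ + ⟨g, hg.1⟩, ⟨(f + g)⁻¹, h⟩, ?_, ?_⟩, rfl⟩
  · exact Subtype.ext (by simp [mul_inv_cancel₀ hfg])
  · exact Subtype.ext (by simp [inv_mul_cancel₀ hfg])

end basics

section transcendence

variable {K F : Type*} [Field K] [Field F] [Algebra K F]

/-- In a field extension of transcendence degree one (finite over `K(x)`), everything is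
algebraic over `K(y)` for any transcendental `y`. -/
theorem alga_isAlgebraic_of_transcendental (x : F) [FiniteDimensional K⟮x⟯ F]
    (y : F) (hy : Transcendental K y) : Algebra.IsAlgebraic K⟮y⟯ F := by
  classical
  open scoped IntermediateField.algebraAdjoinAdjoin in
  have h1 : Algebra.IsAlgebraic (Algebra.adjoin K ({x} : Set F)) F := by
    have hA : Algebra.IsAlgebraic (Algebra.adjoin K ({x} : Set F)) K⟮x⟯ := inferInstance
    have hB : Algebra.IsAlgebraic K⟮x⟯ F := Algebra.IsAlgebraic.of_finite _ _
    exact Algebra.IsAlgebraic.trans (Algebra.adjoin K ({x} : Set F)) K⟮x⟯ F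
  have h2 : Algebra.trdeg K F ≤ Cardinal.mk ({x} : Set F) := Algebra.IsAlgebraic.trdeg_le_cardinalMk
    (R := K) (A := F) (s := ({x} : Set F))
  have h3 : AlgebraicIndependent K (Subtype.val : ({y} : Set F) → F) := by
    rw [algebraicIndependent_unique_type_iff]
    exact hy
  have h4 : IsTranscendenceBasis K (Subtype.val : ({y} : Set F) → F) := by
    refine h3.isTranscendenceBasis_of_trdeg_le_of_finite ?_
    refine h2.trans ?_
    simp
  have h5 := h4.isAlgebraic_field
  have h6 : ∀ S : Set F, S = {y} → Algebra.IsAlgebraic (adjoin K S) F →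
      Algebra.IsAlgebraic K⟮y⟯ F := by
    rintro S rfl h
    exact h
  exact h6 _ Subtype.range_val h5

/-- `F` is finite over `K(y)` for every transcendental `y`. -/
theorem alga_finiteDimensional_of_transcendental (x : F) [FiniteDimensional K⟮x⟯ F]
    (y : F) (hy : Transcendental K y) : FiniteDimensional K⟮y⟯ F := by
  have := alga_isAlgebraic_of_transcendental x y hy
  have h1 : Algebra.EssFiniteType K K⟮x⟯ :=
    IntermediateField.essFiniteType_iff.mpr (by
      have := IntermediateField.fg_adjoin_finset (F := K) ({x} : Finset F)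
      simpa using this)
  have h2 : Algebra.EssFiniteType K F := Algebra.EssFiniteType.comp K K⟮x⟯ F
  have h3 : Algebra.EssFiniteType K⟮y⟯ F := Algebra.EssFiniteType.of_comp K K⟮y⟯ F
  exact Algebra.finite_of_essFiniteType_of_isAlgebraic

end transcendence

section residue

variable {K F : Type*} [Field K] [Field F] [Algebra K F]

/-- The valuation ring of a place, as a `K`-subalgebra of `F`. -/
def alga_subalgebra (v : Place K F) : Subalgebra K F where
  __ := v.toValuationSubring.toSubring
  algebraMap_mem' := v.algebraMap_mem'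

@[simp]
theorem alga_mem_subalgebra (v : Place K F) {f : F} :
    f ∈ alga_subalgebra v ↔ f ∈ v.toValuationSubring := Iff.rfl

theorem alga_aeval_mem (v : Place K F) {y : F} (hy : y ∈ v.toValuationSubring) (p : K[X]) :
    aeval y p ∈ v.toValuationSubring := by
  rw [← alga_mem_subalgebra, ← Polynomial.aeval_subalgebra_coe p (alga_subalgebra v) ⟨y, hy⟩]
  exact Subtype.property _

variable [IsAlgClosed K]

/-- Elements of `F` algebraic over the algebraically closed field `K` are constants. -/
theorem alga_mem_range_of_isAlgebraic {y : F} (h : IsAlgebraic K y) :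
    ∃ a : K, algebraMap K F a = y := by
  have hint : IsIntegral K y := h.isIntegral
  have hdeg : (minpoly K y).degree = 1 :=
    IsAlgClosed.degree_eq_one_of_irreducible K (minpoly.irreducible hint)
  exact minpoly.mem_range_of_degree_eq_one K y hdeg

/-- If `y - a` has order `0` for every constant `a`, then every nonzero polynomial in `y` has
order `0`. -/
theorem alga_ord_aeval_eq_zero (v : Place K F) {y : F}
    (h : ∀ a : K, y ≠ algebraMap K F a ∧ v.ord (y - algebraMap K F a) = 0) :
    ∀ (n : ℕ) (p : K[X]), p.natDegree = n → p ≠ 0 → aeval y p ≠ 0 ∧ v.ord (aeval y p) = 0 := by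
  intro n
  induction n with
  | zero =>
    intro p hp hp0
    rw [Polynomial.eq_C_of_natDegree_eq_zero hp] at hp0 ⊢
    rw [aeval_C]
    refine ⟨?_, alga_ord_algebraMap v _⟩
    rw [ne_eq, map_eq_zero_iff _ (algebraMap K F).injective]
    simpa using hp0
  | succ n ih =>
    intro p hp hp0
    have hdeg : p.degree ≠ 0 := by
      rw [Polynomial.degree_eq_natDegree hp0, hp]
      exact_mod_cast Nat.succ_ne_zero n
    obtain ⟨a, ha⟩ := IsAlgClosed.exists_root p hdeg
    have hfac := Polynomial.mul_divByMonic_eq_iff_isRoot.mpr ha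
    set q := p /ₘ (X - C a) with hq
    have hq0 : q ≠ 0 := by
      rintro h0
      rw [h0, mul_zero] at hfac
      exact hp0 hfac.symm
    have hqdeg : q.natDegree = n := by
      have := Polynomial.natDegree_divByMonic p (Polynomial.monic_X_sub_C a)
      rw [Polynomial.natDegree_X_sub_C, hp] at this
      simpa using this
    obtain ⟨h1, h2⟩ := ih q hqdeg hq0
    have h3 : aeval y p = (y - algebraMap K F a) * aeval y q := by
      rw [← hfac, map_mul, map_sub, aeval_X, aeval_C]
    have h4 : y - algebraMap K F a ≠ 0 := sub_ne_zero.mpr (h a).1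
    rw [h3]
    refine ⟨mul_ne_zero h4 h1, ?_⟩
    rw [v.ord_mul h4 h1, (h a).2, h2, add_zero]

/-- The residue field of a place is `K`: every element of the valuation ring is congruent to a
constant. -/
theorem alga_exists_sub_mem (x : F) [FiniteDimensional K⟮x⟯ F] (v : Place K F) {y : F}
    (hy : y ∈ v.toValuationSubring) :
    ∃ a : K, y = algebraMap K F a ∨ 0 < v.ord (y - algebraMap K F a) := by
  by_contra hcon
  push Not at hcon
  have hmem : ∀ a : K, y - algebraMap K F a ∈ v.toValuationSubring := fun a =>
    sub_mem hy (v.algebraMap_mem' a)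
  have h : ∀ a : K, y ≠ algebraMap K F a ∧ v.ord (y - algebraMap K F a) = 0 := fun a =>
    ⟨(hcon a).1, le_antisymm (hcon a).2 (alga_ord_nonneg_of_mem v (hmem a))⟩
  have hU := alga_ord_aeval_eq_zero v h
  -- `y` is transcendental
  have hytr : Transcendental K y := by
    intro halg
    obtain ⟨a, ha⟩ := alga_mem_range_of_isAlgebraic halg
    exact (h a).1 ha.symm
  -- a uniformizer is algebraic over `K[y]`
  obtain ⟨π, hπ⟩ := IsDiscreteValuationRing.exists_irreducible v.toValuationSubring
  have hπ1 : v.ord (π : F) = 1 := v.ord_coe_irreducible hπ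
  have hπF : (π : F) ≠ 0 := by
    simpa [ne_eq, ZeroMemClass.coe_eq_zero] using hπ.ne_zero
  have halgF : Algebra.IsAlgebraic (Algebra.adjoin K ({y} : Set F)) F := by
    open scoped IntermediateField.algebraAdjoinAdjoin in
    have hA : Algebra.IsAlgebraic (Algebra.adjoin K ({y} : Set F)) K⟮y⟯ := inferInstance
    have hB : Algebra.IsAlgebraic K⟮y⟯ F := alga_isAlgebraic_of_transcendental x y hytr
    exact Algebra.IsAlgebraic.trans (Algebra.adjoin K ({y} : Set F)) K⟮y⟯ F
  have hπalg : IsAlgebraic (Algebra.adjoin K ({y} : Set F)) (π : F) :=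
    Algebra.IsAlgebraic.isAlgebraic _
  obtain ⟨q, hq0, hq⟩ := hπalg.exists_nonzero_coeff_and_aeval_eq_zero
    (mem_nonZeroDivisors_of_ne_zero hπF)
  -- coefficients of `q` lie in the valuation ring, the constant one has order `0`
  have hcoeff_mem : ∀ c : Algebra.adjoin K ({y} : Set F), (c : F) ∈ v.toValuationSubring := by
    intro c
    have hc : (c : F) ∈ (aeval y : K[X] →ₐ[K] F).range := by
      rw [← Algebra.adjoin_singleton_eq_range_aeval]
      exact c.2
    obtain ⟨p, hp⟩ := hc
    rw [← hp]
    exact alga_aeval_mem v hy p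
  have hcoeff0 : v.ord ((q.coeff 0 : Algebra.adjoin K ({y} : Set F)) : F) = 0 := by
    have hc : ((q.coeff 0 : Algebra.adjoin K ({y} : Set F)) : F)
        ∈ (aeval y : K[X] →ₐ[K] F).range := by
      rw [← Algebra.adjoin_singleton_eq_range_aeval]
      exact (q.coeff 0).2
    obtain ⟨p, hp⟩ := hc
    have hp' : aeval y p = ((q.coeff 0 : Algebra.adjoin K ({y} : Set F)) : F) := hp
    have hp0 : p ≠ 0 := by
      rintro rfl
      apply hq0
      apply Subtype.ext
      rw [← hp']
      simp
    rw [← hp']
    exact (hU _ p rfl hp0).2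
  -- write `q = divX q * X + C (q.coeff 0)`
  have hsplit : aeval (π : F) q.divX * (π : F)
      + ((q.coeff 0 : Algebra.adjoin K ({y} : Set F)) : F) = 0 := by
    have := congrArg (aeval (π : F)) (Polynomial.divX_mul_X_add q)
    rw [map_add, map_mul, aeval_X, aeval_C, hq] at this
    exact this
  have hr_mem : aeval (π : F) q.divX ∈ v.toValuationSubring := by
    rw [Polynomial.aeval_eq_sum_range]
    refine v.toValuationSubring.toSubring.sum_mem fun i _ => ?_
    rw [Algebra.smul_def]
    exact v.toValuationSubring.mul_mem _ _ (hcoeff_mem _) (v.toValuationSubring.pow_mem π.2 i)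
  have hq0F : ((q.coeff 0 : Algebra.adjoin K ({y} : Set F)) : F) ≠ 0 := by
    intro h0
    exact hq0 (Subtype.ext h0)
  have hr0 : aeval (π : F) q.divX ≠ 0 := by
    intro h0
    rw [h0, zero_mul, zero_add] at hsplit
    exact hq0F hsplit
  have hord : v.ord ((q.coeff 0 : Algebra.adjoin K ({y} : Set F)) : F)
      = v.ord (aeval (π : F) q.divX) + 1 := by
    have h1 : ((q.coeff 0 : Algebra.adjoin K ({y} : Set F)) : F)
        = (-1 : F) * (aeval (π : F) q.divX * (π : F)) := by
      rw [neg_one_mul, eq_neg_iff_add_eq_zero, add_comm]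
      exact hsplit
    have hneg1 : v.ord (-1 : F) = 0 := by
      have := alga_ord_algebraMap v (-1 : K)
      simpa using this
    rw [h1, v.ord_mul (by simp) (mul_ne_zero hr0 hπF), v.ord_mul hr0 hπF, hneg1, hπ1, zero_add]
  have := alga_ord_nonneg_of_mem v hr_mem
  omega

omit [IsAlgClosed K] in
/-- Membership in the maximal ideal of the valuation ring. -/
theorem alga_mem_maximalIdeal_iff (v : Place K F) (f : v.toValuationSubring) :
    f ∈ IsLocalRing.maximalIdeal v.toValuationSubring ↔ f = 0 ∨ 0 < v.ord (f : F) := by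
  rw [IsLocalRing.mem_maximalIdeal, mem_nonunits_iff]
  constructor
  · intro hnu
    by_cases hf : f = 0
    · exact Or.inl hf
    right
    rw [alga_ord_pos_iff]
    refine ⟨f.2, fun hinv => hnu ?_⟩
    have hfF : (f : F) ≠ 0 := by
      simpa [ne_eq, ZeroMemClass.coe_eq_zero] using hf
    exact ⟨⟨f, ⟨(f : F)⁻¹, hinv⟩, Subtype.ext (by simp [mul_inv_cancel₀ hfF]),
      Subtype.ext (by simp [inv_mul_cancel₀ hfF])⟩, rfl⟩
  · rintro (rfl | hpos) hu
    · exact not_isUnit_zero hu
    · rw [alga_ord_pos_iff] at hpos
      obtain ⟨u, hu⟩ := hu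
      apply hpos.2
      have hfF : (f : F) ≠ 0 := by
        intro h0
        apply hpos.2
        rw [h0, inv_zero]
        exact zero_mem _
      have : (f : F)⁻¹ = ((u⁻¹ : v.toValuationSubringˣ) : v.toValuationSubring) := by
        rw [eq_comm, ← mul_eq_one_iff_eq_inv₀ hfF]
        have h1 := congrArg (Subtype.val) (u⁻¹.mul_inv)
        rw [inv_inv, hu] at h1
        simpa using h1
      rw [this]
      exact Subtype.property _

/-- The residue field of a place is `K` (surjectivity of `K → κ(v)`). -/
theorem alga_algebraMap_residueField_surjective (x : F) [FiniteDimensional K⟮x⟯ F]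
    (v : Place K F) : Function.Surjective (algebraMap K v.ResidueField) := by
  intro z
  obtain ⟨⟨y, hy⟩, rfl⟩ := IsLocalRing.residue_surjective z
  obtain ⟨a, ha⟩ := alga_exists_sub_mem x v hy
  refine ⟨a, ?_⟩
  rw [IsScalarTower.algebraMap_apply K v.toValuationSubring v.ResidueField,
    IsLocalRing.ResidueField.algebraMap_eq, eq_comm, ← sub_eq_zero, ← map_sub,
    IsLocalRing.residue_eq_zero_iff, alga_mem_maximalIdeal_iff]
  rcases ha with ha | ha
  · left
    apply Subtype.ext
    simp [ha]
  · right
    simpa using ha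

end residue

section final

variable {K F : Type*} [Field K] [Field F] [Algebra K F] [IsAlgClosed K] [CharZero K]

/-- [ALG-A1] residue fields are `K`. -/
theorem alg_deg_eq_one (x : F) (hx : Transcendental K x) [FiniteDimensional K⟮x⟯ F]
    (v : Place K F) : v.deg = 1 := by
  have hsurj := alga_algebraMap_residueField_surjective x v
  have hbij : Function.Bijective (algebraMap K v.ResidueField) :=
    ⟨(algebraMap K v.ResidueField).injective, hsurj⟩
  show Module.finrank K v.ResidueField = 1
  rw [← Module.finrank_self K]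
  exact ((AlgEquiv.ofBijective (Algebra.ofId K v.ResidueField) hbij).toLinearEquiv.finrank_eq).symm

/-- [ALG-A2] a place is trivial on `K`. -/
theorem alg_ord_algebraMap (v : Place K F) (a : K) : v.ord (algebraMap K F a) = 0 :=
  alga_ord_algebraMap v a

/-- [ALG-A2'] the value of `y` at `v`. -/
theorem alg_exists_value (x : F) (hx : Transcendental K x) [FiniteDimensional K⟮x⟯ F]
    (v : Place K F) (y : F) (hy : 0 ≤ v.ord y) :
    ∃! a : K, y = algebraMap K F a ∨ 0 < v.ord (y - algebraMap K F a) := by
  obtain ⟨a, ha⟩ := alga_exists_sub_mem x v (alga_mem_of_ord_nonneg v hy)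
  refine ⟨a, ha, fun b hb => ?_⟩
  by_contra hne
  -- `a - b` is a nonzero constant, of order `0`, but also a difference of elements of `𝔪_v`
  have hab : algebraMap K F (a - b) ≠ 0 := by
    rw [ne_eq, map_eq_zero_iff _ (algebraMap K F).injective, sub_eq_zero]
    exact fun h => hne h.symm
  have h0 : v.ord (algebraMap K F (a - b)) = 0 := alga_ord_algebraMap v _
  have hkey : algebraMap K F (a - b) = (y - algebraMap K F b) - (y - algebraMap K F a) := by
    rw [map_sub]; ring
  rcases ha with ha | ha <;> rcases hb with hb | hb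
  · apply hab
    rw [map_sub, ← ha, ← hb, sub_self]
  · rw [hkey, ← ha, sub_self, sub_zero] at h0
    omega
  · have h1 : algebraMap K F (a - b) = (-1 : F) * (y - algebraMap K F a) := by
      rw [hkey, ← hb, sub_self, zero_sub, neg_one_mul]
    have hneg1 : v.ord (-1 : F) = 0 := by
      have := alga_ord_algebraMap v (-1 : K)
      simpa using this
    have hya : y - algebraMap K F a ≠ 0 := by
      intro h
      rw [h, mul_zero] at h1
      exact hab h1
    rw [h1, v.ord_mul (by simp) hya, hneg1, zero_add] at h0
    omega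
  · have hya : y - algebraMap K F a ≠ 0 := by
      intro h
      rw [h] at ha
      simp at ha
    have hneg1 : v.ord (-1 : F) = 0 := by
      have := alga_ord_algebraMap v (-1 : K)
      simpa using this
    have h2 : 0 < v.ord (-(y - algebraMap K F a)) := by
      rw [← neg_one_mul, v.ord_mul (by simp) hya, hneg1, zero_add]
      exact ha
    have h3 := alga_ord_add_pos v hb h2 (by rw [← sub_eq_add_neg, ← hkey]; exact hab)
    rw [← sub_eq_add_neg, ← hkey, h0] at h3
    exact lt_irrefl _ h3

end final

end Fermat.Agent.S24
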