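import Mathlib
import Fermat.Prelude.Def_AlgebraicCurve_CanonicalDivisor

/-!
# Kähler differentials of a function field of one variable (characteristic zero)
-/

set_option autoImplicit false
set_option linter.style.haveILetI false

noncomputable section

namespace Fermat.Agent.S24

open KaehlerDifferential Polynomial IntermediateField TensorProduct

variable {K F : Type*} [Field K] [Field F] [Algebra K F]

/-- If `t` is transcendental over `K` and `F` is algebraic over `K(t)` (char. 0), then `F` is
formally étale over `K[X]` via `X ↦ t`. -/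
theorem kae_formallyEtale [CharZero K] (t : F) (ht : Transcendental K t)
    (halg : Algebra.IsAlgebraic (IntermediateField.adjoin K {t}) F) :
    letI : Algebra K[X] F := (aeval t : K[X] →ₐ[K] F).toRingHom.toAlgebra
    Algebra.FormallyEtale K[X] F := by
  letI algF : Algebra K[X] F := (aeval t : K[X] →ₐ[K] F).toRingHom.toAlgebra
  let E := IntermediateField.adjoin K {t}
  let tE : E := ⟨t, IntermediateField.mem_adjoin_simple_self K t⟩
  letI algE : Algebra K[X] E := (aeval tE : K[X] →ₐ[K] E).toRingHom.toAlgebra
  have hmapE : ∀ P : K[X], algebraMap K[X] E P = aeval tE P := fun _ => rfl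
  have hmapF : ∀ P : K[X], algebraMap K[X] F P = aeval t P := fun _ => rfl
  have hcoe : ∀ P : K[X], ((aeval tE P : E) : F) = aeval t P := by
    intro P
    have := Polynomial.aeval_algHom_apply (IntermediateField.val E) tE P
    simpa [tE] using this.symm
  haveI : IsScalarTower K[X] E F := IsScalarTower.of_algebraMap_eq fun P => by
    rw [hmapF, hmapE]
    exact (hcoe P).symm
  have hinj : Function.Injective (algebraMap K[X] E) := by
    intro P Q hPQ
    have h1 : aeval t P = aeval t Q := by
      rw [← hcoe, ← hcoe, ← hmapE, ← hmapE, hPQ]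
    exact (transcendental_iff_injective.mp ht) h1
  haveI : FaithfulSMul K[X] E := (faithfulSMul_iff_algebraMap_injective K[X] E).mpr hinj
  haveI : IsFractionRing K[X] E := by
    refine IsFractionRing.of_field K[X] E fun z => ?_
    obtain ⟨r, s, hrs⟩ := (IntermediateField.mem_adjoin_simple_iff K (z : F)).mp z.2
    refine ⟨r, s, Subtype.ext ?_⟩
    rw [hrs, hmapE, hmapE]
    push_cast
    rw [hcoe, hcoe]
  haveI : Algebra.FormallyEtale K[X] E :=
    Algebra.FormallyEtale.of_isLocalization (nonZeroDivisors K[X])
  haveI : CharZero E := charZero_of_injective_algebraMap (algebraMap K E).injective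
  haveI : Algebra.IsSeparable E F := inferInstance
  haveI : Algebra.FormallyEtale E F := Algebra.FormallyEtale.of_isSeparable E F
  exact Algebra.FormallyEtale.comp K[X] E F

/-- `Ω[F⁄K]` is free of rank one on `D t`. -/
theorem kae_exists_equiv [CharZero K] (t : F) (ht : Transcendental K t)
    (halg : Algebra.IsAlgebraic (IntermediateField.adjoin K {t}) F) :
    ∃ e : Ω[F⁄K] ≃ₗ[F] F, e (D K F t) = 1 := by
  letI algF : Algebra K[X] F := (aeval t : K[X] →ₐ[K] F).toRingHom.toAlgebra
  haveI : IsScalarTower K K[X] F := IsScalarTower.of_algebraMap_eq fun a => by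
    change algebraMap K F a = aeval t (C a)
    rw [aeval_C]
  haveI : Algebra.FormallyEtale K[X] F := kae_formallyEtale t ht halg
  let e₁ : F ⊗[K[X]] Ω[K[X]⁄K] ≃ₗ[F] Ω[F⁄K] := tensorKaehlerEquivOfFormallyEtale K K[X] F
  let e₂ : F ⊗[K[X]] Ω[K[X]⁄K] ≃ₗ[F] F ⊗[K[X]] K[X] :=
    TensorProduct.AlgebraTensorModule.congr (LinearEquiv.refl F F)
      (KaehlerDifferential.polynomialEquiv K)
  let e₃ : F ⊗[K[X]] K[X] ≃ₗ[F] F := TensorProduct.AlgebraTensorModule.rid K[X] F F
  refine ⟨e₁.symm.trans (e₂.trans e₃), ?_⟩
  have hX : algebraMap K[X] F X = t := by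
    change aeval t X = t
    rw [aeval_X]
  have h1 : e₁.symm (D K F t) = 1 ⊗ₜ D K K[X] X := by
    rw [← hX]
    exact tensorKaehlerEquivOfFormallyEtale_symm_D_algebraMap K K[X] F X
  simp only [LinearEquiv.trans_apply, h1, e₂, e₃]
  simp [KaehlerDifferential.polynomialEquiv_D]

/-- **(K1)** If `t ∈ F` is transcendental over `K` and `F` is algebraic over `K(t)`, then `D t`
spans `Ω[F⁄K]` and is nonzero. -/
theorem kae_span_D_of_transcendental [CharZero K] (t : F) (ht : Transcendental K t)
    (halg : Algebra.IsAlgebraic (IntermediateField.adjoin K {t}) F) :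
    Submodule.span F {D K F t} = ⊤ ∧ D K F t ≠ 0 := by
  obtain ⟨e, he⟩ := kae_exists_equiv t ht halg
  refine ⟨?_, fun h0 => ?_⟩
  · rw [eq_top_iff]
    intro ω _
    rw [Submodule.mem_span_singleton]
    refine ⟨e ω, e.injective ?_⟩
    rw [map_smul, he, smul_eq_mul, mul_one]
  · rw [h0, map_zero] at he
    exact zero_ne_one he

end Fermat.Agent.S24

end
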