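import Mathlib

/-!
# Completion-free Taylor expansion

Let `O` be a domain which is a `K`-algebra, and `π : O` a nonzero nonunit such that `K → O/π` is
surjective. We construct the "Taylor expansion" `K`-algebra homomorphism `O → K⟦X⟧`, `π ↦ X`.
-/

set_option autoImplicit false
set_option linter.style.haveILetI false

noncomputable section

namespace Fermat.Agent.S24

open PowerSeries

universe u w
variable {K : Type u} {O : Type w} [Field K] [CommRing O] [Algebra K O]

/-- The hypotheses on the parameter `π`. -/
structure AlgdTayHyp (K : Type u) {O : Type w} [Field K] [CommRing O] [Algebra K O]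
    (π : O) : Prop where
  ne_zero : π ≠ 0
  not_unit : ¬ IsUnit π
  surj : ∀ h : O, ∃ a : K, π ∣ h - algebraMap K O a

open Classical in
/-- The value of `h` at the point (residue class mod `π`, as an element of `K`). -/
def algdVal (K : Type u) {O : Type w} [Field K] [CommRing O] [Algebra K O] (π h : O) : K :=
  if hex : ∃ a : K, π ∣ h - algebraMap K O a then hex.choose else 0

open Classical in
/-- `(h - h(0)) / π`. -/
def algdShift (K : Type u) {O : Type w} [Field K] [CommRing O] [Algebra K O] (π h : O) : O :=
  if hex : ∃ r : O, h - algebraMap K O (algdVal K π h) = π * r then hex.choose else 0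

/-- The Taylor expansion of `h` in the parameter `π`. -/
def algdTay (K : Type u) {O : Type w} [Field K] [CommRing O] [Algebra K O] (π h : O) : K⟦X⟧ :=
  PowerSeries.mk fun k => algdVal K π ((algdShift K π)^[k] h)

variable {π : O}

theorem algdVal_spec (H : AlgdTayHyp K π) (h : O) :
    π ∣ h - algebraMap K O (algdVal K π h) := by
  unfold algdVal
  rw [dif_pos (H.surj h)]
  exact (H.surj h).choose_spec

theorem algdVal_unique (H : AlgdTayHyp K π) {h : O} {a : K}
    (hd : π ∣ h - algebraMap K O a) : algdVal K π h = a := by
  by_contra hne
  have h1 : π ∣ algebraMap K O (algdVal K π h - a) := by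
    have := dvd_sub hd (algdVal_spec H h)
    rw [map_sub]
    convert this using 1
    ring
  have hu : IsUnit (algebraMap K O (algdVal K π h - a)) :=
    (IsUnit.mk0 _ (sub_ne_zero.mpr hne)).map _
  exact H.not_unit (isUnit_of_dvd_unit h1 hu)

theorem algdShift_spec (H : AlgdTayHyp K π) (h : O) :
    h = algebraMap K O (algdVal K π h) + π * algdShift K π h := by
  have hex : ∃ r : O, h - algebraMap K O (algdVal K π h) = π * r := algdVal_spec H h
  unfold algdShift
  rw [dif_pos hex, ← hex.choose_spec]
  ring

theorem algdTay_coeff_zero (h : O) : coeff 0 (algdTay K π h) = algdVal K π h := by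
  simp [algdTay]

theorem algdTay_eq (h : O) :
    algdTay K π h = C (algdVal K π h) + X * algdTay K π (algdShift K π h) := by
  ext k
  rcases k with _ | k
  · simp [algdTay]
  · simp only [algdTay, coeff_mk, map_add, coeff_succ_X_mul, Function.iterate_succ_apply]
    rw [coeff_C]
    simp

variable [IsDomain O]

theorem algdShift_unique (H : AlgdTayHyp K π) {h r : O} {a : K}
    (hd : h = algebraMap K O a + π * r) : algdVal K π h = a ∧ algdShift K π h = r := by
  have h1 : algdVal K π h = a := algdVal_unique H ⟨r, by rw [hd]; ring⟩
  refine ⟨h1, ?_⟩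
  have h2 := algdShift_spec H h
  rw [h1] at h2
  have h3 : π * algdShift K π h = π * r := by
    have := h2.symm.trans hd
    exact add_left_cancel this
  exact mul_left_cancel₀ H.ne_zero h3

theorem algdTay_of_eq (H : AlgdTayHyp K π) {h r : O} {a : K}
    (hd : h = algebraMap K O a + π * r) : algdTay K π h = C a + X * algdTay K π r := by
  obtain ⟨h1, h2⟩ := algdShift_unique H hd
  rw [algdTay_eq h, h1, h2]

theorem algdTay_zero (H : AlgdTayHyp K π) : algdTay K π (0 : O) = 0 := by
  have h0 : algdShift K π (0 : O) = 0 ∧ algdVal K π (0 : O) = 0 := by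
    have := algdShift_unique H (h := (0 : O)) (r := 0) (a := 0) (by simp)
    exact ⟨this.2, this.1⟩
  ext k
  simp only [algdTay, coeff_mk, map_zero]
  rw [Function.iterate_fixed h0.1, h0.2]

theorem algdTay_algebraMap (H : AlgdTayHyp K π) (a : K) :
    algdTay K π (algebraMap K O a) = C a := by
  rw [algdTay_of_eq H (h := algebraMap K O a) (r := 0) (a := a) (by simp), algdTay_zero H]
  simp

theorem algdTay_pi_mul (H : AlgdTayHyp K π) (h : O) :
    algdTay K π (π * h) = X * algdTay K π h := by
  rw [algdTay_of_eq H (h := π * h) (r := h) (a := 0) (by simp)]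
  simp

theorem algd_eq_zero_of_forall_X_pow_dvd {s : K⟦X⟧} (hs : ∀ n : ℕ, (X : K⟦X⟧) ^ n ∣ s) :
    s = 0 := by
  ext k
  have := (PowerSeries.X_pow_dvd_iff.mp (hs (k + 1))) k (Nat.lt_succ_self k)
  simpa using this

theorem algdTay_add (H : AlgdTayHyp K π) (a b : O) :
    algdTay K π (a + b) = algdTay K π a + algdTay K π b := by
  have key : ∀ n : ℕ, ∀ a b : O,
      (X : K⟦X⟧) ^ n ∣ algdTay K π (a + b) - (algdTay K π a + algdTay K π b) := by
    intro n
    induction n with
    | zero => intro a b; simp
    | succ n ih =>
      intro a b
      have ha := algdShift_spec H a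
      have hb := algdShift_spec H b
      have hab : a + b = algebraMap K O (algdVal K π a + algdVal K π b)
          + π * (algdShift K π a + algdShift K π b) := by
        rw [map_add]
        nth_rewrite 1 [ha, hb]
        ring
      have e : algdTay K π (a + b) - (algdTay K π a + algdTay K π b)
          = X * (algdTay K π (algdShift K π a + algdShift K π b)
              - (algdTay K π (algdShift K π a) + algdTay K π (algdShift K π b))) := by
        rw [algdTay_of_eq H hab, algdTay_eq a, algdTay_eq b, map_add]
        ring
      rw [e, pow_succ']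
      exact mul_dvd_mul_left _ (ih _ _)
  exact sub_eq_zero.mp (algd_eq_zero_of_forall_X_pow_dvd fun n => key n a b)

theorem algdTay_mul (H : AlgdTayHyp K π) (a b : O) :
    algdTay K π (a * b) = algdTay K π a * algdTay K π b := by
  have key : ∀ n : ℕ, ∀ a b : O,
      (X : K⟦X⟧) ^ n ∣ algdTay K π (a * b) - algdTay K π a * algdTay K π b := by
    intro n
    induction n with
    | zero => intro a b; simp
    | succ n ih =>
      intro a b
      have ha := algdShift_spec H a
      have hb := algdShift_spec H b
      set α := algdVal K π a
      set β := algdVal K π b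
      set a' := algdShift K π a
      set b' := algdShift K π b
      have hab : a * b = algebraMap K O (α * β)
          + π * (algebraMap K O α * b' + algebraMap K O β * a' + π * (a' * b')) := by
        rw [map_mul]
        nth_rewrite 1 [ha, hb]
        ring
      have e : algdTay K π (a * b) - algdTay K π a * algdTay K π b
          = X * ((algdTay K π (algebraMap K O α * b')
                  - algdTay K π (algebraMap K O α) * algdTay K π b')
              + (algdTay K π (algebraMap K O β * a')
                  - algdTay K π (algebraMap K O β) * algdTay K π a')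
              + X * (algdTay K π (a' * b') - algdTay K π a' * algdTay K π b')) := by
        rw [algdTay_of_eq H hab, algdTay_eq a, algdTay_eq b, algdTay_add H, algdTay_add H,
          algdTay_pi_mul H, algdTay_algebraMap H, algdTay_algebraMap H, map_mul]
        ring
      rw [e, pow_succ']
      refine mul_dvd_mul_left _ (dvd_add (dvd_add (ih _ _) (ih _ _)) ?_)
      exact Dvd.dvd.mul_left (ih _ _) _
  exact sub_eq_zero.mp (algd_eq_zero_of_forall_X_pow_dvd fun n => key n a b)

/-- The Taylor expansion as a `K`-algebra homomorphism. -/
def algdTayHom (H : AlgdTayHyp K π) : O →ₐ[K] K⟦X⟧ where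
  toFun := algdTay K π
  map_one' := by
    have := algdTay_algebraMap H (1 : K)
    simpa using this
  map_mul' := algdTay_mul H
  map_zero' := algdTay_zero H
  map_add' := algdTay_add H
  commutes' a := algdTay_algebraMap H a

@[simp]
theorem algdTayHom_apply (H : AlgdTayHyp K π) (h : O) : algdTayHom H h = algdTay K π h := rfl

theorem algdTayHom_pi (H : AlgdTayHyp K π) : algdTayHom H π = X := by
  have := algdTay_pi_mul H (1 : O)
  rw [mul_one] at this
  rw [algdTayHom_apply, this]
  have h1 : algdTay K π (1 : O) = 1 := (algdTayHom H).map_one
  rw [h1, mul_one]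

/-- Order of the Taylor expansion of `u * π ^ n`, `u` a unit. -/
theorem algdTayHom_order (H : AlgdTayHyp K π) (u : Oˣ) (n : ℕ) :
    (algdTayHom H ((u : O) * π ^ n)).order = n := by
  rw [map_mul, map_pow, algdTayHom_pi]
  have hu : IsUnit (algdTayHom H (u : O)) := u.isUnit.map _
  have h0 : (algdTayHom H (u : O)).order = 0 := by
    rw [PowerSeries.order_zero_of_unit hu]
  rw [PowerSeries.order_mul, h0, zero_add, PowerSeries.order_X_pow]

end Fermat.Agent.S24
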