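import Mathlib
import Fermat.Agent.S24.Kaehler
import Fermat.Agent.S24.Taylor
import Fermat.Agent.S24.AlgABasic

/-!
# S24 / ALG-D : differentials on a function field of one variable

`K` algebraically closed of characteristic `0`, `F ⊇ K` a field, `x : F` transcendental over `K`
with `F` finite over `K(x)`.

* `alg_nontrivial_kaehler`, `alg_dCoordGenerates`, `alg_differentialCoeff_D_ne_zero` : from
  `Ω[F⁄K] ≃ F` (`Kaehler.lean`);
* `algd_key` : for `h ∈ 𝔪_v`, `ord_v (dh/dπ) = ord_v h - 1`, by comparing `d/dπ` with `d/dT` through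
  the Taylor expansion `O_v → K⟦T⟧` (`Taylor.lean`);
* `alg_ordDifferential_of_zero`, `alg_ordDifferential_of_pole`.
-/
set_option autoImplicit false
set_option linter.style.haveILetI false

noncomputable section

namespace Fermat.Agent.S24

open AlgebraicCurve KaehlerDifferential IntermediateField Polynomial

universe u w
variable {K : Type u} {F : Type w} [Field K] [Field F] [Algebra K F]

open IntermediateField.algebraAdjoinAdjoin in
/-- If `F` is finite over `K(x)` with `x` transcendental, then `F` is algebraic over `K(y)` for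
every transcendental `y`. -/
theorem algd_isAlgebraic_adjoin (x : F) [FiniteDimensional K⟮x⟯ F]
    (y : F) (hy : Transcendental K y) : Algebra.IsAlgebraic K⟮y⟯ F := by
  -- `F` is algebraic over `Algebra.adjoin K {x}`
  have hxalg : Algebra.IsAlgebraic (Algebra.adjoin K ({x} : Set F)) F := by
    have h1 : Algebra.IsAlgebraic K⟮x⟯ F := Algebra.IsAlgebraic.of_finite _ _
    exact (IsFractionRing.comap_isAlgebraic_iff
      (A := Algebra.adjoin K ({x} : Set F)) (K := K⟮x⟯) (C := F)).mpr h1
  have htr : Algebra.trdeg K F ≤ 1 := by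
    have := Algebra.IsAlgebraic.trdeg_le_cardinalMk K ({x} : Set F)
    simpa using this
  have hy' : AlgebraicIndependent K (fun _ : PUnit.{w+1} => y) :=
    algebraicIndependent_unique_type_iff.mpr hy
  have hb : IsTranscendenceBasis K (fun _ : PUnit.{w+1} => y) :=
    hy'.isTranscendenceBasis_of_trdeg_le_of_finite (by simpa using htr)
  have hyalg : Algebra.IsAlgebraic (Algebra.adjoin K (Set.range fun _ : PUnit.{w+1} => y)) F :=
    hb.isAlgebraic
  have hrange : (Set.range fun _ : PUnit.{w+1} => y) = {y} := by
    ext z; simp [eq_comm]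
  rw [hrange] at hyalg
  constructor
  intro z
  have hz : IsAlgebraic (Algebra.adjoin K ({y} : Set F)) z := hyalg.isAlgebraic z
  have hle : Algebra.adjoin K ({y} : Set F) ≤ K⟮y⟯.toSubalgebra :=
    IntermediateField.algebra_adjoin_le_adjoin K _
  exact IsAlgebraic.tower_top_of_subalgebra_le hle hz

/-- A place is trivial on the constants. -/
theorem algd_ord_algebraMap (v : Place K F) (a : K) : v.ord (algebraMap K F a) = 0 := by
  rcases eq_or_ne a 0 with rfl | ha
  · simp
  · have hu : IsUnit (algebraMap K v.toValuationSubring a) :=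
      (IsUnit.mk0 a ha).map (algebraMap K v.toValuationSubring)
    have := v.ord_coe_unit hu.unit
    rwa [IsUnit.unit_spec, v.coe_algebraMap] at this

/-- An element with nonzero order is transcendental over the (algebraically closed) constants. -/
theorem algd_transcendental_of_ord_ne_zero [IsAlgClosed K] (v : Place K F) (y : F)
    (hy : v.ord y ≠ 0) : Transcendental K y := by
  intro halg
  have hint : IsIntegral K y := halg.isIntegral
  have h : (minpoly K y).degree = 1 :=
    IsAlgClosed.degree_eq_one_of_irreducible K (minpoly.irreducible hint)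
  obtain ⟨a, rfl⟩ := minpoly.mem_range_of_degree_eq_one K y h
  exact hy (algd_ord_algebraMap v a)

/-- The uniformizer used by the prelude (`Place.dCoord = D π`). -/
def algdUnif (v : Place K F) : v.toValuationSubring :=
  (IsDiscreteValuationRing.exists_irreducible v.toValuationSubring).choose

theorem algdUnif_irreducible (v : Place K F) : Irreducible (algdUnif v) :=
  (IsDiscreteValuationRing.exists_irreducible v.toValuationSubring).choose_spec

theorem algd_dCoord_eq (v : Place K F) : v.dCoord = D K F ((algdUnif v : v.toValuationSubring) : F) :=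
  rfl

theorem algd_ord_unif (v : Place K F) : v.ord ((algdUnif v : v.toValuationSubring) : F) = 1 :=
  v.ord_coe_irreducible (algdUnif_irreducible v)

theorem algd_exists_unit_pow (v : Place K F) (z : v.toValuationSubring) (hz : z ≠ 0) :
    ∃ (n : ℕ) (u : v.toValuationSubringˣ),
      z = (u : v.toValuationSubring) * (algdUnif v) ^ n ∧ v.ord (z : F) = n := by
  obtain ⟨n, u, hu⟩ :=
    IsDiscreteValuationRing.eq_unit_mul_pow_irreducible hz (algdUnif_irreducible v)
  refine ⟨n, u, hu, ?_⟩
  have := v.ord_unit_smul_zpow u (algdUnif_irreducible v) n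
  rw [hu]
  push_cast
  simpa using this

theorem algd_ord_nonneg (v : Place K F) (z : v.toValuationSubring) : 0 ≤ v.ord (z : F) := by
  rcases eq_or_ne z 0 with rfl | hz
  · simp
  · obtain ⟨n, u, -, hn⟩ := algd_exists_unit_pow v z hz
    rw [hn]
    exact Int.natCast_nonneg n

theorem algd_mem_of_ord_nonneg (v : Place K F) (y : F) (hy : 0 ≤ v.ord y) :
    y ∈ v.toValuationSubring := by
  rcases eq_or_ne y 0 with rfl | h0
  · exact zero_mem _
  · obtain ⟨u, hu⟩ := v.exists_unit_mul_zpow h0 (algdUnif_irreducible v)
    rw [hu]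
    refine mul_mem (u : v.toValuationSubring).2 ?_
    obtain ⟨n, hn⟩ := Int.eq_ofNat_of_zero_le hy
    rw [hn, zpow_natCast]
    exact pow_mem (algdUnif v).2 n

theorem algd_dvd_of_ord_pos (v : Place K F) (z : v.toValuationSubring)
    (hz : 0 < v.ord (z : F)) : algdUnif v ∣ z := by
  have hz0 : z ≠ 0 := by
    rintro rfl
    simp at hz
  obtain ⟨n, u, hu, hn⟩ := algd_exists_unit_pow v z hz0
  rw [hn] at hz
  have hn' : n ≠ 0 := by
    rintro rfl
    simp at hz
  rw [hu]
  exact Dvd.dvd.mul_left (dvd_pow_self _ hn') _

/-- The Taylor hypotheses at a place with residue field `K`. -/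
theorem algd_tayHyp (v : Place K F)
    (hval : ∀ y : F, 0 ≤ v.ord y →
      ∃ a : K, y = algebraMap K F a ∨ 0 < v.ord (y - algebraMap K F a)) :
    AlgdTayHyp K (algdUnif v) where
  ne_zero := (algdUnif_irreducible v).ne_zero
  not_unit := (algdUnif_irreducible v).not_isUnit
  surj h := by
    obtain ⟨a, ha⟩ := hval (h : F) (algd_ord_nonneg v h)
    refine ⟨a, ?_⟩
    rcases ha with ha | ha
    · have : h - algebraMap K v.toValuationSubring a = 0 := by
        apply Subtype.ext
        push_cast
        rw [v.coe_algebraMap, ha, sub_self]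
      rw [this]
      exact dvd_zero _
    · apply algd_dvd_of_ord_pos
      push_cast
      rwa [v.coe_algebraMap]

/-- Order of the derivative of a power series of positive order (characteristic zero). -/
theorem algd_order_derivative [CharZero K] (s : PowerSeries K) (n : ℕ) (hn : 0 < n)
    (hs : s.order = n) : (PowerSeries.derivative K s).order = (n - 1 : ℕ) := by
  rw [PowerSeries.order_eq_nat] at hs ⊢
  obtain ⟨h1, h2⟩ := hs
  refine ⟨?_, fun i hi => ?_⟩
  · rw [PowerSeries.coeff_derivative, Nat.sub_add_cancel hn]
    refine mul_ne_zero h1 ?_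
    have : ((n - 1 : ℕ) : K) + 1 = ((n : ℕ) : K) := by
      rw [← Nat.cast_succ, Nat.succ_eq_add_one, Nat.sub_add_cancel hn]
    rw [this]
    exact Nat.cast_ne_zero.mpr hn.ne'
  · rw [PowerSeries.coeff_derivative, h2 (i + 1) (by omega), zero_mul]


theorem algd_tay_ne_zero (v : Place K F) (H : AlgdTayHyp K (algdUnif v))
    (z : v.toValuationSubring) (hz : z ≠ 0) :
    algdTayHom H z ≠ 0 ∧ ((algdTayHom H z).order : ℕ∞) = ((v.ord (z : F)).toNat : ℕ∞) := by
  obtain ⟨n, u, hu, hn⟩ := algd_exists_unit_pow v z hz
  have h1 : (algdTayHom H z).order = n := by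
    rw [hu]
    exact algdTayHom_order H u n
  refine ⟨fun h0 => ?_, ?_⟩
  · rw [h0, PowerSeries.order_zero] at h1
    exact ENat.top_ne_natCast n h1
  · rw [h1, hn]
    simp

/-- The key computation: for `h ∈ O_v` of positive order, `ord_v (dh/dπ) = ord_v h - 1`. -/
theorem algd_key [CharZero K] (v : Place K F) [v.DCoordGenerates] [Nontrivial (Ω[F⁄K])]
    (H : AlgdTayHyp K (algdUnif v)) (h : v.toValuationSubring) (hpos : 0 < v.ord (h : F)) :
    v.ordDifferential (D K F (h : F)) = v.ord (h : F) - 1 := by
  set g := v.differentialCoeff (D K F (h : F)) with hg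
  have hgD : g • D K F ((algdUnif v : v.toValuationSubring) : F) = D K F (h : F) :=
    v.differentialCoeff_smul_dCoord _
  obtain ⟨a, b, hb, hab⟩ := IsFractionRing.div_surjective (A := v.toValuationSubring) g
  have hb0 : b ≠ 0 := nonZeroDivisors.ne_zero hb
  have hbF : (b : F) ≠ 0 := by
    simpa using hb0
  have habF : (a : F) = (b : F) * g := by
    have : algebraMap v.toValuationSubring F a / algebraMap v.toValuationSubring F b = g := hab
    rw [← this]
    change (a : F) = (b : F) * ((a : F) / (b : F))
    field_simp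
  -- equation in Ω[F/K]
  have e1 : KaehlerDifferential.map K K v.toValuationSubring F (b • D K v.toValuationSubring h)
      = KaehlerDifferential.map K K v.toValuationSubring F
          (a • D K v.toValuationSubring (algdUnif v)) := by
    rw [map_smul, map_smul, KaehlerDifferential.map_D, KaehlerDifferential.map_D]
    change (b : F) • D K F (h : F) = (a : F) • D K F ((algdUnif v : v.toValuationSubring) : F)
    rw [habF, ← hgD, mul_smul]
  obtain ⟨c, hc⟩ := IsLocalizedModule.exists_of_eq (S := nonZeroDivisors v.toValuationSubring) e1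
  -- the derivation `d/dT ∘ ι`
  letI algO : Algebra v.toValuationSubring (PowerSeries K) := (algdTayHom H).toRingHom.toAlgebra
  haveI : IsScalarTower K v.toValuationSubring (PowerSeries K) :=
    IsScalarTower.of_algebraMap_eq fun a => ((algdTayHom H).commutes a).symm
  let δ : Derivation K v.toValuationSubring (PowerSeries K) :=
    (PowerSeries.derivative K).compAlgebraMap v.toValuationSubring
  have hδ : ∀ z : v.toValuationSubring, δ z = PowerSeries.derivative K (algdTayHom H z) :=
    fun z => rfl
  have hsmul : ∀ (z : v.toValuationSubring) (s : PowerSeries K), z • s = algdTayHom H z * s :=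
    fun z s => rfl
  have e2 := congrArg δ.liftKaehlerDifferential hc
  rw [Submonoid.smul_def, Submonoid.smul_def, map_smul, map_smul, map_smul, map_smul,
    Derivation.liftKaehlerDifferential_comp_D, Derivation.liftKaehlerDifferential_comp_D,
    hδ, hδ, algdTayHom_pi, PowerSeries.derivative_X, hsmul, hsmul, hsmul, hsmul, mul_one] at e2
  have hc0 : algdTayHom H (c : v.toValuationSubring) ≠ 0 :=
    (algd_tay_ne_zero v H _ (nonZeroDivisors.ne_zero c.2)).1
  have e3 : algdTayHom H b * PowerSeries.derivative K (algdTayHom H h) = algdTayHom H a :=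
    mul_left_cancel₀ hc0 e2
  -- orders
  have hh0 : h ≠ 0 := by
    rintro rfl
    simp at hpos
  obtain ⟨n, hn⟩ := Int.eq_ofNat_of_zero_le hpos.le
  have hn0 : 0 < n := by
    rw [hn] at hpos
    exact_mod_cast hpos
  have oh : (algdTayHom H h).order = n := by
    rw [(algd_tay_ne_zero v H h hh0).2, hn]
    simp
  have odh := algd_order_derivative (algdTayHom H h) n hn0 oh
  have ob := (algd_tay_ne_zero v H b hb0).2
  have ha0 : a ≠ 0 := by
    rintro rfl
    rw [map_zero] at e3
    have := congrArg PowerSeries.order e3
    rw [PowerSeries.order_mul, odh, ob, PowerSeries.order_zero] at this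
    exact ENat.natCast_ne_top _ (by exact_mod_cast this)
  have oa := (algd_tay_ne_zero v H a ha0).2
  have e4 := congrArg PowerSeries.order e3
  rw [PowerSeries.order_mul, odh, ob, oa] at e4
  have e5 : (v.ord (b : F)).toNat + (n - 1) = (v.ord (a : F)).toNat := by exact_mod_cast e4
  have hna := algd_ord_nonneg v a
  have hnb := algd_ord_nonneg v b
  have haF : (a : F) ≠ 0 := by simpa using ha0
  have hg0 : g ≠ 0 := by
    rintro h0
    rw [h0, mul_zero] at habF
    exact haF habF
  have e6 : v.ord (a : F) = v.ord (b : F) + v.ord g := by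
    rw [habF, v.ord_mul hbF hg0]
  change v.ord g = v.ord (h : F) - 1
  rw [hn]
  omega

section main

variable [IsAlgClosed K] [CharZero K]

set_option linter.unusedSectionVars false in
/-- [ALG-D1] -/
theorem alg_nontrivial_kaehler (x : F) (hx : Transcendental K x) [FiniteDimensional K⟮x⟯ F] :
    Nontrivial (Ω[F⁄K]) := by
  obtain ⟨e, -⟩ := kae_exists_equiv x hx (algd_isAlgebraic_adjoin x x hx)
  exact e.toEquiv.nontrivial

set_option linter.unusedVariables false in
/-- [ALG-D2] -/
theorem alg_dCoordGenerates (x : F) (hx : Transcendental K x) [FiniteDimensional K⟮x⟯ F]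
    (v : Place K F) : v.DCoordGenerates := by
  have ht : Transcendental K ((algdUnif v : v.toValuationSubring) : F) :=
    algd_transcendental_of_ord_ne_zero v _ (by rw [algd_ord_unif]; exact one_ne_zero)
  refine ⟨?_⟩
  rw [algd_dCoord_eq]
  exact (kae_span_D_of_transcendental _ ht (algd_isAlgebraic_adjoin x _ ht)).1

/-- [ALG-D5] `differentialCoeff (dy) ≠ 0` for nonconstant `y`. -/
theorem alg_differentialCoeff_D_ne_zero (x : F) (hx : Transcendental K x)
    [FiniteDimensional K⟮x⟯ F] (v : Place K F) (y : F) (hy : Transcendental K y) :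
    v.differentialCoeff (KaehlerDifferential.D K F y) ≠ 0 := by
  haveI := alg_dCoordGenerates x hx v
  intro h0
  have h1 := v.differentialCoeff_smul_dCoord (D K F y)
  rw [h0, zero_smul] at h1
  exact (kae_span_D_of_transcendental y hy (algd_isAlgebraic_adjoin x y hy)).2 h1.symm


/-- [ALG-D3], assuming that the residue field at `v` is `K`. -/
theorem algd_ordDifferential_of_zero_of (x : F) (hx : Transcendental K x)
    [FiniteDimensional K⟮x⟯ F] (v : Place K F)
    (hval : ∀ y : F, 0 ≤ v.ord y →
      ∃ a : K, y = algebraMap K F a ∨ 0 < v.ord (y - algebraMap K F a))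
    (y : F) (a : K) (h : 0 < v.ord (y - algebraMap K F a)) :
    v.ordDifferential (KaehlerDifferential.D K F y) = v.ord (y - algebraMap K F a) - 1 := by
  haveI := alg_dCoordGenerates x hx v
  haveI := alg_nontrivial_kaehler x hx
  have hmem : y - algebraMap K F a ∈ v.toValuationSubring :=
    algd_mem_of_ord_nonneg v _ h.le
  have hD : D K F y = D K F (y - algebraMap K F a) := by
    rw [map_sub, Derivation.map_algebraMap, sub_zero]
  rw [hD]
  exact algd_key v (algd_tayHyp v hval) ⟨_, hmem⟩ h

omit [IsAlgClosed K] [CharZero K] in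
theorem algd_ord_neg (v : Place K F) (f : F) : v.ord (-f) = v.ord f := by
  rcases eq_or_ne f 0 with rfl | hf
  · simp
  · have h1 : (-f) = algebraMap K F (-1) * f := by simp
    have h2 : algebraMap K F (-1) ≠ 0 := by simp
    rw [h1, v.ord_mul h2 hf, algd_ord_algebraMap, zero_add]

/-- [ALG-D4], assuming that the residue field at `v` is `K`. -/
theorem algd_ordDifferential_of_pole_of (x : F) (hx : Transcendental K x)
    [FiniteDimensional K⟮x⟯ F] (v : Place K F)
    (hval : ∀ y : F, 0 ≤ v.ord y →
      ∃ a : K, y = algebraMap K F a ∨ 0 < v.ord (y - algebraMap K F a))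
    (y : F) (h : v.ord y < 0) :
    v.ordDifferential (KaehlerDifferential.D K F y) = v.ord y - 1 := by
  haveI := alg_dCoordGenerates x hx v
  haveI := alg_nontrivial_kaehler x hx
  have hy0 : y ≠ 0 := by
    rintro rfl
    simp at h
  have hu : 0 < v.ord (y⁻¹ - algebraMap K F 0) := by
    rw [map_zero, sub_zero, v.ord_inv]
    omega
  have h1 := algd_ordDifferential_of_zero_of x hx v hval y⁻¹ 0 hu
  rw [map_zero, sub_zero, v.ord_inv] at h1
  have htr : Transcendental K y⁻¹ :=
    algd_transcendental_of_ord_ne_zero v _ (by rw [v.ord_inv]; omega)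
  have h2 := alg_differentialCoeff_D_ne_zero x hx v y⁻¹ htr
  have hD : D K F y = (-(y ^ 2)) • D K F y⁻¹ := by
    have := Derivation.leibniz_inv (D K F) y⁻¹
    rw [inv_inv] at this
    exact this
  have hc : (-(y ^ 2)) ≠ 0 := neg_ne_zero.mpr (pow_ne_zero 2 hy0)
  rw [hD, v.ordDifferential_smul hc h2, h1, algd_ord_neg, pow_two, v.ord_mul hy0 hy0]
  ring

/-- [ALG-D3] order of `dy` at a zero of `y - a`. -/
theorem alg_ordDifferential_of_zero (x : F) (hx : Transcendental K x) [FiniteDimensional K⟮x⟯ F]
    (v : Place K F) (y : F) (a : K) (h : 0 < v.ord (y - algebraMap K F a)) :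
    v.ordDifferential (KaehlerDifferential.D K F y) = v.ord (y - algebraMap K F a) - 1 :=
  algd_ordDifferential_of_zero_of x hx v
    (fun z hz => (alg_exists_value x hx v z hz).exists) y a h

/-- [ALG-D4] order of `dy` at a pole of `y`. -/
theorem alg_ordDifferential_of_pole (x : F) (hx : Transcendental K x) [FiniteDimensional K⟮x⟯ F]
    (v : Place K F) (y : F) (h : v.ord y < 0) :
    v.ordDifferential (KaehlerDifferential.D K F y) = v.ord y - 1 :=
  algd_ordDifferential_of_pole_of x hx v
    (fun z hz => (alg_exists_value x hx v z hz).exists) y h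

end main

end Fermat.Agent.S24
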