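import Mathlib
import Fermat.Agent.S24.Defs
import Fermat.Agent.S24.MGModel
import Fermat.Agent.S24.MGCard

/-!
# S24 — package MG, part FIX (orbit counts of `S` and `S * T`, orbit sizes)

* `mg_orbits_S`, `mg_orbits_ST` : Burnside count of the orbits of `S` and `S * T` on
  `SL(2,ℤ) ⧸ Γ₀(N)`, the fixed points being the roots of `x² + 1`, resp. `x² + x + 1`, mod `N`;
* `mg_orbit_card_dvd_S`, `mg_orbit_card_dvd_ST`, `mg_orbit_card_dvd_T` : orbit sizes divide
  `2`, `3`, `N`.
-/

set_option autoImplicit false

namespace Fermat.Agent.S24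

open MulAction Subgroup Function ModularCurve ModularGroup CongruenceSubgroup
open scoped MatrixGroups

/-- fixed points of `S` = roots of `x² + 1`. -/
theorem mgf_card_fixed_S (N : ℕ) [NeZero N] :
    Nat.card {x : s24Q N // S • x = x} = nuTwo N := by
  rw [mgm_card_fixed N S 0 1 (fun g => by
    rw [mgm_S_smul_eq_iff]
    constructor
    · intro h; linear_combination h
    · intro h; linear_combination h)]
  rw [nuTwo]
  apply Nat.card_congr
  exact Equiv.subtypeEquivRight fun x => by
    constructor
    · intro h; linear_combination h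
    · intro h; linear_combination h

/-- fixed points of `S * T` = roots of `x² + x + 1`. -/
theorem mgf_card_fixed_ST (N : ℕ) [NeZero N] :
    Nat.card {x : s24Q N // (S * T) • x = x} = nuThree N := by
  rw [mgm_card_fixed N (S * T) 1 1 (fun g => by
    rw [mgm_ST_smul_eq_iff]
    constructor
    · intro h; linear_combination h
    · intro h; linear_combination h)]
  rw [nuThree]
  apply Nat.card_congr
  exact Equiv.subtypeEquivRight fun x => by
    constructor
    · intro h; linear_combination h
    · intro h; linear_combination h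

/-- [MG-S] orbits of `S`. -/
theorem mg_orbits_S (N : ℕ) [NeZero N] :
    2 * Nat.card (Quotient (s24Orb N ModularGroup.S)) = dedekindPsi N + nuTwo N := by
  have h := mgm_burnside_prime (Gamma0 N) S 2 Nat.prime_two (mgm_S_sq_smul N)
  rw [mgf_card_fixed_S] at h
  rw [← mg_card N]
  simpa using h

/-- [MG-ST] orbits of `S * T`. -/
theorem mg_orbits_ST (N : ℕ) [NeZero N] :
    3 * Nat.card (Quotient (s24Orb N (ModularGroup.S * ModularGroup.T)))
      = dedekindPsi N + 2 * nuThree N := by
  have h := mgm_burnside_prime (Gamma0 N) (S * T) 3 Nat.prime_three (mgm_ST_cube_smul N)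
  rw [mgf_card_fixed_ST] at h
  rw [← mg_card N]
  simpa using h

/-- [MG-SIZE] -/
theorem mg_orbit_card_dvd_S (N : ℕ) [NeZero N] (q : s24Q N) :
    Nat.card {q' // (s24Orb N ModularGroup.S).r q q'} ∣ 2 :=
  mgm_card_class_dvd (Gamma0 N) S 2 (mgm_S_sq_smul N) q

theorem mg_orbit_card_dvd_ST (N : ℕ) [NeZero N] (q : s24Q N) :
    Nat.card {q' // (s24Orb N (ModularGroup.S * ModularGroup.T)).r q q'} ∣ 3 :=
  mgm_card_class_dvd (Gamma0 N) (S * T) 3 (mgm_ST_cube_smul N) q

theorem mg_orbit_card_dvd_T (N : ℕ) [NeZero N] (q : s24Q N) :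
    Nat.card {q' // (s24Orb N ModularGroup.T).r q q'} ∣ N :=
  mgm_card_class_dvd (Gamma0 N) T N (mgm_T_pow_smul N) q

end Fermat.Agent.S24
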