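import Fermat.Agent.S24.AnaDataGen
import Fermat.Agent.S24.MGFix
import Fermat.Agent.S24.Ord

/-!
# S24 — [ANA-DATA] (prefix `ad_`)

`AdPkg N` is the list of what the assembly of the four `CountingData` of S24 consumes from the
analytic packages (EV, HOL, STAB, CUSP, SYM, DIST); `ad_data_zero`, `ad_data_1728`,
`ad_data_generic`, `ad_data_infty` build the four `CountingData` from it.
-/

set_option autoImplicit false

namespace Fermat.Agent.S24

open MulAction Subgroup Function IntermediateField UpperHalfPlane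
open scoped MatrixGroups

/-- The analytic package: conjugate embeddings of the function field into a field of meromorphic
functions, with the order valuations at the points of `ℍ` and at `i∞`. -/
structure AdPkg (N : ℕ) [NeZero N] where
  /-- the field of meromorphic functions -/
  M : Type
  [fieldM : Field M]
  /-- the action of `SL(2,ℤ)` on meromorphic functions -/
  act : SL(2, ℤ) → (M →+* M)
  /-- the conjugate embeddings -/
  ρ : s24Q N → (s24F N →+* M)
  ρ_smul : ∀ (g : SL(2, ℤ)) (q : s24Q N), ρ (g • q) = (act g).comp (ρ q)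
  ρ_injective : Function.Injective ρ
  ρ_x : ∀ q q', ρ q (s24j N) = ρ q' (s24j N)
  ρ_K : ∀ q q' (a : s24K),
    ρ q (algebraMap s24K (s24F N) a) = ρ q' (algebraMap s24K (s24F N) a)
  norm_mem : ∀ f : s24F N, ∃ g ∈ s24K⟮s24j N⟯, ∀ q, ρ q g = ∏ q', ρ q' f
  /-- the embedding of the constants -/
  ι : s24K →+* ℂ
  /-- the order valuation at a point of `ℍ` -/
  val : ℍ → Valuation M (WithZero (Multiplicative ℤ))
  val_K : ∀ (τ : ℍ) (q : s24Q N) (a : s24K), a ≠ 0 →
    val τ (ρ q (algebraMap s24K (s24F N) a)) = 1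
  val_act_fix : ∀ (τ : ℍ) (g : SL(2, ℤ)), g • τ = τ → ∀ m : M, val τ (act g m) = val τ m
  val_j_sub : ∀ (τ : ℍ) (q : s24Q N) (a : s24K),
    val τ (ρ q (s24j N - algebraMap s24K (s24F N) a))
      = WithZero.exp (-(analyticOrderNatAt (fun z : ℂ => ord_J (ofComplex z) - ι a) (τ : ℂ) : ℤ))
  stab_S : ∀ m : M, m ≠ 0 → act ModularGroup.S m = m →
    ∃ k : ℤ, val UpperHalfPlane.I m = WithZero.exp (k * ((2 : ℕ) : ℤ))
  stab_ST : ∀ m : M, m ≠ 0 → act (ModularGroup.S * ModularGroup.T) m = m →
    ∃ k : ℤ, val ord_rho m = WithZero.exp (k * ((3 : ℕ) : ℤ))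
  /-- the order valuation at `i∞` (in the parameter `q^{1/N}`) -/
  valInfty : Valuation M (WithZero (Multiplicative ℤ))
  valInfty_K : ∀ (q : s24Q N) (a : s24K), a ≠ 0 →
    valInfty (ρ q (algebraMap s24K (s24F N) a)) = 1
  valInfty_j : ∀ q : s24Q N, valInfty (ρ q (s24j N)) = WithZero.exp (N : ℤ)
  valInfty_act : ∀ g ∈ zpowers (ModularGroup.T : SL(2, ℤ)), ∀ m : M,
    valInfty (act g m) = valInfty m
  valInfty_div : ∀ s : ℕ, s ∣ N → ∀ m : M, m ≠ 0 → act (ModularGroup.T ^ s) m = m →
    ∃ k : ℤ, valInfty m = WithZero.exp (k * ((N / s : ℕ) : ℤ))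

namespace AdPkg

attribute [instance] AdPkg.fieldM

end AdPkg

/-- The divisibility hypothesis of `ad_countingData` for a prime `o`. -/
theorem ad_hdiv_of_prime {M : Type*} [Field M] {G : Type*} [Group G] (act : G → (M →+* M))
    (w : Valuation M (WithZero (Multiplicative ℤ))) (c : G) (o : ℕ) (ho : o.Prime)
    (hstab : ∀ m : M, m ≠ 0 → act c m = m → ∃ k : ℤ, w m = WithZero.exp (k * (o : ℤ))) :
    ∀ s : ℕ, s ∣ o → ∀ m : M, m ≠ 0 → act (c ^ s) m = m →
      ∃ k : ℤ, w m = WithZero.exp (k * ((o / s : ℕ) : ℤ)) := by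
  intro s hs m hm hinv
  rcases (Nat.dvd_prime ho).mp hs with rfl | rfl
  · rw [pow_one] at hinv
    rw [Nat.div_one]
    exact hstab m hm hinv
  · rw [Nat.div_self ho.pos]
    exact ad_exists_exp_mul_one w hm

/-- The divisibility hypothesis of `ad_countingData` for `o = 1`. -/
theorem ad_hdiv_one {M : Type*} [Field M] {G : Type*} [Group G] (act : G → (M →+* M))
    (w : Valuation M (WithZero (Multiplicative ℤ))) (c : G) :
    ∀ s : ℕ, s ∣ 1 → ∀ m : M, m ≠ 0 → act (c ^ s) m = m →
      ∃ k : ℤ, w m = WithZero.exp (k * ((1 / s : ℕ) : ℤ)) := by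
  intro s hs m hm _
  rw [Nat.dvd_one.mp hs]
  exact ad_exists_exp_mul_one w hm

/-- Elements of the cyclic group generated by `c` fix the fixed points of `c`. -/
theorem ad_smul_eq_of_mem_zpowers {G X : Type*} [Group G] [MulAction G X] {c : G} {τ : X}
    (hc : c • τ = τ) {g : G} (hg : g ∈ zpowers c) : g • τ = τ := by
  have h1 : c ∈ MulAction.stabilizer G τ := hc
  have h2 : zpowers c ≤ MulAction.stabilizer G τ := (Subgroup.zpowers_le).mpr h1
  exact h2 hg

section data

variable {N : ℕ} [NeZero N] (P : AdPkg N)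

/-- The order of vanishing as a natural number. -/
theorem ad_orderNat_eq {f : ℂ → ℂ} {z : ℂ} {n : ℕ} (h : analyticOrderAt f z = n) :
    analyticOrderNatAt f z = n := by
  rw [analyticOrderNatAt, h]
  rfl

/-- [ANA-ρ] counting data over `j = 0`. -/
noncomputable def ad_data_zero :
    CountingData s24K (s24F N) (s24j N) (s24j N) (s24Q N)
      (s24Orb N (ModularGroup.S * ModularGroup.T)) 3 :=
  ad_countingData (CongruenceSubgroup.Gamma0 N) (s24j N) (s24j N)
    (ModularGroup.S * ModularGroup.T) 3 P.M P.act P.ρ P.ρ_smul P.ρ_injective P.ρ_x P.ρ_K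
    P.norm_mem (P.val ord_rho) (P.val_K ord_rho) (by norm_num)
    (by
      intro q
      have h := P.val_j_sub ord_rho q 0
      rw [map_zero, map_zero, sub_zero] at h
      simp only [sub_zero] at h
      rw [h, ad_orderNat_eq (ord_analyticOrderAt_zero ord_rho ord_J_rho)])
    (fun g hg m => P.val_act_fix ord_rho g (ad_smul_eq_of_mem_zpowers ord_ST_smul_rho hg) m)
    (mg_orbit_card_dvd_ST N)
    (ad_hdiv_of_prime P.act (P.val ord_rho) _ 3 Nat.prime_three P.stab_ST)

/-- [ANA-i] counting data over `j = 1728`. -/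
noncomputable def ad_data_1728 :
    CountingData s24K (s24F N) (s24j N)
      (s24j N - algebraMap s24K (s24F N) 1728) (s24Q N) (s24Orb N ModularGroup.S) 2 :=
  ad_countingData (CongruenceSubgroup.Gamma0 N) (s24j N)
    (s24j N - algebraMap s24K (s24F N) 1728)
    ModularGroup.S 2 P.M P.act P.ρ P.ρ_smul P.ρ_injective P.ρ_x P.ρ_K
    P.norm_mem (P.val UpperHalfPlane.I) (P.val_K UpperHalfPlane.I) (by norm_num)
    (by
      intro q
      have h := P.val_j_sub UpperHalfPlane.I q 1728
      have h1728 : P.ι 1728 = 1728 := map_ofNat P.ι 1728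
      rw [h1728] at h
      rw [h, ad_orderNat_eq (ord_analyticOrderAt_1728 UpperHalfPlane.I ord_J_I)])
    (fun g hg m => P.val_act_fix UpperHalfPlane.I g
      (ad_smul_eq_of_mem_zpowers ord_S_smul_I hg) m)
    (mg_orbit_card_dvd_S N)
    (ad_hdiv_of_prime P.act (P.val UpperHalfPlane.I) _ 2 Nat.prime_two P.stab_S)

/-- The class of `q` for the trivial group has one element. -/
theorem ad_orbit_card_dvd_one (q : s24Q N) :
    Nat.card {q' // (s24Orb N 1).r q q'} ∣ 1 :=
  mgm_card_class_dvd (CongruenceSubgroup.Gamma0 N) 1 1 (fun x => by simp) q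

/-- [ANA-gen] counting data over `j = a`, `a ≠ 0, 1728`. -/
noncomputable def ad_data_generic (a : s24K) (h0 : a ≠ 0) (h1 : a ≠ 1728) :
    CountingData s24K (s24F N) (s24j N)
      (s24j N - algebraMap s24K (s24F N) a) (s24Q N) (s24Orb N 1) 1 :=
  let τ₀ : ℍ := (ord_J_surjective (P.ι a)).choose
  have hτ₀ : ord_J τ₀ = P.ι a := (ord_J_surjective (P.ι a)).choose_spec
  ad_countingData (CongruenceSubgroup.Gamma0 N) (s24j N)
    (s24j N - algebraMap s24K (s24F N) a)
    1 1 P.M P.act P.ρ P.ρ_smul P.ρ_injective P.ρ_x P.ρ_K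
    P.norm_mem (P.val τ₀) (P.val_K τ₀) (by norm_num)
    (by
      intro q
      have h := P.val_j_sub τ₀ q a
      have hne0 : ord_J τ₀ ≠ 0 := by
        rw [hτ₀]
        exact (map_ne_zero P.ι).mpr h0
      have hne1 : ord_J τ₀ ≠ 1728 := by
        rw [hτ₀]
        intro h
        apply h1
        apply P.ι.injective
        rw [h]
        exact (map_ofNat P.ι 1728).symm
      rw [← hτ₀] at h
      rw [h, ad_orderNat_eq (ord_analyticOrderAt_generic τ₀ hne0 hne1)])
    (fun g hg m => P.val_act_fix τ₀ g (by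
      have : g = 1 := by
        rw [Subgroup.zpowers_one_eq_bot] at hg
        exact Subgroup.mem_bot.mp hg
      rw [this, one_smul]) m)
    ad_orbit_card_dvd_one
    (ad_hdiv_one P.act (P.val τ₀) 1)

/-- [ANA-∞] counting data over `j = ∞`. -/
noncomputable def ad_data_infty :
    CountingData s24K (s24F N) (s24j N) (s24j N)⁻¹ (s24Q N)
      (s24Orb N ModularGroup.T) N :=
  ad_countingData (CongruenceSubgroup.Gamma0 N) (s24j N) (s24j N)⁻¹
    ModularGroup.T N P.M P.act P.ρ P.ρ_smul P.ρ_injective P.ρ_x P.ρ_K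
    P.norm_mem P.valInfty P.valInfty_K (Nat.pos_of_ne_zero (NeZero.ne N))
    (by
      intro q
      rw [map_inv₀, map_inv₀, P.valInfty_j q, ← WithZero.exp_neg])
    P.valInfty_act
    (mg_orbit_card_dvd_T N)
    P.valInfty_div

end data

end Fermat.Agent.S24
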