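import Fermat.Agent.S24.Defs

/-!
# S24, package ALG-CT, part 2: valuations trivial on `K`, places, separation

* `ct_val_aeval`, `ct_val_le_one_iff`: two valuations of `F`, trivial on `K`, for which `y` has
  value `< 1`, have the same valuation ring on `K(y)`.
* `ct_adic_le_one_iff` etc.: basic dictionary between `Place.ord`, `Place.adicValuation` and
  membership in the valuation ring of a place.
* `ct_placeOf`: the place attached to a `ℤ`-valued valuation which is trivial on `K` and
  nontrivial.
* `ct_separation`: weak approximation for finitely many places.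
-/

set_option autoImplicit false

namespace Fermat.Agent.S24

open AlgebraicCurve IntermediateField Polynomial

section ValuationsOnKy

variable {K F : Type*} [Field K] [Field F] [Algebra K F]
  {Γ : Type*} [LinearOrderedCommGroupWithZero Γ]

/-- The valuation of a polynomial in `y` with coefficients in `K`, for a valuation which is
trivial on `K` and such that `y` has value `< 1`. -/
theorem ct_val_aeval (u : Valuation F Γ) (hK : ∀ a : K, a ≠ 0 → u (algebraMap K F a) = 1)
    {y : F} (hy0 : u y ≠ 0) (hy1 : u y < 1) {P : K[X]} (hP : P ≠ 0) :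
    u (aeval y P) = u y ^ P.natTrailingDegree := by
  classical
  set m := P.natTrailingDegree with hm
  have hmem : m ∈ P.support := natTrailingDegree_mem_support_of_nonzero hP
  have hcoeff : P.coeff m ≠ 0 := mem_support_iff.mp hmem
  rw [aeval_def, eval₂_eq_sum, sum_def, ← Finset.add_sum_erase _ _ hmem]
  have h1 : u (algebraMap K F (P.coeff m) * y ^ m) = u y ^ m := by
    rw [map_mul, hK _ hcoeff, one_mul, map_pow]
  have hpos : 0 < u y := zero_lt_iff.mpr hy0
  have h2 : u (∑ i ∈ P.support.erase m, algebraMap K F (P.coeff i) * y ^ i) < u y ^ m := by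
    apply Valuation.map_sum_lt u (pow_ne_zero _ hy0)
    intro i hi
    have hi1 : i ∈ P.support := Finset.mem_of_mem_erase hi
    have hi2 : i ≠ m := Finset.ne_of_mem_erase hi
    have hi3 : m < i := lt_of_le_of_ne (natTrailingDegree_le_of_mem_supp i hi1) (Ne.symm hi2)
    rw [map_mul, hK _ (mem_support_iff.mp hi1), one_mul, map_pow]
    exact pow_lt_pow_right_of_lt_one₀ hpos hy1 hi3
  rw [← h1] at h2
  rw [Valuation.map_add_eq_of_lt_left u h2, h1]

theorem ct_aeval_ne_zero (u : Valuation F Γ) (hK : ∀ a : K, a ≠ 0 → u (algebraMap K F a) = 1)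
    {y : F} (hy0 : u y ≠ 0) (hy1 : u y < 1) {P : K[X]} (hP : P ≠ 0) : aeval y P ≠ 0 := by
  intro h
  have := ct_val_aeval u hK hy0 hy1 hP
  rw [h, map_zero] at this
  exact pow_ne_zero _ hy0 this.symm

/-- Two valuations of `F`, trivial on `K`, for which `y` has value `< 1`, have the same
valuation ring on `K(y)`. -/
theorem ct_val_le_one_imp {Γ' : Type*} [LinearOrderedCommGroupWithZero Γ']
    (u : Valuation F Γ) (u' : Valuation F Γ')
    (hK : ∀ a : K, a ≠ 0 → u (algebraMap K F a) = 1)
    (hK' : ∀ a : K, a ≠ 0 → u' (algebraMap K F a) = 1)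
    {y : F} (hy0 : y ≠ 0) (hy1 : u y < 1) (hy1' : u' y < 1) {c : F} (hc : c ∈ K⟮y⟯)
    (h : u c ≤ 1) : u' c ≤ 1 := by
  obtain ⟨r, s, rfl⟩ := (IntermediateField.mem_adjoin_simple_iff K c).mp hc
  have huy : u y ≠ 0 := (Valuation.ne_zero_iff u).mpr hy0
  have huy' : u' y ≠ 0 := (Valuation.ne_zero_iff u').mpr hy0
  by_cases hr : r = 0
  · simp [hr]
  by_cases hs : s = 0
  · simp [hs]
  have hr0 := ct_aeval_ne_zero u hK huy hy1 hr
  have hs0 := ct_aeval_ne_zero u hK huy hy1 hs
  rw [map_div₀, ct_val_aeval u hK huy hy1 hr, ct_val_aeval u hK huy hy1 hs,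
    div_le_one₀ (pow_pos (zero_lt_iff.mpr huy) _),
    pow_le_pow_iff_right_of_lt_one₀ (zero_lt_iff.mpr huy) hy1] at h
  rw [map_div₀, ct_val_aeval u' hK' huy' hy1' hr, ct_val_aeval u' hK' huy' hy1' hs,
    div_le_one₀ (pow_pos (zero_lt_iff.mpr huy') _),
    pow_le_pow_iff_right_of_lt_one₀ (zero_lt_iff.mpr huy') hy1']
  exact h

end ValuationsOnKy

section PlaceBasics

variable {K F : Type*} [Field K] [Field F] [Algebra K F]

open WithZero

/-- `adic f = exp (- ord f)` for `f ≠ 0`. -/
theorem ct_adic_eq_exp (v : Place K F) {f : F} (hf : f ≠ 0) :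
    v.adicValuation f = exp (-(v.ord f)) := by
  rw [Place.ord, neg_neg, exp_log (v.adicValuation_ne_zero hf)]

theorem ct_adic_le_one_iff_mem (v : Place K F) (f : F) :
    v.adicValuation f ≤ 1 ↔ f ∈ v.toValuationSubring := by
  constructor
  · intro h
    obtain ⟨a, ha⟩ := IsDiscreteValuationRing.exists_lift_of_le_one (A := v.toValuationSubring)
      (K := F) h
    rw [← ha]
    exact a.2
  · intro h
    exact IsDedekindDomain.HeightOneSpectrum.valuation_le_one v.heightOneSpectrum
      (⟨f, h⟩ : v.toValuationSubring)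

theorem ct_adic_valuationSubring (v : Place K F) :
    v.adicValuation.valuationSubring = v.toValuationSubring := by
  ext f
  rw [Valuation.mem_valuationSubring_iff, ct_adic_le_one_iff_mem]

theorem ct_ord_nonneg_iff (v : Place K F) {f : F} (hf : f ≠ 0) :
    0 ≤ v.ord f ↔ v.adicValuation f ≤ 1 := by
  rw [ct_adic_eq_exp v hf, ← exp_zero, exp_le_exp]
  omega

theorem ct_ord_pos_iff (v : Place K F) {f : F} (hf : f ≠ 0) :
    0 < v.ord f ↔ v.adicValuation f < 1 := by
  rw [ct_adic_eq_exp v hf, ← exp_zero, exp_lt_exp]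
  omega

theorem ct_ord_eq_zero_iff (v : Place K F) {f : F} (hf : f ≠ 0) :
    v.ord f = 0 ↔ v.adicValuation f = 1 := by
  rw [ct_adic_eq_exp v hf, ← exp_zero, exp_inj]
  omega

theorem ct_ord_neg_iff (v : Place K F) {f : F} (hf : f ≠ 0) :
    v.ord f < 0 ↔ 1 < v.adicValuation f := by
  rw [ct_adic_eq_exp v hf, ← exp_zero, exp_lt_exp]
  omega

theorem ct_ne_zero_of_ord_pos (v : Place K F) {f : F} (h : 0 < v.ord f) : f ≠ 0 := by
  rintro rfl
  simp at h

/-- The adic valuation of a place is trivial on `K`. -/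
theorem ct_adic_algebraMap (v : Place K F) {a : K} (ha : a ≠ 0) :
    v.adicValuation (algebraMap K F a) = 1 := by
  apply le_antisymm
  · exact (ct_adic_le_one_iff_mem v _).mpr (v.algebraMap_mem' a)
  · have h1 : v.adicValuation (algebraMap K F a⁻¹) ≤ 1 :=
      (ct_adic_le_one_iff_mem v _).mpr (v.algebraMap_mem' a⁻¹)
    rw [map_inv₀, map_inv₀] at h1
    have h0 : v.adicValuation (algebraMap K F a) ≠ 0 :=
      v.adicValuation_ne_zero (by simpa using ha)
    exact (inv_le_one₀ (zero_lt_iff.mpr h0)).mp h1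

end PlaceBasics

section PlaceOf

variable {K F : Type*} [Field K] [Field F] [Algebra K F]

open WithZero

theorem ct_isPrincipalIdealRing_of_nontrivial (u : Valuation F ℤᵐ⁰)
    (hnt : ∃ f : F, f ≠ 0 ∧ u f ≠ 1) : IsPrincipalIdealRing u.valuationSubring := by
  obtain ⟨f, hf0, hf1⟩ := hnt
  have hne : u f ≠ 0 := (Valuation.ne_zero_iff u).mpr hf0
  have hmem : Units.mk0 (u f) hne ∈ MonoidWithZeroHom.valueGroup (.ofClass u) :=
    MonoidWithZeroHom.mem_valueGroup _ ⟨f, rfl⟩
  have : Nontrivial (MonoidWithZeroHom.valueGroup (.ofClass u)) := by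
    refine ⟨⟨⟨Units.mk0 (u f) hne, hmem⟩, 1, ?_⟩⟩
    intro h
    apply hf1
    have := congrArg (fun z : MonoidWithZeroHom.valueGroup (.ofClass u) => ((z : (ℤᵐ⁰)ˣ) : ℤᵐ⁰)) h
    simpa using this
  exact Valuation.valuationSubring_isPrincipalIdealRing u

/-- The place attached to a `ℤ`-valued valuation of `F` which is trivial on `K` and
nontrivial. -/
noncomputable def ct_placeOf (u : Valuation F ℤᵐ⁰)
    (hK : ∀ a : K, a ≠ 0 → u (algebraMap K F a) = 1)
    (hnt : ∃ f : F, f ≠ 0 ∧ u f ≠ 1) : Place K F where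
  toValuationSubring := u.valuationSubring
  algebraMap_mem' := by
    intro a
    rw [Valuation.mem_valuationSubring_iff]
    by_cases ha : a = 0
    · simp [ha]
    · exact (hK a ha).le
  ne_top' := by
    obtain ⟨f, hf0, hf1⟩ := hnt
    intro htop
    have h1 : u f ≤ 1 := by
      rw [← Valuation.mem_valuationSubring_iff, htop]
      exact ValuationSubring.mem_top f
    have h2 : u f⁻¹ ≤ 1 := by
      rw [← Valuation.mem_valuationSubring_iff, htop]
      exact ValuationSubring.mem_top _
    rw [map_inv₀] at h2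
    have hne : u f ≠ 0 := (Valuation.ne_zero_iff u).mpr hf0
    have h3 : 1 ≤ u f := (inv_le_one₀ (zero_lt_iff.mpr hne)).mp h2
    exact hf1 (le_antisymm h1 h3)
  isPrincipalIdealRing' := ct_isPrincipalIdealRing_of_nontrivial u hnt

variable (u : Valuation F ℤᵐ⁰) (hK : ∀ a : K, a ≠ 0 → u (algebraMap K F a) = 1)
    (hnt : ∃ f : F, f ≠ 0 ∧ u f ≠ 1)

theorem ct_placeOf_toValuationSubring :
    (ct_placeOf u hK hnt).toValuationSubring = u.valuationSubring := rfl

theorem ct_placeOf_isEquiv : (ct_placeOf u hK hnt).adicValuation.IsEquiv u := by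
  rw [Valuation.isEquiv_iff_valuationSubring, ct_adic_valuationSubring]
  rfl

/-- A place is determined by any valuation equivalent to its adic valuation. -/
theorem ct_place_eq_of_isEquiv {v v' : Place K F} (h : v.adicValuation.IsEquiv v'.adicValuation) :
    v = v' := by
  apply Place.ext
  rw [← ct_adic_valuationSubring v, ← ct_adic_valuationSubring v']
  exact (Valuation.isEquiv_iff_valuationSubring _ _).mp h

theorem ct_placeOf_eq_iff (v : Place K F) :
    ct_placeOf u hK hnt = v ↔ u.IsEquiv v.adicValuation := by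
  constructor
  · rintro rfl
    exact (ct_placeOf_isEquiv u hK hnt).symm
  · intro h
    exact ct_place_eq_of_isEquiv ((ct_placeOf_isEquiv u hK hnt).trans h)

end PlaceOf

section Scale

variable {K F : Type*} [Field K] [Field F] [Algebra K F]

open WithZero

/-- A `ℤ`-valued valuation equivalent to the adic valuation of a place `v` is
`exp (- m * ord_v)` for some integer `m > 0`. -/
theorem ct_exists_scale (v : Place K F) (u : Valuation F ℤᵐ⁰)
    (h : v.adicValuation.IsEquiv u) :
    ∃ m : ℤ, 0 < m ∧ ∀ f : F, f ≠ 0 → u f = exp (-(m * v.ord f)) := by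
  obtain ⟨π, hπ⟩ := IsDiscreteValuationRing.exists_irreducible v.toValuationSubring
  have hπ0 : (π : F) ≠ 0 := by
    simpa [ne_eq, ZeroMemClass.coe_eq_zero] using hπ.ne_zero
  have hadic : v.adicValuation (π : F) < 1 := by
    rw [v.adicValuation_coe_irreducible hπ, ← exp_zero, exp_lt_exp]
    norm_num
  have huπ1 : u (π : F) < 1 := (Valuation.isEquiv_iff_val_lt_one.mp h).mp hadic
  have huπ0 : u (π : F) ≠ 0 := (Valuation.ne_zero_iff u).mpr hπ0
  have hlog : log (u (π : F)) < 0 := by
    rw [← exp_log huπ0, ← exp_zero, exp_lt_exp] at huπ1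
    exact huπ1
  refine ⟨-log (u (π : F)), by omega, fun f hf => ?_⟩
  obtain ⟨a, ha⟩ := v.exists_unit_mul_zpow hf hπ
  have hunit : u ((a : v.toValuationSubring) : F) = 1 := by
    apply (Valuation.isEquiv_iff_val_eq_one.mp h).mp
    exact (v.adicValuation_coe_eq_one_iff _).mpr a.isUnit
  conv_lhs => rw [ha]
  rw [map_mul, hunit, one_mul, map_zpow₀]
  conv_lhs => rw [← exp_log huπ0]
  rw [← exp_zsmul, smul_eq_mul]
  congr 1
  ring

/-- The order of `y` at the place of a valuation `u` with `u y = exp (-o)` whose values are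
powers of `exp (o / c)`, `c ∣ o`: it is positive, at most `c`. -/
theorem ct_ord_le_of_div (v : Place K F) (u : Valuation F ℤᵐ⁰)
    (h : v.adicValuation.IsEquiv u) {y : F} {o c : ℕ} (ho : 0 < o) (hc : c ∣ o)
    (hy : u y = exp (-(o : ℤ)))
    (hdiv : ∀ f : F, f ≠ 0 → ∃ k : ℤ, u f = exp (k * ((o / c : ℕ) : ℤ))) :
    0 < v.ord y ∧ v.ord y ≤ c := by
  obtain ⟨m, hm, hu⟩ := ct_exists_scale v u h
  have hy0 : y ≠ 0 := by
    rintro rfl
    rw [map_zero] at hy
    exact exp_ne_zero hy.symm
  -- `o = m * ord y`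
  have h1 : (o : ℤ) = m * v.ord y := by
    have := hu y hy0
    rw [hy, exp_inj] at this
    omega
  have hordpos : 0 < v.ord y := by
    by_contra hcon
    rw [not_lt] at hcon
    have : m * v.ord y ≤ 0 := mul_nonpos_of_nonneg_of_nonpos hm.le hcon
    have ho' : (0 : ℤ) < o := by exact_mod_cast ho
    omega
  refine ⟨hordpos, ?_⟩
  -- a uniformizer
  obtain ⟨π, hπ⟩ := IsDiscreteValuationRing.exists_irreducible v.toValuationSubring
  have hπ0 : (π : F) ≠ 0 := by
    simpa [ne_eq, ZeroMemClass.coe_eq_zero] using hπ.ne_zero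
  obtain ⟨k, hk⟩ := hdiv (π : F) hπ0
  have h2 : -(m * 1) = k * ((o / c : ℕ) : ℤ) := by
    have := hu (π : F) hπ0
    rw [v.ord_coe_irreducible hπ, hk, exp_inj] at this
    exact this.symm
  -- `o = c * (o / c)`
  obtain ⟨e, rfl⟩ := hc
  have hcpos : 0 < c := by
    rcases Nat.eq_zero_or_pos c with h0 | h0
    · subst h0
      simp at ho
    · exact h0
  have he : c * e / c = e := Nat.mul_div_cancel_left e hcpos
  rw [he] at h2
  have hepos : 0 < e := by
    rcases Nat.eq_zero_or_pos e with h0 | h0
    · subst h0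
      simp at ho
    · exact h0
  -- `c * e = m * ord y`, `m = (-k) * e`, so `c = (-k) * ord y`
  have h3 : (c : ℤ) * e = (-k) * e * v.ord y := by
    have : ((c * e : ℕ) : ℤ) = m * v.ord y := h1
    push_cast at this
    rw [this]
    have : m = -k * e := by linarith
    rw [this]
  have hepos' : (0 : ℤ) < e := by exact_mod_cast hepos
  have h4 : (c : ℤ) = (-k) * v.ord y := by
    have h5 : (c : ℤ) * e = ((-k) * v.ord y) * e := by rw [h3]; ring
    exact mul_right_cancel₀ hepos'.ne' h5
  have hk : 0 < -k := by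
    have : m = -k * e := by linarith
    by_contra hcon
    rw [not_lt] at hcon
    have : -k * (e : ℤ) ≤ 0 := mul_nonpos_of_nonpos_of_nonneg hcon hepos'.le
    omega
  rw [h4]
  have : 1 * v.ord y ≤ (-k) * v.ord y := mul_le_mul_of_nonneg_right (by omega) hordpos.le
  simpa using this

end Scale

section Separation

variable {K F : Type*} [Field K] [Field F] [Algebra K F]

open WithZero

/-- The valuation ring of a place is not contained in the valuation ring of another place. -/
theorem ct_exists_mem_not_mem {v w : Place K F} (hvw : v ≠ w) :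
    ∃ f : F, v.adicValuation f ≤ 1 ∧ 1 < w.adicValuation f := by
  by_contra hcon
  push Not at hcon
  -- `A_v ≤ A_w`; we show `A_w ≤ A_v`
  apply hvw
  apply ct_place_eq_of_isEquiv
  apply Valuation.isEquiv_of_val_le_one
  intro f
  refine ⟨hcon f, fun hwf => ?_⟩
  by_contra hvf
  rw [not_le] at hvf
  have hf0 : f ≠ 0 := by
    rintro rfl
    simp at hvf
  -- an element `g` outside `A_w`
  obtain ⟨g, hg⟩ : ∃ g : F, 1 < w.adicValuation g := by
    by_contra hall
    push Not at hall
    apply w.ne_top'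
    ext z
    simp only [ValuationSubring.mem_top, iff_true]
    exact (ct_adic_le_one_iff_mem w z).mp (hall z)
  have hg0 : g ≠ 0 := by
    rintro rfl
    simp at hg
  have hvg : 1 < v.adicValuation g := by
    by_contra h1
    rw [not_lt] at h1
    exact absurd (hcon g h1) (not_le.mpr hg)
  -- orders
  have hof : v.ord f < 0 := (ct_ord_neg_iff v hf0).mpr hvf
  have hog : v.ord g < 0 := (ct_ord_neg_iff v hg0).mpr hvg
  -- `h = g ^ (ord f) / f ^ (ord g)` is a unit at `v`
  set h : F := g ^ (v.ord f) / f ^ (v.ord g) with hh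
  have hh0 : h ≠ 0 := div_ne_zero (zpow_ne_zero _ hg0) (zpow_ne_zero _ hf0)
  have hordh : v.ord h = 0 := by
    rw [hh, div_eq_mul_inv, v.ord_mul (zpow_ne_zero _ hg0) (inv_ne_zero (zpow_ne_zero _ hf0)),
      v.ord_inv, v.ord_zpow, v.ord_zpow]
    ring
  have hvh : v.adicValuation h = 1 := (ct_ord_eq_zero_iff v hh0).mp hordh
  have hwh1 : w.adicValuation h ≤ 1 := hcon h hvh.le
  have hwh2 : w.adicValuation h⁻¹ ≤ 1 := by
    apply hcon
    rw [map_inv₀, hvh, inv_one]
  have hwh : w.adicValuation h = 1 := by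
    apply le_antisymm hwh1
    rw [map_inv₀] at hwh2
    exact (inv_le_one₀ (zero_lt_iff.mpr (w.adicValuation_ne_zero hh0))).mp hwh2
  -- but `w h > 1`
  rw [hh, map_div₀, map_zpow₀, map_zpow₀] at hwh
  have hwf0 : w.adicValuation f ≠ 0 := w.adicValuation_ne_zero hf0
  have hwg0 : w.adicValuation g ≠ 0 := w.adicValuation_ne_zero hg0
  have h1 : w.adicValuation g ^ (v.ord f) = w.adicValuation f ^ (v.ord g) := by
    rw [div_eq_one_iff_eq (zpow_ne_zero _ hwf0)] at hwh
    exact hwh
  -- `w g ^ (ord f) < 1` as `w g > 1` and `ord f < 0`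
  have h2 : w.adicValuation g ^ (v.ord f) < 1 := by
    have : (w.adicValuation g)⁻¹ ^ (-(v.ord f)) < 1 := by
      apply zpow_lt_one₀
      · exact inv_pos.mpr (zero_lt_iff.mpr hwg0)
      · exact inv_lt_one_of_one_lt₀ hg
      · omega
    simpa using this
  -- `w f ^ (ord g) ≥ 1` as `w f ≤ 1` and `ord g < 0`
  have h3 : 1 ≤ w.adicValuation f ^ (v.ord g) := by
    have : 1 ≤ (w.adicValuation f)⁻¹ ^ (-(v.ord g)) := by
      apply one_le_zpow₀
      · exact (one_le_inv₀ (zero_lt_iff.mpr hwf0)).mpr hwf
      · omega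
    simpa using this
  rw [h1] at h2
  exact absurd h3 (not_le.mpr h2)

/-- Two distinct places are separated by a function. -/
theorem ct_exists_lt_gt {v w : Place K F} (hvw : v ≠ w) :
    ∃ z : F, v.adicValuation z < 1 ∧ 1 < w.adicValuation z := by
  obtain ⟨f₁, h1, h2⟩ := ct_exists_mem_not_mem hvw
  obtain ⟨f₂, h3, h4⟩ := ct_exists_mem_not_mem (Ne.symm hvw)
  have hf₂ : f₂ ≠ 0 := by
    rintro rfl
    simp at h4
  have hf₁ : f₁ ≠ 0 := by
    rintro rfl
    simp at h2
  refine ⟨f₁ / f₂, ?_, ?_⟩
  · rw [map_div₀, div_lt_one₀ (zero_lt_iff.mpr (v.adicValuation_ne_zero hf₂))]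
    exact lt_of_le_of_lt h1 h4
  · rw [map_div₀, one_lt_div₀ (zero_lt_iff.mpr (w.adicValuation_ne_zero hf₂))]
    exact lt_of_le_of_lt h3 h2

/-- Weak approximation, first step: a function with a zero at `v` and poles at all places of
a finite set `S` not containing `v`. -/
theorem ct_exists_lt_forall_gt (v : Place K F) (S : Finset (Place K F)) (hv : v ∉ S) :
    ∃ u : F, v.adicValuation u < 1 ∧ ∀ w ∈ S, 1 < w.adicValuation u := by
  classical
  induction S using Finset.induction_on with
  | empty => exact ⟨0, by simp, by simp⟩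
  | insert w S' hw ih =>
    have hvS' : v ∉ S' := fun h => hv (Finset.mem_insert_of_mem h)
    have hvw : v ≠ w := fun h => hv (h ▸ Finset.mem_insert_self _ _)
    obtain ⟨u₀, hu₀v, hu₀S⟩ := ih hvS'
    by_cases hwu : 1 < w.adicValuation u₀
    · refine ⟨u₀, hu₀v, fun w' hw' => ?_⟩
      rcases Finset.mem_insert.mp hw' with rfl | h
      · exact hwu
      · exact hu₀S w' h
    rw [not_lt] at hwu
    obtain ⟨z, hzv, hzw⟩ := ct_exists_lt_gt hvw
    have hz0 : z ≠ 0 := by
      rintro rfl
      simp at hzw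
    -- the bad exponents
    let bad : Set ℕ := ⋃ w' ∈ (S' : Set (Place K F)),
      {r : ℕ | w'.adicValuation z ^ r = w'.adicValuation u₀}
    have hbad : bad.Finite := by
      apply Set.Finite.biUnion S'.finite_toSet
      intro w' hw'
      apply Set.Subsingleton.finite
      intro r hr r' hr'
      simp only [Set.mem_ofPred_eq] at hr hr'
      by_cases h1 : w'.adicValuation z = 1
      · rw [h1, one_pow] at hr
        have := hu₀S w' hw'
        rw [← hr] at this
        exact absurd this (lt_irrefl _)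
      · exact IsMulTorsionFree.pow_right_injective₀ h1 (w'.adicValuation_ne_zero hz0)
          (hr.trans hr'.symm)
    obtain ⟨r, hr1, hrbad⟩ := (Set.Ici_infinite (1 : ℕ)).exists_notMem_finite hbad
    have hr0 : r ≠ 0 := by
      have : 1 ≤ r := hr1
      omega
    have hrS : ∀ w' ∈ S', w'.adicValuation z ^ r ≠ w'.adicValuation u₀ := by
      intro w' hw' h
      apply hrbad
      simp only [bad, Set.mem_iUnion]
      exact ⟨w', hw', h⟩
    refine ⟨u₀ + z ^ r, ?_, fun w' hw' => ?_⟩
    · refine lt_of_le_of_lt (Valuation.map_add _ _ _) (max_lt hu₀v ?_)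
      rw [map_pow]
      exact pow_lt_one₀ zero_le hzv hr0
    · rcases Finset.mem_insert.mp hw' with rfl | h
      · have h1 : 1 < w'.adicValuation (z ^ r) := by
          rw [map_pow]
          exact one_lt_pow₀ hzw hr0
        rw [Valuation.map_add_eq_of_lt_right _ (lt_of_le_of_lt hwu h1)]
        exact h1
      · have h1 : w'.adicValuation u₀ ≠ w'.adicValuation (z ^ r) := by
          rw [map_pow]
          exact fun h2 => hrS w' h h2.symm
        rw [Valuation.map_add_of_distinct_val _ h1]
        exact lt_of_lt_of_le (hu₀S w' h) (le_max_left _ _)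

/-- **Separation lemma** (weak approximation): for a place `v` and a finite set `S` of places
not containing `v` there is a function vanishing at `v` which is a unit at all places of `S`. -/
theorem ct_separation (v : Place K F) (S : Finset (Place K F)) (hv : v ∉ S) :
    ∃ f : F, v.adicValuation f < 1 ∧ ∀ w ∈ S, w.adicValuation f = 1 := by
  obtain ⟨u, huv, huS⟩ := ct_exists_lt_forall_gt v S hv
  have h1 : v.adicValuation (1 + u) = 1 := by
    have : v.adicValuation u < v.adicValuation 1 := by rw [map_one]; exact huv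
    rw [Valuation.map_add_eq_of_lt_left _ this, map_one]
  refine ⟨u / (1 + u), ?_, fun w hw => ?_⟩
  · rw [map_div₀, h1, div_one]
    exact huv
  · have h2 : w.adicValuation 1 < w.adicValuation u := by rw [map_one]; exact huS w hw
    have h3 : w.adicValuation (1 + u) = w.adicValuation u :=
      Valuation.map_add_eq_of_lt_right _ h2
    have h4 : w.adicValuation u ≠ 0 := by
      intro h0
      rw [h0, map_one] at h2
      exact absurd h2 (by simp)
    rw [map_div₀, h3, div_self h4]

end Separation

end Fermat.Agent.S24
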