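import Fermat.Agent.S24.CountingPoly
import Fermat.Agent.S24.CountingVal

/-!
# S24, package ALG-CT, part 3: the counting theorem

For counting data `d` at the point `y = 0` of the `x`-line:

* `ct_vq d q`: the place of `F` attached to the valuation `w ∘ ρ q`;
* `ct_adic_le_one_of_forall`: a function which is integral for all valuations `w ∘ ρ q` is
  integral at every place over `y = 0` (via the characteristic polynomial);
* `ct_exists_vq_eq`: every place over `y = 0` is one of the `ct_vq d q`;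
* `ct_counting_of_sum`: the counting theorem, assuming the fundamental identity
  `∑_{v | y = 0} ord_v y = [F : K(x)]`.
-/

set_option autoImplicit false

namespace Fermat.Agent.S24

open AlgebraicCurve IntermediateField Polynomial WithZero

section

variable {K F : Type*} [Field K] [Field F] [Algebra K F] {x y : F} {Q : Type} [Fintype Q]
  {r : Setoid Q} {o : ℕ} (d : CountingData K F x y Q r o)

/-- The valuation `w ∘ ρ q` of `F`. -/
noncomputable def ct_u (q : Q) : Valuation F ℤᵐ⁰ := d.w.comap (d.ρ q)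

theorem ct_u_apply (q : Q) (f : F) : ct_u d q f = d.w (d.ρ q f) := rfl

theorem ct_u_K (q : Q) (a : K) (ha : a ≠ 0) : ct_u d q (algebraMap K F a) = 1 :=
  d.w_K q a ha

theorem ct_u_y (q : Q) : ct_u d q y = exp (-(o : ℤ)) := d.w_y q

theorem ct_y_ne_zero [Nonempty Q] (d : CountingData K F x y Q r o) : y ≠ 0 := by
  obtain ⟨q⟩ := (inferInstance : Nonempty Q)
  rintro rfl
  have := ct_u_y d q
  rw [map_zero] at this
  exact exp_ne_zero this.symm

theorem ct_u_y_lt_one (q : Q) : ct_u d q y < 1 := by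
  rw [ct_u_y, ← exp_zero, exp_lt_exp]
  have := d.o_pos
  omega

theorem ct_u_nontrivial (q : Q) : ∃ f : F, f ≠ 0 ∧ ct_u d q f ≠ 1 := by
  refine ⟨y, ?_, (ct_u_y_lt_one d q).ne⟩
  rintro rfl
  have := ct_u_y d q
  rw [map_zero] at this
  exact exp_ne_zero this.symm

/-- The place of `F` attached to `w ∘ ρ q`. -/
noncomputable def ct_vq (q : Q) : Place K F :=
  ct_placeOf (ct_u d q) (ct_u_K d q) (ct_u_nontrivial d q)

theorem ct_vq_isEquiv (q : Q) : (ct_vq d q).adicValuation.IsEquiv (ct_u d q) :=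
  ct_placeOf_isEquiv _ _ _

theorem ct_vq_eq_of_rel {q q' : Q} (h : r.r q q') : ct_vq d q = ct_vq d q' := by
  have hu : ct_u d q = ct_u d q' := by
    ext f
    exact d.w_inv q q' h f
  apply ct_place_eq_of_isEquiv
  refine (ct_vq_isEquiv d q).trans ?_
  rw [hu]
  exact (ct_vq_isEquiv d q').symm

theorem ct_vq_ord_y (q : Q) :
    0 < (ct_vq d q).ord y ∧ (ct_vq d q).ord y ≤ Nat.card {q' // r.r q q'} :=
  ct_ord_le_of_div (ct_vq d q) (ct_u d q) (ct_vq_isEquiv d q) d.o_pos (d.card_dvd q)
    (ct_u_y d q) (fun f hf => d.w_div q f hf)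

/-- The coefficients of `∏ q, (X - ρ q f)` are `w`-integral if all `ρ q f` are. -/
theorem ct_polyM_coeff_le (f : F) (hf : ∀ q, d.w (d.ρ q f) ≤ 1) (i : ℕ) :
    d.w ((ct_polyM d f).coeff i) ≤ 1 := by
  have h : ct_polyM d f ∈ Polynomial.liftsRing (d.w.integer.subtype) := by
    rw [ct_polyM]
    apply Subring.prod_mem
    intro q _
    apply Subring.sub_mem
    · rw [← lifts_iff_liftsRing]
      exact X_mem_lifts _
    · rw [← lifts_iff_liftsRing]
      exact C'_mem_lifts ⟨⟨d.ρ q f, hf q⟩, rfl⟩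
  rw [← lifts_iff_liftsRing, lifts_iff_coeff_lifts] at h
  obtain ⟨a, ha⟩ := h i
  rw [← ha]
  exact a.2

end

section Transfer

variable {K F : Type*} [Field K] [Field F] [Algebra K F] {x y : F} {Q : Type} [Fintype Q]
  {r : Setoid Q} {o : ℕ} (d : CountingData K F x y Q r o)

theorem ct_adjoin_le (hy : (∃ a : K, y = x - algebraMap K F a) ∨ y = x⁻¹) : K⟮x⟯ ≤ K⟮y⟯ := by
  rw [IntermediateField.adjoin_simple_le_iff]
  rcases hy with ⟨a, rfl⟩ | rfl
  · have h1 : x - algebraMap K F a ∈ K⟮x - algebraMap K F a⟯ :=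
      IntermediateField.mem_adjoin_simple_self K _
    have h2 : algebraMap K F a ∈ K⟮x - algebraMap K F a⟯ :=
      IntermediateField.algebraMap_mem _ a
    have := add_mem h1 h2
    simpa using this
  · have h1 : x⁻¹ ∈ K⟮x⁻¹⟯ := IntermediateField.mem_adjoin_simple_self K _
    have := inv_mem h1
    simpa using this

theorem ct_adjoin_ge (hy : (∃ a : K, y = x - algebraMap K F a) ∨ y = x⁻¹) : K⟮y⟯ ≤ K⟮x⟯ := by
  rw [IntermediateField.adjoin_simple_le_iff]
  have hx : x ∈ K⟮x⟯ := IntermediateField.mem_adjoin_simple_self K _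
  rcases hy with ⟨a, rfl⟩ | rfl
  · exact sub_mem hx (IntermediateField.algebraMap_mem _ a)
  · exact inv_mem hx

theorem ct_adjoin_eq (hy : (∃ a : K, y = x - algebraMap K F a) ∨ y = x⁻¹) : K⟮y⟯ = K⟮x⟯ :=
  le_antisymm (ct_adjoin_ge hy) (ct_adjoin_le hy)

/-- **Integrality transfer.** A function which is integral for all the valuations `w ∘ ρ q` is
integral at every place of `F` over `y = 0`. -/
theorem ct_adic_le_one_of_forall [Infinite K] [Nonempty Q]
    (hy : (∃ a : K, y = x - algebraMap K F a) ∨ y = x⁻¹)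
    (f : F) (hf : ∀ q, d.w (d.ρ q f) ≤ 1) (v : Place K F) (hv : 0 < v.ord y) :
    v.adicValuation f ≤ 1 := by
  classical
  obtain ⟨q₀⟩ := (inferInstance : Nonempty Q)
  have hy0 : y ≠ 0 := ct_y_ne_zero d
  obtain ⟨R₀, hmonic, -, hmap, hroot⟩ := ct_exists_charpoly d q₀ f
  -- the coefficients of `R₀` lie in the valuation ring of `v`
  have hcoeff : ∀ i, v.adicValuation ((R₀.coeff i : K⟮x⟯) : F) ≤ 1 := by
    intro i
    have h1 : ct_u d q₀ ((R₀.coeff i : K⟮x⟯) : F) ≤ 1 := by
      have h2 := ct_polyM_coeff_le d f hf i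
      rw [← hmap, coeff_map] at h2
      exact h2
    exact ct_val_le_one_imp (ct_u d q₀) v.adicValuation (ct_u_K d q₀)
      (fun a ha => ct_adic_algebraMap v ha) hy0 (ct_u_y_lt_one d q₀)
      ((ct_ord_pos_iff v hy0).mp hv) (ct_adjoin_le hy (R₀.coeff i).2) h1
  -- hence `f` is integral over the valuation ring
  set A := v.toValuationSubring with hA
  set P : F[X] := R₀.map (algebraMap K⟮x⟯ F) with hP
  have hPmonic : P.Monic := hmonic.map _
  have hlifts : P ∈ lifts (algebraMap A F) := by
    rw [lifts_iff_coeff_lifts]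
    intro i
    rw [hP, coeff_map]
    exact ⟨⟨_, (ct_adic_le_one_iff_mem v _).mp (hcoeff i)⟩, rfl⟩
  obtain ⟨p, hp, -, hpmonic⟩ := lifts_and_natDegree_eq_and_monic hlifts hPmonic
  have hint : IsIntegral A f := by
    refine ⟨p, hpmonic, ?_⟩
    rw [← eval_map, hp, hP, eval_map, ← aeval_def]
    exact hroot
  obtain ⟨a, ha⟩ := IsIntegrallyClosed.isIntegral_iff.mp hint
  rw [ct_adic_le_one_iff_mem, ← ha]
  exact a.2

/-- Every place of `F` over `y = 0` is attached to one of the conjugate embeddings. -/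
theorem ct_exists_vq_eq [Infinite K] [Nonempty Q]
    (hy : (∃ a : K, y = x - algebraMap K F a) ∨ y = x⁻¹)
    (v : Place K F) (hv : 0 < v.ord y) : ∃ q, ct_vq d q = v := by
  classical
  by_contra hcon
  push Not at hcon
  have hvS : v ∉ (Finset.univ.image (ct_vq d)) := by
    intro h
    obtain ⟨q, -, hq⟩ := Finset.mem_image.mp h
    exact hcon q hq
  obtain ⟨f, hfv, hfS⟩ := ct_separation v _ hvS
  have hf : ∀ q, ct_u d q f = 1 := fun q =>
    (Valuation.isEquiv_iff_val_eq_one.mp (ct_vq_isEquiv d q)).mp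
      (hfS _ (Finset.mem_image_of_mem _ (Finset.mem_univ q)))
  have hf' : ∀ q, d.w (d.ρ q f⁻¹) ≤ 1 := by
    intro q
    have := hf q
    rw [ct_u_apply] at this
    rw [map_inv₀, map_inv₀, this, inv_one]
  have h1 := ct_adic_le_one_of_forall d hy f⁻¹ hf' v hv
  obtain ⟨q₀⟩ := (inferInstance : Nonempty Q)
  have hf0 : f ≠ 0 := by
    rintro rfl
    have := hf q₀
    simp at this
  rw [map_inv₀, inv_le_one₀ (zero_lt_iff.mpr (v.adicValuation_ne_zero hf0))] at h1
  exact absurd hfv (not_lt.mpr h1)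

end Transfer

section Count

variable {K F : Type*} [Field K] [Field F] [Algebra K F] {x y : F} {Q : Type} [Fintype Q]
  {r : Setoid Q} {o : ℕ}

/-- The size of a class of `r`. -/
noncomputable def ct_size (r : Setoid Q) (C : Quotient r) : ℕ :=
  Nat.card {q // Quotient.mk r q = C}

omit [Fintype Q] in
theorem ct_size_mk (q : Q) : ct_size r (Quotient.mk r q) = Nat.card {q' // r.r q q'} := by
  apply Nat.card_congr
  apply Equiv.subtypeEquivRight
  intro q'
  rw [Quotient.eq]
  exact ⟨fun h => Setoid.symm h, fun h => Setoid.symm h⟩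

theorem ct_size_pos (C : Quotient r) : 0 < ct_size r C := by
  induction C using Quotient.inductionOn with
  | h q =>
    rw [ct_size]
    have : Nonempty {q' // Quotient.mk r q' = Quotient.mk r q} := ⟨⟨q, rfl⟩⟩
    exact Nat.card_pos

theorem ct_sum_size [Fintype (Quotient r)] :
    ∑ C : Quotient r, ct_size r C = Fintype.card Q := by
  classical
  rw [← Fintype.card_congr (Equiv.sigmaFiberEquiv (Quotient.mk r)), Fintype.card_sigma]
  refine Finset.sum_congr rfl fun C _ => ?_
  rw [ct_size, Nat.card_eq_fintype_card]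

/-- **Counting theorem**, assuming the fundamental identity at `y = 0`. -/
theorem ct_counting_of_sum [CharZero K] [FiniteDimensional K⟮x⟯ F] [Nonempty Q]
    (hy : (∃ a : K, y = x - algebraMap K F a) ∨ y = x⁻¹)
    (d : CountingData K F x y Q r o)
    (hsum : ∑ᶠ v ∈ {v : Place K F | 0 < v.ord y}, v.ord y = (Module.finrank K⟮x⟯ F : ℤ)) :
    Module.finrank K⟮x⟯ F = Fintype.card Q ∧
    ∃ e : {v : Place K F // 0 < v.ord y} ≃ Quotient r,
      ∀ v q, e v = Quotient.mk r q → v.1.ord y = (Nat.card {q' // r.r q q'} : ℤ) := by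
  classical
  have hn : Module.finrank K⟮x⟯ F = Fintype.card Q := ct_finrank_eq_card d
  refine ⟨hn, ?_⟩
  -- the map from classes to places
  let Φ : Quotient r → {v : Place K F // 0 < v.ord y} :=
    Quotient.lift (fun q => (⟨ct_vq d q, (ct_vq_ord_y d q).1⟩ : {v : Place K F // 0 < v.ord y}))
      (fun q q' h => Subtype.ext (ct_vq_eq_of_rel d h))
  have hΦmk : ∀ q, (Φ (Quotient.mk r q)).1 = ct_vq d q := fun q => rfl
  have hΦ : Function.Surjective Φ := by
    rintro ⟨v, hv⟩
    obtain ⟨q, hq⟩ := ct_exists_vq_eq d hy v hv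
    exact ⟨Quotient.mk r q, Subtype.ext hq⟩
  let _i1 : Fintype (Quotient r) := Quotient.fintype r
  let _i2 : Fintype {v : Place K F // 0 < v.ord y} := Fintype.ofSurjective Φ hΦ
  -- a section
  set σ : {v : Place K F // 0 < v.ord y} → Quotient r := Function.surjInv hΦ with hσ
  have hσinj : Function.Injective σ := Function.injective_surjInv hΦ
  have hσΦ : ∀ v, Φ (σ v) = v := Function.surjInv_eq hΦ
  have hbound : ∀ v : {v : Place K F // 0 < v.ord y}, v.1.ord y ≤ (ct_size r (σ v) : ℤ) := by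
    intro v
    have h1 := hσΦ v
    generalize σ v = C at h1
    induction C using Quotient.inductionOn with
    | h q =>
      rw [ct_size_mk, ← h1, hΦmk]
      exact (ct_vq_ord_y d q).2
  -- the fundamental identity as a finite sum
  have hsumV : ∑ v : {v : Place K F // 0 < v.ord y}, v.1.ord y = (Fintype.card Q : ℤ) := by
    have h := hsum
    rw [← finsum_set_coe_eq_finsum_mem] at h
    have h' : ∑ᶠ (j : {v : Place K F // 0 < v.ord y}), j.1.ord y
        = (Module.finrank K⟮x⟯ F : ℤ) := h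
    rw [finsum_eq_sum_of_fintype] at h'
    rw [h', hn]
  -- the chain of inequalities
  have h1 : ∑ v : {v : Place K F // 0 < v.ord y}, v.1.ord y
      ≤ ∑ v : {v : Place K F // 0 < v.ord y}, (ct_size r (σ v) : ℤ) :=
    Finset.sum_le_sum fun v _ => hbound v
  have h2 : ∑ v : {v : Place K F // 0 < v.ord y}, (ct_size r (σ v) : ℤ)
      = ∑ C ∈ Finset.univ.image σ, (ct_size r C : ℤ) :=
    (Finset.sum_image (f := fun C => (ct_size r C : ℤ)) (s := Finset.univ) (g := σ)
      (fun a _ b _ hab => hσinj hab)).symm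
  have h3 : ∑ C ∈ Finset.univ.image σ, (ct_size r C : ℤ) ≤ ∑ C : Quotient r, (ct_size r C : ℤ) :=
    Finset.sum_le_sum_of_subset_of_nonneg (Finset.subset_univ _)
      (fun C _ _ => by exact_mod_cast Nat.zero_le _)
  have h4 : ∑ C : Quotient r, (ct_size r C : ℤ) = (Fintype.card Q : ℤ) := by
    rw [← ct_sum_size (r := r)]
    push_cast
    rfl
  -- all inequalities are equalities
  have h5 : ∑ v : {v : Place K F // 0 < v.ord y}, v.1.ord y
      = ∑ v : {v : Place K F // 0 < v.ord y}, (ct_size r (σ v) : ℤ) := by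
    apply le_antisymm h1
    rw [h2, hsumV, ← h4]
    exact h3
  have h6 : ∀ v : {v : Place K F // 0 < v.ord y}, v.1.ord y = (ct_size r (σ v) : ℤ) := by
    intro v
    exact (Finset.sum_eq_sum_iff_of_le fun v _ => hbound v).mp h5 v (Finset.mem_univ v)
  have h7 : ∑ C ∈ Finset.univ.image σ, (ct_size r C : ℤ) = ∑ C : Quotient r, (ct_size r C : ℤ) := by
    rw [← h2, ← h5, hsumV, h4]
  have hσsurj : Function.Surjective σ := by
    intro C
    by_contra hC
    have hC' : C ∉ Finset.univ.image σ := by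
      intro h
      obtain ⟨v, -, hv⟩ := Finset.mem_image.mp h
      exact hC ⟨v, hv⟩
    have hlt : ∑ C ∈ Finset.univ.image σ, (ct_size r C : ℤ)
        < ∑ C : Quotient r, (ct_size r C : ℤ) :=
      Finset.sum_lt_sum_of_subset (Finset.subset_univ _) (Finset.mem_univ C) hC'
        (by exact_mod_cast ct_size_pos C) (fun C _ _ => by exact_mod_cast Nat.zero_le _)
    exact absurd h7 hlt.ne
  refine ⟨Equiv.ofBijective σ ⟨hσinj, hσsurj⟩, fun v q hvq => ?_⟩
  have hvq' : σ v = Quotient.mk r q := hvq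
  rw [h6 v, hvq', ct_size_mk]

end Count

section Wrapper

variable {K F : Type*} [Field K] [Field F] [Algebra K F]

theorem ct_finrank_congr {E₁ E₂ : IntermediateField K F} (h : E₁ = E₂) :
    Module.finrank E₁ F = Module.finrank E₂ F := by
  subst h
  rfl

theorem ct_transcendental {x y : F} (hx : Transcendental K x)
    (hy : (∃ a : K, y = x - algebraMap K F a) ∨ y = x⁻¹) : Transcendental K y := by
  intro halg
  apply hx
  rcases hy with ⟨a, rfl⟩ | rfl
  · have := halg.add (isAlgebraic_algebraMap (R := K) (A := F) a)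
    simpa using this
  · have := halg.inv
    simpa using this

/-- **Counting theorem**, assuming the fundamental identity of ALG-A in its `Spec` shape
(`alg_sum_zeros` for `y` and `a = 0`). -/
theorem ct_counting_of_alg_sum_zeros [CharZero K] {x : F} [FiniteDimensional K⟮x⟯ F]
    {y : F} (hy : (∃ a : K, y = x - algebraMap K F a) ∨ y = x⁻¹)
    {Q : Type} [Fintype Q] [Nonempty Q] {r : Setoid Q} {o : ℕ}
    (d : CountingData K F x y Q r o)
    (hsum : ∑ᶠ v ∈ {v : Place K F | 0 < v.ord (y - algebraMap K F 0)},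
        v.ord (y - algebraMap K F 0) = (Module.finrank K⟮y⟯ F : ℤ)) :
    Module.finrank K⟮x⟯ F = Fintype.card Q ∧
    ∃ e : {v : Place K F // 0 < v.ord y} ≃ Quotient r,
      ∀ v q, e v = Quotient.mk r q → v.1.ord y = (Nat.card {q' // r.r q q'} : ℤ) := by
  simp only [map_zero, sub_zero] at hsum
  rw [ct_finrank_congr (ct_adjoin_eq hy)] at hsum
  exact ct_counting_of_sum hy d hsum

end Wrapper

end Fermat.Agent.S24
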