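import Mathlib
import Fermat.Agent.S24.Defs

/-!
# S24, package MG-T: the orbits of `T` on `SL(2,ℤ) ⧸ Γ₀(N)` are counted by `cuspCount N`

For `g = !![a, b; c, d] ∈ SL(2,ℤ)` put `δ = gcd (c, N)`, `e = gcd (δ, N / δ)` and
`t = a * (c / δ)⁻¹ mod e`.  The pair `(δ, t)` only depends on the double coset `⟨T⟩ g Γ₀(N)` and
separates these double cosets; its values are exactly the pairs `(δ, t)` with `δ ∣ N` and `t` a unit
mod `e`.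
-/

set_option autoImplicit false

namespace Fermat.Agent.S24

open scoped MatrixGroups
open ModularCurve

/-! ### elementary number theory -/

/-- `gcd (c, N)`. -/
def mgt_d (N : ℕ) (c : ℤ) : ℕ := Int.gcd c N

/-- `gcd (δ, N / δ)`. -/
def mgt_e (N δ : ℕ) : ℕ := Nat.gcd δ (N / δ)

/-- `a * γ⁻¹ mod e`, as a natural number. -/
noncomputable def mgt_t (e : ℕ) (a γ : ℤ) : ℕ := ((a : ZMod e) * ((γ : ZMod e))⁻¹).val

theorem mgt_d_pos {N : ℕ} (hN : N ≠ 0) (c : ℤ) : 0 < mgt_d N c :=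
  Int.gcd_pos_of_ne_zero_right _ (by exact_mod_cast hN)

theorem mgt_d_dvd (N : ℕ) (c : ℤ) : mgt_d N c ∣ N := by
  have h : ((Int.gcd c N : ℕ) : ℤ) ∣ (N : ℤ) := Int.gcd_dvd_right c N
  exact Int.natCast_dvd_natCast.mp h

theorem mgt_d_dvd_left (N : ℕ) (c : ℤ) : (mgt_d N c : ℤ) ∣ c := Int.gcd_dvd_left c N

theorem mgt_e_pos {N δ : ℕ} (hδ : 0 < δ) : 0 < mgt_e N δ :=
  Nat.gcd_pos_of_pos_left _ hδ

theorem mgt_e_dvd_left (N δ : ℕ) : mgt_e N δ ∣ δ := Nat.gcd_dvd_left _ _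

theorem mgt_e_dvd_right (N δ : ℕ) : mgt_e N δ ∣ N / δ := Nat.gcd_dvd_right _ _

/-- `c / δ` is prime to `N / δ`. -/
theorem mgt_isCoprime_div {N : ℕ} (hN : N ≠ 0) (c : ℤ) :
    IsCoprime (c / (mgt_d N c : ℤ)) (((N / mgt_d N c : ℕ)) : ℤ) := by
  have h := Int.gcd_div_gcd_div_gcd (i := c) (j := (N : ℤ)) (mgt_d_pos hN c)
  rw [Int.isCoprime_iff_gcd_eq_one]
  have h2 : (((N / mgt_d N c : ℕ)) : ℤ) = (N : ℤ) / ((Int.gcd c N : ℕ) : ℤ) := by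
    rw [Int.natCast_div]; rfl
  rw [h2]
  exact h

/-- `c / δ` is prime to `e`. -/
theorem mgt_isCoprime_div_e {N : ℕ} (hN : N ≠ 0) (c : ℤ) :
    IsCoprime (c / (mgt_d N c : ℤ)) ((mgt_e N (mgt_d N c) : ℕ) : ℤ) :=
  (mgt_isCoprime_div hN c).of_isCoprime_of_dvd_right
    (Int.natCast_dvd_natCast.mpr (mgt_e_dvd_right N _))

/-- `a` is prime to `δ` if it is prime to `c`. -/
theorem mgt_isCoprime_d {N : ℕ} {a c : ℤ} (h : IsCoprime a c) :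
    IsCoprime a (mgt_d N c : ℤ) :=
  h.of_isCoprime_of_dvd_right (mgt_d_dvd_left N c)

theorem mgt_isCoprime_e {N : ℕ} {a c : ℤ} (h : IsCoprime a c) :
    IsCoprime a ((mgt_e N (mgt_d N c) : ℕ) : ℤ) :=
  (mgt_isCoprime_d (N := N) h).of_isCoprime_of_dvd_right
    (Int.natCast_dvd_natCast.mpr (mgt_e_dvd_left N _))

theorem mgt_isUnit {e : ℕ} {γ : ℤ} (h : IsCoprime γ (e : ℤ)) : IsUnit ((γ : ZMod e)) :=
  (ZMod.coe_int_isUnit_iff_isCoprime γ e).mpr h.symm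

/-- comparison of the invariants `t`. -/
theorem mgt_t_eq_iff {e : ℕ} (he : 0 < e) {a₁ a₂ γ₁ γ₂ : ℤ} (h₁ : IsCoprime γ₁ (e : ℤ))
    (h₂ : IsCoprime γ₂ (e : ℤ)) :
    mgt_t e a₁ γ₁ = mgt_t e a₂ γ₂ ↔ (e : ℤ) ∣ a₂ * γ₁ - a₁ * γ₂ := by
  have : NeZero e := ⟨he.ne'⟩
  have hu₁ := mgt_isUnit h₁
  have hu₂ := mgt_isUnit h₂
  unfold mgt_t
  rw [(ZMod.val_injective e).eq_iff]
  have key : (a₁ : ZMod e) * (γ₁ : ZMod e)⁻¹ = (a₂ : ZMod e) * (γ₂ : ZMod e)⁻¹ ↔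
      (a₁ : ZMod e) * (γ₂ : ZMod e) = (a₂ : ZMod e) * (γ₁ : ZMod e) := by
    constructor
    · intro h
      have h' : (a₁ : ZMod e) * (γ₁ : ZMod e)⁻¹ * ((γ₁ : ZMod e) * (γ₂ : ZMod e)) =
          (a₂ : ZMod e) * (γ₂ : ZMod e)⁻¹ * ((γ₁ : ZMod e) * (γ₂ : ZMod e)) := by rw [h]
      have e1 : (a₁ : ZMod e) * (γ₁ : ZMod e)⁻¹ * ((γ₁ : ZMod e) * (γ₂ : ZMod e))
          = (a₁ : ZMod e) * (γ₂ : ZMod e) * ((γ₁ : ZMod e) * (γ₁ : ZMod e)⁻¹) := by ring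
      have e2 : (a₂ : ZMod e) * (γ₂ : ZMod e)⁻¹ * ((γ₁ : ZMod e) * (γ₂ : ZMod e))
          = (a₂ : ZMod e) * (γ₁ : ZMod e) * ((γ₂ : ZMod e) * (γ₂ : ZMod e)⁻¹) := by ring
      rw [e1, e2, ZMod.mul_inv_of_unit _ hu₁, ZMod.mul_inv_of_unit _ hu₂, mul_one, mul_one] at h'
      exact h'
    · intro h
      have h' : (a₁ : ZMod e) * (γ₂ : ZMod e) * ((γ₁ : ZMod e)⁻¹ * (γ₂ : ZMod e)⁻¹) =
          (a₂ : ZMod e) * (γ₁ : ZMod e) * ((γ₁ : ZMod e)⁻¹ * (γ₂ : ZMod e)⁻¹) := by rw [h]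
      have e1 : (a₁ : ZMod e) * (γ₂ : ZMod e) * ((γ₁ : ZMod e)⁻¹ * (γ₂ : ZMod e)⁻¹)
          = (a₁ : ZMod e) * (γ₁ : ZMod e)⁻¹ * ((γ₂ : ZMod e) * (γ₂ : ZMod e)⁻¹) := by ring
      have e2 : (a₂ : ZMod e) * (γ₁ : ZMod e) * ((γ₁ : ZMod e)⁻¹ * (γ₂ : ZMod e)⁻¹)
          = (a₂ : ZMod e) * (γ₂ : ZMod e)⁻¹ * ((γ₁ : ZMod e) * (γ₁ : ZMod e)⁻¹) := by ring
      rw [e1, e2, ZMod.mul_inv_of_unit _ hu₁, ZMod.mul_inv_of_unit _ hu₂, mul_one, mul_one] at h'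
      exact h'
  rw [key]
  have : (a₁ : ZMod e) * (γ₂ : ZMod e) = (a₂ : ZMod e) * (γ₁ : ZMod e) ↔
      (((a₁ * γ₂ : ℤ)) : ZMod e) = (((a₂ * γ₁ : ℤ)) : ZMod e) := by
    push_cast
    rfl
  rw [this, ZMod.intCast_eq_intCast_iff_dvd_sub]

/-- the gcd with `N` is determined by the class. -/
theorem mgt_d_dvd_of_dvd {N : ℕ} {a₁ c₁ a₂ c₂ : ℤ} (h₁ : IsCoprime a₁ c₁)
    (h : (N : ℤ) ∣ a₂ * c₁ - c₂ * a₁) : mgt_d N c₁ ∣ mgt_d N c₂ := by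
  -- `δ₁ ∣ c₂ * a₁`, and `δ₁` is prime to `a₁`
  have hd : (mgt_d N c₁ : ℤ) ∣ c₂ * a₁ := by
    have h1 : (mgt_d N c₁ : ℤ) ∣ a₂ * c₁ - c₂ * a₁ :=
      (Int.natCast_dvd_natCast.mpr (mgt_d_dvd N c₁)).trans h
    have h2 : (mgt_d N c₁ : ℤ) ∣ a₂ * c₁ := Dvd.dvd.mul_left (mgt_d_dvd_left N c₁) _
    have h3 := dvd_sub h2 h1
    simpa using h3
  have hc : (mgt_d N c₁ : ℤ) ∣ c₂ :=
    (mgt_isCoprime_d (N := N) h₁).symm.dvd_of_dvd_mul_right hd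
  have : (mgt_d N c₁ : ℤ) ∣ ((Int.gcd c₂ N : ℕ) : ℤ) :=
    Int.dvd_coe_gcd hc (Int.natCast_dvd_natCast.mpr (mgt_d_dvd N c₁))
  exact Int.natCast_dvd_natCast.mp this

theorem mgt_d_eq_of_dvd {N : ℕ} {a₁ c₁ a₂ c₂ : ℤ} (h₁ : IsCoprime a₁ c₁)
    (h₂ : IsCoprime a₂ c₂) (h : (N : ℤ) ∣ a₂ * c₁ - c₂ * a₁) : mgt_d N c₁ = mgt_d N c₂ := by
  apply Nat.dvd_antisymm (mgt_d_dvd_of_dvd h₁ h)
  apply mgt_d_dvd_of_dvd h₂ (a₂ := a₁)
  have : a₁ * c₂ - c₁ * a₂ = -(a₂ * c₁ - c₂ * a₁) := by ring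
  rw [this]
  exact (dvd_neg).mpr h

/-- **the key congruence lemma**: two coprime columns are in the same `⟨T⟩`-`Γ₀(N)` class iff
their invariants agree. -/
theorem mgt_key {N : ℕ} (hN : N ≠ 0) {a₁ c₁ a₂ c₂ : ℤ} (h₁ : IsCoprime a₁ c₁)
    (h₂ : IsCoprime a₂ c₂) :
    (∃ k : ℤ, (N : ℤ) ∣ (a₂ + k * c₂) * c₁ - c₂ * a₁) ↔
      mgt_d N c₁ = mgt_d N c₂ ∧
        mgt_t (mgt_e N (mgt_d N c₁)) a₁ (c₁ / (mgt_d N c₁ : ℤ))
          = mgt_t (mgt_e N (mgt_d N c₂)) a₂ (c₂ / (mgt_d N c₂ : ℤ)) := by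
  have hδ₁ : 0 < mgt_d N c₁ := mgt_d_pos hN c₁
  have hδ₁' : ((mgt_d N c₁ : ℕ) : ℤ) ≠ 0 := by exact_mod_cast hδ₁.ne'
  have hc₁ : c₁ = (mgt_d N c₁ : ℤ) * (c₁ / (mgt_d N c₁ : ℤ)) :=
    (Int.mul_ediv_cancel' (mgt_d_dvd_left N c₁)).symm
  have hc₂ : c₂ = (mgt_d N c₂ : ℤ) * (c₂ / (mgt_d N c₂ : ℤ)) :=
    (Int.mul_ediv_cancel' (mgt_d_dvd_left N c₂)).symm
  have hNδ : (N : ℤ) = (mgt_d N c₁ : ℤ) * ((N / mgt_d N c₁ : ℕ) : ℤ) := by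
    have := Nat.mul_div_cancel' (mgt_d_dvd N c₁)
    exact_mod_cast this.symm
  have hγ₁ := mgt_isCoprime_div_e hN c₁
  have hγ₂ := mgt_isCoprime_div_e hN c₂
  have hγ₁' := mgt_isCoprime_div hN c₁
  have hγ₂' := mgt_isCoprime_div hN c₂
  have he : 0 < mgt_e N (mgt_d N c₁) := mgt_e_pos hδ₁
  have heδ : ((mgt_e N (mgt_d N c₁) : ℕ) : ℤ) ∣ (mgt_d N c₁ : ℤ) :=
    Int.natCast_dvd_natCast.mpr (mgt_e_dvd_left N _)
  have heN : ((mgt_e N (mgt_d N c₁) : ℕ) : ℤ) ∣ ((N / mgt_d N c₁ : ℕ) : ℤ) :=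
    Int.natCast_dvd_natCast.mpr (mgt_e_dvd_right N _)
  constructor
  · rintro ⟨k, hk⟩
    have hA : IsCoprime (a₂ + k * c₂) c₂ := h₂.add_mul_right_left k
    have hd : mgt_d N c₁ = mgt_d N c₂ := mgt_d_eq_of_dvd h₁ hA hk
    refine ⟨hd, ?_⟩
    rw [← hd] at hc₂ hγ₂ hγ₂' ⊢
    rw [mgt_t_eq_iff he hγ₁ hγ₂]
    -- cancel `δ`
    have h3 : (mgt_d N c₁ : ℤ) * ((N / mgt_d N c₁ : ℕ) : ℤ) ∣
        (mgt_d N c₁ : ℤ) * ((a₂ + k * c₂) * (c₁ / (mgt_d N c₁ : ℤ))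
          - (c₂ / (mgt_d N c₁ : ℤ)) * a₁) := by
      have e1 : (mgt_d N c₁ : ℤ) * ((a₂ + k * c₂) * (c₁ / (mgt_d N c₁ : ℤ))
          - (c₂ / (mgt_d N c₁ : ℤ)) * a₁)
          = (a₂ + k * c₂) * ((mgt_d N c₁ : ℤ) * (c₁ / (mgt_d N c₁ : ℤ)))
            - ((mgt_d N c₁ : ℤ) * (c₂ / (mgt_d N c₁ : ℤ))) * a₁ := by ring
      rw [e1, ← hc₁, ← hc₂, ← hNδ]
      exact hk
    have h4 := Int.dvd_of_mul_dvd_mul_left hδ₁' h3
    have h5 : ((mgt_e N (mgt_d N c₁) : ℕ) : ℤ) ∣ (a₂ + k * c₂) * (c₁ / (mgt_d N c₁ : ℤ))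
          - (c₂ / (mgt_d N c₁ : ℤ)) * a₁ := heN.trans h4
    have h6 : ((mgt_e N (mgt_d N c₁) : ℕ) : ℤ) ∣ k * c₂ * (c₁ / (mgt_d N c₁ : ℤ)) := by
      have : ((mgt_e N (mgt_d N c₁) : ℕ) : ℤ) ∣ c₂ := by
        rw [hc₂]
        exact Dvd.dvd.mul_right heδ _
      exact Dvd.dvd.mul_right (Dvd.dvd.mul_left this _) _
    have h7 := dvd_sub h5 h6
    have e2 : (a₂ + k * c₂) * (c₁ / (mgt_d N c₁ : ℤ)) - (c₂ / (mgt_d N c₁ : ℤ)) * a₁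
        - k * c₂ * (c₁ / (mgt_d N c₁ : ℤ))
        = a₂ * (c₁ / (mgt_d N c₁ : ℤ)) - a₁ * (c₂ / (mgt_d N c₁ : ℤ)) := by ring
    rwa [e2] at h7
  · rintro ⟨hd, ht⟩
    rw [← hd] at hc₂ hγ₂ hγ₂' ht
    rw [mgt_t_eq_iff he hγ₁ hγ₂] at ht
    set δ : ℤ := (mgt_d N c₁ : ℤ) with hδdef
    set γ₁ : ℤ := c₁ / δ with hγ₁def
    set γ₂ : ℤ := c₂ / δ with hγ₂def
    set y : ℤ := ((N / mgt_d N c₁ : ℕ) : ℤ) with hydef
    set x : ℤ := δ * γ₁ * γ₂ with hxdef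
    -- the gcd of `x` and `y` divides `e`
    have hg : ((Int.gcd x y : ℕ) : ℤ) ∣ ((mgt_e N (mgt_d N c₁) : ℕ) : ℤ) := by
      have hgy : ((Int.gcd x y : ℕ) : ℤ) ∣ y := Int.gcd_dvd_right x y
      have hgx : ((Int.gcd x y : ℕ) : ℤ) ∣ x := Int.gcd_dvd_left x y
      have hc1 : IsCoprime ((Int.gcd x y : ℕ) : ℤ) γ₁ :=
        (hγ₁'.of_isCoprime_of_dvd_right hgy).symm
      have hc2 : IsCoprime ((Int.gcd x y : ℕ) : ℤ) γ₂ :=
        (hγ₂'.of_isCoprime_of_dvd_right hgy).symm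
      have hgδ : ((Int.gcd x y : ℕ) : ℤ) ∣ δ :=
        hc1.dvd_of_dvd_mul_right (hc2.dvd_of_dvd_mul_right hgx)
      have : ((Int.gcd x y : ℕ) : ℤ) ∣ ((Int.gcd δ y : ℕ) : ℤ) := Int.dvd_coe_gcd hgδ hgy
      have h8 : Int.gcd δ y = mgt_e N (mgt_d N c₁) := by
        rw [hδdef, hydef, Int.gcd_natCast_natCast]
        rfl
      rwa [h8] at this
    obtain ⟨m, hm⟩ := hg.trans ht
    have hbez := Int.gcd_eq_gcd_ab x y
    refine ⟨-(Int.gcdA x y * m), ?_⟩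
    have e3 : (a₂ + -(Int.gcdA x y * m) * c₂) * c₁ - c₂ * a₁
        = δ * (y * (Int.gcdB x y * m)) := by
      have e4 : (a₂ + -(Int.gcdA x y * m) * c₂) * c₁ - c₂ * a₁
          = δ * ((a₂ * γ₁ - a₁ * γ₂) - x * (Int.gcdA x y * m)) := by
        rw [hxdef]
        conv_lhs => rw [hc₁, hc₂]
        ring
      rw [e4, hm, hbez]
      ring
    rw [e3, hNδ]
    exact Dvd.intro (Int.gcdB x y * m) (by ring)

/-! ### cosets and orbits -/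

/-- the first column of an element of `SL(2,ℤ)` is coprime. -/
theorem mgt_isCoprime_col (g : SL(2, ℤ)) : IsCoprime (g 0 0) (g 1 0) := by
  refine ⟨g 1 1, -g 0 1, ?_⟩
  have h := g.det_coe
  rw [Matrix.det_fin_two] at h
  linarith

/-- equality of left cosets of `Γ₀(N)`. -/
theorem mgt_coset_eq_iff (N : ℕ) (g₁ g₂ : SL(2, ℤ)) :
    (QuotientGroup.mk g₁ : s24Q N) = QuotientGroup.mk g₂ ↔
      (N : ℤ) ∣ g₁ 0 0 * g₂ 1 0 - g₁ 1 0 * g₂ 0 0 := by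
  rw [QuotientGroup.eq, CongruenceSubgroup.Gamma0_mem, ZMod.intCast_zmod_eq_zero_iff_dvd]
  have h : (g₁⁻¹ * g₂) 1 0 = g₁ 0 0 * g₂ 1 0 - g₁ 1 0 * g₂ 0 0 := by
    rw [Matrix.SpecialLinearGroup.coe_mul, Matrix.SpecialLinearGroup.coe_inv,
      Matrix.adjugate_fin_two, Matrix.mul_apply, Fin.sum_univ_two]
    simp
    ring
  rw [h]

/-- the `T`-orbit relation on cosets. -/
theorem mgt_orbit_iff (N : ℕ) (g₁ g₂ : SL(2, ℤ)) :
    (s24Orb N ModularGroup.T).r (QuotientGroup.mk g₁) (QuotientGroup.mk g₂) ↔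
      ∃ k : ℤ, (N : ℤ) ∣ (g₂ 0 0 + k * g₂ 1 0) * g₁ 1 0 - g₂ 1 0 * g₁ 0 0 := by
  change (QuotientGroup.mk g₁ : s24Q N) ∈ MulAction.orbit (Subgroup.zpowers ModularGroup.T)
    (QuotientGroup.mk g₂ : s24Q N) ↔ _
  rw [MulAction.mem_orbit_iff]
  have hsmul : ∀ k : ℤ, (QuotientGroup.mk (ModularGroup.T ^ k * g₂) : s24Q N)
      = QuotientGroup.mk g₁ ↔
        (N : ℤ) ∣ (g₂ 0 0 + k * g₂ 1 0) * g₁ 1 0 - g₂ 1 0 * g₁ 0 0 := by
    intro k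
    rw [mgt_coset_eq_iff]
    have h00 : (ModularGroup.T ^ k * g₂) 0 0 = g₂ 0 0 + k * g₂ 1 0 := by
      rw [Matrix.SpecialLinearGroup.coe_mul, ModularGroup.coe_T_zpow]
      simp [Matrix.mul_apply, Fin.sum_univ_two]
    have h10 : (ModularGroup.T ^ k * g₂) 1 0 = g₂ 1 0 := by
      rw [Matrix.SpecialLinearGroup.coe_mul, ModularGroup.coe_T_zpow]
      simp [Matrix.mul_apply, Fin.sum_univ_two]
    rw [h00, h10]
  constructor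
  · rintro ⟨⟨x, hx⟩, hxg⟩
    obtain ⟨k, rfl⟩ := Subgroup.mem_zpowers_iff.mp hx
    exact ⟨k, (hsmul k).mp hxg⟩
  · rintro ⟨k, hk⟩
    exact ⟨⟨ModularGroup.T ^ k, Subgroup.mem_zpowers_iff.mpr ⟨k, rfl⟩⟩, (hsmul k).mpr hk⟩

/-- the invariant of (the double coset of) `g`. -/
noncomputable def mgt_inv (N : ℕ) (g : SL(2, ℤ)) : (_ : ℕ) × ℕ :=
  ⟨mgt_d N (g 1 0),
    mgt_t (mgt_e N (mgt_d N (g 1 0))) (g 0 0) (g 1 0 / (mgt_d N (g 1 0) : ℤ))⟩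

/-- the class of `g` in the set of `T`-orbits. -/
def mgt_proj (N : ℕ) (g : SL(2, ℤ)) : Quotient (s24Orb N ModularGroup.T) :=
  Quotient.mk _ (QuotientGroup.mk g : s24Q N)

theorem mgt_proj_surjective (N : ℕ) : Function.Surjective (mgt_proj N) := by
  intro x
  induction x using Quotient.inductionOn with
  | _ q =>
    induction q using QuotientGroup.induction_on with
    | _ g => exact ⟨g, rfl⟩

theorem mgt_inv_eq_iff {N : ℕ} (hN : N ≠ 0) (g₁ g₂ : SL(2, ℤ)) :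
    mgt_inv N g₁ = mgt_inv N g₂ ↔ mgt_proj N g₁ = mgt_proj N g₂ := by
  unfold mgt_proj
  rw [Quotient.eq]
  rw [mgt_orbit_iff, mgt_key hN (mgt_isCoprime_col g₁) (mgt_isCoprime_col g₂)]
  unfold mgt_inv
  rw [Sigma.mk.injEq, heq_iff_eq]

/-! ### the values of the invariant -/

/-- the finite set of values of the invariant. -/
def mgt_target (N : ℕ) : Finset ((_ : ℕ) × ℕ) :=
  N.divisors.sigma fun δ => {t ∈ Finset.range (mgt_e N δ) | (mgt_e N δ).Coprime t}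

theorem mgt_card_target (N : ℕ) : (mgt_target N).card = cuspCount N := by
  unfold mgt_target cuspCount
  rw [Finset.card_sigma]
  refine Finset.sum_congr rfl fun δ _ => ?_
  rw [Nat.totient_eq_card_coprime]
  rfl

theorem mgt_inv_of {N : ℕ} (g : SL(2, ℤ)) (δ : ℕ) (hδ : mgt_d N (g 1 0) = δ) :
    mgt_inv N g = ⟨δ, mgt_t (mgt_e N δ) (g 0 0) (g 1 0 / (δ : ℤ))⟩ := by
  subst hδ
  rfl

theorem mgt_inv_mem {N : ℕ} (hN : N ≠ 0) (g : SL(2, ℤ)) : mgt_inv N g ∈ mgt_target N := by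
  unfold mgt_target mgt_inv
  rw [Finset.mem_sigma]
  have hδ : 0 < mgt_d N (g 1 0) := mgt_d_pos hN _
  have he : 0 < mgt_e N (mgt_d N (g 1 0)) := mgt_e_pos hδ
  have : NeZero (mgt_e N (mgt_d N (g 1 0))) := ⟨he.ne'⟩
  refine ⟨Nat.mem_divisors.mpr ⟨mgt_d_dvd N _, hN⟩, ?_⟩
  simp only [Finset.mem_filter, Finset.mem_range]
  refine ⟨ZMod.val_lt _, ?_⟩
  have hu₁ : IsUnit ((g 0 0 : ℤ) : ZMod (mgt_e N (mgt_d N (g 1 0)))) :=
    mgt_isUnit (mgt_isCoprime_e (mgt_isCoprime_col g))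
  have hu₂ : IsUnit (((g 1 0 / (mgt_d N (g 1 0) : ℤ) : ℤ)) : ZMod (mgt_e N (mgt_d N (g 1 0)))) :=
    mgt_isUnit (mgt_isCoprime_div_e hN _)
  have hu : IsUnit (((g 0 0 : ℤ) : ZMod (mgt_e N (mgt_d N (g 1 0)))) *
      (((g 1 0 / (mgt_d N (g 1 0) : ℤ) : ℤ)) : ZMod (mgt_e N (mgt_d N (g 1 0))))⁻¹) := by
    refine hu₁.mul ?_
    rw [← hu₂.unit_spec, ZMod.inv_coe_unit]
    exact Units.isUnit _
  have h := ZMod.val_coe_unit_coprime hu.unit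
  rw [hu.unit_spec] at h
  exact h.symm

theorem mgt_exists_of_mem {N : ℕ} (hN : N ≠ 0) (p : (_ : ℕ) × ℕ) (hp : p ∈ mgt_target N) :
    ∃ g : SL(2, ℤ), mgt_inv N g = p := by
  obtain ⟨δ, t⟩ := p
  unfold mgt_target at hp
  rw [Finset.mem_sigma] at hp
  simp only [Finset.mem_filter, Finset.mem_range] at hp
  obtain ⟨hδN, ht, htc⟩ := hp
  have hδdvd : δ ∣ N := (Nat.mem_divisors.mp hδN).1
  have hδ : 0 < δ := Nat.pos_of_dvd_of_pos hδdvd (Nat.pos_of_ne_zero hN)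
  have he : 0 < mgt_e N δ := mgt_e_pos hδ
  have : NeZero δ := ⟨hδ.ne'⟩
  have : NeZero (mgt_e N δ) := ⟨he.ne'⟩
  -- lift the unit `t`
  obtain ⟨u, hu⟩ := ZMod.unitsMap_surjective (mgt_e_dvd_left N δ) (ZMod.unitOfCoprime t htc.symm)
  have hcop : Nat.Coprime (u : ZMod δ).val δ := ZMod.val_coe_unit_coprime u
  have hcop' : IsCoprime (((u : ZMod δ).val : ℤ)) (δ : ℤ) := Nat.isCoprime_iff_coprime.mpr hcop
  obtain ⟨x, y, hxy⟩ := hcop'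
  -- the matrix
  let g : SL(2, ℤ) := ⟨!![((u : ZMod δ).val : ℤ), -y; (δ : ℤ), x], by
    rw [Matrix.det_fin_two_of]
    linarith⟩
  have hg00 : g 0 0 = ((u : ZMod δ).val : ℤ) := rfl
  have hg10 : g 1 0 = (δ : ℤ) := rfl
  have hd : mgt_d N (g 1 0) = δ := by
    rw [hg10]
    unfold mgt_d
    rw [Int.gcd_natCast_natCast]
    exact Nat.gcd_eq_left hδdvd
  refine ⟨g, ?_⟩
  rw [mgt_inv_of g δ hd, hg00, hg10]
  congr 1
  unfold mgt_t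
  have hδδ : (δ : ℤ) / (δ : ℤ) = 1 := Int.ediv_self (by exact_mod_cast hδ.ne')
  have hinv : (1 : ZMod (mgt_e N δ))⁻¹ = 1 := by
    have h := ZMod.mul_inv_of_unit (1 : ZMod (mgt_e N δ)) isUnit_one
    rwa [one_mul] at h
  rw [hδδ, Int.cast_one, hinv, mul_one, Int.cast_natCast]
  have h1 : (((u : ZMod δ).val : ℕ) : ZMod (mgt_e N δ)) = (t : ZMod (mgt_e N δ)) := by
    have h2 := congrArg (fun v : (ZMod (mgt_e N δ))ˣ => (v : ZMod (mgt_e N δ))) hu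
    simp only [ZMod.unitsMap_val, ZMod.coe_unitOfCoprime] at h2
    rw [← h2]
    exact (ZMod.natCast_val _)
  rw [h1]
  exact ZMod.val_natCast_of_lt ht

theorem mgt_range_inv {N : ℕ} (hN : N ≠ 0) :
    Set.range (mgt_inv N) = ((mgt_target N : Finset ((_ : ℕ) × ℕ)) : Set ((_ : ℕ) × ℕ)) := by
  ext p
  constructor
  · rintro ⟨g, rfl⟩
    exact mgt_inv_mem hN g
  · intro hp
    exact mgt_exists_of_mem hN p hp

/-! ### counting -/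

/-- counting the quotient by a separating invariant. -/
theorem mgt_card_eq_of_fibers {A B C : Type*} (π : A → B) (hπ : Function.Surjective π)
    (φ : A → C) (h : ∀ a a', φ a = φ a' ↔ π a = π a') :
    Nat.card B = Nat.card (Set.range φ) := by
  refine Nat.card_congr (Equiv.ofBijective
    (fun b => (⟨φ (Function.surjInv hπ b), ⟨_, rfl⟩⟩ : Set.range φ)) ⟨?_, ?_⟩)
  · intro b b' hbb
    have h1 : φ (Function.surjInv hπ b) = φ (Function.surjInv hπ b') := congrArg Subtype.val hbb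
    have h2 := (h _ _).mp h1
    rwa [Function.surjInv_eq hπ b, Function.surjInv_eq hπ b'] at h2
  · rintro ⟨c, a, rfl⟩
    refine ⟨π a, ?_⟩
    apply Subtype.ext
    exact (h _ _).mpr (Function.surjInv_eq hπ (π a))

/-- **[MG-T]** the orbits of `T` on `SL(2,ℤ) ⧸ Γ₀(N)` are counted by `cuspCount N`. -/
theorem mg_orbits_T (N : ℕ) [NeZero N] :
    Nat.card (Quotient (s24Orb N ModularGroup.T)) = cuspCount N := by
  have hN : N ≠ 0 := NeZero.ne N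
  rw [mgt_card_eq_of_fibers (mgt_proj N) (mgt_proj_surjective N) (mgt_inv N)
    (mgt_inv_eq_iff hN), mgt_range_inv hN, Nat.card_coe_set_eq, Set.ncard_coe_finset,
    mgt_card_target]

/-! ### orbit sizes -/

/-- `T ^ N` fixes every coset of `Γ₀(N)`. -/
theorem mgt_T_pow_smul (N : ℕ) (q : s24Q N) : (ModularGroup.T ^ N) • q = q := by
  induction q using QuotientGroup.induction_on with
  | _ g =>
    change (QuotientGroup.mk (ModularGroup.T ^ N * g) : s24Q N) = QuotientGroup.mk g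
    rw [mgt_coset_eq_iff]
    have h00 : (ModularGroup.T ^ N * g) 0 0 = g 0 0 + (N : ℤ) * g 1 0 := by
      rw [← zpow_natCast, Matrix.SpecialLinearGroup.coe_mul, ModularGroup.coe_T_zpow]
      simp [Matrix.mul_apply, Fin.sum_univ_two]
    have h10 : (ModularGroup.T ^ N * g) 1 0 = g 1 0 := by
      rw [← zpow_natCast, Matrix.SpecialLinearGroup.coe_mul, ModularGroup.coe_T_zpow]
      simp [Matrix.mul_apply, Fin.sum_univ_two]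
    rw [h00, h10]
    exact Dvd.intro (g 1 0 * g 1 0) (by ring)

/-- the size of a `T`-orbit divides `N` (same statement as `Spec.mg_orbit_card_dvd_T`). -/
theorem mgt_orbit_card_dvd (N : ℕ) [NeZero N] (q : s24Q N) :
    Nat.card {q' // (s24Orb N ModularGroup.T).r q q'} ∣ N := by
  have e : {q' // (s24Orb N ModularGroup.T).r q q'} ≃
      MulAction.orbit (Subgroup.zpowers ModularGroup.T) q :=
    Equiv.subtypeEquivRight fun q' => by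
      change q ∈ MulAction.orbit (Subgroup.zpowers ModularGroup.T) q' ↔ _
      exact MulAction.mem_orbit_symm
  rw [Nat.card_congr e]
  have h := @MulAction.minimalPeriod_eq_card _ _ _ ModularGroup.T _ q (Fintype.ofFinite _)
  have h2 : Function.minimalPeriod (fun x : s24Q N => ModularGroup.T • x) q ∣ N := by
    apply Function.IsPeriodicPt.minimalPeriod_dvd
    change (fun x : s24Q N => ModularGroup.T • x)^[N] q = q
    rw [smul_iterate]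
    exact mgt_T_pow_smul N q
  rw [h, Fintype.card_eq_nat_card] at h2
  exact h2

end Fermat.Agent.S24
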