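import Mathlib

/-!
# S24, package REE: Ree's inequality and parity for permutation triples

For permutations `a b c` of a finite set `X` with `a * b * c = 1` generating a transitive group,
the numbers of cycles (orbits, fixed points included) satisfy

* `ree_parity` : `|X| + cyc a + cyc b + cyc c` is even (sign homomorphism);
* `ree_le` : `cyc a + cyc b + cyc c ≤ |X| + 2` (Ree's inequality, via Scott's lemma on the
  permutation module `X → ℚ`).

So `g = 1 + (|X| - cyc a - cyc b - cyc c) / 2` is a natural number: this is the integrality and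
non-negativity of the Riemann-Hurwitz genus.
-/

set_option autoImplicit false

namespace Fermat.Agent.S24


open Equiv

variable {X : Type*} [Fintype X] [DecidableEq X]

/-- The number of orbits (cycles, including fixed points) of a permutation. -/
noncomputable def ree_cyc (s : Perm X) : ℕ :=
  Nat.card (MulAction.orbitRel.Quotient (Subgroup.zpowers s) X)

theorem ree_orbitRel_iff (s : Perm X) (x y : X) :
    (MulAction.orbitRel (Subgroup.zpowers s) X) x y ↔ s.SameCycle y x := by
  rw [MulAction.orbitRel_apply, MulAction.mem_orbit_iff]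
  constructor
  · rintro ⟨⟨g, hg⟩, rfl⟩
    obtain ⟨i, rfl⟩ := Subgroup.mem_zpowers_iff.mp hg
    exact ⟨i, rfl⟩
  · rintro ⟨i, hi⟩
    exact ⟨⟨s ^ i, Subgroup.zpow_mem_zpowers s i⟩, hi⟩

/-- The classifying map of cycles. -/
noncomputable def ree_class (s : Perm X) (x : X) : Perm X ⊕ X :=
  if s x = x then Sum.inr x else Sum.inl (s.cycleOf x)

theorem ree_fixed_of_sameCycle (s : Perm X) {x y : X} (h : s.SameCycle x y) (hx : s x = x) :
    y = x := by
  obtain ⟨i, rfl⟩ := h
  exact (Perm.zpow_apply_eq_self_of_apply_eq_self hx i)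

theorem ree_class_eq_iff (s : Perm X) (x y : X) :
    ree_class s x = ree_class s y ↔ s.SameCycle x y := by
  unfold ree_class
  constructor
  · intro h
    by_cases hx : s x = x
    · by_cases hy : s y = y
      · rw [if_pos hx, if_pos hy] at h
        rw [Sum.inr.injEq] at h
        rw [h]
      · rw [if_pos hx, if_neg hy] at h
        exact absurd h (by simp)
    · by_cases hy : s y = y
      · rw [if_neg hx, if_pos hy] at h
        exact absurd h (by simp)
      · rw [if_neg hx, if_neg hy, Sum.inl.injEq] at h
        have hy' : y ∈ (s.cycleOf y).support := by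
          rw [Perm.mem_support_cycleOf_iff' hy]
        rw [← h, Perm.mem_support_cycleOf_iff' hx] at hy'
        exact hy'
  · intro h
    by_cases hx : s x = x
    · have := ree_fixed_of_sameCycle s h hx
      subst this
      rfl
    · have hy : s y ≠ y := by
        intro hy
        have := ree_fixed_of_sameCycle s h.symm hy
        subst this
        exact hx hy
      rw [if_neg hx, if_neg hy, h.cycleOf_eq]

theorem ree_range_class (s : Perm X) :
    Set.range (ree_class s) =
      Sum.inl '' (s.cycleFactorsFinset : Set (Perm X)) ∪ Sum.inr '' {x | s x = x} := by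
  ext z
  constructor
  · rintro ⟨x, rfl⟩
    unfold ree_class
    by_cases hx : s x = x
    · rw [if_pos hx]
      exact Or.inr ⟨x, hx, rfl⟩
    · rw [if_neg hx]
      refine Or.inl ⟨s.cycleOf x, ?_, rfl⟩
      rw [Finset.mem_coe, Perm.cycleOf_mem_cycleFactorsFinset_iff, Perm.mem_support]
      exact hx
  · rintro (⟨c, hc, rfl⟩ | ⟨x, hx, rfl⟩)
    · rw [Finset.mem_coe] at hc
      have hcyc : c.IsCycle := (Perm.mem_cycleFactorsFinset_iff.mp hc).1
      obtain ⟨x, hx, -⟩ := hcyc
      have hxc : x ∈ c.support := Perm.mem_support.mpr hx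
      have hcx : c = s.cycleOf x := Perm.cycle_is_cycleOf hxc hc
      have hsx : s x ≠ x := by
        have : x ∈ s.support := Perm.mem_cycleFactorsFinset_support_le hc hxc
        exact Perm.mem_support.mp this
      refine ⟨x, ?_⟩
      unfold ree_class
      rw [if_neg hsx, hcx]
    · have hx' : s x = x := hx
      exact ⟨x, by unfold ree_class; rw [if_pos hx']⟩

/-- The number of orbits is the number of non-trivial cycles plus the number of fixed points. -/
theorem ree_cyc_eq (s : Perm X) :
    ree_cyc s = Multiset.card s.cycleType + (Fintype.card X - s.support.card) := by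
  classical
  unfold ree_cyc
  have e1 : MulAction.orbitRel.Quotient (Subgroup.zpowers s) X ≃ Quotient (Setoid.ker (ree_class s)) := by
    refine Quotient.congrRight fun x y => ?_
    rw [ree_orbitRel_iff, Setoid.ker_def, ree_class_eq_iff]
    exact Perm.sameCycle_comm
  have e2 := Setoid.quotientKerEquivRange (ree_class s)
  rw [Nat.card_congr (e1.trans e2), ree_range_class]
  rw [Nat.card_coe_set_eq, Set.ncard_union_eq, Set.ncard_image_of_injective _ Sum.inl_injective,
    Set.ncard_image_of_injective _ Sum.inr_injective, Set.ncard_coe_finset]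
  · congr 1
    · rw [Perm.cycleType_def]
      simp
    · have h1 : {x | s x = x}.ncard = (Finset.univ \ s.support).card := by
        rw [← Set.ncard_coe_finset]
        congr 1
        ext x
        simp [Perm.mem_support]
      rw [h1, Finset.card_sdiff_of_subset (Finset.subset_univ _), Finset.card_univ]
  · rw [Set.disjoint_left]
    rintro _ ⟨c, -, rfl⟩ ⟨x, -, h⟩
    exact absurd h (by simp)


open Module

/-! ### The permutation module -/

/-- The permutation operator `f ↦ f ∘ s` on `X → ℚ`. -/
noncomputable def ree_P (s : Perm X) : (X → ℚ) →ₗ[ℚ] (X → ℚ) := LinearMap.funLeft ℚ ℚ s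

/-- The operator `1 - P_s`. -/
noncomputable def ree_D (s : Perm X) : (X → ℚ) →ₗ[ℚ] (X → ℚ) := LinearMap.id - ree_P s

omit [Fintype X] [DecidableEq X] in
@[simp] theorem ree_P_apply (s : Perm X) (f : X → ℚ) (x : X) : ree_P s f x = f (s x) := rfl

omit [Fintype X] [DecidableEq X] in
@[simp] theorem ree_D_apply (s : Perm X) (f : X → ℚ) (x : X) : ree_D s f x = f x - f (s x) := rfl

omit [Fintype X] [DecidableEq X] in
theorem ree_mem_ker_D (s : Perm X) (f : X → ℚ) :
    f ∈ LinearMap.ker (ree_D s) ↔ ∀ x, f (s x) = f x := by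
  rw [LinearMap.mem_ker]
  constructor
  · intro h x
    have := congrFun h x
    simp only [ree_D_apply, Pi.zero_apply] at this
    linarith
  · intro h
    funext x
    simp [h x]

omit [Fintype X] [DecidableEq X] in
theorem ree_invariant_zpow (s : Perm X) (f : X → ℚ) (h : ∀ x, f (s x) = f x) (i : ℤ) (x : X) :
    f ((s ^ i) x) = f x := by
  have hinv : ∀ x, f (s⁻¹ x) = f x := fun x => by
    have := h (s⁻¹ x)
    simpa using this.symm
  induction i using Int.induction_on generalizing x with
  | zero => simp
  | succ n ih =>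
    rw [zpow_add_one, Perm.mul_apply, ih, h]
  | pred n ih =>
    rw [zpow_sub_one, Perm.mul_apply, ih, hinv]

theorem ree_finrank_ker_D (s : Perm X) :
    finrank ℚ (LinearMap.ker (ree_D s)) = ree_cyc s := by
  classical
  set Q := MulAction.orbitRel.Quotient (Subgroup.zpowers s) X with hQ
  let _ : Fintype Q := Fintype.ofFinite Q
  let L : (Q → ℚ) →ₗ[ℚ] (X → ℚ) := LinearMap.funLeft ℚ ℚ (Quotient.mk'' : X → Q)
  have hLinj : Function.Injective L :=
    LinearMap.funLeft_injective_of_surjective ℚ ℚ _ Quotient.mk''_surjective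
  have hrange : LinearMap.range L = LinearMap.ker (ree_D s) := by
    ext f
    rw [ree_mem_ker_D]
    constructor
    · rintro ⟨g, rfl⟩ x
      show g (Quotient.mk'' (s x)) = g (Quotient.mk'' x)
      congr 1
      apply Quotient.sound'
      rw [ree_orbitRel_iff]
      exact ⟨1, by simp⟩
    · intro h
      refine ⟨Quotient.lift f ?_, ?_⟩
      · intro x y hxy
        have hxy' : (MulAction.orbitRel (Subgroup.zpowers s) X) x y := hxy
        rw [ree_orbitRel_iff] at hxy'
        obtain ⟨i, rfl⟩ := hxy'
        exact ree_invariant_zpow s f h i y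
      · funext x
        rfl
  rw [← hrange, LinearMap.finrank_range_of_inj hLinj, Module.finrank_pi, ree_cyc,
    Nat.card_eq_fintype_card]

theorem ree_finrank_range_D (s : Perm X) :
    finrank ℚ (LinearMap.range (ree_D s)) + ree_cyc s = Fintype.card X := by
  have := LinearMap.finrank_range_add_finrank_ker (ree_D s)
  rw [ree_finrank_ker_D, Module.finrank_pi] at this
  exact this


/-! ### Scott's lemma -/

/-- The map `β : V → W_a × W_b × W_c`. -/
noncomputable def ree_beta (a b c : Perm X) :
    (X → ℚ) →ₗ[ℚ] (LinearMap.range (ree_D a) × LinearMap.range (ree_D b) ×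
      LinearMap.range (ree_D c)) :=
  (ree_D a).rangeRestrict.prod ((ree_D b).rangeRestrict.prod (ree_D c).rangeRestrict)

/-- The map `δ : W_a × W_b × W_c → V`. -/
noncomputable def ree_delta (a b c : Perm X) :
    (LinearMap.range (ree_D a) × LinearMap.range (ree_D b) × LinearMap.range (ree_D c))
      →ₗ[ℚ] (X → ℚ) :=
  ((ree_P c ∘ₗ ree_P b) ∘ₗ (LinearMap.range (ree_D a)).subtype).coprod
    ((ree_P c ∘ₗ (LinearMap.range (ree_D b)).subtype).coprod
      (LinearMap.range (ree_D c)).subtype)

omit [Fintype X] [DecidableEq X] in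
theorem ree_delta_apply (a b c : Perm X)
    (w : LinearMap.range (ree_D a) × LinearMap.range (ree_D b) × LinearMap.range (ree_D c)) :
    ree_delta a b c w = ree_P c (ree_P b (w.1 : X → ℚ)) + (ree_P c (w.2.1 : X → ℚ) + (w.2.2 : X → ℚ)) := by
  simp [ree_delta, LinearMap.coprod_apply]

omit [Fintype X] [DecidableEq X] in
theorem ree_beta_fst (a b c : Perm X) (v : X → ℚ) :
    ((ree_beta a b c v).1 : X → ℚ) = ree_D a v := rfl

omit [Fintype X] [DecidableEq X] in
theorem ree_beta_snd_fst (a b c : Perm X) (v : X → ℚ) :
    ((ree_beta a b c v).2.1 : X → ℚ) = ree_D b v := rfl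

omit [Fintype X] [DecidableEq X] in
theorem ree_beta_snd_snd (a b c : Perm X) (v : X → ℚ) :
    ((ree_beta a b c v).2.2 : X → ℚ) = ree_D c v := rfl

omit [Fintype X] [DecidableEq X] in
theorem ree_delta_beta (a b c : Perm X) (h : a * b * c = 1) (v : X → ℚ) :
    ree_delta a b c (ree_beta a b c v) = 0 := by
  rw [ree_delta_apply, ree_beta_fst, ree_beta_snd_fst, ree_beta_snd_snd]
  funext x
  have h1 : a (b (c x)) = x := by
    have := congrArg (fun g : Perm X => g x) h
    simpa [Perm.mul_apply] using this
  simp only [Pi.add_apply, ree_P_apply, ree_D_apply, Pi.zero_apply, h1]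
  ring

omit [Fintype X] [DecidableEq X] in
theorem ree_range_D_le_range_delta_c (a b c : Perm X) :
    LinearMap.range (ree_D c) ≤ LinearMap.range (ree_delta a b c) := by
  intro w hw
  refine ⟨(0, 0, ⟨w, hw⟩), ?_⟩
  rw [ree_delta_apply]
  simp

omit [Fintype X] [DecidableEq X] in
theorem ree_range_D_le_range_delta_b (a b c : Perm X) :
    LinearMap.range (ree_D b) ≤ LinearMap.range (ree_delta a b c) := by
  intro w hw
  refine ⟨(0, ⟨w, hw⟩, ⟨ree_D c w, LinearMap.mem_range_self _ _⟩), ?_⟩
  rw [ree_delta_apply]
  funext x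
  simp

omit [Fintype X] [DecidableEq X] in
theorem ree_range_D_le_range_delta_a (a b c : Perm X) :
    LinearMap.range (ree_D a) ≤ LinearMap.range (ree_delta a b c) := by
  intro w hw
  refine ⟨(⟨w, hw⟩, ⟨ree_D b w, LinearMap.mem_range_self _ _⟩,
    ⟨ree_D c w, LinearMap.mem_range_self _ _⟩), ?_⟩
  rw [ree_delta_apply]
  funext x
  simp

/-- The difference of basis vectors `e_{s x} - e_x` lies in the range of `D_s`. -/
theorem ree_single_sub_mem (s : Perm X) (x : X) :
    (Pi.single (s x) (1 : ℚ) - Pi.single x 1 : X → ℚ) ∈ LinearMap.range (ree_D s) := by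
  refine ⟨Pi.single (s x) 1, ?_⟩
  funext y
  simp only [ree_D_apply, Pi.sub_apply, Pi.single_apply]
  congr 1
  by_cases h : y = x
  · subst h
    simp
  · have : s y ≠ s x := fun hh => h (s.injective hh)
    simp [h, this]

theorem ree_single_sub_mem_of_closure (a b c : Perm X) (R : Submodule ℚ (X → ℚ))
    (ha : LinearMap.range (ree_D a) ≤ R) (hb : LinearMap.range (ree_D b) ≤ R)
    (hc : LinearMap.range (ree_D c) ≤ R) (g : Perm X)
    (hg : g ∈ Subgroup.closure ({a, b, c} : Set (Perm X))) (x : X) :
    (Pi.single (g x) (1 : ℚ) - Pi.single x 1 : X → ℚ) ∈ R := by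
  induction hg using Subgroup.closure_induction generalizing x with
  | mem s hs =>
    rcases hs with rfl | rfl | rfl
    · exact ha (ree_single_sub_mem _ x)
    · exact hb (ree_single_sub_mem _ x)
    · exact hc (ree_single_sub_mem _ x)
  | one => simp
  | mul g h _ _ ihg ihh =>
    have := R.add_mem (ihg (h x)) (ihh x)
    rw [Perm.mul_apply]
    convert this using 1
    abel
  | inv g _ ih =>
    have := R.neg_mem (ih (g⁻¹ x))
    convert this using 1
    simp

omit [Fintype X] [DecidableEq X] in
theorem ree_invariant_of_closure (a b c : Perm X) (f : X → ℚ)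
    (ha : ∀ x, f (a x) = f x) (hb : ∀ x, f (b x) = f x) (hc : ∀ x, f (c x) = f x)
    (g : Perm X) (hg : g ∈ Subgroup.closure ({a, b, c} : Set (Perm X))) (x : X) :
    f (g x) = f x := by
  induction hg using Subgroup.closure_induction generalizing x with
  | mem s hs =>
    rcases hs with rfl | rfl | rfl
    · exact ha x
    · exact hb x
    · exact hc x
  | one => simp
  | mul g h _ _ ihg ihh => rw [Perm.mul_apply, ihg, ihh]
  | inv g _ ih =>
    have := ih (g⁻¹ x)
    simpa using this.symm

theorem ree_finrank_span_singleton_le (v : X → ℚ) :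
    finrank ℚ (Submodule.span ℚ {v}) ≤ 1 := by
  have := finrank_span_finset_le_card (R := ℚ) ({v} : Finset (X → ℚ))
  rw [Set.finrank, Finset.coe_singleton, Finset.card_singleton] at this
  exact this

/-- **Ree's inequality** (via Scott's lemma) for three permutations with product one generating
a transitive group. -/
theorem ree_le [Nonempty X] (a b c : Perm X) (h : a * b * c = 1)
    (htr : ∀ x y : X, ∃ g ∈ Subgroup.closure ({a, b, c} : Set (Perm X)), g x = y) :
    ree_cyc a + ree_cyc b + ree_cyc c ≤ Fintype.card X + 2 := by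
  classical
  obtain ⟨x₀⟩ := ‹Nonempty X›
  set n := Fintype.card X with hn
  -- dimension of the source of δ
  have hsrc : finrank ℚ (LinearMap.range (ree_D a) × LinearMap.range (ree_D b) ×
      LinearMap.range (ree_D c)) + (ree_cyc a + ree_cyc b + ree_cyc c) = 3 * n := by
    rw [Module.finrank_prod, Module.finrank_prod]
    have h1 := ree_finrank_range_D a
    have h2 := ree_finrank_range_D b
    have h3 := ree_finrank_range_D c
    omega
  -- rank-nullity for δ and β
  have hδ := LinearMap.finrank_range_add_finrank_ker (ree_delta a b c)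
  have hβ := LinearMap.finrank_range_add_finrank_ker (ree_beta a b c)
  rw [Module.finrank_pi] at hβ
  have hle : finrank ℚ (LinearMap.range (ree_beta a b c)) ≤
      finrank ℚ (LinearMap.ker (ree_delta a b c)) := by
    apply Submodule.finrank_mono
    rintro _ ⟨v, rfl⟩
    exact ree_delta_beta a b c h v
  -- the kernel of β consists of constants
  have hker : finrank ℚ (LinearMap.ker (ree_beta a b c)) ≤ 1 := by
    have hsub : LinearMap.ker (ree_beta a b c) ≤ Submodule.span ℚ {(fun _ => 1 : X → ℚ)} := by
      intro f hf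
      rw [LinearMap.mem_ker] at hf
      have ha : ∀ x, f (a x) = f x := (ree_mem_ker_D a f).mp (by
        rw [LinearMap.mem_ker, ← ree_beta_fst a b c f, hf]
        rfl)
      have hb : ∀ x, f (b x) = f x := (ree_mem_ker_D b f).mp (by
        rw [LinearMap.mem_ker, ← ree_beta_snd_fst a b c f, hf]
        rfl)
      have hc : ∀ x, f (c x) = f x := (ree_mem_ker_D c f).mp (by
        rw [LinearMap.mem_ker, ← ree_beta_snd_snd a b c f, hf]
        rfl)
      rw [Submodule.mem_span_singleton]
      refine ⟨f x₀, ?_⟩
      funext y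
      obtain ⟨g, hg, rfl⟩ := htr x₀ y
      simp [ree_invariant_of_closure a b c f ha hb hc g hg x₀]
    exact (Submodule.finrank_mono hsub).trans (ree_finrank_span_singleton_le _)
  -- the range of δ has codimension at most one
  have hrange : n ≤ finrank ℚ (LinearMap.range (ree_delta a b c)) + 1 := by
    set R := LinearMap.range (ree_delta a b c) with hR
    have htop : (⊤ : Submodule ℚ (X → ℚ)) ≤ R ⊔ Submodule.span ℚ {(Pi.single x₀ 1 : X → ℚ)} := by
      rw [← (Pi.basisFun ℚ X).span_eq, Submodule.span_le]
      rintro _ ⟨x, rfl⟩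
      obtain ⟨g, hg, rfl⟩ := htr x₀ x
      have hmem := ree_single_sub_mem_of_closure a b c R
        (ree_range_D_le_range_delta_a a b c) (ree_range_D_le_range_delta_b a b c)
        (ree_range_D_le_range_delta_c a b c) g hg x₀
      have : (Pi.basisFun ℚ X) (g x₀) =
          (Pi.single (g x₀) (1 : ℚ) - Pi.single x₀ 1 : X → ℚ) + Pi.single x₀ 1 := by
        simp [Pi.basisFun_apply]
      rw [SetLike.mem_coe, this]
      exact Submodule.add_mem_sup hmem (Submodule.mem_span_singleton_self _)
    have h1 : finrank ℚ (⊤ : Submodule ℚ (X → ℚ)) ≤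
        finrank ℚ (R ⊔ Submodule.span ℚ {(Pi.single x₀ 1 : X → ℚ)} : Submodule ℚ (X → ℚ)) :=
      Submodule.finrank_mono htop
    rw [finrank_top, Module.finrank_pi] at h1
    have h2 := Submodule.finrank_add_le_finrank_add_finrank R
      (Submodule.span ℚ {(Pi.single x₀ 1 : X → ℚ)})
    have h3 : finrank ℚ (Submodule.span ℚ {(Pi.single x₀ 1 : X → ℚ)}) ≤ 1 :=
      ree_finrank_span_singleton_le _
    omega
  omega


/-! ### Parity -/

/-- The sign of a permutation in terms of its number of orbits. -/
theorem ree_sign (s : Perm X) :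
    Perm.sign s = (-1 : ℤˣ) ^ (Fintype.card X + ree_cyc s) := by
  rw [Perm.sign_of_cycleType, ree_cyc_eq]
  have hle : s.cycleType.sum ≤ Fintype.card X := s.sum_cycleType_le
  have hsum : s.cycleType.sum = s.support.card := s.sum_cycleType
  have : Fintype.card X + (Multiset.card s.cycleType + (Fintype.card X - s.support.card))
      = (s.cycleType.sum + Multiset.card s.cycleType) + 2 * (Fintype.card X - s.cycleType.sum) := by
    omega
  rw [this, pow_add (-1 : ℤˣ) (s.cycleType.sum + Multiset.card s.cycleType), pow_mul]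
  simp

/-- **Parity**: for `a * b * c = 1` the number `|X| + cyc a + cyc b + cyc c` is even. -/
theorem ree_parity (a b c : Perm X) (h : a * b * c = 1) :
    Even (Fintype.card X + ree_cyc a + ree_cyc b + ree_cyc c) := by
  have hs : Perm.sign (a * b * c) = 1 := by rw [h, map_one]
  rw [map_mul, map_mul, ree_sign a, ree_sign b, ree_sign c, ← pow_add, ← pow_add] at hs
  have hne : (-1 : ℤˣ) ≠ 1 := by decide
  rw [neg_one_pow_eq_one_iff_even hne] at hs
  have : Fintype.card X + ree_cyc a + (Fintype.card X + ree_cyc b) + (Fintype.card X + ree_cyc c)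
      = (Fintype.card X + ree_cyc a + ree_cyc b + ree_cyc c) + 2 * Fintype.card X := by ring
  rw [this] at hs
  exact (Nat.even_add.mp hs).mpr (even_two_mul _)

/-! ### Permutations of prime order -/

theorem ree_card_fixed (s : Perm X) :
    Nat.card {x // s x = x} + s.support.card = Fintype.card X := by
  classical
  have h1 : Nat.card {x // s x = x} = (Finset.univ \ s.support).card := by
    rw [Nat.card_eq_fintype_card, Fintype.card_subtype]
    congr 1
    ext x
    simp [Perm.mem_support]
  rw [h1, Finset.card_sdiff_of_subset (Finset.subset_univ _), Finset.card_univ]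
  have : s.support.card ≤ Fintype.card X := Finset.card_le_univ _
  omega

/-- For `s ^ p = 1` with `p` prime: `p * cyc s = |X| + (p - 1) * fix s`. -/
theorem ree_cyc_of_pow_prime (s : Perm X) (p : ℕ) [Fact p.Prime] (hs : s ^ p = 1) :
    p * ree_cyc s = Fintype.card X + (p - 1) * Nat.card {x // s x = x} := by
  have hp : 1 ≤ p := (Fact.out : p.Prime).one_lt.le
  have hct := Perm.cycleType_of_pow_prime_eq_one hs
  have hsum : s.cycleType.sum = Multiset.card s.cycleType * p := by
    conv_lhs => rw [hct]
    rw [Multiset.sum_replicate, smul_eq_mul]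
  have hsupp : s.support.card = Multiset.card s.cycleType * p := by
    rw [← s.sum_cycleType, hsum]
  have hfix := ree_card_fixed s
  rw [ree_cyc_eq]
  set k := Multiset.card s.cycleType
  set F := Nat.card {x // s x = x}
  set n := Fintype.card X
  have hn : n = F + k * p := by omega
  have hsub : n - s.support.card = F := by omega
  rw [hsub, hn]
  obtain ⟨q, rfl⟩ : ∃ q, p = q + 1 := ⟨p - 1, by omega⟩
  simp only [Nat.add_sub_cancel]
  ring

/-- For an involution: `2 * cyc s = |X| + fix s`. -/
theorem ree_cyc_of_sq (s : Perm X) (hs : s ^ 2 = 1) :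
    2 * ree_cyc s = Fintype.card X + Nat.card {x // s x = x} := by
  have : Fact (Nat.Prime 2) := ⟨Nat.prime_two⟩
  have := ree_cyc_of_pow_prime s 2 hs
  simpa using this

/-- For an element of order dividing three: `3 * cyc s = |X| + 2 * fix s`. -/
theorem ree_cyc_of_cube (s : Perm X) (hs : s ^ 3 = 1) :
    3 * ree_cyc s = Fintype.card X + 2 * Nat.card {x // s x = x} := by
  have : Fact (Nat.Prime 3) := ⟨Nat.prime_three⟩
  have := ree_cyc_of_pow_prime s 3 hs
  simpa using this

/-! ### The genus of a permutation triple -/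

/-- **Integrality and non-negativity of the Riemann-Hurwitz genus.**  For `a * b * c = 1`
generating a transitive group there is a natural number `g` with
`2 * g + cyc a + cyc b + cyc c = |X| + 2`. -/
theorem ree_exists_genus [Nonempty X] (a b c : Perm X) (h : a * b * c = 1)
    (htr : ∀ x y : X, ∃ g ∈ Subgroup.closure ({a, b, c} : Set (Perm X)), g x = y) :
    ∃ g : ℕ, 2 * g + (ree_cyc a + ree_cyc b + ree_cyc c) = Fintype.card X + 2 := by
  have hle := ree_le a b c h htr
  have hpar := ree_parity a b c h
  obtain ⟨m, hm⟩ := hpar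
  refine ⟨m + 1 - (ree_cyc a + ree_cyc b + ree_cyc c), ?_⟩
  omega


/-- [MG-REE] Ree's theorem in the shape of the S24 specification: the genus of a transitive
permutation triple is a nonnegative integer. -/
theorem mg_ree {α : Type} [Fintype α] [DecidableEq α] [Nonempty α]
    (a b c : Equiv.Perm α) (habc : a * b * c = 1)
    (htrans : MulAction.IsPretransitive (Subgroup.closure ({a, b, c} : Set (Equiv.Perm α))) α) :
    ∃ g : ℕ, (Fintype.card α : ℤ) + 2
        - Nat.card (Quotient (MulAction.orbitRel (Subgroup.zpowers a) α))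
        - Nat.card (Quotient (MulAction.orbitRel (Subgroup.zpowers b) α))
        - Nat.card (Quotient (MulAction.orbitRel (Subgroup.zpowers c) α)) = 2 * (g : ℤ) := by
  obtain ⟨g, hg⟩ := ree_exists_genus a b c habc (fun x y => by
    obtain ⟨⟨g, hg⟩, h⟩ := htrans.exists_smul_eq x y
    exact ⟨g, hg, h⟩)
  refine ⟨g, ?_⟩
  have ha : ree_cyc a = Nat.card (Quotient (MulAction.orbitRel (Subgroup.zpowers a) α)) := rfl
  have hb : ree_cyc b = Nat.card (Quotient (MulAction.orbitRel (Subgroup.zpowers b) α)) := rfl
  have hc : ree_cyc c = Nat.card (Quotient (MulAction.orbitRel (Subgroup.zpowers c) α)) := rfl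
  rw [← ha, ← hb, ← hc]
  omega

end Fermat.Agent.S24
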