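import Fermat.Agent.S24.GenusArith
import Fermat.Agent.S24.MGCard
import Fermat.Agent.S24.MGFix
import Fermat.Agent.S24.OrbitsT
import Fermat.Agent.S24.Ree

/-!
# S24, package MG-GENUS: `mg_genusFormula` (exact Spec shape)
-/

set_option autoImplicit false

noncomputable section

namespace Fermat.Agent.S24

open ModularCurve
open scoped MatrixGroups

/-- [MG-GENUS] the arithmetic: the genus formula is the nonnegative integer given by the orbit
counts. -/
theorem mg_genusFormula (N : ℕ) [NeZero N] :
    ∃ g : ℕ, (g : ℚ) = genusFormula N ∧
      (2 * (g : ℤ) - 2) =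
        ((dedekindPsi N : ℤ) - Nat.card (Quotient (s24Orb N (ModularGroup.S * ModularGroup.T))))
        + ((dedekindPsi N : ℤ) - Nat.card (Quotient (s24Orb N ModularGroup.S)))
        - (dedekindPsi N : ℤ) - Nat.card (Quotient (s24Orb N ModularGroup.T)) :=
  mga_genusFormula_of N (mg_card N) (mg_orbits_S N) (mg_orbits_ST N) (mg_orbits_T N)
    (fun a b c habc htr => by
      classical
      exact mg_ree a b c habc htr)

end Fermat.Agent.S24

end
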