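import Fermat.Agent.S24.Main
import Fermat.Agent.S24.AlgA
import Fermat.Agent.S24.AlgD
import Fermat.Agent.S24.Counting
import Fermat.Agent.S24.AnaData
import Fermat.Agent.S24.AnaTrans
import Fermat.Agent.S24.GenusFormula

/-!
# S24 — final assembly from the analytic package and the differential package (prefix `fin_`)

`fin_main` : S24 from `AdPkg N` (package ANA), finiteness of `F / K(j)` and the five statements of
package ALG-D for `x = j`.
-/

set_option autoImplicit false

noncomputable section

namespace Fermat.Agent.S24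

open AlgebraicCurve KaehlerDifferential IntermediateField ModularCurve
open scoped MatrixGroups

section generic

variable {K F : Type*} [Field K] [Field F] [Algebra K F] [IsAlgClosed K] [CharZero K]

/-- The Hurwitz data of `x`, from packages ALG-A (proved) and ALG-D (hypotheses). -/
theorem fin_hurData (x : F) (hx : Transcendental K x) [FiniteDimensional K⟮x⟯ F]
    (hD1 : Nontrivial (Ω[F⁄K]))
    (hD2 : ∀ v : Place K F, v.DCoordGenerates)
    (hD3 : ∀ (v : Place K F) (a : K), 0 < v.ord (x - algebraMap K F a) →
      v.ordDifferential (KaehlerDifferential.D K F x) = v.ord (x - algebraMap K F a) - 1)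
    (hD4 : ∀ v : Place K F, v.ord x < 0 →
      v.ordDifferential (KaehlerDifferential.D K F x) = v.ord x - 1)
    (hD5 : ∀ v : Place K F, v.differentialCoeff (KaehlerDifferential.D K F x) ≠ 0) :
    HurData K F x (Module.finrank K⟮x⟯ F) where
  n_pos := Module.finrank_pos
  deg_one := fun v => alg_deg_eq_one x hx v
  ord_const := fun v a => alg_ord_algebraMap v a
  exists_value := fun v hv => by
    obtain ⟨a, ha, -⟩ := alg_exists_value x hx v x hv
    refine ⟨a, ha.resolve_left fun h => ?_⟩
    apply hx
    rw [h]
    exact isAlgebraic_algebraMap a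
  finite_zeros := fun a => alg_finite_zeros x hx x hx a
  sum_zeros := fun a => alg_sum_zeros x hx x hx a
  finite_poles := alg_finite_poles x hx x hx
  sum_poles := alg_sum_poles x hx x hx
  principal := alg_hasPrincipalDivisors x hx
  nontrivial := hD1
  generates := hD2
  ord_d_zero := hD3
  ord_d_pole := hD4
  coeff_ne := hD5

/-- The counting theorem (package ALG-CT with the fundamental identity of ALG-A). -/
theorem fin_counting (x : F) (hx : Transcendental K x) [FiniteDimensional K⟮x⟯ F]
    (y : F) (hy : (∃ a : K, y = x - algebraMap K F a) ∨ y = x⁻¹)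
    {Q : Type} [Fintype Q] [Nonempty Q] (r : Setoid Q) (o : ℕ)
    (d : CountingData K F x y Q r o) :
    AsmCounting K F x y Q r :=
  ct_counting_of_alg_sum_zeros hy d (alg_sum_zeros x hx y (ct_transcendental hx hy) 0)

end generic

/-- **S24** from the analytic package, finiteness, and package ALG-D for `x = j`. -/
theorem fin_main (N : ℕ) [NeZero N]
    [HasCanonicalDivisor (K := s24K) (F := s24F N)]
    (P : AdPkg N) [FiniteDimensional s24K⟮s24j N⟯ (s24F N)]
    (hD1 : Nontrivial (Ω[s24F N⁄s24K]))
    (hD2 : ∀ v : Place s24K (s24F N), v.DCoordGenerates)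
    (hD3 : ∀ (v : Place s24K (s24F N)) (a : s24K),
      0 < v.ord (s24j N - algebraMap s24K (s24F N) a) →
      v.ordDifferential (KaehlerDifferential.D s24K (s24F N) (s24j N))
        = v.ord (s24j N - algebraMap s24K (s24F N) a) - 1)
    (hD4 : ∀ v : Place s24K (s24F N), v.ord (s24j N) < 0 →
      v.ordDifferential (KaehlerDifferential.D s24K (s24F N) (s24j N)) = v.ord (s24j N) - 1)
    (hD5 : ∀ v : Place s24K (s24F N),
      v.differentialCoeff (KaehlerDifferential.D s24K (s24F N) (s24j N)) ≠ 0) :
    (genus s24K (s24F N) : ℚ) = genusFormula N := by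
  have hx := ana_transcendental N
  refine asm24_main_of N (fin_hurData (s24j N) hx hD1 hD2 hD3 hD4 hD5) (mg_card N)
    ?_ ?_ ?_ ?_ (mg_genusFormula N)
  · exact fin_counting (s24j N) hx (s24j N) (Or.inl ⟨0, by simp⟩) _ 3 (ad_data_zero P)
  · exact fin_counting (s24j N) hx _ (Or.inl ⟨1728, rfl⟩) _ 2 (ad_data_1728 P)
  · intro a ha0 ha1
    exact fin_counting (s24j N) hx _ (Or.inl ⟨a, rfl⟩) _ 1 (ad_data_generic P a ha0 ha1)
  · exact fin_counting (s24j N) hx _ (Or.inr rfl) _ N (ad_data_infty P)

/-- **S24** from the analytic package and finiteness of `F / K(j)`. -/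
theorem fin_main_of_pkg (N : ℕ) [NeZero N]
    [HasCanonicalDivisor (K := s24K) (F := s24F N)]
    (P : AdPkg N) [FiniteDimensional s24K⟮s24j N⟯ (s24F N)] :
    (genus s24K (s24F N) : ℚ) = genusFormula N := by
  have hx := ana_transcendental N
  exact fin_main N P (alg_nontrivial_kaehler _ hx) (alg_dCoordGenerates _ hx)
    (fun v a h => alg_ordDifferential_of_zero _ hx v _ a h)
    (fun v h => alg_ordDifferential_of_pole _ hx v _ h)
    (fun v => alg_differentialCoeff_D_ne_zero _ hx v _ hx)

end Fermat.Agent.S24

end
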