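import Mathlib
import Fermat.Agent.S24.Ord

/-!
# S24 — STAB core (function level)

If `γ ∈ SL(2,ℤ)` fixes `τ₀ ∈ ℍ` and the derivative `(denom γ τ₀)⁻²` of the Möbius map of `γ` at
`τ₀` is a primitive `m`-th root of unity, then for holomorphic `a, b ≠ 0` on `ℍ` with
`a(γτ) b(τ) = a(τ) b(γτ)` (i.e. `a / b` is `γ`-invariant) the orders of vanishing of `a` and `b`
at `τ₀` are congruent modulo `m` (`stab_dvd`).  Instances: `γ = S`, `τ₀ = i`, `m = 2`
(`stab_dvd_S`) and `γ = S * T`, `τ₀ = ρ`, `m = 3` (`stab_dvd_ST`).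
-/

set_option autoImplicit false

namespace Fermat.Agent.S24

open UpperHalfPlane hiding I
open Filter Function Topology ModularForm Complex
open scoped Manifold MatrixGroups ModularForm Real CongruenceSubgroup

theorem stab_order_ne_top {a : ℍ → ℂ} (ha : MDiff a) (ha0 : a ≠ 0) (τ₀ : ℍ) :
    analyticOrderAt (a ∘ ofComplex) (τ₀ : ℂ) ≠ ⊤ := by
  intro htop
  rw [analyticOrderAt_eq_top] at htop
  have hd := UpperHalfPlane.mdifferentiable_iff.mp ha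
  have han : AnalyticOnNhd ℂ (a ∘ ofComplex) upperHalfPlaneSet :=
    hd.analyticOnNhd isOpen_upperHalfPlaneSet
  have hpre : IsPreconnected upperHalfPlaneSet := by
    have : Convex ℝ upperHalfPlaneSet := convex_halfSpace_im_gt 0
    exact this.isPreconnected
  have h0 := han.eqOn_zero_of_preconnected_of_eventuallyEq_zero hpre
    (show (τ₀ : ℂ) ∈ upperHalfPlaneSet from τ₀.im_pos) htop
  apply ha0
  funext τ
  have := h0 (show (τ : ℂ) ∈ upperHalfPlaneSet from τ.im_pos)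
  simpa using this

/-- The Möbius difference formula at a fixed point. -/
theorem stab_moeb_sub (γ : SL(2, ℤ)) (τ₀ τ : ℍ) (hfix : γ • τ₀ = τ₀) :
    ((γ • τ : ℍ) : ℂ) - τ₀ = ((τ : ℂ) - τ₀) * (denom γ τ * denom γ τ₀)⁻¹ := by
  have h1 : ((γ • τ₀ : ℍ) : ℂ) = τ₀ := by rw [hfix]
  have hd := ModularGroup.denom_apply γ τ
  have hd0 := ModularGroup.denom_apply γ τ₀
  have hne := denom_ne_zero γ τ
  have hne0 := denom_ne_zero γ τ₀
  rw [hd] at hne ⊢
  rw [hd0] at hne0 ⊢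
  have hdet : ((γ 0 0 : ℤ) : ℂ) * (γ 1 1 : ℤ) - (γ 0 1 : ℤ) * (γ 1 0 : ℤ) = 1 := by
    have := Matrix.SpecialLinearGroup.det_coe γ
    rw [Matrix.det_fin_two] at this
    exact_mod_cast this
  rw [coe_specialLinearGroup_apply] at h1 ⊢
  simp only [algebraMap_int_eq, eq_intCast, Complex.ofReal_intCast] at h1 ⊢
  rw [div_eq_iff hne0] at h1
  have hX := div_mul_cancel₀ (((γ 0 0 : ℤ) : ℂ) * τ + (γ 0 1 : ℤ)) hne
  rw [eq_mul_inv_iff_mul_eq₀ (mul_ne_zero hne hne0)]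
  linear_combination (((γ 1 0 : ℤ) : ℂ) * τ₀ + (γ 1 1 : ℤ)) * hX
    + (((γ 1 0 : ℤ) : ℂ) * τ + (γ 1 1 : ℤ)) * h1 + ((τ : ℂ) - τ₀) * hdet

/-- **STAB core.**  If `γ` fixes `τ₀` and the derivative `(denom γ τ₀)⁻²` of the Möbius map at
`τ₀` is a primitive `m`-th root of unity, then for holomorphic `a, b ≠ 0` on `ℍ` with
`a∘γ · b = a · b∘γ` (i.e. `a / b` is `γ`-invariant) the orders of `a` and `b` at `τ₀` are congruent
modulo `m`. -/
theorem stab_dvd (γ : SL(2, ℤ)) (τ₀ : ℍ) (hfix : γ • τ₀ = τ₀) (m : ℕ)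
    (hprim : IsPrimitiveRoot ((denom γ τ₀)⁻¹ ^ 2) m) (a b : ℍ → ℂ) (ha : MDiff a) (hb : MDiff b)
    (ha0 : a ≠ 0) (hb0 : b ≠ 0) (h : ∀ τ, a (γ • τ) * b τ = a τ * b (γ • τ)) :
    (m : ℤ) ∣ (analyticOrderNatAt (a ∘ ofComplex) (τ₀ : ℂ) : ℤ)
      - analyticOrderNatAt (b ∘ ofComplex) (τ₀ : ℂ) := by
  obtain ⟨ga, hga, hga0, hgaE⟩ := (ord_analyticAt ha τ₀).analyticOrderAt_eq_natCast.mp
    (Nat.cast_analyticOrderNatAt (stab_order_ne_top ha ha0 τ₀)).symm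
  obtain ⟨gb, hgb, hgb0, hgbE⟩ := (ord_analyticAt hb τ₀).analyticOrderAt_eq_natCast.mp
    (Nat.cast_analyticOrderNatAt (stab_order_ne_top hb hb0 τ₀)).symm
  set ka := analyticOrderNatAt (a ∘ ofComplex) (τ₀ : ℂ) with hka
  set kb := analyticOrderNatAt (b ∘ ofComplex) (τ₀ : ℂ) with hkb
  set c : ℂ := denom γ τ₀ with hc
  have hc0 : c ≠ 0 := denom_ne_zero γ τ₀
  -- the local Möbius data
  set u : ℂ → ℂ := fun z => ((((γ 1 0 : ℤ) : ℂ) * z + (γ 1 1 : ℤ)) * c)⁻¹ with hu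
  set ψ : ℂ → ℂ := fun z => τ₀ + (z - τ₀) * u z with hψdef
  have hcE : c = ((γ 1 0 : ℤ) : ℂ) * τ₀ + (γ 1 1 : ℤ) := ModularGroup.denom_apply γ τ₀
  have hu0 : u τ₀ = c⁻¹ ^ 2 := by
    simp only [hu, ← hcE]
    rw [mul_inv, sq]
  have hu_cont : ContinuousAt u τ₀ := by
    have h1 : ContinuousAt (fun z : ℂ => (((γ 1 0 : ℤ) : ℂ) * z + (γ 1 1 : ℤ)) * c) τ₀ := by
      fun_prop
    refine h1.inv₀ ?_
    rw [← hcE]
    exact mul_ne_zero hc0 hc0
  have hψ_cont : ContinuousAt ψ τ₀ := by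
    have h1 : ContinuousAt (fun z : ℂ => (τ₀ : ℂ) + (z - τ₀)) τ₀ := by fun_prop
    exact continuousAt_const.add ((continuousAt_id.sub continuousAt_const).mul hu_cont)
  have hψ0 : ψ τ₀ = τ₀ := by simp [hψdef]
  have hψ : ∀ z : ℂ, 0 < z.im → ((γ • ofComplex z : ℍ) : ℂ) = ψ z := by
    intro z hz
    have h1 := stab_moeb_sub γ τ₀ (ofComplex z) hfix
    have h2 : ((ofComplex z : ℍ) : ℂ) = z := by
      rw [ofComplex_apply_of_im_pos hz]
    have h3 := ModularGroup.denom_apply γ (ofComplex z)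
    rw [h3, h2] at h1
    simp only [hψdef, hu]
    linear_combination h1
  -- eventual identities
  have hU : ∀ᶠ z in 𝓝 (τ₀ : ℂ), 0 < z.im := isOpen_upperHalfPlaneSet.mem_nhds τ₀.im_pos
  have hψt : Tendsto ψ (𝓝 (τ₀ : ℂ)) (𝓝 (τ₀ : ℂ)) := by
    have := hψ_cont.tendsto
    rwa [hψ0] at this
  have hgaψ := hψt.eventually hgaE
  have hgbψ := hψt.eventually hgbE
  have key : ∀ᶠ z : ℂ in nhdsWithin (τ₀ : ℂ) {(τ₀ : ℂ)}ᶜ,
      u z ^ ka * ga (ψ z) * gb z = u z ^ kb * ga z * gb (ψ z) := by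
    have hne : ∀ᶠ z : ℂ in nhdsWithin (τ₀ : ℂ) {(τ₀ : ℂ)}ᶜ, z ≠ τ₀ := eventually_mem_nhdsWithin
    filter_upwards [hne, nhdsWithin_le_nhds hU, nhdsWithin_le_nhds hgaE,
      nhdsWithin_le_nhds hgbE, nhdsWithin_le_nhds hgaψ, nhdsWithin_le_nhds hgbψ]
      with z hz hzU h1 h2 h3 h4
    have hrel := h (ofComplex z)
    have e1 : a (γ • ofComplex z) = (a ∘ ofComplex) (ψ z) := by
      rw [← hψ z hzU]; simp
    have e2 : b (γ • ofComplex z) = (b ∘ ofComplex) (ψ z) := by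
      rw [← hψ z hzU]; simp
    rw [e1, e2, h3, h4] at hrel
    have e3 : a (ofComplex z) = (z - τ₀) ^ ka • ga z := h1
    have e4 : b (ofComplex z) = (z - τ₀) ^ kb • gb z := h2
    rw [e3, e4] at hrel
    have hψs : ψ z - τ₀ = (z - τ₀) * u z := by simp [hψdef]
    rw [hψs] at hrel
    simp only [smul_eq_mul, mul_pow] at hrel
    have hz' : (z - (τ₀ : ℂ)) ≠ 0 := sub_ne_zero.mpr hz
    have hzk : (z - (τ₀ : ℂ)) ^ (ka + kb) ≠ 0 := pow_ne_zero _ hz'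
    apply mul_left_cancel₀ hzk
    rw [pow_add]
    linear_combination hrel
  have hlim1 : Tendsto (fun z => u z ^ ka * ga (ψ z) * gb z) (nhdsWithin (τ₀ : ℂ) {(τ₀ : ℂ)}ᶜ)
      (𝓝 (u τ₀ ^ ka * ga τ₀ * gb τ₀)) := by
    have hgaψc : ContinuousAt (fun z => ga (ψ z)) τ₀ := by
      have : ContinuousAt ga (ψ τ₀) := by rw [hψ0]; exact hga.continuousAt
      exact ContinuousAt.comp (f := ψ) (g := ga) this hψ_cont
    have hcont : ContinuousAt (fun z => u z ^ ka * ga (ψ z) * gb z) τ₀ :=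
      ((hu_cont.pow ka).mul hgaψc).mul hgb.continuousAt
    have := hcont.tendsto
    simp only [hψ0] at this
    exact this.mono_left nhdsWithin_le_nhds
  have hlim2 : Tendsto (fun z => u z ^ kb * ga z * gb (ψ z)) (nhdsWithin (τ₀ : ℂ) {(τ₀ : ℂ)}ᶜ)
      (𝓝 (u τ₀ ^ kb * ga τ₀ * gb τ₀)) := by
    have hgbψc : ContinuousAt (fun z => gb (ψ z)) τ₀ := by
      have : ContinuousAt gb (ψ τ₀) := by rw [hψ0]; exact hgb.continuousAt
      exact ContinuousAt.comp (f := ψ) (g := gb) this hψ_cont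
    have hcont : ContinuousAt (fun z => u z ^ kb * ga z * gb (ψ z)) τ₀ :=
      ((hu_cont.pow kb).mul hga.continuousAt).mul hgbψc
    have := hcont.tendsto
    simp only [hψ0] at this
    exact this.mono_left nhdsWithin_le_nhds
  have heq := tendsto_nhds_unique (hlim1.congr' key) hlim2
  have hpow : u τ₀ ^ ka = u τ₀ ^ kb := by
    have h1 : u τ₀ ^ ka * (ga τ₀ * gb τ₀) = u τ₀ ^ kb * (ga τ₀ * gb τ₀) := by
      linear_combination heq
    exact mul_right_cancel₀ (mul_ne_zero hga0 hgb0) h1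
  rw [hu0] at hpow
  have hζ0 : (c⁻¹ ^ 2 : ℂ) ≠ 0 := pow_ne_zero _ (inv_ne_zero hc0)
  rw [← hprim.zpow_eq_one_iff_dvd, zpow_sub₀ hζ0, zpow_natCast, zpow_natCast, hpow,
    div_self (pow_ne_zero _ hζ0)]

theorem stab_denom_S_I :
    denom (ModularGroup.S : SL(2, ℤ)) (UpperHalfPlane.I : ℂ) = Complex.I := by
  rw [ModularGroup.denom_S]; rfl

theorem stab_prim_S :
    IsPrimitiveRoot ((denom (ModularGroup.S : SL(2, ℤ)) (UpperHalfPlane.I : ℂ))⁻¹ ^ 2) 2 := by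
  rw [stab_denom_S_I]
  have h : (Complex.I⁻¹ ^ 2 : ℂ) = -1 := by
    rw [Complex.inv_I]; simp
  rw [h]
  exact IsPrimitiveRoot.neg_one 0 (by norm_num)

theorem stab_prim_ST :
    IsPrimitiveRoot ((denom (ModularGroup.S * ModularGroup.T : SL(2, ℤ)) (ord_rho : ℂ))⁻¹ ^ 2) 3 := by
  rw [ord_denom_ST_rho]
  have hr := ord_rho_sq
  set r : ℂ := (ord_rho : ℂ) with hrdef
  have h3 : r ^ 3 = 1 := by linear_combination (r - 1) * hr
  have h1 : ((r + 1)⁻¹ ^ 2 : ℂ) = r ^ 2 := by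
    rw [inv_pow]
    have h2 : (r + 1) ^ 2 = r := by linear_combination hr
    rw [h2]
    exact inv_eq_of_mul_eq_one_right (by linear_combination h3)
  rw [h1]
  refine IsPrimitiveRoot.mk_of_lt _ (by norm_num) ?_ ?_
  · calc (r ^ 2) ^ 3 = (r ^ 3) ^ 2 := by ring
      _ = 1 := by rw [h3]; norm_num
  · intro l hl0 hl3 hl
    have hr1 : r ≠ 1 := by
      intro h0
      rw [h0] at hr
      norm_num at hr
    interval_cases l
    · have h2 : r ^ 2 = 1 := by simpa using hl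
      have h4 : r = -2 := by linear_combination hr - h2
      rw [h4] at h2
      norm_num at h2
    · apply hr1
      have h4 : r ^ 4 = 1 := by
        have : (r ^ 2) ^ 2 = 1 := hl
        calc r ^ 4 = (r ^ 2) ^ 2 := by ring
          _ = 1 := this
      calc r = r * 1 := by ring
        _ = r * r ^ 3 := by rw [h3]
        _ = r ^ 4 := by ring
        _ = 1 := h4

/-- `S` at `i`: orders are congruent modulo `2`. -/
theorem stab_dvd_S (a b : ℍ → ℂ) (ha : MDiff a) (hb : MDiff b) (ha0 : a ≠ 0) (hb0 : b ≠ 0)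
    (h : ∀ τ, a (ModularGroup.S • τ) * b τ = a τ * b (ModularGroup.S • τ)) :
    (2 : ℤ) ∣ (analyticOrderNatAt (a ∘ ofComplex) (UpperHalfPlane.I : ℂ) : ℤ)
      - analyticOrderNatAt (b ∘ ofComplex) (UpperHalfPlane.I : ℂ) := by
  have := stab_dvd ModularGroup.S UpperHalfPlane.I ord_S_smul_I 2 stab_prim_S a b ha hb ha0 hb0 h
  exact_mod_cast this

/-- `S * T` at `ρ`: orders are congruent modulo `3`. -/
theorem stab_dvd_ST (a b : ℍ → ℂ) (ha : MDiff a) (hb : MDiff b) (ha0 : a ≠ 0) (hb0 : b ≠ 0)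
    (h : ∀ τ, a ((ModularGroup.S * ModularGroup.T) • τ) * b τ
      = a τ * b ((ModularGroup.S * ModularGroup.T) • τ)) :
    (3 : ℤ) ∣ (analyticOrderNatAt (a ∘ ofComplex) (ord_rho : ℂ) : ℤ)
      - analyticOrderNatAt (b ∘ ofComplex) (ord_rho : ℂ) := by
  have := stab_dvd (ModularGroup.S * ModularGroup.T) ord_rho ord_ST_smul_rho 3 stab_prim_ST
    a b ha hb ha0 hb0 h
  exact_mod_cast this

end Fermat.Agent.S24
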