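import Fermat.Agent.S24.HolJ
import Fermat.Agent.S24.Stab

/-!
# S24, package ANA-STAB (wrapper): invariant meromorphic functions at an elliptic point

`hol_stab_of_core` : if the function-level divisibility statement (`stab_dvd`) holds for
`(γ, τ₀, m)`, then every nonzero `x : hol_Mer` fixed by `hol_act γ` has valuation `exp (k * m)`
at `τ₀`.
-/

set_option autoImplicit false

open UpperHalfPlane Complex Filter Topology
open scoped MatrixGroups Manifold

namespace Fermat.Agent.S24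

/-- A fraction `a / s` fixed by `hol_act γ` gives the functional equation
`a (γ τ) s (τ) = a (τ) s (γ τ)`. -/
theorem hol_act_div_eq_iff (γ : SL(2, ℤ)) (a s : hol_ring) (hs : s ≠ 0) :
    hol_act γ (algebraMap hol_ring hol_Mer a / algebraMap hol_ring hol_Mer s)
        = algebraMap hol_ring hol_Mer a / algebraMap hol_ring hol_Mer s
      ↔ ∀ τ : ℍ, (a : ℍ → ℂ) (γ • τ) * (s : ℍ → ℂ) τ = (a : ℍ → ℂ) τ * (s : ℍ → ℂ) (γ • τ) := by
  have hs' : algebraMap hol_ring hol_Mer s ≠ 0 := by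
    simpa using hs
  have hγs : algebraMap hol_ring hol_Mer (hol_comp γ s) ≠ 0 := by
    simpa using hol_comp_ne_zero γ s hs
  rw [map_div₀, hol_act_algebraMap, hol_act_algebraMap, div_eq_div_iff hγs hs', ← map_mul,
    ← map_mul, (IsFractionRing.injective hol_ring hol_Mer).eq_iff]
  constructor
  · intro h τ
    have := congrFun (congrArg Subtype.val h) τ
    simpa using this
  · intro h
    apply hol_ext
    intro τ
    simpa using h τ

/-- Wrapper: from the function-level divisibility statement to the valuation statement. -/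
theorem hol_stab_of_core (γ : SL(2, ℤ)) (τ₀ : ℍ) (m : ℕ)
    (hcore : ∀ a b : ℍ → ℂ, MDiff a → MDiff b → a ≠ 0 → b ≠ 0 →
      (∀ τ, a (γ • τ) * b τ = a τ * b (γ • τ)) →
      (m : ℤ) ∣ (analyticOrderNatAt (a ∘ ofComplex) (τ₀ : ℂ) : ℤ)
        - analyticOrderNatAt (b ∘ ofComplex) (τ₀ : ℂ))
    (x : hol_Mer) (hx : x ≠ 0) (hinv : hol_act γ x = x) :
    ∃ k : ℤ, hol_val τ₀ x = WithZero.exp (k * (m : ℤ)) := by
  obtain ⟨a, s, hs, rfl⟩ := IsFractionRing.div_surjective (A := hol_ring) x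
  have ha : a ≠ 0 := by
    rintro rfl
    simp at hx
  have hs' : s ≠ 0 := nonZeroDivisors.ne_zero hs
  have hfun := (hol_act_div_eq_iff γ a s hs').mp hinv
  have ha0 : (a : ℍ → ℂ) ≠ 0 := fun h => ha (Subtype.ext h)
  have hs0 : (s : ℍ → ℂ) ≠ 0 := fun h => hs' (Subtype.ext h)
  obtain ⟨k, hk⟩ := hcore a s (hol_mdiff a) (hol_mdiff s) ha0 hs0 hfun
  refine ⟨-k, ?_⟩
  rw [hol_val_div, hol_val₀_apply τ₀ a ha, hol_val₀_apply τ₀ s hs', ← WithZero.exp_sub]
  congr 1
  have hk' : (hol_ord τ₀ a : ℤ) - (hol_ord τ₀ s : ℤ) = (m : ℤ) * k := hk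
  linarith

/-- General form: invariance under a stabiliser element whose multiplier is a primitive
`m`-th root of unity forces the valuation into `exp (m ℤ)`. -/
theorem stab_val (γ : SL(2, ℤ)) (τ₀ : ℍ) (hfix : γ • τ₀ = τ₀) (m : ℕ)
    (hprim : IsPrimitiveRoot ((denom γ τ₀)⁻¹ ^ 2) m) (x : hol_Mer) (hx : x ≠ 0)
    (hinv : hol_act γ x = x) :
    ∃ k : ℤ, hol_val τ₀ x = WithZero.exp (k * (m : ℤ)) :=
  hol_stab_of_core γ τ₀ m (fun a b ha hb ha0 hb0 h => stab_dvd γ τ₀ hfix m hprim a b ha hb ha0 hb0 h)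
    x hx hinv

/-- Functions invariant under `S` have even order at `i`. -/
theorem stab_val_S (x : hol_Mer) (hx : x ≠ 0) (hinv : hol_act ModularGroup.S x = x) :
    ∃ k : ℤ, hol_val UpperHalfPlane.I x = WithZero.exp (k * ((2 : ℕ) : ℤ)) :=
  stab_val ModularGroup.S UpperHalfPlane.I ord_S_smul_I 2 stab_prim_S x hx hinv

/-- Functions invariant under `S * T` have order divisible by `3` at `ρ`. -/
theorem stab_val_ST (x : hol_Mer) (hx : x ≠ 0)
    (hinv : hol_act (ModularGroup.S * ModularGroup.T) x = x) :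
    ∃ k : ℤ, hol_val ord_rho x = WithZero.exp (k * ((3 : ℕ) : ℤ)) :=
  stab_val (ModularGroup.S * ModularGroup.T) ord_rho ord_ST_smul_rho 3 stab_prim_ST x hx hinv

end Fermat.Agent.S24
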