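import Mathlib

/-!
# S24, package ANA-SYM, generic part: products over all embeddings are norms

If `ρ : Q → (F →+* M)` is an injective family of ring homomorphisms agreeing on `K` and on `x`, and
`[F : K(x)] ≤ |Q|`, then the `ρ q` are all the `K(x)`-embeddings of `F` into an algebraic closure
of `M`, so `∏ q, ρ q f` is the image of the norm of `f`.
-/

set_option autoImplicit false

noncomputable section

namespace Fermat.Agent.S24

open IntermediateField

variable {K F : Type*} [Field K] [Field F] [Algebra K F]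

/-- two ring homomorphisms that agree on `K` and on `x` agree on `K(x)`. -/
theorem sym_agree_adjoin {M : Type*} [Field M] (x : F) (φ ψ : F →+* M) (hx : φ x = ψ x)
    (hK : ∀ a : K, φ (algebraMap K F a) = ψ (algebraMap K F a)) (y : F) (hy : y ∈ K⟮x⟯) :
    φ y = ψ y := by
  let T : IntermediateField K F := Subfield.toIntermediateField (RingHom.eqLocusField φ ψ) hK
  have hle : K⟮x⟯ ≤ T := by
    rw [IntermediateField.adjoin_le_iff]
    intro z hz
    rw [Set.mem_singleton_iff] at hz
    subst hz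
    exact hx
  exact hle hy

/-- **generic norm lemma**. -/
theorem sym_norm_mem [CharZero K] (x : F) [FiniteDimensional K⟮x⟯ F] {Q : Type} [Fintype Q]
    {M : Type} [Field M] (ρ : Q → (F →+* M)) (hinj : Function.Injective ρ)
    (hx : ∀ q q', ρ q x = ρ q' x)
    (hK : ∀ q q' (a : K), ρ q (algebraMap K F a) = ρ q' (algebraMap K F a))
    (hle : Module.finrank K⟮x⟯ F ≤ Fintype.card Q) :
    ∀ f : F, ∃ g ∈ K⟮x⟯, ∀ q, ρ q g = ∏ q', ρ q' f := by
  classical
  have hpos : 0 < Module.finrank K⟮x⟯ F := Module.finrank_pos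
  have hQ : Nonempty Q := by
    rw [← Fintype.card_pos_iff]
    omega
  obtain ⟨q₀⟩ := hQ
  have hagree : ∀ q q' (y : F), y ∈ K⟮x⟯ → ρ q y = ρ q' y := fun q q' y hy =>
    sym_agree_adjoin x (ρ q) (ρ q') (hx q q') (hK q q') y hy
  -- the algebraic closure of `M` as a `K(x)`-algebra
  letI : Algebra K⟮x⟯ (AlgebraicClosure M) :=
    ((algebraMap M (AlgebraicClosure M)).comp ((ρ q₀).comp (algebraMap K⟮x⟯ F))).toAlgebra
  have halg : ∀ y : K⟮x⟯, algebraMap K⟮x⟯ (AlgebraicClosure M) y
      = algebraMap M (AlgebraicClosure M) (ρ q₀ (y : F)) := fun y => rfl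
  -- the embeddings
  let σ : Q → (F →ₐ[K⟮x⟯] AlgebraicClosure M) := fun q =>
    { toRingHom := (algebraMap M (AlgebraicClosure M)).comp (ρ q)
      commutes' := fun y => by
        change algebraMap M (AlgebraicClosure M) (ρ q (y : F)) = _
        rw [halg, hagree q q₀ (y : F) y.2] }
  have hσ : ∀ q (f : F), σ q f = algebraMap M (AlgebraicClosure M) (ρ q f) := fun q f => rfl
  have hσinj : Function.Injective σ := by
    intro q q' h
    apply hinj
    ext f
    have h1 := congrArg (fun s : F →ₐ[K⟮x⟯] AlgebraicClosure M => s f) h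
    simp only [hσ] at h1
    exact (algebraMap M (AlgebraicClosure M)).injective h1
  have hcard : Fintype.card (F →ₐ[K⟮x⟯] AlgebraicClosure M) = Module.finrank K⟮x⟯ F :=
    AlgHom.card K⟮x⟯ F (AlgebraicClosure M)
  have hbij : Function.Bijective σ := by
    rw [Fintype.bijective_iff_injective_and_card]
    refine ⟨hσinj, le_antisymm (Fintype.card_le_of_injective σ hσinj) ?_⟩
    rw [hcard]
    exact hle
  intro f
  refine ⟨((Algebra.norm K⟮x⟯ f : K⟮x⟯) : F), (Algebra.norm K⟮x⟯ f).2, fun q => ?_⟩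
  have h1 := Algebra.norm_eq_prod_embeddings K⟮x⟯ (AlgebraicClosure M) f
  rw [halg] at h1
  have h2 : ∏ s : F →ₐ[K⟮x⟯] AlgebraicClosure M, s f
      = algebraMap M (AlgebraicClosure M) (∏ q', ρ q' f) := by
    rw [map_prod]
    exact (Fintype.prod_bijective σ hbij (fun q' => algebraMap M (AlgebraicClosure M) (ρ q' f))
      (fun s => s f) (fun q' => (hσ q' f).symm)).symm
  rw [h2] at h1
  rw [hagree q q₀ _ (Algebra.norm K⟮x⟯ f).2]
  exact (algebraMap M (AlgebraicClosure M)).injective h1

/-- by-product: the degree. -/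
theorem sym_finrank_eq [CharZero K] (x : F) [FiniteDimensional K⟮x⟯ F] {Q : Type} [Fintype Q]
    {M : Type} [Field M] (ρ : Q → (F →+* M)) (hinj : Function.Injective ρ)
    (hx : ∀ q q', ρ q x = ρ q' x)
    (hK : ∀ q q' (a : K), ρ q (algebraMap K F a) = ρ q' (algebraMap K F a))
    (hle : Module.finrank K⟮x⟯ F ≤ Fintype.card Q) :
    Module.finrank K⟮x⟯ F = Fintype.card Q := by
  classical
  refine le_antisymm hle ?_
  have hpos : 0 < Module.finrank K⟮x⟯ F := Module.finrank_pos
  have hQ : Nonempty Q := by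
    rw [← Fintype.card_pos_iff]
    omega
  obtain ⟨q₀⟩ := hQ
  have hagree : ∀ q q' (y : F), y ∈ K⟮x⟯ → ρ q y = ρ q' y := fun q q' y hy =>
    sym_agree_adjoin x (ρ q) (ρ q') (hx q q') (hK q q') y hy
  letI : Algebra K⟮x⟯ (AlgebraicClosure M) :=
    ((algebraMap M (AlgebraicClosure M)).comp ((ρ q₀).comp (algebraMap K⟮x⟯ F))).toAlgebra
  have halg : ∀ y : K⟮x⟯, algebraMap K⟮x⟯ (AlgebraicClosure M) y
      = algebraMap M (AlgebraicClosure M) (ρ q₀ (y : F)) := fun y => rfl
  let σ : Q → (F →ₐ[K⟮x⟯] AlgebraicClosure M) := fun q =>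
    { toRingHom := (algebraMap M (AlgebraicClosure M)).comp (ρ q)
      commutes' := fun y => by
        change algebraMap M (AlgebraicClosure M) (ρ q (y : F)) = _
        rw [halg, hagree q q₀ (y : F) y.2] }
  have hσ : ∀ q (f : F), σ q f = algebraMap M (AlgebraicClosure M) (ρ q f) := fun q f => rfl
  have hσinj : Function.Injective σ := by
    intro q q' h
    apply hinj
    ext f
    have h1 := congrArg (fun s : F →ₐ[K⟮x⟯] AlgebraicClosure M => s f) h
    simp only [hσ] at h1
    exact (algebraMap M (AlgebraicClosure M)).injective h1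
  rw [← AlgHom.card K⟮x⟯ F (AlgebraicClosure M)]
  exact Fintype.card_le_of_injective σ hσinj

end Fermat.Agent.S24
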