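import Mathlib
import Fermat.Agent.S24.Dist
import Fermat.Agent.S24.MGModel
import Fermat.Agent.S24.SymCore
import Fermat.Agent.S24.BridgeQ

/-!
# S24, package ANA-DIST, part 2: the functions `J(d τ)` at the cusps

For `d ∣ N` and `g ∈ SL(2,ℤ)` the translate `τ ↦ J(d (g τ))` is holomorphic, `N`-periodic and
`q_N ^ m`-bounded at `i∞` (`q_N = exp(2πiτ/N)`); more generally every element of `sym_ring N`
has these properties.  Conversion between `Δ ^ m`-boundedness and `q_N ^ m`-boundedness.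
-/

set_option autoImplicit false

noncomputable section

namespace Fermat.Agent.S24

open UpperHalfPlane hiding I
open Filter Function Topology ModularForm Complex CongruenceSubgroup
open Fermat.Agent.S23
open scoped Manifold MatrixGroups ModularForm Real

local notation "Δ" => ModularForm.discriminant
local notation "𝕢" => Function.Periodic.qParam

/-- `g T^N g⁻¹ ∈ Γ₀(N)` for every `g ∈ SL(2,ℤ)`. -/
theorem dist_conj_T_pow_mem (N : ℕ) [NeZero N] (g : SL(2, ℤ)) :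
    g * ModularGroup.T ^ N * g⁻¹ ∈ Gamma0 N := by
  have h := mgm_T_pow_smul N ((g⁻¹ : SL(2, ℤ)) : s24Q N)
  have h1 : ModularGroup.T ^ N • ((g⁻¹ : SL(2, ℤ)) : s24Q N)
      = ((ModularGroup.T ^ N * g⁻¹ : SL(2, ℤ)) : s24Q N) := rfl
  rw [h1, QuotientGroup.eq] at h
  have h2 : (ModularGroup.T ^ N * g⁻¹)⁻¹ * g⁻¹ = (g * ModularGroup.T ^ N * g⁻¹)⁻¹ := by
    group
  rw [h2] at h
  exact (Subgroup.inv_mem_iff _).mp h

/-- Translates of a `Γ₀(N)`-invariant function are `N`-periodic. -/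
theorem dist_periodic_of_invariant (N : ℕ) [NeZero N] {f : ℍ → ℂ}
    (hf : ∀ γ ∈ Gamma0 N, ∀ τ : ℍ, f (γ • τ) = f τ) (g : SL(2, ℤ)) (τ : ℍ) :
    f (g • ((N : ℝ) +ᵥ τ)) = f (g • τ) := by
  have h1 : ((N : ℝ) +ᵥ τ) = ModularGroup.T ^ N • τ := by
    have := modular_T_zpow_smul τ (N : ℤ)
    rw [zpow_natCast] at this
    rw [this]
    simp
  rw [h1, ← mul_smul]
  have h2 : g * ModularGroup.T ^ N = (g * ModularGroup.T ^ N * g⁻¹) * g := by group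
  rw [h2, mul_smul]
  exact hf _ (dist_conj_T_pow_mem N g) _

theorem dist_bounded_pow {f : ℍ → ℂ} (h : IsBoundedAtImInfty f) (m : ℕ) :
    IsBoundedAtImInfty (fun τ : ℍ => f τ ^ m) := by
  induction m with
  | zero =>
    simp only [pow_zero]
    exact Filter.const_boundedAtFilter atImInfty (1 : ℂ)
  | succ k ih =>
    have h1 : (fun τ : ℍ => f τ ^ (k + 1)) = (fun τ : ℍ => f τ ^ k) * f := by
      funext τ
      simp [pow_succ]
    rw [h1]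
    exact ih.mul h

/-- From `Δ ^ m`-boundedness to `q_N ^ (N m)`-boundedness. -/
theorem dist_bounded_qN_of_disc (N : ℕ) (hN : 0 < N) (m : ℕ) (f : ℍ → ℂ)
    (h : IsBoundedAtImInfty (fun τ : ℍ => Δ τ ^ m * f τ)) :
    IsBoundedAtImInfty (fun τ : ℍ => 𝕢 (N : ℝ) (τ : ℂ) ^ (N * m) * f τ) := by
  have h1 : (fun τ : ℍ => 𝕢 (N : ℝ) (τ : ℂ) ^ (N * m) * f τ)
      = (br_V ^ m) * (fun τ : ℍ => Δ τ ^ m * f τ) := by
    funext τ
    simp only [Pi.mul_apply, Pi.pow_apply]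
    rw [pow_mul, br_qParam_level N hN, ← br_V_mul_disc τ]
    ring
  rw [h1]
  exact ((qr_ring.pow_mem br_V_mem m).2.2).mul h

theorem dist_norm_qParam_le_one (N : ℕ) (hN : 0 < N) (τ : ℍ) : ‖𝕢 (N : ℝ) (τ : ℂ)‖ ≤ 1 := by
  rw [Function.Periodic.norm_qParam]
  rw [Real.exp_le_one_iff]
  have hN' : (0 : ℝ) < N := by exact_mod_cast hN
  have := τ.im_pos
  have h2 : 0 ≤ 2 * π * (τ : ℂ).im / N := by
    have hτ : 0 < (τ : ℂ).im := τ.im_pos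
    positivity
  have h3 : -2 * π * (τ : ℂ).im / N = -(2 * π * (τ : ℂ).im / N) := by ring
  rw [h3]
  linarith

theorem dist_qParam_bounded (N : ℕ) (hN : 0 < N) (k : ℕ) :
    IsBoundedAtImInfty (fun τ : ℍ => 𝕢 (N : ℝ) (τ : ℂ) ^ k) := by
  rw [UpperHalfPlane.isBoundedAtImInfty_iff]
  refine ⟨1, 0, fun τ _ => ?_⟩
  rw [norm_pow]
  exact pow_le_one₀ (norm_nonneg _) (dist_norm_qParam_le_one N hN τ)

/-- From `q_N ^ m`-boundedness to `Δ ^ m`-boundedness. -/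
theorem dist_bounded_disc_of_qN (N : ℕ) (hN : 0 < N) (m : ℕ) (f : ℍ → ℂ)
    (h : IsBoundedAtImInfty (fun τ : ℍ => 𝕢 (N : ℝ) (τ : ℂ) ^ m * f τ)) :
    IsBoundedAtImInfty (fun τ : ℍ => Δ τ ^ m * f τ) := by
  have hq0 : ∀ τ : ℍ, 𝕢 (1 : ℝ) (τ : ℂ) ≠ 0 := fun τ => by
    rw [Function.Periodic.qParam]; exact Complex.exp_ne_zero _
  have hW : IsBoundedAtImInfty (fun τ : ℍ => (Δ τ / 𝕢 (1 : ℝ) (τ : ℂ)) ^ m) := by
    have h1 : IsBoundedAtImInfty (fun τ : ℍ => Δ τ / 𝕢 (1 : ℝ) (τ : ℂ)) :=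
      ord_disc_div_q_tendsto.isBigO_one ℝ
    exact dist_bounded_pow h1 m
  have hN1 : 1 ≤ N := hN
  have h1 : (fun τ : ℍ => Δ τ ^ m * f τ)
      = ((fun τ : ℍ => (Δ τ / 𝕢 (1 : ℝ) (τ : ℂ)) ^ m)
          * (fun τ : ℍ => 𝕢 (N : ℝ) (τ : ℂ) ^ ((N - 1) * m)))
        * (fun τ : ℍ => 𝕢 (N : ℝ) (τ : ℂ) ^ m * f τ) := by
    funext τ
    simp only [Pi.mul_apply]
    have e1 : 𝕢 (1 : ℝ) (τ : ℂ) ^ m = 𝕢 (N : ℝ) (τ : ℂ) ^ ((N - 1) * m) * 𝕢 (N : ℝ) (τ : ℂ) ^ m := by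
      rw [← br_qParam_level N hN, ← pow_mul, ← pow_add]
      congr 1
      have : N = (N - 1) + 1 := by omega
      nlinarith [Nat.sub_add_cancel hN1]
    rw [div_pow]
    have hqm : 𝕢 (1 : ℝ) (τ : ℂ) ^ m ≠ 0 := pow_ne_zero _ (hq0 τ)
    field_simp
    rw [e1]
    ring
  rw [h1]
  exact (hW.mul (dist_qParam_bounded N hN _)).mul h

/-- Every element of `sym_ring N` is holomorphic, and each of its `SL(2,ℤ)`-translates is
`N`-periodic and `q_N ^ m`-bounded at `i∞` for some `m`. -/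
theorem dist_ana_of_sym (N : ℕ) [NeZero N] {f : ℍ → ℂ} (hf : f ∈ sym_ring N) :
    MDiff f ∧ ∀ g : SL(2, ℤ), (∀ τ : ℍ, f (g • ((N : ℝ) +ᵥ τ)) = f (g • τ)) ∧
      ∃ m : ℕ, IsBoundedAtImInfty (fun τ : ℍ => 𝕢 (N : ℝ) (τ : ℂ) ^ m * f (g • τ)) := by
  obtain ⟨hinv, htr⟩ := sym_mem_ring_iff.mp hf
  refine ⟨(sym_mem_mer_of_mem_ring hf).1, fun g => ⟨dist_periodic_of_invariant N hinv g, ?_⟩⟩
  obtain ⟨-, m, hm⟩ := htr g
  exact ⟨N * m, dist_bounded_qN_of_disc N (NeZero.pos N) m (fun τ => f (g • τ)) hm⟩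

theorem dist_Jd_mdiff (d : ℕ) (hd : 0 < d) (g : SL(2, ℤ)) :
    MDiff (fun τ : ℍ => ord_J (pe_mulN d hd (g • τ))) :=
  (sym_JN_translate_mem d hd g).1

theorem dist_Jd_periodic (N d : ℕ) [NeZero N] (hd : 0 < d) (hdN : d ∣ N) (g : SL(2, ℤ))
    (τ : ℍ) :
    ord_J (pe_mulN d hd (g • ((N : ℝ) +ᵥ τ))) = ord_J (pe_mulN d hd (g • τ)) :=
  ((dist_ana_of_sym N (sym_JN_mem hd hdN)).2 g).1 τ

theorem dist_Jd_bounded (N d : ℕ) [NeZero N] (hd : 0 < d) (hdN : d ∣ N) (g : SL(2, ℤ)) :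
    ∃ m : ℕ, IsBoundedAtImInfty
      (fun τ : ℍ => 𝕢 (N : ℝ) (τ : ℂ) ^ m * ord_J (pe_mulN d hd (g • τ))) :=
  ((dist_ana_of_sym N (sym_JN_mem hd hdN)).2 g).2

/-- `J` itself: all translates are `J`, which is `1`-periodic with a simple pole. -/
theorem dist_J_bounded (N : ℕ) [NeZero N] :
    IsBoundedAtImInfty (fun τ : ℍ => 𝕢 (N : ℝ) (τ : ℂ) ^ N * ord_J τ) := by
  have h := dist_bounded_qN_of_disc N (NeZero.pos N) 1 ord_J (by
    have h2 : (fun τ : ℍ => Δ τ ^ 1 * ord_J τ) = fun τ : ℍ => E₄ τ ^ 3 := by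
      funext τ
      rw [pow_one, mul_comm, ord_J_mul_disc]
    rw [h2]
    exact (pj_E4_pow_mem 3).2.2)
  simpa using h

end Fermat.Agent.S24
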