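import Fermat.Agent.S24.AlgABasic

/-!
# S24 / ALG-A, part 2: places of `F` coming from a Dedekind domain `R ⊆ F`

`R` a Dedekind domain with fraction field `F`, containing `K`.

* `algad_ord_eq` : `ord` at the place of a height one prime `w` is `-log (w.valuation F ·)`;
* `algad_ofHeightOneSpectrum_injective`;
* `algad_exists_heightOneSpectrum` : a place whose valuation ring contains `R` comes from a
  height one prime of `R`.
-/

set_option autoImplicit false
set_option linter.deprecated false
set_option linter.style.haveILetI false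
set_option linter.unusedSectionVars false
set_option linter.unusedVariables false

namespace Fermat.Agent.S24

open AlgebraicCurve IntermediateField Polynomial IsDedekindDomain

section dedekind

variable {K F : Type*} [Field K] [Field F] [Algebra K F]
variable {R : Type*} [CommRing R] [IsDedekindDomain R] [Algebra R F] [IsFractionRing R F]
  [Algebra K R] [IsScalarTower K R F]

theorem algad_mem_iff (w : HeightOneSpectrum R) (f : F) :
    f ∈ (Place.ofHeightOneSpectrum (K := K) (F := F) w).toValuationSubring
      ↔ w.valuation F f ≤ 1 :=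
  Iff.rfl

theorem algad_ord_eq_zero_of_valuation_eq_one (w : HeightOneSpectrum R) {f : F}
    (hf : w.valuation F f = 1) : (Place.ofHeightOneSpectrum (K := K) (F := F) w).ord f = 0 := by
  apply alga_ord_eq_zero_of_mem_of_inv_mem
  · rw [algad_mem_iff (K := K), hf]
  · rw [algad_mem_iff (K := K), map_inv₀, hf, inv_one]

/-- The order at the place attached to `w` is the (additive) `w`-adic valuation. -/
theorem algad_ord_eq (w : HeightOneSpectrum R) (f : F) :
    (Place.ofHeightOneSpectrum (K := K) (F := F) w).ord f = -WithZero.log (w.valuation F f) := by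
  set v := Place.ofHeightOneSpectrum (K := K) (F := F) w with hv
  obtain ⟨π, hπ⟩ := w.valuation_exists_uniformizer F
  have hπ0 : π ≠ 0 := by
    rintro rfl
    rw [map_zero] at hπ
    exact WithZero.exp_ne_zero hπ.symm
  -- key relation
  have key : ∀ g : F, g ≠ 0 → v.ord g = -WithZero.log (w.valuation F g) * v.ord π := by
    intro g hg
    have hg' : w.valuation F g ≠ 0 := (Valuation.ne_zero_iff _).mpr hg
    set n : ℤ := WithZero.log (w.valuation F g) with hn
    have h1 : w.valuation F (g * π ^ n) = 1 := by
      rw [map_mul, map_zpow₀, hπ, ← WithZero.exp_zsmul, smul_eq_mul, mul_neg, mul_one,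
        WithZero.exp_neg, hn, WithZero.exp_log hg', mul_inv_cancel₀ hg']
    have h2 := algad_ord_eq_zero_of_valuation_eq_one (K := K) w h1
    rw [← hv, v.ord_mul hg (zpow_ne_zero n hπ0), v.ord_zpow] at h2
    linarith
  have hπnonneg : 0 ≤ v.ord π := by
    apply alga_ord_nonneg_of_mem
    rw [hv, algad_mem_iff (K := K), hπ, ← WithZero.exp_zero, WithZero.exp_le_exp]
    norm_num
  have hπ1 : v.ord π = 1 := by
    obtain ⟨ϖ, hϖ⟩ := IsDiscreteValuationRing.exists_irreducible v.toValuationSubring
    have hϖF : (ϖ : F) ≠ 0 := by
      simpa [ne_eq, ZeroMemClass.coe_eq_zero] using hϖ.ne_zero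
    have h1 := key ϖ hϖF
    rw [v.ord_coe_irreducible hϖ] at h1
    exact Int.eq_one_of_mul_eq_one_left hπnonneg h1.symm
  rcases eq_or_ne f 0 with rfl | hf
  · simp
  · rw [key f hf, hπ1, mul_one]

theorem algad_ofHeightOneSpectrum_injective :
    Function.Injective (Place.ofHeightOneSpectrum (K := K) (F := F) (R := R)) := by
  intro w₁ w₂ h
  apply HeightOneSpectrum.eq_of_valuation_isEquiv_valuation (K := F)
  rw [Valuation.isEquiv_iff_valuationSubring]
  exact congrArg Place.toValuationSubring h

/-- A place whose valuation ring contains `R` (and is not trivial on `R`) is the place of a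
height one prime of `R`. -/
theorem algad_exists_heightOneSpectrum (v : Place K F)
    (hR : ∀ r : R, algebraMap R F r ∈ v.toValuationSubring) :
    ∃ w : HeightOneSpectrum R, Place.ofHeightOneSpectrum (K := K) (F := F) w = v ∧
      ∀ r : R, r ∈ w.asIdeal ↔ r = 0 ∨ 0 < v.ord (algebraMap R F r) := by
  classical
  -- the inclusion `R → 𝒪_v`
  let ι : R →+* v.toValuationSubring :=
    (algebraMap R F).codRestrict v.toValuationSubring.toSubring hR
  have hι : ∀ r, ((ι r : v.toValuationSubring) : F) = algebraMap R F r := fun r => rfl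
  have hιinj : Function.Injective ι := by
    intro a b hab
    apply IsFractionRing.injective R F
    rw [← hι, ← hι, hab]
  let P : Ideal R := Ideal.comap ι (IsLocalRing.maximalIdeal v.toValuationSubring)
  have hPprime : P.IsPrime := Ideal.comap_isPrime ι _
  have hPmem : ∀ r : R, r ∈ P ↔ r = 0 ∨ 0 < v.ord (algebraMap R F r) := by
    intro r
    rw [Ideal.mem_comap, alga_mem_maximalIdeal_iff, hι]
    constructor
    · rintro (h | h)
      · left
        apply hιinj
        rw [h, map_zero]
      · exact Or.inr h
    · rintro (h | h)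
      · left
        rw [h, map_zero]
      · exact Or.inr h
  have hPbot : P ≠ ⊥ := by
    intro hbot
    -- then every nonzero element of `R` is a unit of `𝒪_v`, so `𝒪_v = F`
    apply v.ne_top'
    rw [eq_top_iff]
    intro f _
    obtain ⟨a, b, hb, rfl⟩ := IsFractionRing.div_surjective (A := R) f
    have hb0 : b ≠ 0 := nonZeroDivisors.ne_zero hb
    have hbP : b ∉ P := by
      rw [hbot]
      simpa using hb0
    have hbinv : (algebraMap R F b)⁻¹ ∈ v.toValuationSubring := by
      by_contra hcon
      apply hbP
      rw [hPmem]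
      right
      rw [alga_ord_pos_iff]
      exact ⟨hR b, hcon⟩
    rw [div_eq_mul_inv]
    exact v.toValuationSubring.mul_mem _ _ (hR a) hbinv
  let w : HeightOneSpectrum R := ⟨P, hPprime, hPbot⟩
  refine ⟨w, ?_, hPmem⟩
  apply Place.ext
  rw [Place.ofHeightOneSpectrum_toValuationSubring]
  have hle : (w.valuation F).valuationSubring ≤ v.toValuationSubring := by
    intro f hf
    rw [Valuation.mem_valuationSubring_iff] at hf
    obtain ⟨n, d, hnd⟩ := w.exists_primeCompl_mul_eq_of_integer f hf
    have hd : (d : R) ∉ P := d.2
    have hd0 : algebraMap R F (d : R) ≠ 0 := by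
      intro h0
      apply hd
      rw [hPmem]
      left
      exact IsFractionRing.injective R F (by rw [h0, map_zero])
    have hdinv : (algebraMap R F (d : R))⁻¹ ∈ v.toValuationSubring := by
      by_contra hcon
      apply hd
      rw [hPmem]
      right
      rw [alga_ord_pos_iff]
      exact ⟨hR _, hcon⟩
    have hf' : f = algebraMap R F n * (algebraMap R F (d : R))⁻¹ := by
      rw [← hnd, mul_assoc, mul_inv_cancel₀ hd0, mul_one]
    rw [hf']
    exact v.toValuationSubring.mul_mem _ _ (hR n) hdinv
  have hKD : Ring.KrullDimLE 1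
      ((Place.ofHeightOneSpectrum (K := K) (F := F) w).toValuationSubring) :=
    inferInstance
  exact ValuationSubring.eq_of_le_of_ne_top
    ((Place.ofHeightOneSpectrum (K := K) (F := F) w).toValuationSubring) hle v.ne_top'

end dedekind

section aklb

variable {K F : Type*} [Field K] [Field F] [Algebra K F]
variable {A L B : Type*} [CommRing A] [IsDedekindDomain A] [Field L] [Algebra A L]
  [IsFractionRing A L] [Algebra L F] [Algebra A F] [IsScalarTower A L F]
  [CommRing B] [IsDedekindDomain B] [Algebra A B] [Module.IsTorsionFree A B] [Algebra B F]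
  [IsFractionRing B F] [IsScalarTower A B F] [Module.Finite A B]
  [Algebra K A] [Algebra K B] [IsScalarTower K A B] [IsScalarTower K B F]

/-- Valuation rings are integrally closed: if `A ⊆ 𝒪_v` and `B` is integral over `A` then
`B ⊆ 𝒪_v`. -/
theorem algad_integral_mem (v : Place K F)
    (hA : ∀ a : A, algebraMap A F a ∈ v.toValuationSubring) (b : B) :
    algebraMap B F b ∈ v.toValuationSubring := by
  letI : Algebra A v.toValuationSubring :=
    RingHom.toAlgebra ((algebraMap A F).codRestrict v.toValuationSubring.toSubring hA)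
  haveI : IsScalarTower A v.toValuationSubring F := IsScalarTower.of_algebraMap_eq (fun _ => rfl)
  have h1 : IsIntegral A b := Algebra.IsIntegral.isIntegral b
  have h2 : IsIntegral A (algebraMap B F b) := h1.algebraMap
  have h3 : IsIntegral v.toValuationSubring (algebraMap B F b) := h2.tower_top
  obtain ⟨y, hy⟩ := IsIntegrallyClosed.isIntegral_iff.mp h3
  rw [← hy]
  exact y.2

end aklb

section core

/-- The places attached to the primes of `B` over `(t)`. -/
theorem algad_core {K F : Type*} [Field K] [Field F] [Algebra K F]
    {A : Type*} (L B : Type*) [CommRing A] [IsDedekindDomain A] [Field L] [Algebra A L]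
    [IsFractionRing A L] [Algebra L F] [Algebra A F] [IsScalarTower A L F]
    [CommRing B] [IsDedekindDomain B] [Algebra A B] [Module.IsTorsionFree A B] [Algebra B F]
    [IsFractionRing B F] [IsScalarTower A B F] [Module.Finite A B]
    [Algebra K A] [Algebra K B] [IsScalarTower K A B] [IsScalarTower K B F]
    [IsAlgClosed K] (x : F) [FiniteDimensional K⟮x⟯ F]
    (t : A) (ht0 : t ≠ 0) (htmax : (Ideal.span {t}).IsMaximal)
    (hA : ∀ v : Place K F, 0 < v.ord (algebraMap A F t) →
      ∀ a : A, algebraMap A F a ∈ v.toValuationSubring) :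
    {v : Place K F | 0 < v.ord (algebraMap A F t)}.Finite ∧
    ∑ᶠ v ∈ {v : Place K F | 0 < v.ord (algebraMap A F t)}, v.ord (algebraMap A F t)
      = (Module.finrank L F : ℤ) := by
  classical
  have hp0 : Ideal.span {t} ≠ ⊥ := by
    rw [ne_eq, Ideal.span_singleton_eq_bot]
    exact ht0
  set p : Ideal A := Ideal.span {t} with hp
  let vp : HeightOneSpectrum A := ⟨p, htmax.isPrime, hp0⟩
  have hvpz : vp.valuation L (algebraMap A L t) = WithZero.exp (-1 : ℤ) := by
    rw [HeightOneSpectrum.valuation_of_algebraMap]
    exact HeightOneSpectrum.intValuation_singleton vp ht0 rfl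
  have hsum := Ideal.sum_ramification_inertia B L F hp0
  -- primes over `p` and their places
  have hmem : ∀ P : Ideal B, P ∈ IsDedekindDomain.primesOverFinset p B →
        P.IsPrime ∧ P.LiesOver p := fun P hP =>
    (IsDedekindDomain.mem_primesOverFinset_iff hp0 _).mp hP
  let W : {P // P ∈ IsDedekindDomain.primesOverFinset p B} → HeightOneSpectrum B := fun P =>
    ⟨P.1, (hmem P.1 P.2).1,
      haveI := (hmem P.1 P.2).2; Ideal.ne_bot_of_liesOver_of_ne_bot hp0 P.1⟩
  let Φ : {P // P ∈ IsDedekindDomain.primesOverFinset p B} → Place K F := fun P =>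
    Place.ofHeightOneSpectrum (K := K) (F := F) (W P)
  have hord : ∀ P, (Φ P).ord (algebraMap A F t) = (Ideal.ramificationIdx' p P.1 : ℤ) := by
    intro P
    have : (W P).asIdeal.LiesOver vp.asIdeal := (hmem P.1 P.2).2
    have h1 := HeightOneSpectrum.valuation_liesOver F vp (W P) (algebraMap A L t)
    rw [hvpz, ← IsScalarTower.algebraMap_apply A L F] at h1
    show (Place.ofHeightOneSpectrum (K := K) (F := F) (W P)).ord _ = _
    rw [algad_ord_eq, ← h1, ← WithZero.exp_nsmul, WithZero.log_exp]
    simp only [nsmul_eq_mul, mul_neg, mul_one, neg_neg]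
    rfl
  have hram : ∀ P : {P // P ∈ IsDedekindDomain.primesOverFinset p B},
      Ideal.ramificationIdx' p P.1 ≠ 0 := by
    intro P
    have := (hmem P.1 P.2).1
    have := (hmem P.1 P.2).2
    exact Ideal.IsDedekindDomain.ramificationIdx'_ne_zero_of_liesOver P.1 hp0
  have hinertia : ∀ P : {P // P ∈ IsDedekindDomain.primesOverFinset p B},
      Ideal.inertiaDeg' p P.1 = 1 := by
    intro P
    have hPprime := (hmem P.1 P.2).1
    have hPover := (hmem P.1 P.2).2
    rw [Ideal.inertiaDeg'_algebraMap]
    letI : Field (A ⧸ p) := Ideal.Quotient.field p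
    rw [finrank_eq_one_iff_of_nonzero' (1 : B ⧸ P.1) one_ne_zero]
    intro y
    obtain ⟨b, rfl⟩ := Ideal.Quotient.mk_surjective y
    have hb : algebraMap B F b ∈ (Φ P).toValuationSubring := by
      show algebraMap B F b ∈ (Place.ofHeightOneSpectrum (K := K) (F := F) (W P)).toValuationSubring
      rw [algad_mem_iff]
      exact (W P).valuation_le_one b
    obtain ⟨c, hc⟩ := alga_exists_sub_mem x (Φ P) hb
    refine ⟨Ideal.Quotient.mk p (algebraMap K A c), ?_⟩
    rw [Algebra.smul_def, mul_one, Ideal.Quotient.algebraMap_mk_of_liesOver,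
      ← IsScalarTower.algebraMap_apply K A B, Ideal.Quotient.eq]
    have hmemP : ∀ b' : B, b' ∈ P.1 ↔ (W P).valuation F (algebraMap B F b') < 1 := fun b' =>
      ((W P).valuation_lt_one_iff_mem b').symm
    rw [hmemP, map_sub, ← IsScalarTower.algebraMap_apply K B F]
    rcases hc with hc | hc
    · rw [hc, sub_self, map_zero]
      exact zero_lt_one
    · have h1 : (Φ P).ord (algebraMap B F b - algebraMap K F c)
          = -WithZero.log ((W P).valuation F (algebraMap B F b - algebraMap K F c)) :=
        algad_ord_eq (K := K) (W P) _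
      rw [h1] at hc
      have hne : algebraMap B F b - algebraMap K F c ≠ 0 := by
        intro h0
        rw [h0, map_zero] at hc
        simp at hc
      have hne' : (W P).valuation F (algebraMap B F b - algebraMap K F c) ≠ 0 :=
        (Valuation.ne_zero_iff _).mpr hne
      rw [← Valuation.map_sub_swap, ← WithZero.exp_log hne', ← WithZero.exp_zero,
        WithZero.exp_lt_exp]
      omega
  -- injectivity of `Φ`
  have hΦinj : Function.Injective Φ := by
    intro P Q h
    have h1 : W P = W Q := algad_ofHeightOneSpectrum_injective (K := K) (F := F) h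
    apply Subtype.ext
    exact congrArg HeightOneSpectrum.asIdeal h1
  -- the set of zeros is the range of `Φ`
  have hrange : {v : Place K F | 0 < v.ord (algebraMap A F t)} = Set.range Φ := by
    ext v
    simp only [Set.mem_setOf_eq, Set.mem_range]
    constructor
    · intro hv
      have hAv := hA v hv
      have hBv : ∀ b : B, algebraMap B F b ∈ v.toValuationSubring :=
        algad_integral_mem (A := A) v hAv
      obtain ⟨w, hw, hwmem⟩ := algad_exists_heightOneSpectrum (R := B) v hBv
      have hwover : w.asIdeal.LiesOver p := by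
        constructor
        refine htmax.eq_of_le (Ideal.comap_ne_top _ w.isPrime.ne_top) ?_
        rw [hp, Ideal.span_singleton_le_iff_mem, Ideal.mem_comap, hwmem,
          ← IsScalarTower.algebraMap_apply A B F]
        exact Or.inr hv
      have hwP : w.asIdeal ∈ IsDedekindDomain.primesOverFinset p B :=
        (IsDedekindDomain.mem_primesOverFinset_iff hp0 _).mpr ⟨w.isPrime, hwover⟩
      refine ⟨⟨w.asIdeal, hwP⟩, ?_⟩
      show Place.ofHeightOneSpectrum (K := K) (F := F) (W ⟨w.asIdeal, hwP⟩) = v
      have hWw : W ⟨w.asIdeal, hwP⟩ = w := HeightOneSpectrum.ext rfl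
      rw [hWw, hw]
    · rintro ⟨P, rfl⟩
      rw [hord]
      exact_mod_cast Nat.pos_of_ne_zero (hram P)
  constructor
  · rw [hrange]
    exact Set.finite_range Φ
  · rw [hrange, finsum_mem_range hΦinj, finsum_eq_sum_of_fintype]
    simp_rw [hord]
    rw [← hsum, ← Finset.sum_coe_sort (IsDedekindDomain.primesOverFinset p B)
      (fun P => Ideal.ramificationIdx' p P * Ideal.inertiaDeg' p P)]
    push_cast
    refine Finset.sum_congr rfl fun P _ => ?_
    rw [hinertia P, Nat.cast_one, mul_one]

end core

end Fermat.Agent.S24
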