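import Mathlib
import Fermat.Prelude.Def_ModularCurve_X0
import Fermat.Prelude.Def_ModularCurve_LaurentCoeff
import Fermat.Agent.S24.Defs
import Fermat.Agent.S24.AnaTrans
import Fermat.Agent.S24.SymGen
import Fermat.Agent.S24.SymRel

/-!
# S24, package ANA-SYM: the degree bound `[F : K(j)] ≤ [SL(2,ℤ) : Γ₀(N)]`

`F = s24F N` is generated over `K = s24K` by the formal series `j_d`, `d ∣ N`.  By `sym_rel` every
polynomial expression in the `j_d` lies in the `K(j)`-span of `1, j_N, …, j_N ^ (n - 1)`; hence the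
`K(j)`-algebra generated by the `j_d` is finite dimensional, so it is a field, so it is `F`.

Deliverables: `ana_finiteDimensional` (exact Spec shape), `sym_finrank_le`, `sym_norm_mem_F`.
-/

set_option autoImplicit false

noncomputable section

namespace Fermat.Agent.S24

open IntermediateField ModularCurve
open scoped MatrixGroups

/-- some embedding of the constants into `ℂ`. -/
def sym_iota : s24K →+* ℂ :=
  haveI : Algebra.IsAlgebraic ℚ (AlgebraicClosure ℚ) := AlgebraicClosure.isAlgebraic ℚ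
  ((IsAlgClosed.lift : AlgebraicClosure ℚ →ₐ[ℚ] ℂ) : AlgebraicClosure ℚ →+* ℂ)

theorem sym_jd_mem {N : ℕ} [NeZero N] (d : symI N) :
    sym_jd s24K d ∈ modularFunctionFieldBar N := by
  have : NeZero d.1 := ⟨(symI_pos d).ne'⟩
  exact coeffEmb_mem_laurentBaseChange s24K (jqd_mem_full N (symI_dvd d))

/-- the generators `j_d` as elements of `F`. -/
def sym_jdF {N : ℕ} [NeZero N] (d : symI N) : s24F N := ⟨sym_jd s24K d, sym_jd_mem d⟩

theorem sym_jdF_one (N : ℕ) [NeZero N] : sym_jdF (symI_one N) = s24j N :=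
  Subtype.ext (sym_jd_one s24K N)

/-- the inclusion of `F` into the Laurent series. -/
def sym_val (N : ℕ) : s24F N →+* LaurentSeries s24K :=
  (modularFunctionFieldBar N).toSubfield.subtype

theorem sym_val_apply {N : ℕ} (f : s24F N) : sym_val N f = (f : LaurentSeries s24K) := rfl

theorem sym_val_injective (N : ℕ) : Function.Injective (sym_val N) := Subtype.val_injective

theorem sym_val_jdF {N : ℕ} [NeZero N] (d : symI N) : sym_val N (sym_jdF d) = sym_jd s24K d := rfl

theorem sym_val_algebraMap {N : ℕ} (c : s24K) :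
    sym_val N (algebraMap s24K (s24F N) c) = algebraMap s24K (LaurentSeries s24K) c := rfl

theorem sym_val_mvaeval {N : ℕ} [NeZero N] (p : MvPolynomial (symI N) s24K) :
    sym_val N (MvPolynomial.aeval (sym_jdF (N := N)) p) = sym_piL s24K N p := by
  have h : (sym_val N).comp (MvPolynomial.aeval (sym_jdF (N := N))
      : MvPolynomial (symI N) s24K →ₐ[s24K] s24F N).toRingHom = sym_piL s24K N := by
    apply MvPolynomial.ringHom_ext
    · intro c
      simp only [RingHom.comp_apply, sym_piL, AlgHom.toRingHom_eq_coe, RingHom.coe_coe,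
        MvPolynomial.aeval_C]
      rfl
    · intro d
      simp only [RingHom.comp_apply, sym_piL, AlgHom.toRingHom_eq_coe, RingHom.coe_coe,
        MvPolynomial.aeval_X]
      rfl
  exact congrArg (fun φ => φ p) h

theorem sym_val_aeval {N : ℕ} [NeZero N] (P : Polynomial s24K) :
    sym_val N (Polynomial.aeval (s24j N) P) = Polynomial.aeval (sym_jd s24K (symI_one N)) P := by
  have h : (sym_val N).comp (Polynomial.aeval (s24j N) : Polynomial s24K →ₐ[s24K] s24F N).toRingHom
      = (Polynomial.aeval (sym_jd s24K (symI_one N))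
          : Polynomial s24K →ₐ[s24K] LaurentSeries s24K).toRingHom := by
    apply Polynomial.ringHom_ext
    · intro c
      simp only [RingHom.comp_apply, AlgHom.toRingHom_eq_coe, RingHom.coe_coe, Polynomial.aeval_C]
      rfl
    · simp only [RingHom.comp_apply, AlgHom.toRingHom_eq_coe, RingHom.coe_coe, Polynomial.aeval_X]
      rw [← sym_jdF_one]
      rfl
  exact congrArg (fun φ => φ P) h

/-- the relation of `sym_rel`, inside `F`. -/
theorem sym_rel_F (N : ℕ) [NeZero N] (p : MvPolynomial (symI N) s24K) :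
    ∃ (B : Polynomial s24K) (G : Fin (Fintype.card (s24Q N)) → Polynomial s24K), B ≠ 0 ∧
      MvPolynomial.aeval (sym_jdF (N := N)) p * Polynomial.aeval (s24j N) B
        + ∑ i : Fin (Fintype.card (s24Q N)), sym_jdF (symI_top N) ^ (i : ℕ)
            * Polynomial.aeval (s24j N) (G i) = 0 := by
  obtain ⟨B, G, hB, hrel⟩ := sym_rel sym_iota N p
  refine ⟨B, G, hB, ?_⟩
  apply sym_val_injective N
  rw [map_add, map_mul, map_sum, map_zero, ← hrel, sym_val_mvaeval, sym_val_aeval]
  congr 1
  refine Finset.sum_congr rfl fun i _ => ?_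
  rw [map_mul, map_pow, sym_val_aeval, sym_val_jdF]

/-- the span of the powers of `j_N` over `K(j)`. -/
def sym_V (N : ℕ) [NeZero N] : Submodule s24K⟮s24j N⟯ (s24F N) :=
  Submodule.span s24K⟮s24j N⟯
    (Set.range fun i : Fin (Fintype.card (s24Q N)) => sym_jdF (symI_top N) ^ (i : ℕ))

theorem sym_aeval_mem_simple (N : ℕ) [NeZero N] (P : Polynomial s24K) :
    Polynomial.aeval (s24j N) P ∈ s24K⟮s24j N⟯ :=
  IntermediateField.algebra_adjoin_le_adjoin s24K {s24j N}
    (Polynomial.aeval_mem_adjoin_singleton s24K (s24j N))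

theorem sym_mvaeval_mem_V (N : ℕ) [NeZero N] (p : MvPolynomial (symI N) s24K) :
    MvPolynomial.aeval (sym_jdF (N := N)) p ∈ sym_V N := by
  obtain ⟨B, G, hB, hrel⟩ := sym_rel_F N p
  have hb : Polynomial.aeval (s24j N) B ≠ 0 := fun h =>
    hB (transcendental_iff.mp (ana_transcendental N) B h)
  have h1 : MvPolynomial.aeval (sym_jdF (N := N)) p * Polynomial.aeval (s24j N) B
      = -∑ i : Fin (Fintype.card (s24Q N)), sym_jdF (symI_top N) ^ (i : ℕ)
            * Polynomial.aeval (s24j N) (G i) := eq_neg_of_add_eq_zero_left hrel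
  have h2 : MvPolynomial.aeval (sym_jdF (N := N)) p
      = (-∑ i : Fin (Fintype.card (s24Q N)), sym_jdF (symI_top N) ^ (i : ℕ)
            * Polynomial.aeval (s24j N) (G i)) * (Polynomial.aeval (s24j N) B)⁻¹ := by
    rw [← h1, mul_assoc, mul_inv_cancel₀ hb, mul_one]
  rw [h2, neg_mul, Finset.sum_mul, ← Finset.sum_neg_distrib]
  refine Submodule.sum_mem _ fun i _ => ?_
  have hmem : -(Polynomial.aeval (s24j N) (G i)) * (Polynomial.aeval (s24j N) B)⁻¹
      ∈ s24K⟮s24j N⟯ :=
    mul_mem (neg_mem (sym_aeval_mem_simple N _)) (inv_mem (sym_aeval_mem_simple N _))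
  have h3 : -(sym_jdF (symI_top N) ^ (i : ℕ) * Polynomial.aeval (s24j N) (G i)
        * (Polynomial.aeval (s24j N) B)⁻¹)
      = (⟨_, hmem⟩ : s24K⟮s24j N⟯) • sym_jdF (symI_top N) ^ (i : ℕ) := by
    show _ = (-(Polynomial.aeval (s24j N) (G i)) * (Polynomial.aeval (s24j N) B)⁻¹)
      * sym_jdF (symI_top N) ^ (i : ℕ)
    ring
  rw [h3]
  exact Submodule.smul_mem _ _ (Submodule.subset_span ⟨i, rfl⟩)

theorem sym_adjoin_le_V (N : ℕ) [NeZero N] :
    Subalgebra.toSubmodule (Algebra.adjoin s24K⟮s24j N⟯ (Set.range (sym_jdF (N := N))))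
      ≤ sym_V N := by
  rw [Algebra.adjoin_eq_span]
  apply Submodule.span_le.mpr
  intro y hy
  have h : Submonoid.closure (Set.range (sym_jdF (N := N)))
      ≤ (MvPolynomial.aeval (sym_jdF (N := N))
          : MvPolynomial (symI N) s24K →ₐ[s24K] s24F N).range.toSubsemiring.toSubmonoid := by
    rw [Submonoid.closure_le]
    rintro _ ⟨d, rfl⟩
    exact ⟨MvPolynomial.X d, MvPolynomial.aeval_X _ _⟩
  obtain ⟨p, rfl⟩ := h hy
  exact sym_mvaeval_mem_V N p

/-- `F` is generated over `K(j)` by the `j_d`. -/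
theorem sym_adjoin_eq_top (N : ℕ) [NeZero N] :
    IntermediateField.adjoin s24K⟮s24j N⟯ (Set.range (sym_jdF (N := N))) = ⊤ := by
  set T := IntermediateField.adjoin s24K⟮s24j N⟯ (Set.range (sym_jdF (N := N))) with hT
  set T' : Subfield (LaurentSeries s24K) := T.toSubfield.map (sym_val N) with hT'
  have hK : ∀ c : s24K, algebraMap s24K (LaurentSeries s24K) c ∈ T' := by
    intro c
    refine ⟨algebraMap s24K (s24F N) c, ?_, rfl⟩
    exact T.algebraMap_mem (algebraMap s24K s24K⟮s24j N⟯ c)
  have hjd : ∀ d : symI N, sym_jd s24K d ∈ T' := by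
    intro d
    refine ⟨sym_jdF d, ?_, rfl⟩
    exact IntermediateField.subset_adjoin _ _ ⟨d, rfl⟩
  have hfull : (modularFunctionFieldFull N).toSubfield ≤ T'.comap (coeffEmb s24K) := by
    unfold modularFunctionFieldFull
    rw [IntermediateField.adjoin_toSubfield, Subfield.closure_le]
    rintro y (⟨r, rfl⟩ | ⟨d, hd, hdN, rfl⟩)
    · show coeffEmb s24K (algebraMap ℚ (LaurentSeries ℚ) r) ∈ T'
      have : coeffEmb s24K (algebraMap ℚ (LaurentSeries ℚ) r)
          = algebraMap s24K (LaurentSeries s24K) (algebraMap ℚ s24K r) := by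
        rw [algebraMap_laurentSeries_eq_single, algebraMap_laurentSeries_eq_single]
        exact coeffMap_single _ _ _
      rw [this]
      exact hK _
    · show coeffEmb s24K (qExpand ℚ d jq) ∈ T'
      exact hjd ⟨d, Nat.mem_divisors.mpr ⟨hdN, NeZero.ne N⟩⟩
  have hF : (modularFunctionFieldBar N).toSubfield ≤ T' := by
    show (laurentBaseChange s24K (modularFunctionFieldFull N)).toSubfield ≤ T'
    unfold laurentBaseChange
    rw [IntermediateField.adjoin_toSubfield, Subfield.closure_le]
    rintro y (⟨c, rfl⟩ | ⟨z, hz, rfl⟩)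
    · exact hK c
    · exact hfull hz
  rw [eq_top_iff]
  intro f _
  obtain ⟨t, ht, htf⟩ := hF f.2
  have : t = f := sym_val_injective N htf
  rw [← this]
  exact ht

/-- the powers `1, j_N, …, j_N ^ (n - 1)` span `F` over `K(j)`. -/
theorem sym_V_eq_top (N : ℕ) [NeZero N] : sym_V N = ⊤ := by
  have hle := sym_adjoin_le_V N
  have hSfg : (Subalgebra.toSubmodule
      (Algebra.adjoin s24K⟮s24j N⟯ (Set.range (sym_jdF (N := N))))).FG :=
    Submodule.FG.of_le (Submodule.fg_span (Set.finite_range _)) hle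
  have halg : ∀ y ∈ Set.range (sym_jdF (N := N)), IsAlgebraic s24K⟮s24j N⟯ y := fun y hy =>
    (IsIntegral.of_mem_of_fg _ hSfg y (Algebra.subset_adjoin hy)).isAlgebraic
  have hT := IntermediateField.adjoin_toSubalgebra_of_isAlgebraic halg
  rw [sym_adjoin_eq_top] at hT
  rw [eq_top_iff]
  intro f _
  apply hle
  show f ∈ Algebra.adjoin s24K⟮s24j N⟯ (Set.range (sym_jdF (N := N)))
  rw [← hT]
  trivial

/-- [ANA-0'] the function field is finite over `K(j)`. -/
theorem ana_finiteDimensional (N : ℕ) [NeZero N] :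
    FiniteDimensional s24K⟮s24j N⟯ (s24F N) := by
  apply Module.Finite.of_fg_top
  rw [← sym_V_eq_top N]
  exact Submodule.fg_span (Set.finite_range _)

/-- the degree bound `[F : K(j)] ≤ [SL(2,ℤ) : Γ₀(N)]`. -/
theorem sym_finrank_le (N : ℕ) [NeZero N] :
    Module.finrank s24K⟮s24j N⟯ (s24F N) ≤ Fintype.card (s24Q N) := by
  rw [← finrank_top s24K⟮s24j N⟯ (s24F N), ← sym_V_eq_top N]
  have := finrank_range_le_card (R := s24K⟮s24j N⟯)
    (fun i : Fin (Fintype.card (s24Q N)) => sym_jdF (symI_top N) ^ (i : ℕ))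
  rw [Fintype.card_fin] at this
  exact this

/-- **[ANA-SYM]** the product of the conjugates lies in `K(j)`: for ANY injective family of ring
homomorphisms `ρ q : F →+* M` indexed by the cosets, agreeing on `j` and on the constants. -/
theorem sym_norm_mem_F (N : ℕ) [NeZero N] {M : Type} [Field M] (ρ : s24Q N → (s24F N →+* M))
    (hinj : Function.Injective ρ) (hx : ∀ q q', ρ q (s24j N) = ρ q' (s24j N))
    (hK : ∀ q q' (a : s24K), ρ q (algebraMap s24K (s24F N) a) = ρ q' (algebraMap s24K (s24F N) a)) :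
    ∀ f : s24F N, ∃ g ∈ s24K⟮s24j N⟯, ∀ q, ρ q g = ∏ q', ρ q' f := by
  have := ana_finiteDimensional N
  exact sym_norm_mem (s24j N) ρ hinj hx hK (sym_finrank_le N)

end Fermat.Agent.S24
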