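import Fermat.Agent.S24.AnaRing
import Fermat.Agent.S24.Dist

/-!
# S24 — [ANA-DATA]: injectivity of `q ↦ ρ q` (prefix `adi_`)

If `ρ ↑g x = algebraMap (J_N ∘ g⁻¹)` for some `x`, the conjugate embeddings are pairwise distinct
(by `dist_conj_eq_iff`).
-/

set_option autoImplicit false

namespace Fermat.Agent.S24

open UpperHalfPlane
open scoped MatrixGroups

/-- The conjugate embeddings are pairwise distinct, as soon as they send some `x` to the conjugates
of `J(N τ)`. -/
theorem adi_injective (N : ℕ) [NeZero N] {F : Type*} [Field F]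
    (ρ : s24Q N → (F →+* ana_M N)) (x : F) (JN : ana_ring N)
    (hJN : ∀ τ : ℍ, (JN : ℍ → ℂ) τ = distJN N (NeZero.pos N) τ)
    (hρ : ∀ g : SL(2, ℤ), ρ ((g : SL(2, ℤ)) : s24Q N) x
      = algebraMap (ana_ring N) (ana_M N) (ana_comp N g⁻¹ JN)) :
    Function.Injective ρ := by
  intro q q' h
  induction q using QuotientGroup.induction_on with
  | H g =>
    induction q' using QuotientGroup.induction_on with
    | H g' =>
      rw [← dist_conj_eq_iff N (NeZero.pos N)]
      intro z
      have h1 : ρ ((g : SL(2, ℤ)) : s24Q N) x = ρ ((g' : SL(2, ℤ)) : s24Q N) x := by rw [h]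
      rw [hρ g, hρ g'] at h1
      have h2 := IsFractionRing.injective (ana_ring N) (ana_M N) h1
      have h3 := congrFun (congrArg Subtype.val h2) z
      simp only [ana_comp_apply] at h3
      rw [← hJN, ← hJN]
      exact h3

end Fermat.Agent.S24
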