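import Mathlib

/-!
# S24 — [SYM-DEG], generic algebra (prefix `deg_`)

`K ⊆ F` fields, `x u : F`, `S ⊆ F` a set generating `F` as a field over `K`.  If every element `a`
of the `K`-algebra generated by `S` satisfies a relation
`a * B(x) + ∑ i < n, u ^ i * G i (x) = 0` with `B(x) ≠ 0`, then `F` is finite over `K(x)` of degree
at most `n`.
-/

set_option autoImplicit false

noncomputable section

namespace Fermat.Agent.S24

open IntermediateField Polynomial

variable {K F : Type*} [Field K] [Field F] [Algebra K F]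

/-- the `K(x)`-span of `1, u, …, u^(n-1)`. -/
def deg_span (x u : F) (n : ℕ) : Submodule K⟮x⟯ F :=
  Submodule.span K⟮x⟯ (Set.range fun i : Fin n => u ^ (i : ℕ))

theorem deg_span_finrank_le (x u : F) (n : ℕ) :
    Module.finrank K⟮x⟯ (deg_span (K := K) x u n) ≤ n := by
  have h := finrank_range_le_card (R := K⟮x⟯) (fun i : Fin n => u ^ (i : ℕ))
  rw [Fintype.card_fin] at h
  exact h

instance deg_span_finite (x u : F) (n : ℕ) : Module.Finite K⟮x⟯ (deg_span (K := K) x u n) :=
  Module.Finite.span_of_finite _ (Set.finite_range _)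

/-- polynomials in `x` are in `K(x)`. -/
theorem deg_aeval_mem (x : F) (p : K[X]) : aeval x p ∈ K⟮x⟯ :=
  IntermediateField.algebra_adjoin_le_adjoin K {x} (aeval_mem_adjoin_singleton K x)

/-- an element satisfying the relation lies in the span. -/
theorem deg_mem_span (x u : F) (n : ℕ) (a : F) (B : K[X]) (G : Fin n → K[X])
    (hB : aeval x B ≠ 0)
    (hrel : a * aeval x B + ∑ i : Fin n, u ^ (i : ℕ) * aeval x (G i) = 0) :
    a ∈ deg_span (K := K) x u n := by
  have ha : a = ∑ i : Fin n, (-(aeval x (G i)) * (aeval x B)⁻¹) * u ^ (i : ℕ) := by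
    have h1 : a * aeval x B = - ∑ i : Fin n, u ^ (i : ℕ) * aeval x (G i) :=
      eq_neg_of_add_eq_zero_left hrel
    have h2 : a = (- ∑ i : Fin n, u ^ (i : ℕ) * aeval x (G i)) * (aeval x B)⁻¹ := by
      rw [← h1, mul_assoc, mul_inv_cancel₀ hB, mul_one]
    rw [h2, neg_mul, Finset.sum_mul, ← Finset.sum_neg_distrib]
    refine Finset.sum_congr rfl fun i _ => ?_
    ring
  rw [ha]
  refine Submodule.sum_mem _ fun i _ => ?_
  have hc : (-(aeval x (G i)) * (aeval x B)⁻¹) ∈ K⟮x⟯ :=
    mul_mem (neg_mem (deg_aeval_mem x (G i))) (inv_mem (deg_aeval_mem x B))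
  have : (-(aeval x (G i)) * (aeval x B)⁻¹) * u ^ (i : ℕ)
      = (⟨_, hc⟩ : K⟮x⟯) • u ^ (i : ℕ) := rfl
  rw [this]
  exact Submodule.smul_mem _ _ (Submodule.subset_span ⟨i, rfl⟩)

/-- **generic degree bound.** -/
theorem deg_finite (x u : F) (n : ℕ) (S : Set F)
    (hS : IntermediateField.adjoin K S = ⊤)
    (hrel : ∀ a ∈ Algebra.adjoin K S, ∃ (B : K[X]) (G : Fin n → K[X]), aeval x B ≠ 0 ∧
      a * aeval x B + ∑ i : Fin n, u ^ (i : ℕ) * aeval x (G i) = 0) :
    FiniteDimensional K⟮x⟯ F ∧ Module.finrank K⟮x⟯ F ≤ n := by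
  set W := deg_span (K := K) x u n with hW
  -- the `K`-algebra generated by `S` lies in `W`
  have hA : ∀ a ∈ Algebra.adjoin K S, a ∈ W := by
    intro a ha
    obtain ⟨B, G, hB, h⟩ := hrel a ha
    exact deg_mem_span x u n a B G hB h
  -- the `K(x)`-algebra generated by it
  set E : Subalgebra K⟮x⟯ F := Algebra.adjoin K⟮x⟯ ((Algebra.adjoin K S : Subalgebra K F) : Set F)
    with hE
  have hEW : Subalgebra.toSubmodule E ≤ W := by
    rw [hE, Algebra.adjoin_eq_span, Submodule.span_le]
    have hcl : (Submonoid.closure ((Algebra.adjoin K S : Subalgebra K F) : Set F) : Set F)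
        = ((Algebra.adjoin K S : Subalgebra K F) : Set F) :=
      congrArg _ (Submonoid.closure_eq (Algebra.adjoin K S).toSubmonoid)
    rw [hcl]
    exact hA
  have hEfin : Module.Finite K⟮x⟯ (Subalgebra.toSubmodule E) :=
    Submodule.finiteDimensional_of_le hEW
  have hEfin' : Module.Finite K⟮x⟯ E := hEfin
  have hEfield : IsField E := by
    have hint : Algebra.IsIntegral K⟮x⟯ E := Algebra.IsIntegral.of_finite _ _
    exact isField_of_isIntegral_of_isField' (Field.toIsField K⟮x⟯)
  -- `E` is everything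
  have hEtop : ∀ f : F, f ∈ E := by
    let E' : IntermediateField K⟮x⟯ F := Subalgebra.toIntermediateField' E hEfield
    let E'' : IntermediateField K F := IntermediateField.restrictScalars K E'
    have hSE : S ⊆ (E'' : Set F) := by
      intro s hs
      change s ∈ E
      exact Algebra.subset_adjoin (Algebra.subset_adjoin hs)
    have hle : IntermediateField.adjoin K S ≤ E'' := IntermediateField.adjoin_le_iff.mpr hSE
    rw [hS] at hle
    intro f
    exact hle (IntermediateField.mem_top)
  have hWtop : W = ⊤ := by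
    rw [eq_top_iff]
    intro f _
    exact hEW (hEtop f)
  have hfin : Module.Finite K⟮x⟯ F := by
    have h1 : Module.Finite K⟮x⟯ (⊤ : Submodule K⟮x⟯ F) := by
      rw [← hWtop]
      infer_instance
    exact Module.Finite.of_surjective (Submodule.topEquiv (R := K⟮x⟯) (M := F)).toLinearMap
      (Submodule.topEquiv (R := K⟮x⟯) (M := F)).surjective
  refine ⟨hfin, ?_⟩
  have h2 := deg_span_finrank_le (K := K) x u n
  rw [← hW, hWtop, finrank_top] at h2
  exact h2

end Fermat.Agent.S24

end
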