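import Fermat.Agent.S24.AlgA

/-!
# S24 / ALG-A by-product: `d/dπ` preserves the valuation ring (Nakayama)

* `algn_essFiniteType` : the valuation ring of a place is essentially of finite type over `K`;
* `algn_span_D_eq_top` : `Ω[𝒪_v⁄K]` is generated by `dπ`;
* `algn_exists_smul` : for `u ∈ 𝒪_v`, `du = g dπ` with `g ∈ 𝒪_v`;
* `algn_ordDifferential` : `ord_v (dy) = ord_v y - 1` if `ord_v y ≠ 0`.
-/

set_option autoImplicit false
set_option linter.deprecated false
set_option linter.unusedSectionVars false
set_option linter.unusedVariables false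
set_option linter.style.haveILetI false

namespace Fermat.Agent.S24

open AlgebraicCurve IntermediateField Polynomial IsDedekindDomain KaehlerDifferential

section essfin

/-- If a finitely generated `K`-algebra `B ⊆ 𝒪_v` has `𝒪_v` as a ring of fractions, then `𝒪_v` is
essentially of finite type over `K`. -/
theorem algn_essFiniteType_aux {K F B : Type*} [Field K] [Field F] [Algebra K F] [CommRing B]
    [Algebra K B] [Algebra B F] [IsScalarTower K B F] [Algebra.FiniteType K B]
    (v : Place K F) (hB : ∀ b : B, algebraMap B F b ∈ v.toValuationSubring)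
    (hloc : ∀ f ∈ v.toValuationSubring, ∃ n d : B,
      (algebraMap B F d)⁻¹ ∈ v.toValuationSubring ∧ algebraMap B F d ≠ 0 ∧
        f * algebraMap B F d = algebraMap B F n) :
    Algebra.EssFiniteType K v.toValuationSubring := by
  classical
  let φ : B →ₐ[K] v.toValuationSubring :=
    { toRingHom := (algebraMap B F).codRestrict v.toValuationSubring.toSubring hB
      commutes' := fun a => Subtype.ext (by
        show algebraMap B F (algebraMap K B a) = algebraMap K F a
        rw [← IsScalarTower.algebraMap_apply K B F]) }
  have hφ : ∀ b : B, ((φ b : v.toValuationSubring) : F) = algebraMap B F b := fun b => rfl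
  obtain ⟨s, hs⟩ := (inferInstance : Algebra.FiniteType K B)
  rw [Algebra.essFiniteType_iff]
  refine ⟨s.image φ, ?_⟩
  have hadj : Algebra.adjoin K ((s.image φ : Finset v.toValuationSubring) : Set v.toValuationSubring)
      = φ.range := by
    rw [Finset.coe_image, ← AlgHom.map_adjoin, hs, Algebra.map_top]
  rw [hadj]
  intro f
  obtain ⟨n, d, hd, hd0, hfd⟩ := hloc f f.2
  refine ⟨φ d, ⟨d, rfl⟩, ?_, ⟨n, ?_⟩⟩
  · refine ⟨⟨φ d, ⟨(algebraMap B F d)⁻¹, hd⟩, ?_, ?_⟩, rfl⟩
    · exact Subtype.ext (by simp [hφ, mul_inv_cancel₀ hd0])
    · exact Subtype.ext (by simp [hφ, inv_mul_cancel₀ hd0])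
  · apply Subtype.ext
    show algebraMap B F n = (f : F) * algebraMap B F d
    rw [hfd]

variable {K F : Type*} [Field K] [Field F] [Algebra K F]
variable {R : Type*} [CommRing R] [IsDedekindDomain R] [Algebra R F] [IsFractionRing R F]
  [Algebra K R] [IsScalarTower K R F]

theorem algn_essFiniteType_of_dedekind [Algebra.FiniteType K R] (v : Place K F)
    (hR : ∀ r : R, algebraMap R F r ∈ v.toValuationSubring) :
    Algebra.EssFiniteType K v.toValuationSubring := by
  obtain ⟨w, hw, hwmem⟩ := algad_exists_heightOneSpectrum (R := R) v hR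
  refine algn_essFiniteType_aux (B := R) v hR fun f hf => ?_
  rw [← hw, algad_mem_iff] at hf
  obtain ⟨n, d, hnd⟩ := w.exists_primeCompl_mul_eq_of_integer f hf
  have hd : (d : R) ∉ w.asIdeal := d.2
  have hd1 : w.valuation F (algebraMap R F (d : R)) = 1 := by
    rw [HeightOneSpectrum.valuation_of_algebraMap]
    exact (w.intValuation_eq_one_iff).mpr hd
  refine ⟨n, d, ?_, ?_, hnd⟩
  · rw [← hw, algad_mem_iff, map_inv₀, hd1, inv_one]
  · intro h0
    rw [h0, map_zero] at hd1
    exact zero_ne_one hd1

end essfin

section essfin2

theorem algn_essFiniteType_aklb {K F : Type*} [Field K] [Field F] [Algebra K F]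
    {A : Type*} (L B : Type*) [CommRing A] [IsDedekindDomain A] [Field L] [Algebra A L]
    [IsFractionRing A L] [Algebra L F] [Algebra A F] [IsScalarTower A L F]
    [CommRing B] [IsDedekindDomain B] [Algebra A B] [Module.IsTorsionFree A B] [Algebra B F]
    [IsFractionRing B F] [IsScalarTower A B F] [Module.Finite A B]
    [Algebra K A] [Algebra K B] [IsScalarTower K A B] [IsScalarTower K B F]
    [Algebra.FiniteType K A] (v : Place K F)
    (hA : ∀ a : A, algebraMap A F a ∈ v.toValuationSubring) :
    Algebra.EssFiniteType K v.toValuationSubring := by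
  have h1 : Algebra.FiniteType A B := inferInstance
  have h2 : Algebra.FiniteType K B := Algebra.FiniteType.trans (S := A) inferInstance h1
  exact algn_essFiniteType_of_dedekind (R := B) v (algad_integral_mem (A := A) v hA)

open scoped IntermediateField.algebraAdjoinAdjoin in
/-- The valuation ring of a place is essentially of finite type over `K`. -/
theorem algn_essFiniteType {K F : Type*} [Field K] [Field F] [Algebra K F] [IsAlgClosed K]
    [CharZero K] (x : F) [FiniteDimensional K⟮x⟯ F] (v : Place K F) :
    Algebra.EssFiniteType K v.toValuationSubring := by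
  classical
  obtain ⟨π, hπ⟩ := IsDiscreteValuationRing.exists_irreducible v.toValuationSubring
  have hπ1 : v.ord (π : F) = 1 := v.ord_coe_irreducible hπ
  set z : F := (π : F) with hz_def
  have hz : Transcendental K z := by
    intro halg
    obtain ⟨a, ha⟩ := alga_mem_range_of_isAlgebraic halg
    rw [← ha, alga_ord_algebraMap] at hπ1
    exact zero_ne_one hπ1
  have hDed : IsDedekindDomain (Algebra.adjoin K ({z} : Set F)) := algaz_isDedekindDomain z hz
  have hfin : FiniteDimensional K⟮z⟯ F := alga_finiteDimensional_of_transcendental x z hz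
  have hchar : CharZero K⟮z⟯ := charZero_of_injective_algebraMap (algebraMap K K⟮z⟯).injective
  have hsep : Algebra.IsSeparable K⟮z⟯ F := inferInstance
  have hDedB : IsDedekindDomain (integralClosure (Algebra.adjoin K ({z} : Set F)) F) :=
    integralClosure.isDedekindDomain (Algebra.adjoin K ({z} : Set F)) K⟮z⟯ F
  have hFracB : IsFractionRing (integralClosure (Algebra.adjoin K ({z} : Set F)) F) F :=
    integralClosure.isFractionRing_of_finite_extension K⟮z⟯ F
  have hFinB : Module.Finite (Algebra.adjoin K ({z} : Set F))
      (integralClosure (Algebra.adjoin K ({z} : Set F)) F) :=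
    IsIntegralClosure.finite (Algebra.adjoin K ({z} : Set F)) K⟮z⟯ F
      (integralClosure (Algebra.adjoin K ({z} : Set F)) F)
  have hFT : Algebra.FiniteType K (Algebra.adjoin K ({z} : Set F)) :=
    Algebra.FiniteType.adjoin_of_finite (Set.finite_singleton z)
  have hA : ∀ a : Algebra.adjoin K ({z} : Set F),
        algebraMap (Algebra.adjoin K ({z} : Set F)) F a ∈ v.toValuationSubring := by
    intro a
    have hzmem : z ∈ v.toValuationSubring := π.2
    have hc : (a : F) ∈ (aeval z : K[X] →ₐ[K] F).range := by
      rw [← Algebra.adjoin_singleton_eq_range_aeval]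
      exact a.2
    obtain ⟨q, hq⟩ := hc
    show (a : F) ∈ v.toValuationSubring
    rw [← hq]
    exact alga_aeval_mem v hzmem q
  exact algn_essFiniteType_aklb (K := K) (F := F) K⟮z⟯
    (integralClosure (Algebra.adjoin K ({z} : Set F)) F) v hA

end essfin2

section nakayama

variable {K F : Type*} [Field K] [Field F] [Algebra K F] [IsAlgClosed K] [CharZero K]

/-- Nakayama: the Kähler differentials of `𝒪_v` over `K` are generated by `dπ`. -/
theorem algn_span_D_eq_top (x : F) [FiniteDimensional K⟮x⟯ F] (v : Place K F)
    {π : v.toValuationSubring} (hπ : Irreducible π) :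
    Submodule.span v.toValuationSubring {D K v.toValuationSubring π} = ⊤ := by
  have hess : Algebra.EssFiniteType K v.toValuationSubring := algn_essFiniteType x v
  have hfin : Module.Finite v.toValuationSubring Ω[v.toValuationSubring⁄K] := inferInstance
  have key : (⊤ : Submodule v.toValuationSubring Ω[v.toValuationSubring⁄K])
      ≤ Submodule.span v.toValuationSubring {D K v.toValuationSubring π}
        ⊔ (IsLocalRing.maximalIdeal v.toValuationSubring) •
          (⊤ : Submodule v.toValuationSubring Ω[v.toValuationSubring⁄K]) := by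
    rw [← KaehlerDifferential.span_range_derivation, Submodule.span_le]
    rintro _ ⟨u, rfl⟩
    obtain ⟨c, hc⟩ := alga_exists_sub_mem x v u.2
    have hmem : u - algebraMap K v.toValuationSubring c
        ∈ IsLocalRing.maximalIdeal v.toValuationSubring := by
      rw [alga_mem_maximalIdeal_iff]
      rcases hc with hc | hc
      · left
        apply Subtype.ext
        simp [hc]
      · right
        simpa using hc
    rw [hπ.maximalIdeal_eq, Ideal.mem_span_singleton'] at hmem
    obtain ⟨u', hu'⟩ := hmem
    have hu : u = algebraMap K v.toValuationSubring c + u' * π := by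
      rw [hu']
      ring
    rw [hu, SetLike.mem_coe, map_add, Derivation.map_algebraMap, zero_add, Derivation.leibniz]
    refine Submodule.add_mem _ ?_ ?_
    · exact Submodule.mem_sup_left
        (Submodule.smul_mem _ _ (Submodule.mem_span_singleton_self _))
    · refine Submodule.mem_sup_right
        (Submodule.smul_mem_smul ?_ (Submodule.subset_span ⟨u', rfl⟩))
      rw [hπ.maximalIdeal_eq]
      exact Ideal.mem_span_singleton_self π
  exact top_le_iff.mp (Submodule.le_of_le_smul_of_le_jacobson_bot Module.Finite.fg_top
    (IsLocalRing.jacobson_eq_maximalIdeal ⊥ bot_ne_top).ge key)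

/-- `d/dπ` preserves the valuation ring. -/
theorem algn_exists_smul (x : F) [FiniteDimensional K⟮x⟯ F] (v : Place K F)
    {π : v.toValuationSubring} (hπ : Irreducible π) (u : v.toValuationSubring) :
    ∃ g : v.toValuationSubring, D K F (u : F) = (g : F) • D K F (π : F) := by
  have hmem : D K v.toValuationSubring u
      ∈ Submodule.span v.toValuationSubring {D K v.toValuationSubring π} := by
    rw [algn_span_D_eq_top x v hπ]
    exact Submodule.mem_top
  obtain ⟨g, hg⟩ := Submodule.mem_span_singleton.mp hmem
  refine ⟨g, ?_⟩
  have h1 := congrArg (KaehlerDifferential.map K K v.toValuationSubring F) hg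
  rw [map_smul, KaehlerDifferential.map_D, KaehlerDifferential.map_D] at h1
  exact h1.symm

/-- The order of `dy` at a place where `y` has nonzero order `m` is `m - 1`. -/
theorem algn_ordDifferential (x : F) [FiniteDimensional K⟮x⟯ F] (v : Place K F)
    [Nontrivial Ω[F⁄K]] [v.DCoordGenerates] (y : F) (hy : v.ord y ≠ 0) :
    v.ordDifferential (D K F y) = v.ord y - 1 := by
  have hy0 : y ≠ 0 := by
    rintro rfl
    simp at hy
  have hπ := (IsDiscreteValuationRing.exists_irreducible v.toValuationSubring).choose_spec
  set π₀ : v.toValuationSubring :=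
    (IsDiscreteValuationRing.exists_irreducible v.toValuationSubring).choose with hπ₀
  have hdC : v.dCoord = D K F (π₀ : F) := rfl
  have hπF : (π₀ : F) ≠ 0 := by
    simpa [ne_eq, ZeroMemClass.coe_eq_zero] using hπ.ne_zero
  obtain ⟨u₀, hu₀⟩ := v.exists_unit_mul_zpow hy0 hπ
  obtain ⟨g₀, hg₀⟩ := algn_exists_smul x v hπ (u₀ : v.toValuationSubring)
  set m : ℤ := v.ord y with hm
  set π : F := (π₀ : F) with hπdef
  set u : F := ((u₀ : v.toValuationSubring) : F) with hudef
  set g : F := (g₀ : F) with hgdef
  have hD : D K F y = (π ^ (m - 1) * ((m : F) * u + π * g)) • v.dCoord := by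
    rw [hdC, hu₀, Derivation.leibniz, Derivation.leibniz_zpow, hg₀, ← Int.cast_smul_eq_zsmul F m,
      smul_smul, smul_smul, smul_smul, ← add_smul]
    congr 1
    have hpow : π ^ m = π ^ (m - 1) * π := by
      rw [← zpow_add_one₀ hπF, sub_add_cancel]
    rw [hpow]
    ring
  have hcoeff := v.differentialCoeff_unique hD
  rw [Place.ordDifferential, hcoeff]
  -- `m u + π g` is a unit of the valuation ring
  have hmK : ((m : K)) ≠ 0 := by
    exact_mod_cast hy
  have hunit : v.ord ((m : F) * u + π * g) = 0 ∧ (m : F) * u + π * g ≠ 0 := by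
    have hmem : (m : F) * u + π * g ∈ v.toValuationSubring := by
      refine add_mem (mul_mem ?_ (u₀ : v.toValuationSubring).2) (mul_mem π₀.2 g₀.2)
      have := v.algebraMap_mem' (m : K)
      simpa using this
    have hnot : (⟨(m : F) * u + π * g, hmem⟩ : v.toValuationSubring)
        ∉ IsLocalRing.maximalIdeal v.toValuationSubring := by
      intro hin
      have hπg : π₀ * g₀ ∈ IsLocalRing.maximalIdeal v.toValuationSubring := by
        rw [hπ.maximalIdeal_eq]
        exact Ideal.mul_mem_right _ _ (Ideal.mem_span_singleton_self π₀)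
      have hdiff := (IsLocalRing.maximalIdeal v.toValuationSubring).sub_mem hin hπg
      rw [alga_mem_maximalIdeal_iff] at hdiff
      have hval : (((⟨(m : F) * u + π * g, hmem⟩ : v.toValuationSubring) - π₀ * g₀
          : v.toValuationSubring) : F) = algebraMap K F (m : K) * u := by
        simp [hπdef, hgdef]
      have hu0 : u ≠ 0 := by
        simp [hudef]
      have hmF : algebraMap K F (m : K) ≠ 0 := by
        rw [ne_eq, map_eq_zero_iff _ (algebraMap K F).injective]
        exact hmK
      have hord : v.ord (algebraMap K F (m : K) * u) = 0 := by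
        rw [v.ord_mul hmF hu0, alga_ord_algebraMap, hudef, v.ord_coe_unit, add_zero]
      rcases hdiff with h0 | hpos
      · have := congrArg Subtype.val h0
        rw [hval] at this
        exact mul_ne_zero hmF hu0 this
      · rw [hval, hord] at hpos
        exact lt_irrefl _ hpos
    rw [alga_mem_maximalIdeal_iff] at hnot
    push Not at hnot
    have hne : (m : F) * u + π * g ≠ 0 := by
      intro h0
      apply hnot.1
      exact Subtype.ext h0
    refine ⟨le_antisymm ?_ (alga_ord_nonneg_of_mem v hmem), hne⟩
    simpa using hnot.2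
  rw [v.ord_mul (zpow_ne_zero _ hπF) hunit.2, hunit.1, v.ord_zpow, hπdef,
    v.ord_coe_irreducible hπ]
  ring

end nakayama
end Fermat.Agent.S24
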