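import Fermat.Agent.S24.Defs
import Fermat.Agent.S24.MGModel

/-!
# S24 — [ANA-DATA], generic part (prefix `ad_`)

The assembly of a `CountingData` on a coset space `G ⧸ H` from

* a family of embeddings `ρ q : F →+* M` which is equivariant for maps `act g : M →+* M`
  (`ρ (g • q) = act g ∘ ρ q`),
* a valuation `w` on `M` invariant under `act g` for `g` in the cyclic group generated by `c`,
* the divisibility property: an element invariant under `act (c ^ s)`, `s ∣ o`, has valuation
  in `exp ((o / s) ℤ)`.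
-/

set_option autoImplicit false

namespace Fermat.Agent.S24

open MulAction Subgroup Function IntermediateField

/-- A nonzero value of a `ℤᵐ⁰`-valued valuation is `exp k`. -/
theorem ad_exists_exp {M : Type*} [Field M] (w : Valuation M (WithZero (Multiplicative ℤ)))
    {m : M} (hm : m ≠ 0) : ∃ k : ℤ, w m = WithZero.exp k :=
  ⟨WithZero.log (w m), (WithZero.exp_log ((Valuation.ne_zero_iff w).mpr hm)).symm⟩

/-- A nonzero value of a `ℤᵐ⁰`-valued valuation is `exp (k * 1)`. -/
theorem ad_exists_exp_mul_one {M : Type*} [Field M]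
    (w : Valuation M (WithZero (Multiplicative ℤ)))
    {m : M} (hm : m ≠ 0) : ∃ k : ℤ, w m = WithZero.exp (k * ((1 : ℕ) : ℤ)) := by
  obtain ⟨k, hk⟩ := ad_exists_exp w hm
  exact ⟨k, by rw [hk]; simp⟩

section generic

variable {K F : Type*} [Field K] [Field F] [Algebra K F]
variable {G : Type} [Group G] (H : Subgroup G)

/-- Invariance of `w` under the cyclic group generated by `c`, from invariance under `act c`
for a multiplicative `act`. -/
theorem ad_inv_zpowers {M : Type*} [Field M] (act : G → (M →+* M))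
    (hmul : ∀ (g h : G) (m : M), act (g * h) m = act g (act h m))
    (hone : ∀ m : M, act 1 m = m)
    (w : Valuation M (WithZero (Multiplicative ℤ))) (c : G)
    (hc : ∀ m, w (act c m) = w m) :
    ∀ g ∈ zpowers c, ∀ m, w (act g m) = w m := by
  have hinv : ∀ m, w (act c⁻¹ m) = w m := by
    intro m
    rw [← hc (act c⁻¹ m), ← hmul, mul_inv_cancel, hone]
  have hpow : ∀ (n : ℕ) (m : M), w (act (c ^ n) m) = w m := by
    intro n
    induction n with
    | zero => intro m; rw [pow_zero, hone]
    | succ n ih => intro m; rw [pow_succ, hmul, ih, hc]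
  have hpow' : ∀ (n : ℕ) (m : M), w (act ((c⁻¹) ^ n) m) = w m := by
    intro n
    induction n with
    | zero => intro m; rw [pow_zero, hone]
    | succ n ih => intro m; rw [pow_succ, hmul, ih, hinv]
  intro g hg m
  obtain ⟨k, rfl⟩ := Subgroup.mem_zpowers_iff.mp hg
  rcases k with n | n
  · simpa using hpow n m
  · have := hpow' (n + 1) m
    simpa using this

/-- The class of `q` has `c ^ (size of the class)` in the stabiliser of `q`. -/
theorem ad_pow_card_smul [Finite (G ⧸ H)] (c : G) (q : G ⧸ H) :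
    c ^ Nat.card {q' // (MulAction.orbitRel (zpowers c) (G ⧸ H)).r q q'} • q = q := by
  rw [mgm_card_class_eq]
  have h := isPeriodicPt_minimalPeriod (c • ·) q
  rw [IsPeriodicPt, IsFixedPt, smul_iterate] at h
  exact h

/-- [ANA-DATA, generic assembly] -/
noncomputable def ad_countingData (x y : F) [Fintype (G ⧸ H)] (c : G) (o : ℕ)
    (M : Type) [Field M] (act : G → (M →+* M)) (ρ : G ⧸ H → (F →+* M))
    (hsmul : ∀ (g : G) (q : G ⧸ H), ρ (g • q) = (act g).comp (ρ q))
    (hinj : Function.Injective ρ)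
    (hx : ∀ q q', ρ q x = ρ q' x)
    (hK : ∀ q q' (a : K), ρ q (algebraMap K F a) = ρ q' (algebraMap K F a))
    (hnorm : ∀ f : F, ∃ g ∈ K⟮x⟯, ∀ q, ρ q g = ∏ q', ρ q' f)
    (w : Valuation M (WithZero (Multiplicative ℤ)))
    (hwK : ∀ q (a : K), a ≠ 0 → w (ρ q (algebraMap K F a)) = 1)
    (ho : 0 < o)
    (hwy : ∀ q, w (ρ q y) = WithZero.exp (-(o : ℤ)))
    (hwact : ∀ g ∈ zpowers c, ∀ m, w (act g m) = w m)
    (hcard : ∀ q : G ⧸ H,
      Nat.card {q' // (MulAction.orbitRel (zpowers c) (G ⧸ H)).r q q'} ∣ o)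
    (hdiv : ∀ s : ℕ, s ∣ o → ∀ m : M, m ≠ 0 → act (c ^ s) m = m →
      ∃ k : ℤ, w m = WithZero.exp (k * ((o / s : ℕ) : ℤ))) :
    CountingData K F x y (G ⧸ H) (MulAction.orbitRel (zpowers c) (G ⧸ H)) o where
  M := M
  ρ := ρ
  ρ_injective := hinj
  ρ_x := hx
  ρ_K := hK
  norm_mem := hnorm
  w := w
  w_K := hwK
  o_pos := ho
  w_y := hwy
  w_inv := by
    intro q q' hr f
    change q ∈ MulAction.orbit (zpowers c) q' at hr
    obtain ⟨⟨g, hg⟩, rfl⟩ := hr
    change w (ρ (g • q') f) = w (ρ q' f)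
    rw [hsmul, RingHom.comp_apply, hwact g hg]
  card_dvd := hcard
  w_div := by
    intro q f hf
    have hfix := ad_pow_card_smul H c q
    have hne : ρ q f ≠ 0 := (map_ne_zero (ρ q)).mpr hf
    apply hdiv _ (hcard q) _ hne
    have h := hsmul (c ^ Nat.card {q' // (MulAction.orbitRel (zpowers c) (G ⧸ H)).r q q'}) q
    rw [hfix] at h
    exact (congrArg (fun φ : F →+* M => φ f) h).symm

end generic

end Fermat.Agent.S24
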