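import Fermat.Agent.S24.Defs

/-!
# S24, package ALG-CT, part 1: the characteristic polynomial attached to `CountingData`

For counting data `d` (conjugate embeddings `ρ q : F →+* M` agreeing on `K(x)`, with all norms
`∏ q, ρ q f` in `K(x)`):

* `ct_agree`: the `ρ q` agree on `K(x)`;
* `ct_exists_charpoly`: every `f : F` is a root of a monic polynomial `R₀` of degree `|Q|` over
  `K(x)` whose image in `M[X]` is `∏ q, (X - ρ q f)` (Lagrange interpolation of the norms of
  `t - f`, `t ∈ K`);
* `ct_finrank_eq_card`: `[F : K(x)] = |Q|`.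
-/

set_option autoImplicit false

namespace Fermat.Agent.S24

open AlgebraicCurve IntermediateField Polynomial

attribute [instance] CountingData.fieldM

section

variable {K F : Type*} [Field K] [Field F] [Algebra K F] {x y : F} {Q : Type} [Fintype Q]
  {r : Setoid Q} {o : ℕ} (d : CountingData K F x y Q r o)

/-- The conjugate embeddings agree on `K(x)`. -/
theorem ct_agree (q q' : Q) {g : F} (hg : g ∈ K⟮x⟯) : d.ρ q g = d.ρ q' g := by
  induction hg using IntermediateField.adjoin_induction with
  | mem z hz =>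
    rw [Set.mem_singleton_iff] at hz
    subst hz
    exact d.ρ_x q q'
  | algebraMap a => exact d.ρ_K q q' a
  | add a b _ _ ha hb => rw [map_add, map_add, ha, hb]
  | inv a _ ha => rw [map_inv₀, map_inv₀, ha]
  | mul a b _ _ ha hb => rw [map_mul, map_mul, ha, hb]

/-- The common restriction of the conjugate embeddings to `K(x)`. -/
noncomputable def ct_iota (q₀ : Q) : K⟮x⟯ →+* d.M := (d.ρ q₀).comp (algebraMap K⟮x⟯ F)

theorem ct_iota_apply (q₀ : Q) (g : K⟮x⟯) : ct_iota d q₀ g = d.ρ q₀ (g : F) := rfl

theorem ct_iota_eq (q₀ q : Q) (g : K⟮x⟯) : ct_iota d q₀ g = d.ρ q (g : F) :=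
  ct_agree d q₀ q g.2

theorem ct_iota_injective (q₀ : Q) : Function.Injective (ct_iota d q₀) :=
  (ct_iota d q₀).injective

/-- The polynomial `∏ q, (X - ρ q f)` over `M`. -/
noncomputable def ct_polyM (f : F) : d.M[X] := ∏ q : Q, (X - C (d.ρ q f))

theorem ct_polyM_monic (f : F) : (ct_polyM d f).Monic :=
  monic_prod_of_monic _ _ fun _ _ => monic_X_sub_C _

theorem ct_polyM_natDegree (f : F) : (ct_polyM d f).natDegree = Fintype.card Q := by
  rw [ct_polyM, natDegree_prod_of_monic _ _ fun q _ => monic_X_sub_C _]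
  simp

theorem ct_polyM_eval (f : F) (q : Q) : (ct_polyM d f).eval (d.ρ q f) = 0 := by
  rw [ct_polyM, eval_prod]
  exact Finset.prod_eq_zero (Finset.mem_univ q) (by simp)

/-- **Characteristic polynomial.** Every `f : F` is a root of a monic polynomial of degree `|Q|`
over `K(x)` whose image over `M` is `∏ q, (X - ρ q f)`. -/
theorem ct_exists_charpoly [Infinite K] (q₀ : Q) (f : F) :
    ∃ R₀ : K⟮x⟯[X], R₀.Monic ∧ R₀.natDegree = Fintype.card Q ∧
      R₀.map (ct_iota d q₀) = ct_polyM d f ∧ aeval f R₀ = 0 := by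
  classical
  set n := Fintype.card Q with hn
  -- nodes
  let t : Fin (n + 1) → K := fun i => Infinite.natEmbedding K i
  have ht : Function.Injective t := fun i j hij =>
    Fin.ext ((Infinite.natEmbedding K).injective hij)
  -- norms
  choose g hg hg' using fun i : Fin (n + 1) => d.norm_mem (algebraMap K F (t i) - f)
  let gL : Fin (n + 1) → K⟮x⟯ := fun i => ⟨g i, hg i⟩
  let v : Fin (n + 1) → K⟮x⟯ := fun i => algebraMap K K⟮x⟯ (t i)
  have hv : Function.Injective v := (algebraMap K K⟮x⟯).injective.comp ht
  set R₀ : K⟮x⟯[X] := Lagrange.interpolate Finset.univ v gL with hR₀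
  have hιv : Function.Injective (fun i => ct_iota d q₀ (v i)) :=
    (ct_iota_injective d q₀).comp hv
  have hmap : R₀.map (ct_iota d q₀) = ct_polyM d f := by
    refine eq_of_degrees_lt_of_eval_index_eq (Finset.univ : Finset (Fin (n + 1)))
      (v := fun i => ct_iota d q₀ (v i)) (hιv.injOn) ?_ ?_ ?_
    · rw [degree_map]
      exact Lagrange.degree_interpolate_lt gL hv.injOn
    · rw [degree_eq_natDegree (ct_polyM_monic d f).ne_zero, ct_polyM_natDegree]
      simp only [Finset.card_univ, Fintype.card_fin]
      exact_mod_cast Nat.lt_succ_self _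
    · intro i _
      rw [eval_map_apply, Lagrange.eval_interpolate_at_node gL hv.injOn (Finset.mem_univ i)]
      rw [ct_iota_apply, show ((gL i : K⟮x⟯) : F) = g i from rfl, hg' i q₀, ct_polyM, eval_prod]
      refine Finset.prod_congr rfl fun q _ => ?_
      rw [eval_sub, eval_X, eval_C, map_sub]
      congr 1
      rw [ct_iota_eq d q₀ q]
      rfl
  have hmonic : R₀.Monic := by
    apply monic_of_injective (ct_iota_injective d q₀)
    rw [hmap]
    exact ct_polyM_monic d f
  have hdeg : R₀.natDegree = n := by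
    rw [← natDegree_map_eq_of_injective (ct_iota_injective d q₀), hmap, ct_polyM_natDegree]
  refine ⟨R₀, hmonic, hdeg, hmap, ?_⟩
  apply (d.ρ q₀).injective
  rw [map_zero, aeval_def, hom_eval₂]
  have : (d.ρ q₀).comp (algebraMap K⟮x⟯ F) = ct_iota d q₀ := rfl
  rw [this, ← eval_map, hmap]
  exact ct_polyM_eval d f q₀

/-- Two conjugate embeddings which agree at a primitive element are equal. -/
theorem ct_rho_eq_of_primitive {α : F} (hα : K⟮x⟯⟮α⟯ = ⊤) (q q' : Q)
    (h : d.ρ q α = d.ρ q' α) : q = q' := by
  apply d.ρ_injective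
  apply RingHom.ext
  intro f
  have hf : f ∈ K⟮x⟯⟮α⟯ := by rw [hα]; exact IntermediateField.mem_top
  induction hf using IntermediateField.adjoin_induction with
  | mem z hz =>
    rw [Set.mem_singleton_iff] at hz
    subst hz
    exact h
  | algebraMap a => exact ct_agree d q q' a.2
  | add a b _ _ ha hb => rw [map_add, map_add, ha, hb]
  | inv a _ ha => rw [map_inv₀, map_inv₀, ha]
  | mul a b _ _ ha hb => rw [map_mul, map_mul, ha, hb]

/-- **The degree.** `[F : K(x)] = |Q|`. -/
theorem ct_finrank_eq_card [CharZero K] [FiniteDimensional K⟮x⟯ F] [Nonempty Q]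
    (d : CountingData K F x y Q r o) :
    Module.finrank K⟮x⟯ F = Fintype.card Q := by
  classical
  have : CharZero F := charZero_of_injective_algebraMap (algebraMap K F).injective
  have : CharZero K⟮x⟯ := charZero_of_injective_algebraMap (algebraMap K K⟮x⟯).injective
  have : Infinite K := inferInstance
  obtain ⟨α, hα⟩ := Field.exists_primitive_element K⟮x⟯ F
  have hint : IsIntegral K⟮x⟯ α := IsIntegral.of_finite K⟮x⟯ α
  have hfin : Module.finrank K⟮x⟯ F = (minpoly K⟮x⟯ α).natDegree := by
    rw [← IntermediateField.adjoin.finrank hint, hα, IntermediateField.finrank_top']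
  obtain ⟨q₀⟩ := (inferInstance : Nonempty Q)
  apply le_antisymm
  · -- `minpoly ∣ R₀`
    obtain ⟨R₀, hmonic, hdeg, -, hroot⟩ := ct_exists_charpoly d q₀ α
    rw [hfin, ← hdeg]
    exact natDegree_le_of_dvd (minpoly.dvd K⟮x⟯ α hroot) hmonic.ne_zero
  · -- the `ρ q α` are distinct roots of the minimal polynomial
    rw [hfin, ← natDegree_map_eq_of_injective (ct_iota_injective d q₀)]
    have hinj : Function.Injective (fun q : Q => d.ρ q α) := fun q q' h =>
      ct_rho_eq_of_primitive d hα q q' h
    have hcard : (Finset.univ.image (fun q : Q => d.ρ q α)).card = Fintype.card Q := by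
      rw [Finset.card_image_of_injective _ hinj, Finset.card_univ]
    rw [← hcard]
    apply card_le_degree_of_subset_roots
    intro z hz
    simp only [Finset.image_val, Multiset.mem_dedup, Multiset.mem_map, Finset.mem_val,
      Finset.mem_univ, true_and] at hz
    obtain ⟨q, rfl⟩ := hz
    rw [mem_roots (by
      exact (Polynomial.map_ne_zero_iff (ct_iota_injective d q₀)).mpr (minpoly.ne_zero hint))]
    rw [IsRoot.def, eval_map]
    have h1 : eval₂ (ct_iota d q₀) (d.ρ q α) (minpoly K⟮x⟯ α)
        = d.ρ q (aeval α (minpoly K⟮x⟯ α)) := by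
      rw [aeval_def, hom_eval₂]
      congr 1
      apply RingHom.ext
      intro g
      exact ct_iota_eq d q₀ q g
    rw [h1, minpoly.aeval, map_zero]

end

end Fermat.Agent.S24
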