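import Mathlib
import Fermat.Agent.S24.Defs

/-!
# S24, package MG-GENUS: the genus formula from the orbit counts

`mga_genusFormula_of` : given the orbit counts of `S`, `S * T`, `T` on `SL(2,ℤ) ⧸ Γ₀(N)`
(packages MG-CARD, MG-S, MG-ST, MG-T) and Ree's theorem (package MG-REE) for the permutation
triple `(S, T, (S * T)⁻¹)`, the number `genusFormula N` is a natural number `g` with
`2 g - 2 = (ψ - #orbits(ST)) + (ψ - #orbits(S)) - ψ - #orbits(T)`.
-/

set_option autoImplicit false

noncomputable section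

namespace Fermat.Agent.S24

open ModularCurve
open scoped MatrixGroups

/-- the orbit relation of `zpowers (toPerm g)` (acting as permutations) is the orbit relation of
`zpowers g`. -/
theorem mga_orbitRel_toPerm {G α : Type*} [Group G] [MulAction G α] (g : G) (x y : α) :
    (MulAction.orbitRel (Subgroup.zpowers (MulAction.toPerm g : Equiv.Perm α)) α).r x y ↔
      (MulAction.orbitRel (Subgroup.zpowers g) α).r x y := by
  change x ∈ MulAction.orbit _ y ↔ x ∈ MulAction.orbit _ y
  constructor
  · rintro ⟨⟨p, hp⟩, rfl⟩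
    obtain ⟨k, rfl⟩ := Subgroup.mem_zpowers_iff.mp hp
    refine ⟨⟨g ^ k, Subgroup.zpow_mem_zpowers g k⟩, ?_⟩
    change g ^ k • y = ((MulAction.toPerm g : Equiv.Perm α) ^ k) y
    have : (MulAction.toPerm g : Equiv.Perm α) ^ k = MulAction.toPerm (g ^ k) :=
      (map_zpow (MulAction.toPermHom G α) g k).symm
    rw [this]
    rfl
  · rintro ⟨⟨p, hp⟩, rfl⟩
    obtain ⟨k, rfl⟩ := Subgroup.mem_zpowers_iff.mp hp
    refine ⟨⟨(MulAction.toPerm g : Equiv.Perm α) ^ k, Subgroup.zpow_mem_zpowers _ k⟩, ?_⟩
    change ((MulAction.toPerm g : Equiv.Perm α) ^ k) y = g ^ k • y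
    have : (MulAction.toPerm g : Equiv.Perm α) ^ k = MulAction.toPerm (g ^ k) :=
      (map_zpow (MulAction.toPermHom G α) g k).symm
    rw [this]
    rfl

theorem mga_card_orbits_toPerm {G α : Type*} [Group G] [MulAction G α] (g : G) :
    Nat.card (Quotient (MulAction.orbitRel (Subgroup.zpowers (MulAction.toPerm g : Equiv.Perm α)) α))
      = Nat.card (Quotient (MulAction.orbitRel (Subgroup.zpowers g) α)) :=
  Nat.card_congr (Quotient.congrRight fun x y => mga_orbitRel_toPerm g x y)

theorem mga_card_orbits_inv {G α : Type*} [Group G] [MulAction G α] (g : G) :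
    Nat.card (Quotient (MulAction.orbitRel (Subgroup.zpowers g⁻¹) α))
      = Nat.card (Quotient (MulAction.orbitRel (Subgroup.zpowers g) α)) := by
  rw [Subgroup.zpowers_inv]

/-- transitivity of the group generated by the permutations attached to `S`, `T`, `(S T)⁻¹`. -/
theorem mga_pretransitive (N : ℕ) :
    MulAction.IsPretransitive (Subgroup.closure
      ({(MulAction.toPerm ModularGroup.S : Equiv.Perm (s24Q N)),
        (MulAction.toPerm ModularGroup.T : Equiv.Perm (s24Q N)),
        (MulAction.toPerm (ModularGroup.S * ModularGroup.T)⁻¹ : Equiv.Perm (s24Q N))} :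
        Set (Equiv.Perm (s24Q N)))) (s24Q N) := by
  set C := Subgroup.closure
      ({(MulAction.toPerm ModularGroup.S : Equiv.Perm (s24Q N)),
        (MulAction.toPerm ModularGroup.T : Equiv.Perm (s24Q N)),
        (MulAction.toPerm (ModularGroup.S * ModularGroup.T)⁻¹ : Equiv.Perm (s24Q N))} :
        Set (Equiv.Perm (s24Q N))) with hC
  have hmem : ∀ g : SL(2, ℤ), (MulAction.toPerm g : Equiv.Perm (s24Q N)) ∈ C := by
    intro g
    have hg : g ∈ Subgroup.closure ({ModularGroup.S, ModularGroup.T} : Set SL(2, ℤ)) := by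
      rw [SpecialLinearGroup.SL2Z_generators]
      exact Subgroup.mem_top g
    have hle : Subgroup.closure ({ModularGroup.S, ModularGroup.T} : Set SL(2, ℤ))
        ≤ C.comap (MulAction.toPermHom SL(2, ℤ) (s24Q N)) := by
      rw [Subgroup.closure_le]
      rintro x (rfl | rfl)
      · exact Subgroup.subset_closure (by simp)
      · exact Subgroup.subset_closure (by simp)
    exact hle hg
  refine ⟨fun x y => ?_⟩
  obtain ⟨g, rfl⟩ := QuotientGroup.mk_surjective x
  obtain ⟨g', rfl⟩ := QuotientGroup.mk_surjective y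
  refine ⟨⟨MulAction.toPerm (g' * g⁻¹), hmem _⟩, ?_⟩
  change (g' * g⁻¹) • (g : s24Q N) = (g' : s24Q N)
  rw [MulAction.Quotient.smul_mk, smul_eq_mul, inv_mul_cancel_right]

/-- **MG-GENUS**, with the inputs as hypotheses. -/
theorem mga_genusFormula_of (N : ℕ) [NeZero N]
    (hcard : Nat.card (s24Q N) = dedekindPsi N)
    (hS : 2 * Nat.card (Quotient (s24Orb N ModularGroup.S)) = dedekindPsi N + nuTwo N)
    (hST : 3 * Nat.card (Quotient (s24Orb N (ModularGroup.S * ModularGroup.T)))
      = dedekindPsi N + 2 * nuThree N)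
    (hT : Nat.card (Quotient (s24Orb N ModularGroup.T)) = cuspCount N)
    (hree : ∀ (a b c : Equiv.Perm (s24Q N)), a * b * c = 1 →
      MulAction.IsPretransitive (Subgroup.closure ({a, b, c} : Set (Equiv.Perm (s24Q N))))
        (s24Q N) →
      ∃ g : ℕ, (Fintype.card (s24Q N) : ℤ) + 2
        - Nat.card (Quotient (MulAction.orbitRel (Subgroup.zpowers a) (s24Q N)))
        - Nat.card (Quotient (MulAction.orbitRel (Subgroup.zpowers b) (s24Q N)))
        - Nat.card (Quotient (MulAction.orbitRel (Subgroup.zpowers c) (s24Q N))) = 2 * (g : ℤ)) :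
    ∃ g : ℕ, (g : ℚ) = genusFormula N ∧
      (2 * (g : ℤ) - 2) =
        ((dedekindPsi N : ℤ) - Nat.card (Quotient (s24Orb N (ModularGroup.S * ModularGroup.T))))
        + ((dedekindPsi N : ℤ) - Nat.card (Quotient (s24Orb N ModularGroup.S)))
        - (dedekindPsi N : ℤ) - Nat.card (Quotient (s24Orb N ModularGroup.T)) := by
  have habc : (MulAction.toPerm ModularGroup.S : Equiv.Perm (s24Q N)) *
      (MulAction.toPerm ModularGroup.T : Equiv.Perm (s24Q N)) *
      (MulAction.toPerm (ModularGroup.S * ModularGroup.T)⁻¹ : Equiv.Perm (s24Q N)) = 1 := by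
    have h1 := map_mul (MulAction.toPermHom SL(2, ℤ) (s24Q N)) ModularGroup.S ModularGroup.T
    have h2 := map_mul (MulAction.toPermHom SL(2, ℤ) (s24Q N))
      (ModularGroup.S * ModularGroup.T) (ModularGroup.S * ModularGroup.T)⁻¹
    rw [mul_inv_cancel, map_one] at h2
    change MulAction.toPermHom SL(2, ℤ) (s24Q N) ModularGroup.S *
      MulAction.toPermHom SL(2, ℤ) (s24Q N) ModularGroup.T *
      MulAction.toPermHom SL(2, ℤ) (s24Q N) (ModularGroup.S * ModularGroup.T)⁻¹ = 1
    rw [← h1, ← h2]
  obtain ⟨g, hg⟩ := hree _ _ _ habc (mga_pretransitive N)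
  rw [mga_card_orbits_toPerm, mga_card_orbits_toPerm, mga_card_orbits_toPerm,
    mga_card_orbits_inv, ← Nat.card_eq_fintype_card, hcard] at hg
  change (dedekindPsi N : ℤ) + 2 - Nat.card (Quotient (s24Orb N ModularGroup.S))
    - Nat.card (Quotient (s24Orb N ModularGroup.T))
    - Nat.card (Quotient (s24Orb N (ModularGroup.S * ModularGroup.T))) = 2 * (g : ℤ) at hg
  refine ⟨g, ?_, by linarith⟩
  unfold genusFormula
  have hSq : (2 : ℚ) * (Nat.card (Quotient (s24Orb N ModularGroup.S)) : ℚ)
      = dedekindPsi N + nuTwo N := by exact_mod_cast hS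
  have hSTq : (3 : ℚ) * (Nat.card (Quotient (s24Orb N (ModularGroup.S * ModularGroup.T))) : ℚ)
      = dedekindPsi N + 2 * nuThree N := by exact_mod_cast hST
  have hTq : (Nat.card (Quotient (s24Orb N ModularGroup.T)) : ℚ) = cuspCount N := by
    exact_mod_cast hT
  have hgq : (dedekindPsi N : ℚ) + 2 - Nat.card (Quotient (s24Orb N ModularGroup.S))
      - Nat.card (Quotient (s24Orb N ModularGroup.T))
      - Nat.card (Quotient (s24Orb N (ModularGroup.S * ModularGroup.T))) = 2 * (g : ℚ) := by
    exact_mod_cast hg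
  linarith

end Fermat.Agent.S24

end
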