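import Mathlib
import Fermat.Prelude.Def_AlgebraicCurve_CanonicalDivisor

/-!
# S24, package ALG-H: the Hurwitz degree formula and the genus

Generic algebra.  `K` a field, `F ⊇ K` a field, `x : F`.  All inputs from the packages ALG-A
(places, fundamental identity, principal divisors) and ALG-D (differentials) are collected in the
`Prop`-valued structure `HurData K F x n` (`n = [F : K(x)]`), so that this file is independent of
those packages.  Main results:

* `hur_degree_canonical` : `deg (div ω) = ∑ a ∈ A, (n - #{v | x = a}) - n - #{poles of x}`;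
* `hur_genus`            : the genus, when the right hand side is `2 g - 2`.
-/

set_option autoImplicit false

noncomputable section

namespace Fermat.Agent.S24

open AlgebraicCurve KaehlerDifferential

variable {K F : Type*} [Field K] [Field F] [Algebra K F]

/-- The inputs of the Hurwitz formula (all provided by ALG-A and ALG-D). -/
structure HurData (K F : Type*) [Field K] [Field F] [Algebra K F] (x : F) (n : ℕ) : Prop where
  n_pos : 0 < n
  deg_one : ∀ v : Place K F, v.deg = 1
  ord_const : ∀ (v : Place K F) (a : K), v.ord (algebraMap K F a) = 0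
  exists_value : ∀ v : Place K F, 0 ≤ v.ord x → ∃ a : K, 0 < v.ord (x - algebraMap K F a)
  finite_zeros : ∀ a : K, {v : Place K F | 0 < v.ord (x - algebraMap K F a)}.Finite
  sum_zeros : ∀ a : K,
    ∑ᶠ v ∈ {v : Place K F | 0 < v.ord (x - algebraMap K F a)}, v.ord (x - algebraMap K F a)
      = (n : ℤ)
  finite_poles : {v : Place K F | v.ord x < 0}.Finite
  sum_poles : ∑ᶠ v ∈ {v : Place K F | v.ord x < 0}, (- v.ord x) = (n : ℤ)
  principal : HasPrincipalDivisors K F
  nontrivial : Nontrivial (Ω[F⁄K])
  generates : ∀ v : Place K F, v.DCoordGenerates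
  ord_d_zero : ∀ (v : Place K F) (a : K), 0 < v.ord (x - algebraMap K F a) →
    v.ordDifferential (KaehlerDifferential.D K F x) = v.ord (x - algebraMap K F a) - 1
  ord_d_pole : ∀ v : Place K F, v.ord x < 0 →
    v.ordDifferential (KaehlerDifferential.D K F x) = v.ord x - 1
  coeff_ne : ∀ v : Place K F, v.differentialCoeff (KaehlerDifferential.D K F x) ≠ 0

/-! ### valuation lemmas for `Place.ord` -/

theorem hur_ord_pos_iff (v : Place K F) {f : F} (hf : f ≠ 0) :
    0 < v.ord f ↔ v.adicValuation f < 1 := by
  have h0 : v.adicValuation f ≠ 0 := v.adicValuation_ne_zero hf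
  unfold Place.ord
  rw [neg_pos, ← WithZero.log_one, WithZero.log_lt_log h0 one_ne_zero]

theorem hur_ord_neg_iff (v : Place K F) {f : F} (hf : f ≠ 0) :
    v.ord f < 0 ↔ 1 < v.adicValuation f := by
  have h0 : v.adicValuation f ≠ 0 := v.adicValuation_ne_zero hf
  unfold Place.ord
  rw [neg_lt_zero, ← WithZero.log_one, WithZero.log_lt_log one_ne_zero h0]

theorem hur_ne_zero_of_ord_ne (v : Place K F) {f : F} (hf : v.ord f ≠ 0) : f ≠ 0 := by
  rintro rfl
  exact hf v.ord_zero

theorem hur_val_const_le_one {x : F} {n : ℕ} (h : HurData K F x n) (v : Place K F) (a : K) :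
    v.adicValuation (algebraMap K F a) ≤ 1 := by
  by_cases ha : algebraMap K F a = 0
  · rw [ha, map_zero]
    exact zero_le_one
  · have h1 : ¬ 0 < v.ord (algebraMap K F a) := by rw [h.ord_const v a]; exact lt_irrefl 0
    have h2 : ¬ v.ord (algebraMap K F a) < 0 := by rw [h.ord_const v a]; exact lt_irrefl 0
    rw [hur_ord_neg_iff v ha] at h2
    exact not_lt.mp h2

/-- a place is a zero of `x - a` for at most one `a`. -/
theorem hur_value_unique {x : F} {n : ℕ} (h : HurData K F x n) (v : Place K F) {a b : K}
    (ha : 0 < v.ord (x - algebraMap K F a)) (hb : 0 < v.ord (x - algebraMap K F b)) : a = b := by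
  by_contra hab
  have hne : algebraMap K F (a - b) ≠ 0 := by
    rw [Ne, map_eq_zero_iff _ (algebraMap K F).injective]
    exact sub_ne_zero.mpr hab
  have ha' := (hur_ord_pos_iff v (hur_ne_zero_of_ord_ne v ha.ne')).mp ha
  have hb' := (hur_ord_pos_iff v (hur_ne_zero_of_ord_ne v hb.ne')).mp hb
  have hsub : algebraMap K F (a - b) = (x - algebraMap K F b) - (x - algebraMap K F a) := by
    rw [map_sub]; ring
  have hlt : v.adicValuation (algebraMap K F (a - b)) < 1 := by
    rw [hsub]
    exact lt_of_le_of_lt (Valuation.map_sub _ _ _) (max_lt hb' ha')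
  have hpos : 0 < v.ord (algebraMap K F (a - b)) := (hur_ord_pos_iff v hne).mpr hlt
  rw [h.ord_const v (a - b)] at hpos
  exact lt_irrefl 0 hpos

/-- a pole of `x` is not a zero of any `x - a`. -/
theorem hur_not_pole_of_zero {x : F} {n : ℕ} (h : HurData K F x n) (v : Place K F) {a : K}
    (ha : 0 < v.ord (x - algebraMap K F a)) : ¬ v.ord x < 0 := by
  intro hx
  have hx0 : x ≠ 0 := hur_ne_zero_of_ord_ne v hx.ne
  have ha' := (hur_ord_pos_iff v (hur_ne_zero_of_ord_ne v ha.ne')).mp ha
  have hx' := (hur_ord_neg_iff v hx0).mp hx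
  have hsum : x = (x - algebraMap K F a) + algebraMap K F a := by ring
  have hle : v.adicValuation x ≤ 1 := by
    rw [hsum]
    exact le_trans (Valuation.map_add _ _ _) (max_le ha'.le (hur_val_const_le_one h v a))
  exact absurd hx' (not_lt.mpr hle)

/-! ### the divisor of `dx` -/

theorem hur_D_ne_zero {x : F} {n : ℕ} (h : HurData K F x n) (v : Place K F) :
    KaehlerDifferential.D K F x ≠ 0 := by
  intro h0
  haveI := h.nontrivial
  haveI := h.generates v
  exact h.coeff_ne v (by rw [h0]; exact v.differentialCoeff_zero)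

theorem hur_exists_place {x : F} {n : ℕ} (h : HurData K F x n) : Nonempty (Place K F) := by
  by_contra hne
  rw [not_nonempty_iff] at hne
  have hs := h.sum_poles
  have : (∑ᶠ v ∈ {v : Place K F | v.ord x < 0}, (- v.ord x)) = 0 := by
    apply finsum_eq_zero_of_forall_eq_zero
    intro v
    exact (hne.false v).elim
  rw [this] at hs
  have := h.n_pos
  omega

section degree

variable {x : F} {n : ℕ} [HasCanonicalDivisor (K := K) (F := F)]

/-- the value of the divisor of `dx` at a place. -/
theorem hur_div_dx_apply (h : HurData K F x n) (hdx : KaehlerDifferential.D K F x ≠ 0)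
    (A : Finset K)
    (hA : ∀ a : K, a ∉ A → ∀ v : Place K F, 0 < v.ord (x - algebraMap K F a) →
      v.ord (x - algebraMap K F a) = 1) (v : Place K F) :
    canonicalDivisorOf hdx v =
      (if v.ord x < 0 then v.ord x - 1 else 0) +
        ∑ a ∈ A, (if 0 < v.ord (x - algebraMap K F a)
          then v.ord (x - algebraMap K F a) - 1 else 0) := by
  classical
  rw [canonicalDivisorOf_apply]
  by_cases hp : v.ord x < 0
  · rw [if_pos hp, h.ord_d_pole v hp]
    have : ∑ a ∈ A, (if 0 < v.ord (x - algebraMap K F a)
          then v.ord (x - algebraMap K F a) - 1 else 0) = 0 := by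
      apply Finset.sum_eq_zero
      intro a _
      rw [if_neg]
      intro ha
      exact hur_not_pole_of_zero h v ha hp
    rw [this, add_zero]
  · rw [if_neg hp, zero_add]
    obtain ⟨a, ha⟩ := h.exists_value v (not_lt.mp hp)
    rw [h.ord_d_zero v a ha]
    by_cases haA : a ∈ A
    · rw [Finset.sum_eq_single_of_mem a haA, if_pos ha]
      intro b _ hba
      rw [if_neg]
      intro hb
      exact hba (hur_value_unique h v hb ha)
    · rw [hA a haA v ha, sub_self]
      symm
      apply Finset.sum_eq_zero
      intro b hb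
      rw [if_neg]
      intro hb'
      exact haA (hur_value_unique h v ha hb' ▸ hb)

omit [HasCanonicalDivisor (K := K) (F := F)] in
theorem hur_card_eq (s : Set (Place K F)) (hs : s.Finite) :
    (Nat.card {v : Place K F // v ∈ s}) = hs.toFinset.card := by
  rw [← Set.ncard_eq_toFinset_card s hs]
  exact Nat.card_coe_set_eq s

/-- the degree of the divisor of `dx`. -/
theorem hur_degree_dx (h : HurData K F x n) (hdx : KaehlerDifferential.D K F x ≠ 0)
    (A : Finset K)
    (hA : ∀ a : K, a ∉ A → ∀ v : Place K F, 0 < v.ord (x - algebraMap K F a) →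
      v.ord (x - algebraMap K F a) = 1) :
    Divisor.degree (canonicalDivisorOf hdx)
      = ∑ a ∈ A, ((n : ℤ)
            - (Nat.card {v : Place K F // 0 < v.ord (x - algebraMap K F a)} : ℤ))
        - (n : ℤ)
        - (Nat.card {v : Place K F // v.ord x < 0} : ℤ) := by
  classical
  set D := canonicalDivisorOf hdx with hD
  set P : Finset (Place K F) := h.finite_poles.toFinset with hP
  set T : K → Finset (Place K F) := fun a => (h.finite_zeros a).toFinset with hT
  set U : Finset (Place K F) := P ∪ A.biUnion T with hU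
  have hmemP : ∀ v, v ∈ P ↔ v.ord x < 0 := fun v => by
    rw [hP, Set.Finite.mem_toFinset]; rfl
  have hmemT : ∀ a v, v ∈ T a ↔ 0 < v.ord (x - algebraMap K F a) := fun a v => by
    rw [hT]
    simp only [Set.Finite.mem_toFinset]
    rfl
  -- support
  have hsupp : D.support ⊆ U := by
    intro v hv
    rw [Finsupp.mem_support_iff] at hv
    by_contra hvU
    apply hv
    rw [hD, hur_div_dx_apply h hdx A hA v]
    have h1 : ¬ v.ord x < 0 := fun hp => hvU (Finset.mem_union_left _ ((hmemP v).mpr hp))
    rw [if_neg h1, zero_add]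
    apply Finset.sum_eq_zero
    intro a ha
    rw [if_neg]
    intro hpos
    exact hvU (Finset.mem_union_right _ (Finset.mem_biUnion.mpr ⟨a, ha, (hmemT a v).mpr hpos⟩))
  -- degree as a sum over `U`
  have hdeg : Divisor.degree D = ∑ v ∈ U, D v := by
    have h1 : Divisor.degree D = D.sum fun v m => m * (v.deg : ℤ) := by
      simp [Divisor.degree, Finsupp.liftAddHom_apply]
    rw [h1, Finsupp.sum_of_support_subset D hsupp _ (fun v _ => by simp)]
    refine Finset.sum_congr rfl fun v _ => ?_
    rw [h.deg_one v]
    simp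
  rw [hdeg]
  -- expand
  have hexp : ∀ v, D v = (if v ∈ P then v.ord x - 1 else 0) +
      ∑ a ∈ A, (if v ∈ T a then v.ord (x - algebraMap K F a) - 1 else 0) := by
    intro v
    rw [hD, hur_div_dx_apply h hdx A hA v]
    congr 1
    · by_cases hp : v.ord x < 0
      · rw [if_pos hp, if_pos ((hmemP v).mpr hp)]
      · rw [if_neg hp, if_neg (fun hh => hp ((hmemP v).mp hh))]
    · refine Finset.sum_congr rfl fun a _ => ?_
      by_cases hp : 0 < v.ord (x - algebraMap K F a)
      · rw [if_pos hp, if_pos ((hmemT a v).mpr hp)]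
      · rw [if_neg hp, if_neg (fun hh => hp ((hmemT a v).mp hh))]
  rw [Finset.sum_congr rfl fun v _ => hexp v, Finset.sum_add_distrib, Finset.sum_comm]
  -- the pole part
  have hpole : ∑ v ∈ U, (if v ∈ P then v.ord x - 1 else 0)
      = - (n : ℤ) - (Nat.card {v : Place K F // v.ord x < 0} : ℤ) := by
    rw [← Finset.sum_filter]
    have hfil : U.filter (fun v => v ∈ P) = P := by
      ext v
      simp only [Finset.mem_filter, hU, Finset.mem_union]
      tauto
    rw [hfil, Finset.sum_sub_distrib]
    have hsp := h.sum_poles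
    rw [finsum_mem_eq_finite_toFinset_sum _ h.finite_poles, Finset.sum_neg_distrib] at hsp
    have hcard := hur_card_eq {v : Place K F | v.ord x < 0} h.finite_poles
    simp only [Set.mem_ofPred_eq] at hcard
    rw [hcard]
    simp only [Finset.sum_const, nsmul_eq_mul, mul_one]
    rw [← hP]
    rw [← hP] at hsp
    linarith
  have hzero : ∀ a ∈ A, ∑ v ∈ U, (if v ∈ T a then v.ord (x - algebraMap K F a) - 1 else 0)
      = (n : ℤ) - (Nat.card {v : Place K F // 0 < v.ord (x - algebraMap K F a)} : ℤ) := by
    intro a ha
    rw [← Finset.sum_filter]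
    have hfil : U.filter (fun v => v ∈ T a) = T a := by
      ext v
      simp only [Finset.mem_filter, hU, Finset.mem_union, Finset.mem_biUnion]
      constructor
      · exact fun hh => hh.2
      · exact fun hh => ⟨Or.inr ⟨a, ha, hh⟩, hh⟩
    rw [hfil, Finset.sum_sub_distrib]
    have hsz := h.sum_zeros a
    rw [finsum_mem_eq_finite_toFinset_sum _ (h.finite_zeros a)] at hsz
    have hcard := hur_card_eq {v : Place K F | 0 < v.ord (x - algebraMap K F a)}
      (h.finite_zeros a)
    simp only [Set.mem_ofPred_eq] at hcard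
    rw [hcard]
    simp only [Finset.sum_const, nsmul_eq_mul, mul_one]
    have : T a = (h.finite_zeros a).toFinset := rfl
    rw [← this] at hsz ⊢
    rw [hsz]
  rw [hpole, Finset.sum_congr rfl hzero]
  ring

/-- **Hurwitz**: the degree of the divisor of any nonzero differential. -/
theorem hur_degree_canonical (h : HurData K F x n) (A : Finset K)
    (hA : ∀ a : K, a ∉ A → ∀ v : Place K F, 0 < v.ord (x - algebraMap K F a) →
      v.ord (x - algebraMap K F a) = 1)
    {ω : Ω[F⁄K]} (hω : ω ≠ 0) :
    Divisor.degree (canonicalDivisorOf hω)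
      = ∑ a ∈ A, ((n : ℤ)
            - (Nat.card {v : Place K F // 0 < v.ord (x - algebraMap K F a)} : ℤ))
        - (n : ℤ)
        - (Nat.card {v : Place K F // v.ord x < 0} : ℤ) := by
  classical
  obtain ⟨v0⟩ := hur_exists_place h
  have hdx : KaehlerDifferential.D K F x ≠ 0 := hur_D_ne_zero h v0
  haveI := h.nontrivial
  -- `ω = c • dx`
  obtain ⟨c, hc0, hc⟩ : ∃ c : F, c ≠ 0 ∧ ω = c • KaehlerDifferential.D K F x := by
    haveI := h.generates v0
    refine ⟨v0.differentialCoeff ω / v0.differentialCoeff (KaehlerDifferential.D K F x), ?_, ?_⟩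
    · apply div_ne_zero _ (h.coeff_ne v0)
      intro h0
      apply hω
      rw [← v0.differentialCoeff_smul_dCoord ω, h0, zero_smul]
    · have h1 : v0.differentialCoeff (KaehlerDifferential.D K F x) • v0.dCoord
          = KaehlerDifferential.D K F x := v0.differentialCoeff_smul_dCoord _
      have h2 : v0.differentialCoeff ω • v0.dCoord = ω := v0.differentialCoeff_smul_dCoord _
      calc ω = v0.differentialCoeff ω • v0.dCoord := h2.symm
        _ = ((v0.differentialCoeff ω / v0.differentialCoeff (KaehlerDifferential.D K F x))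
              * v0.differentialCoeff (KaehlerDifferential.D K F x)) • v0.dCoord := by
            rw [div_mul_cancel₀ _ (h.coeff_ne v0)]
        _ = (v0.differentialCoeff ω / v0.differentialCoeff (KaehlerDifferential.D K F x))
              • KaehlerDifferential.D K F x := by
            rw [mul_smul, h1]
  obtain ⟨Dc, hDc, hDc0⟩ := h.principal.exists_divisor c hc0
  have heq : canonicalDivisorOf hω = Dc + canonicalDivisorOf hdx := by
    ext v
    haveI := h.generates v
    rw [Finsupp.add_apply, canonicalDivisorOf_apply, canonicalDivisorOf_apply, hDc v, hc,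
      v.ordDifferential_smul hc0 (h.coeff_ne v)]
  rw [heq, map_add, hDc0, zero_add, hur_degree_dx h hdx A hA]

/-- the genus. -/
theorem hur_genus (h : HurData K F x n) (A : Finset K)
    (hA : ∀ a : K, a ∉ A → ∀ v : Place K F, 0 < v.ord (x - algebraMap K F a) →
      v.ord (x - algebraMap K F a) = 1)
    (g : ℕ)
    (hg : (2 * (g : ℤ) - 2)
      = ∑ a ∈ A, ((n : ℤ)
            - (Nat.card {v : Place K F // 0 < v.ord (x - algebraMap K F a)} : ℤ))
        - (n : ℤ)
        - (Nat.card {v : Place K F // v.ord x < 0} : ℤ)) :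
    genus K F = g := by
  classical
  obtain ⟨v0⟩ := hur_exists_place h
  have hex : ∃ ω : Ω[F⁄K], ω ≠ 0 := ⟨_, hur_D_ne_zero h v0⟩
  unfold genus
  rw [dif_pos hex, hur_degree_canonical h A hA hex.choose_spec, ← hg]
  have : (2 * (g : ℤ) - 2 + 2).toNat = 2 * g := by omega
  rw [this]
  omega

end degree

end Fermat.Agent.S24

end
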