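import Mathlib
import Fermat.Agent.S24.Defs
import Fermat.Agent.S24.Hurwitz
import Fermat.Agent.S24.GenusArith

/-!
# S24, package ASM: assembly

`asm24_genus_of` : the genus of `F` from the Hurwitz data, the numbers of places over
`j = 0, 1728, ∞`, unramifiedness elsewhere, and the arithmetic of the genus formula.
`asm24_main_of`  : the same with the place counts produced by the counting theorem
(package ALG-CT) applied to the four kinds of `CountingData` (package ANA).
-/

set_option autoImplicit false

noncomputable section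

namespace Fermat.Agent.S24

open AlgebraicCurve KaehlerDifferential IntermediateField ModularCurve
open scoped MatrixGroups

section generic

variable {K F : Type*} [Field K] [Field F] [Algebra K F]

/-- the genus from place counts over `0`, `c`, `∞` (`c ≠ 0`). -/
theorem asm24_genus_of [HasCanonicalDivisor (K := K) (F := F)] (x : F) (n : ℕ)
    (hd : HurData K F x n) (c : K) (hc : c ≠ 0)
    (hgen : ∀ a : K, a ≠ 0 → a ≠ c → ∀ v : Place K F,
      0 < v.ord (x - algebraMap K F a) → v.ord (x - algebraMap K F a) = 1)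
    (r0 rc rinf : ℕ)
    (h0 : Nat.card {v : Place K F // 0 < v.ord (x - algebraMap K F 0)} = r0)
    (h1 : Nat.card {v : Place K F // 0 < v.ord (x - algebraMap K F c)} = rc)
    (hinf : Nat.card {v : Place K F // v.ord x < 0} = rinf)
    (g : ℕ)
    (hg : (2 * (g : ℤ) - 2) = ((n : ℤ) - r0) + ((n : ℤ) - rc) - (n : ℤ) - rinf) :
    genus K F = g := by
  classical
  refine hur_genus hd {0, c} ?_ g ?_
  · intro a ha v hv
    simp only [Finset.mem_insert, Finset.mem_singleton, not_or] at ha
    exact hgen a ha.1 ha.2 v hv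
  · rw [Finset.sum_pair hc.symm, h0, h1, hinf]
    exact hg

/-- the shape of the conclusion of the counting theorem. -/
def AsmCounting (K F : Type*) [Field K] [Field F] [Algebra K F] (x y : F)
    (Q : Type) [Fintype Q] (r : Setoid Q) : Prop :=
  Module.finrank K⟮x⟯ F = Fintype.card Q ∧
    ∃ e : {v : Place K F // 0 < v.ord y} ≃ Quotient r,
      ∀ v q, e v = Quotient.mk r q → v.1.ord y = (Nat.card {q' // r.r q q'} : ℤ)

theorem asm24_card_of_counting {x y : F} {Q : Type} [Fintype Q] {r : Setoid Q}
    (h : AsmCounting K F x y Q r) :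
    Nat.card {v : Place K F // 0 < v.ord y} = Nat.card (Quotient r) := by
  obtain ⟨-, e, -⟩ := h
  exact Nat.card_congr e

theorem asm24_ord_of_counting {x y : F} {Q : Type} [Fintype Q] {r : Setoid Q}
    (h : AsmCounting K F x y Q r) (hr : ∀ q, Nat.card {q' // r.r q q'} ∣ 1)
    (v : Place K F) (hv : 0 < v.ord y) : v.ord y = 1 := by
  obtain ⟨-, e, he⟩ := h
  obtain ⟨q, hq⟩ := Quotient.exists_rep (e ⟨v, hv⟩)
  have h1 := he ⟨v, hv⟩ q hq.symm
  have h2 : Nat.card {q' // r.r q q'} = 1 := Nat.dvd_one.mp (hr q)
  rw [h1, h2]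
  rfl

end generic

/-- the orbits of the trivial group are singletons. -/
theorem asm24_orb_one_card (N : ℕ) (q : s24Q N) :
    Nat.card {q' // (s24Orb N 1).r q q'} ∣ 1 := by
  have : Subsingleton {q' // (s24Orb N 1).r q q'} := by
    refine ⟨fun a b => Subtype.ext ?_⟩
    have key : ∀ q' : s24Q N, (s24Orb N 1).r q q' → q' = q := by
      intro q' h
      change q ∈ MulAction.orbit _ q' at h
      obtain ⟨⟨p, hp⟩, rfl⟩ := h
      rw [Subgroup.zpowers_one_eq_bot, Subgroup.mem_bot] at hp
      subst hp
      exact (one_smul _ q').symm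
    rw [key a.1 a.2, key b.1 b.2]
  haveI : Nonempty {q' // (s24Orb N 1).r q q'} := ⟨⟨q, Setoid.refl' _ q⟩⟩
  rw [Nat.card_unique]

/-- **ASM**, all inputs as hypotheses: Hurwitz data for `j`, the conclusion of the counting theorem
at the four kinds of points, and the arithmetic of the genus formula. -/
theorem asm24_main_of (N : ℕ) [NeZero N]
    [HasCanonicalDivisor (K := s24K) (F := s24F N)]
    (hd : HurData s24K (s24F N) (s24j N) (Module.finrank s24K⟮s24j N⟯ (s24F N)))
    (hcard : Nat.card (s24Q N) = dedekindPsi N)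
    (c0 : AsmCounting s24K (s24F N) (s24j N) (s24j N) (s24Q N)
      (s24Orb N (ModularGroup.S * ModularGroup.T)))
    (c1 : AsmCounting s24K (s24F N) (s24j N) (s24j N - algebraMap s24K (s24F N) 1728) (s24Q N)
      (s24Orb N ModularGroup.S))
    (cgen : ∀ a : s24K, a ≠ 0 → a ≠ 1728 →
      AsmCounting s24K (s24F N) (s24j N) (s24j N - algebraMap s24K (s24F N) a) (s24Q N)
        (s24Orb N 1))
    (cinf : AsmCounting s24K (s24F N) (s24j N) (s24j N)⁻¹ (s24Q N) (s24Orb N ModularGroup.T))
    (hg : ∃ g : ℕ, (g : ℚ) = genusFormula N ∧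
      (2 * (g : ℤ) - 2) =
        ((dedekindPsi N : ℤ) - Nat.card (Quotient (s24Orb N (ModularGroup.S * ModularGroup.T))))
        + ((dedekindPsi N : ℤ) - Nat.card (Quotient (s24Orb N ModularGroup.S)))
        - (dedekindPsi N : ℤ) - Nat.card (Quotient (s24Orb N ModularGroup.T))) :
    (genus s24K (s24F N) : ℚ) = genusFormula N := by
  obtain ⟨g, hgq, hgz⟩ := hg
  have hn : Module.finrank s24K⟮s24j N⟯ (s24F N) = dedekindPsi N := by
    rw [c0.1, ← Nat.card_eq_fintype_card, hcard]
  have h1728 : (1728 : s24K) ≠ 0 := by norm_num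
  have key : genus s24K (s24F N) = g := by
    refine asm24_genus_of (s24j N) _ hd 1728 h1728 ?_
      (Nat.card (Quotient (s24Orb N (ModularGroup.S * ModularGroup.T))))
      (Nat.card (Quotient (s24Orb N ModularGroup.S)))
      (Nat.card (Quotient (s24Orb N ModularGroup.T))) ?_ ?_ ?_ g ?_
    · intro a ha0 ha1 v hv
      exact asm24_ord_of_counting (cgen a ha0 ha1) (asm24_orb_one_card N) v hv
    · have h0 : s24j N - algebraMap s24K (s24F N) 0 = s24j N := by
        rw [map_zero, sub_zero]
      rw [h0]
      exact asm24_card_of_counting c0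
    · exact asm24_card_of_counting c1
    · have := asm24_card_of_counting cinf
      rw [← this]
      refine Nat.card_congr (Equiv.subtypeEquivRight fun v => ?_)
      rw [Place.ord_inv, neg_pos]
    · rw [hn]
      exact hgz
  rw [key, hgq]

end Fermat.Agent.S24

end
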