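import Fermat.Agent.S24.Defs
import Fermat.Agent.S24.Ree

/-!
# S24, MG-REE instantiated at `SL(2,ℤ) ⧸ Γ₀(N)`

The orbit counts of `S * T`, `S`, `T` on the coset space satisfy Ree's inequality and parity:
`|Q| + 2 - #orb(S * T) - #orb(S) - #orb(T)` is a nonnegative even integer.
-/

set_option autoImplicit false

namespace Fermat.Agent.S24

open scoped MatrixGroups
open ModularGroup

theorem ree_toPerm_zpow {G X : Type*} [Group G] [MulAction G X] (c : G) (i : ℤ) :
    (MulAction.toPerm c : Equiv.Perm X) ^ i = MulAction.toPerm (c ^ i) := by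
  rw [← MulAction.toPermHom_apply, ← map_zpow]
  rfl

/-- The orbit relation of `zpowers c` on the coset space equals the orbit relation of the cyclic
group generated by the induced permutation. -/
theorem ree_orbitRel_s24 (N : ℕ) (c : SL(2, ℤ)) (x y : s24Q N) :
    (MulAction.orbitRel (Subgroup.zpowers (MulAction.toPerm c : Equiv.Perm (s24Q N)))
      (s24Q N)) x y ↔ (s24Orb N c) x y := by
  rw [MulAction.orbitRel_apply, MulAction.orbitRel_apply, MulAction.mem_orbit_iff,
    MulAction.mem_orbit_iff]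
  constructor
  · rintro ⟨⟨g, hg⟩, rfl⟩
    obtain ⟨i, rfl⟩ := Subgroup.mem_zpowers_iff.mp hg
    refine ⟨⟨c ^ i, Subgroup.zpow_mem_zpowers c i⟩, ?_⟩
    show c ^ i • y = ((MulAction.toPerm c : Equiv.Perm (s24Q N)) ^ i) y
    rw [ree_toPerm_zpow]
    rfl
  · rintro ⟨⟨g, hg⟩, rfl⟩
    obtain ⟨i, rfl⟩ := Subgroup.mem_zpowers_iff.mp hg
    refine ⟨⟨(MulAction.toPerm c : Equiv.Perm (s24Q N)) ^ i, Subgroup.zpow_mem_zpowers _ i⟩, ?_⟩
    show ((MulAction.toPerm c : Equiv.Perm (s24Q N)) ^ i) y = c ^ i • y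
    rw [ree_toPerm_zpow]
    rfl

/-- Orbit counts of `c` and of the permutation induced by `c` agree. -/
theorem ree_card_orbits_s24 (N : ℕ) (c : SL(2, ℤ)) :
    Nat.card (Quotient (MulAction.orbitRel (Subgroup.zpowers
      (MulAction.toPerm c : Equiv.Perm (s24Q N))) (s24Q N)))
      = Nat.card (Quotient (s24Orb N c)) :=
  Nat.card_congr (Quotient.congrRight fun x y => ree_orbitRel_s24 N c x y)

/-- [MG-REE] at `SL(2,ℤ) ⧸ Γ₀(N)`. -/
theorem mg_ree_s24 (N : ℕ) [NeZero N] :
    ∃ g : ℕ, (Nat.card (s24Q N) : ℤ) + 2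
        - Nat.card (Quotient (s24Orb N (ModularGroup.S * ModularGroup.T)))
        - Nat.card (Quotient (s24Orb N ModularGroup.S))
        - Nat.card (Quotient (s24Orb N ModularGroup.T)) = 2 * (g : ℤ) := by
  classical
  set pS : Equiv.Perm (s24Q N) := MulAction.toPerm (ModularGroup.S : SL(2, ℤ)) with hpS
  set pT : Equiv.Perm (s24Q N) := MulAction.toPerm (ModularGroup.T : SL(2, ℤ)) with hpT
  set pU : Equiv.Perm (s24Q N) :=
    MulAction.toPerm ((ModularGroup.S * ModularGroup.T : SL(2, ℤ))⁻¹) with hpU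
  have hprod : pS * pT * pU = 1 := by
    rw [hpS, hpT, hpU, ← MulAction.toPermHom_apply, ← MulAction.toPermHom_apply,
      ← MulAction.toPermHom_apply, ← map_mul, ← map_mul, mul_inv_cancel, map_one]
  have htr : MulAction.IsPretransitive
      (Subgroup.closure ({pS, pT, pU} : Set (Equiv.Perm (s24Q N)))) (s24Q N) := by
    refine ⟨fun x y => ?_⟩
    obtain ⟨g, rfl⟩ := MulAction.exists_smul_eq (SL(2, ℤ)) x y
    have hg : g ∈ Subgroup.closure ({ModularGroup.S, ModularGroup.T} : Set SL(2, ℤ)) := by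
      rw [SpecialLinearGroup.SL2Z_generators]
      exact Subgroup.mem_top g
    have hmem : (MulAction.toPermHom SL(2, ℤ) (s24Q N)) g ∈
        Subgroup.closure ({pS, pT, pU} : Set (Equiv.Perm (s24Q N))) := by
      have h1 : (MulAction.toPermHom SL(2, ℤ) (s24Q N)) g ∈
          (Subgroup.closure ({ModularGroup.S, ModularGroup.T} : Set SL(2, ℤ))).map
            (MulAction.toPermHom SL(2, ℤ) (s24Q N)) := Subgroup.mem_map_of_mem _ hg
      rw [MonoidHom.map_closure] at h1
      refine Subgroup.closure_mono ?_ h1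
      rintro _ ⟨s, hs, rfl⟩
      rcases hs with rfl | rfl
      · exact Or.inl rfl
      · exact Or.inr (Or.inl rfl)
    exact ⟨⟨_, hmem⟩, rfl⟩
  obtain ⟨g, hg⟩ := mg_ree pS pT pU hprod htr
  refine ⟨g, ?_⟩
  rw [hpS, hpT, hpU, ree_card_orbits_s24, ree_card_orbits_s24, ree_card_orbits_s24] at hg
  have e3 : Nat.card (Quotient (s24Orb N ((ModularGroup.S * ModularGroup.T : SL(2, ℤ))⁻¹)))
      = Nat.card (Quotient (s24Orb N (ModularGroup.S * ModularGroup.T))) := by
    refine Nat.card_congr (Quotient.congrRight fun x y => ?_)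
    show (MulAction.orbitRel _ _) x y ↔ (MulAction.orbitRel _ _) x y
    rw [MulAction.orbitRel_apply, MulAction.orbitRel_apply, MulAction.mem_orbit_iff,
      MulAction.mem_orbit_iff]
    constructor
    · rintro ⟨⟨g, hg⟩, rfl⟩
      rw [Subgroup.zpowers_inv] at hg
      exact ⟨⟨g, hg⟩, rfl⟩
    · rintro ⟨⟨g, hg⟩, rfl⟩
      rw [← Subgroup.zpowers_inv] at hg
      exact ⟨⟨g, hg⟩, rfl⟩
  rw [e3, ← Nat.card_eq_fintype_card] at hg
  linarith

end Fermat.Agent.S24
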