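import Fermat.Agent.S24.Defs

/-!
# S24 — SPECIFICATION of the packages (statements only, all `sorry`)

Never import this file from a finished module: each package re-proves its statements under the
same names in its own file (`Fermat/Agent/S24/<Package>.lean`, namespace `Fermat.Agent.S24`);
this file lives in namespace `Fermat.Agent.S24.Spec` so that there is no name clash.

`K` algebraically closed of characteristic 0, `F ⊇ K` a field, `x : F` transcendental over `K`
with `F` finite over `K(x)`.
-/

set_option autoImplicit false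

namespace Fermat.Agent.S24.Spec

open Fermat.Agent.S24
open AlgebraicCurve KaehlerDifferential IntermediateField
open scoped MatrixGroups

section generic

variable {K F : Type*} [Field K] [Field F] [Algebra K F] [IsAlgClosed K] [CharZero K]

/-! ## ALG-A : places, fundamental identity, principal divisors -/

/-- [ALG-A1] residue fields are `K`. -/
theorem alg_deg_eq_one (x : F) (hx : Transcendental K x) [FiniteDimensional K⟮x⟯ F]
    (v : Place K F) : v.deg = 1 := sorry

/-- [ALG-A2] a place is trivial on `K`. -/
theorem alg_ord_algebraMap (v : Place K F) (a : K) : v.ord (algebraMap K F a) = 0 := sorry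

/-- [ALG-A2'] the value of `y` at `v`. -/
theorem alg_exists_value (x : F) (hx : Transcendental K x) [FiniteDimensional K⟮x⟯ F]
    (v : Place K F) (y : F) (hy : 0 ≤ v.ord y) :
    ∃! a : K, y = algebraMap K F a ∨ 0 < v.ord (y - algebraMap K F a) := sorry

/-- [ALG-A3] zeros of `y - a`, `y ∉ K`: finitely many. -/
theorem alg_finite_zeros (x : F) (hx : Transcendental K x) [FiniteDimensional K⟮x⟯ F]
    (y : F) (hy : Transcendental K y) (a : K) :
    {v : Place K F | 0 < v.ord (y - algebraMap K F a)}.Finite := sorry

/-- [ALG-A3'] fundamental identity at a finite point. -/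
theorem alg_sum_zeros (x : F) (hx : Transcendental K x) [FiniteDimensional K⟮x⟯ F]
    (y : F) (hy : Transcendental K y) (a : K) :
    ∑ᶠ v ∈ {v : Place K F | 0 < v.ord (y - algebraMap K F a)}, v.ord (y - algebraMap K F a)
      = (Module.finrank K⟮y⟯ F : ℤ) := sorry

/-- [ALG-A4] poles of `y`: finitely many. -/
theorem alg_finite_poles (x : F) (hx : Transcendental K x) [FiniteDimensional K⟮x⟯ F]
    (y : F) (hy : Transcendental K y) :
    {v : Place K F | v.ord y < 0}.Finite := sorry

/-- [ALG-A4'] fundamental identity at infinity. -/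
theorem alg_sum_poles (x : F) (hx : Transcendental K x) [FiniteDimensional K⟮x⟯ F]
    (y : F) (hy : Transcendental K y) :
    ∑ᶠ v ∈ {v : Place K F | v.ord y < 0}, (- v.ord y) = (Module.finrank K⟮y⟯ F : ℤ) := sorry

/-- [ALG-A5] principal divisors exist and have degree 0. -/
theorem alg_hasPrincipalDivisors (x : F) (hx : Transcendental K x) [FiniteDimensional K⟮x⟯ F] :
    HasPrincipalDivisors K F := sorry

/-! ## ALG-D : differentials -/

/-- [ALG-D1] -/
theorem alg_nontrivial_kaehler (x : F) (hx : Transcendental K x) [FiniteDimensional K⟮x⟯ F] :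
    Nontrivial (Ω[F⁄K]) := sorry

/-- [ALG-D2] -/
theorem alg_dCoordGenerates (x : F) (hx : Transcendental K x) [FiniteDimensional K⟮x⟯ F]
    (v : Place K F) : v.DCoordGenerates := sorry

/-- [ALG-D3] order of `dy` at a zero of `y - a`. -/
theorem alg_ordDifferential_of_zero (x : F) (hx : Transcendental K x) [FiniteDimensional K⟮x⟯ F]
    (v : Place K F) (y : F) (a : K) (h : 0 < v.ord (y - algebraMap K F a)) :
    v.ordDifferential (KaehlerDifferential.D K F y) = v.ord (y - algebraMap K F a) - 1 := sorry

/-- [ALG-D4] order of `dy` at a pole of `y`. -/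
theorem alg_ordDifferential_of_pole (x : F) (hx : Transcendental K x) [FiniteDimensional K⟮x⟯ F]
    (v : Place K F) (y : F) (h : v.ord y < 0) :
    v.ordDifferential (KaehlerDifferential.D K F y) = v.ord y - 1 := sorry

/-- [ALG-D5] `differentialCoeff (dy) ≠ 0` for nonconstant `y`. -/
theorem alg_differentialCoeff_D_ne_zero (x : F) (hx : Transcendental K x)
    [FiniteDimensional K⟮x⟯ F] (v : Place K F) (y : F) (hy : Transcendental K y) :
    v.differentialCoeff (KaehlerDifferential.D K F y) ≠ 0 := sorry

/-! ## ALG-CT : the counting theorem -/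

/-- [ALG-CT] Counting theorem: `[F : K(x)] = |Q|`, and the zeros of `y` are in bijection with
the classes of `r`, with `ord_v y = size of the class`. -/
theorem alg_counting (x : F) (hx : Transcendental K x) [FiniteDimensional K⟮x⟯ F]
    (y : F) (hy : (∃ a : K, y = x - algebraMap K F a) ∨ y = x⁻¹)
    {Q : Type} [Fintype Q] (r : Setoid Q) (o : ℕ) (d : CountingData K F x y Q r o) :
    Module.finrank K⟮x⟯ F = Fintype.card Q ∧
    ∃ e : {v : Place K F // 0 < v.ord y} ≃ Quotient r,
      ∀ v q, e v = Quotient.mk r q → v.1.ord y = (Nat.card {q' // r.r q q'} : ℤ) := sorry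

/-! ## ALG-H : Hurwitz degree formula -/

/-- [ALG-H] the degree of any canonical divisor. -/
theorem alg_degree_canonical (x : F) (hx : Transcendental K x) [FiniteDimensional K⟮x⟯ F]
    [HasCanonicalDivisor (K := K) (F := F)]
    (A : Finset K)
    (hA : ∀ a : K, a ∉ A → ∀ v : Place K F, 0 < v.ord (x - algebraMap K F a) →
      v.ord (x - algebraMap K F a) = 1)
    {ω : Ω[F⁄K]} (hω : ω ≠ 0) :
    Divisor.degree (canonicalDivisorOf hω)
      = ∑ a ∈ A, ((Module.finrank K⟮x⟯ F : ℤ)
            - (Nat.card {v : Place K F // 0 < v.ord (x - algebraMap K F a)} : ℤ))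
        - (Module.finrank K⟮x⟯ F : ℤ)
        - (Nat.card {v : Place K F // v.ord x < 0} : ℤ) := sorry

/-- [ALG-H'] the genus. -/
theorem alg_genus (x : F) (hx : Transcendental K x) [FiniteDimensional K⟮x⟯ F]
    [HasCanonicalDivisor (K := K) (F := F)]
    (A : Finset K)
    (hA : ∀ a : K, a ∉ A → ∀ v : Place K F, 0 < v.ord (x - algebraMap K F a) →
      v.ord (x - algebraMap K F a) = 1)
    (g : ℕ)
    (hg : (2 * (g : ℤ) - 2)
      = ∑ a ∈ A, ((Module.finrank K⟮x⟯ F : ℤ)
            - (Nat.card {v : Place K F // 0 < v.ord (x - algebraMap K F a)} : ℤ))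
        - (Module.finrank K⟮x⟯ F : ℤ)
        - (Nat.card {v : Place K F // v.ord x < 0} : ℤ)) :
    genus K F = g := sorry

end generic

/-! ## MG : combinatorics of `SL(2,ℤ) ⧸ Γ₀(N)` -/

section combinatorics

open ModularCurve

/-- [MG-CARD] the index of `Γ₀(N)`. -/
theorem mg_card (N : ℕ) [NeZero N] : Nat.card (s24Q N) = dedekindPsi N := sorry

/-- [MG-S] orbits of `S` (Burnside + fixed points of `S` ↔ roots of `x² + 1`). -/
theorem mg_orbits_S (N : ℕ) [NeZero N] :
    2 * Nat.card (Quotient (s24Orb N ModularGroup.S)) = dedekindPsi N + nuTwo N := sorry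

/-- [MG-ST] orbits of `S * T` (fixed points ↔ roots of `x² + x + 1`). -/
theorem mg_orbits_ST (N : ℕ) [NeZero N] :
    3 * Nat.card (Quotient (s24Orb N (ModularGroup.S * ModularGroup.T)))
      = dedekindPsi N + 2 * nuThree N := sorry

/-- [MG-T] orbits of `T` = cusps. -/
theorem mg_orbits_T (N : ℕ) [NeZero N] :
    Nat.card (Quotient (s24Orb N ModularGroup.T)) = cuspCount N := sorry

/-- [MG-ONE] orbits of the trivial group. -/
theorem mg_orbits_one (N : ℕ) [NeZero N] :
    Nat.card (Quotient (s24Orb N 1)) = dedekindPsi N := sorry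

/-- [MG-SIZE] orbit sizes divide the order of the generator mod `±1` (resp. `N` for `T`). -/
theorem mg_orbit_card_dvd_S (N : ℕ) [NeZero N] (q : s24Q N) :
    Nat.card {q' // (s24Orb N ModularGroup.S).r q q'} ∣ 2 := sorry

theorem mg_orbit_card_dvd_ST (N : ℕ) [NeZero N] (q : s24Q N) :
    Nat.card {q' // (s24Orb N (ModularGroup.S * ModularGroup.T)).r q q'} ∣ 3 := sorry

theorem mg_orbit_card_dvd_T (N : ℕ) [NeZero N] (q : s24Q N) :
    Nat.card {q' // (s24Orb N ModularGroup.T).r q q'} ∣ N := sorry

/-- [MG-REE] Ree's theorem (Feit–Lyndon–Scott) for three permutations: genus of a transitive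
permutation triple is a nonnegative integer.  `cyc σ` = number of cycles including fixed
points = number of orbits of `zpowers σ`. -/
theorem mg_ree {α : Type} [Fintype α] [DecidableEq α] [Nonempty α]
    (a b c : Equiv.Perm α) (habc : a * b * c = 1)
    (htrans : MulAction.IsPretransitive (Subgroup.closure ({a, b, c} : Set (Equiv.Perm α))) α) :
    ∃ g : ℕ, (Fintype.card α : ℤ) + 2
        - Nat.card (Quotient (MulAction.orbitRel (Subgroup.zpowers a) α))
        - Nat.card (Quotient (MulAction.orbitRel (Subgroup.zpowers b) α))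
        - Nat.card (Quotient (MulAction.orbitRel (Subgroup.zpowers c) α)) = 2 * (g : ℤ) := sorry

/-- [MG-GENUS] the arithmetic: the genus formula is the nonnegative integer given by the orbit
counts. -/
theorem mg_genusFormula (N : ℕ) [NeZero N] :
    ∃ g : ℕ, (g : ℚ) = genusFormula N ∧
      (2 * (g : ℤ) - 2) =
        ((dedekindPsi N : ℤ) - Nat.card (Quotient (s24Orb N (ModularGroup.S * ModularGroup.T))))
        + ((dedekindPsi N : ℤ) - Nat.card (Quotient (s24Orb N ModularGroup.S)))
        - (dedekindPsi N : ℤ) - Nat.card (Quotient (s24Orb N ModularGroup.T)) := sorry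

end combinatorics

/-! ## ANA : the analytic side (conjugates of modular functions, orders at points and cusps) -/

section analytic

/-- [ANA-0] `j` is transcendental over `K`. -/
theorem ana_transcendental (N : ℕ) [NeZero N] : Transcendental s24K (s24j N) := sorry

/-- [ANA-0'] the function field is finite over `K(j)`. -/
theorem ana_finiteDimensional (N : ℕ) [NeZero N] :
    FiniteDimensional s24K⟮s24j N⟯ (s24F N) := sorry

/-- [ANA-ρ] counting data over `j = 0`: `τ₀ = ρ = e^{2πi/3}`, stabiliser generated by `S * T`,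
`ord_ρ (j) = 3`. -/
theorem ana_data_zero (N : ℕ) [NeZero N] :
    Nonempty (CountingData s24K (s24F N) (s24j N) (s24j N) (s24Q N)
      (s24Orb N (ModularGroup.S * ModularGroup.T)) 3) := sorry

/-- [ANA-i] counting data over `j = 1728`: `τ₀ = i`, stabiliser generated by `S`,
`ord_i (j - 1728) = 2`. -/
theorem ana_data_1728 (N : ℕ) [NeZero N] :
    Nonempty (CountingData s24K (s24F N) (s24j N)
      (s24j N - algebraMap s24K (s24F N) 1728) (s24Q N) (s24Orb N ModularGroup.S) 2) := sorry

/-- [ANA-gen] counting data over `j = a`, `a ≠ 0, 1728`: any `τ₀` with `j τ₀ = a`, trivial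
group, `ord_τ₀ (j - a) = 1`. -/
theorem ana_data_generic (N : ℕ) [NeZero N] (a : s24K) (h0 : a ≠ 0) (h1 : a ≠ 1728) :
    Nonempty (CountingData s24K (s24F N) (s24j N)
      (s24j N - algebraMap s24K (s24F N) a) (s24Q N) (s24Orb N 1) 1) := sorry

/-- [ANA-∞] counting data over `j = ∞`: expansions in `q^{1/N}`, group generated by `T`,
`ord (j⁻¹) = N`. -/
theorem ana_data_infty (N : ℕ) [NeZero N] :
    Nonempty (CountingData s24K (s24F N) (s24j N) (s24j N)⁻¹ (s24Q N)
      (s24Orb N ModularGroup.T) N) := sorry

end analytic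

/-! ## ASSEMBLY -/

/-- [ASM] S24 itself. -/
theorem s24_main (N : ℕ) [NeZero N]
    [AlgebraicCurve.HasCanonicalDivisor (K := AlgebraicClosure ℚ)
      (F := ↥(ModularCurve.modularFunctionFieldBar N))] :
    (AlgebraicCurve.genus (AlgebraicClosure ℚ) ↥(ModularCurve.modularFunctionFieldBar N) : ℚ)
      = ModularCurve.genusFormula N := sorry

end Fermat.Agent.S24.Spec
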